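import Mathlib.NumberTheory.ModularForms.CongruenceSubgroups
import Mathlib.GroupTheory.GroupAction.Quotient
import Mathlib.GroupTheory.Perm.Basic

set_option autoImplicit false

open scoped MatrixGroups

namespace Fermat.Agent.S24

/-- The number of orbits (cycles, fixed points included) of a permutation. -/
noncomputable def orbCount {X : Type*} (π : Equiv.Perm X) : ℕ :=
  Nat.card (MulAction.orbitRel.Quotient (Subgroup.zpowers π) X)

/-- Left cosets of `Γ₀(N)` in `SL(2, ℤ)`. -/
abbrev X0 (N : ℕ) : Type := SL(2, ℤ) ⧸ CongruenceSubgroup.Gamma0 N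

/-- The permutation of the cosets given by left multiplication. -/
noncomputable def cosetPerm (N : ℕ) (g : SL(2, ℤ)) : Equiv.Perm (X0 N) := MulAction.toPerm g

theorem cosetPerm_apply (N : ℕ) (g : SL(2, ℤ)) (x : X0 N) : cosetPerm N g x = g • x := rfl

theorem cosetPerm_mk (N : ℕ) (g h : SL(2, ℤ)) :
    cosetPerm N g (QuotientGroup.mk h : X0 N) = QuotientGroup.mk (g * h) := rfl

theorem cosetPerm_one (N : ℕ) : cosetPerm N 1 = 1 := by
  ext x; simp [cosetPerm_apply]

theorem cosetPerm_mul (N : ℕ) (g h : SL(2, ℤ)) :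
    cosetPerm N (g * h) = cosetPerm N g * cosetPerm N h := by
  ext x; simp [cosetPerm_apply, mul_smul]

end Fermat.Agent.S24
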