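import Mathlib
import Fermat.Agent.S24.OrbDefs

/-!
# S24, side B6: the model `P¹(ℤ/N)` of `SL(2,ℤ) ⧸ Γ₀(N)`

* `P1Model.Unimod N` : unimodular pairs `(a, c)` over `ZMod N` (a `SubMulAction` of the units).
* `P1Model.P1 N` : `Unimod N` modulo units.
* `MulAction SL(2,ℤ) (P1 N)` : matrix times column vector.
* `P1Model.cosetEquiv N : SL(2,ℤ) ⧸ Γ₀(N) ≃ P1 N`, `γ Γ₀(N) ↦ [first column of γ]`, equivariant.
-/

set_option autoImplicit false

namespace Fermat.Agent.S24

open scoped MatrixGroups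
open Matrix

namespace P1Model

variable (N : ℕ)

/-- Unimodular pairs over `ZMod N`, as a sub-action of the units acting by scaling. -/
def unimodSub : SubMulAction (ZMod N)ˣ (ZMod N × ZMod N) where
  carrier := {v | IsCoprime v.1 v.2}
  smul_mem' := by
    rintro u ⟨a, c⟩ ⟨x, y, h⟩
    refine ⟨x * ((u⁻¹ : (ZMod N)ˣ) : ZMod N), y * ((u⁻¹ : (ZMod N)ˣ) : ZMod N), ?_⟩
    have hu : ((u⁻¹ : (ZMod N)ˣ) : ZMod N) * (u : ZMod N) = 1 := by simp
    simp only [Prod.smul_fst, Prod.smul_snd, Units.smul_def, smul_eq_mul] at h ⊢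
    linear_combination h + (x * a + y * c) * hu

/-- Unimodular pairs over `ZMod N`. -/
abbrev Unimod : Type := ↥(unimodSub N)

theorem mem_unimodSub {v : ZMod N × ZMod N} : v ∈ unimodSub N ↔ IsCoprime v.1 v.2 := Iff.rfl

/-- `P¹(ℤ/N)`. -/
abbrev P1 : Type := MulAction.orbitRel.Quotient (ZMod N)ˣ (Unimod N)

variable {N}

/-- The point `[a : c]`. -/
def mk (a c : ZMod N) (h : IsCoprime a c) : P1 N :=
  Quotient.mk'' (⟨(a, c), h⟩ : Unimod N)

theorem mk_eq_mk_iff {a c a' c' : ZMod N} (h : IsCoprime a c) (h' : IsCoprime a' c') :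
    mk a c h = mk a' c' h' ↔ ∃ u : (ZMod N)ˣ, (u : ZMod N) * a' = a ∧ (u : ZMod N) * c' = c := by
  rw [mk, mk, Quotient.eq'', MulAction.orbitRel_apply, MulAction.mem_orbit_iff]
  constructor
  · rintro ⟨u, hu⟩
    have := congrArg Subtype.val hu
    simp only [SubMulAction.val_smul, Prod.smul_mk, Units.smul_def, smul_eq_mul,
      Prod.mk.injEq] at this
    exact ⟨u, this.1, this.2⟩
  · rintro ⟨u, h1, h2⟩
    refine ⟨u, Subtype.ext ?_⟩
    simp only [SubMulAction.val_smul, Prod.smul_mk, Units.smul_def, smul_eq_mul, h1, h2]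

theorem exists_rep (x : P1 N) : ∃ (a c : ZMod N) (h : IsCoprime a c), x = mk a c h := by
  induction x using Quotient.inductionOn' with
  | h v => exact ⟨v.1.1, v.1.2, v.2, rfl⟩

variable (N)

/-- Action of `γ ∈ SL(2,ℤ)` on column vectors mod `N`. -/
def actVec (γ : SL(2, ℤ)) (v : ZMod N × ZMod N) : ZMod N × ZMod N :=
  (((γ 0 0 : ℤ) : ZMod N) * v.1 + ((γ 0 1 : ℤ) : ZMod N) * v.2,
   ((γ 1 0 : ℤ) : ZMod N) * v.1 + ((γ 1 1 : ℤ) : ZMod N) * v.2)

theorem actVec_one (v : ZMod N × ZMod N) : actVec N 1 v = v := by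
  simp [actVec]

theorem actVec_mul (g h : SL(2, ℤ)) (v : ZMod N × ZMod N) :
    actVec N (g * h) v = actVec N g (actVec N h v) := by
  ext <;>
  · simp only [actVec, Matrix.SpecialLinearGroup.coe_mul, Matrix.mul_apply, Fin.sum_univ_two,
      Int.cast_add, Int.cast_mul]
    ring

theorem actVec_smul (γ : SL(2, ℤ)) (u : (ZMod N)ˣ) (v : ZMod N × ZMod N) :
    actVec N γ (u • v) = u • actVec N γ v := by
  ext <;>
  · simp only [actVec, Prod.smul_fst, Prod.smul_snd, Units.smul_def, smul_eq_mul]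
    ring

theorem isCoprime_actVec (γ : SL(2, ℤ)) {v : ZMod N × ZMod N} (hv : IsCoprime v.1 v.2) :
    IsCoprime (actVec N γ v).1 (actVec N γ v).2 := by
  obtain ⟨x, y, h⟩ := hv
  have hinv : actVec N γ⁻¹ (actVec N γ v) = v := by
    rw [← actVec_mul, inv_mul_cancel, actVec_one]
  have h1 := congrArg Prod.fst hinv
  have h2 := congrArg Prod.snd hinv
  simp only [actVec] at h1 h2
  refine ⟨x * ((γ⁻¹ 0 0 : ℤ) : ZMod N) + y * ((γ⁻¹ 1 0 : ℤ) : ZMod N),
    x * ((γ⁻¹ 0 1 : ℤ) : ZMod N) + y * ((γ⁻¹ 1 1 : ℤ) : ZMod N), ?_⟩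
  simp only [actVec]
  linear_combination h + x * h1 + y * h2

/-- `SL(2,ℤ)` acts on unimodular pairs. -/
def slUnimod (γ : SL(2, ℤ)) (v : Unimod N) : Unimod N :=
  ⟨actVec N γ v.1, isCoprime_actVec N γ v.2⟩

theorem slUnimod_smul (γ : SL(2, ℤ)) (u : (ZMod N)ˣ) (v : Unimod N) :
    slUnimod N γ (u • v) = u • slUnimod N γ v :=
  Subtype.ext (actVec_smul N γ u v.1)

instance instSMulP1 : SMul SL(2, ℤ) (P1 N) where
  smul γ := Quotient.map' (slUnimod N γ) (by
    intro v w hvw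
    rw [MulAction.orbitRel_apply, MulAction.mem_orbit_iff] at hvw ⊢
    obtain ⟨u, rfl⟩ := hvw
    exact ⟨u, (slUnimod_smul N γ u w).symm⟩)

variable {N}

theorem smul_mk (γ : SL(2, ℤ)) (a c : ZMod N) (h : IsCoprime a c) :
    γ • mk a c h = mk (((γ 0 0 : ℤ) : ZMod N) * a + ((γ 0 1 : ℤ) : ZMod N) * c)
      (((γ 1 0 : ℤ) : ZMod N) * a + ((γ 1 1 : ℤ) : ZMod N) * c)
      (isCoprime_actVec N γ (v := (a, c)) h) := rfl

variable (N)

theorem smul_mk'' (γ : SL(2, ℤ)) (v : Unimod N) :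
    γ • (Quotient.mk'' v : P1 N) = Quotient.mk'' (slUnimod N γ v) := rfl

instance instMulActionP1 : MulAction SL(2, ℤ) (P1 N) where
  one_smul x := by
    induction x using Quotient.inductionOn' with
    | h v =>
      rw [smul_mk'']
      congr 1
      exact Subtype.ext (actVec_one N v.1)
  mul_smul g h x := by
    induction x using Quotient.inductionOn' with
    | h v =>
      rw [smul_mk'', smul_mk'', smul_mk'']
      congr 1
      exact Subtype.ext (actVec_mul N g h v.1)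

/-- The base point `[1 : 0]`. -/
def base : P1 N := mk 1 0 isCoprime_one_left

variable {N}

theorem smul_base (γ : SL(2, ℤ)) :
    γ • base N = mk ((γ 0 0 : ℤ) : ZMod N) ((γ 1 0 : ℤ) : ZMod N)
      (by simpa [actVec] using isCoprime_actVec N γ (v := (1, 0)) isCoprime_one_left) := by
  rw [base, smul_mk]
  congr 1 <;> simp

theorem smul_base_eq_base_iff (γ : SL(2, ℤ)) :
    γ • base N = base N ↔ γ ∈ CongruenceSubgroup.Gamma0 N := by
  rw [smul_base, base, mk_eq_mk_iff, CongruenceSubgroup.Gamma0_mem]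
  constructor
  · rintro ⟨u, -, h2⟩
    rw [← h2, mul_zero]
  · intro h
    have hc : IsCoprime ((γ 0 0 : ℤ) : ZMod N) ((γ 1 0 : ℤ) : ZMod N) := by
      simpa [actVec] using isCoprime_actVec N γ (v := (1, 0)) isCoprime_one_left
    rw [h, isCoprime_zero_right] at hc
    exact ⟨hc.unit, by simp, by simp [h]⟩

/-- Lifting lemma: a unimodular pair mod `N` is the first column of a matrix in `SL(2,ℤ)`. -/
theorem exists_SL2Z_col [NeZero N] (a c : ZMod N) (h : IsCoprime a c) :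
    ∃ γ : SL(2, ℤ), ((γ 0 0 : ℤ) : ZMod N) = a ∧ ((γ 1 0 : ℤ) : ZMod N) = c := by
  have hN : 0 < N := Nat.pos_of_ne_zero (NeZero.ne N)
  -- natural lifts
  set a0 : ℕ := a.val with ha0
  set c0 : ℕ := if c.val = 0 then N else c.val with hc0
  have hc0pos : c0 ≠ 0 := by
    rw [hc0]; split_ifs with h0
    · exact hN.ne'
    · exact h0
  have ha0cast : ((a0 : ℕ) : ZMod N) = a := ZMod.natCast_zmod_val a
  have hc0cast : ((c0 : ℕ) : ZMod N) = c := by
    rw [hc0]; split_ifs with h0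
    · rw [ZMod.natCast_self]
      exact ((ZMod.val_eq_zero c).mp h0).symm
    · exact ZMod.natCast_zmod_val c
  -- no prime divides a0, c0 and N simultaneously
  have hgcd : ∀ p : ℕ, p.Prime → p ∣ N → p ∣ a0 → p ∣ c0 → False := by
    intro p hp hpN hpa hpc
    obtain ⟨x, y, hxy⟩ := h
    have : Fact p.Prime := ⟨hp⟩
    have h1 := congrArg (ZMod.castHom hpN (ZMod p)) hxy
    rw [← ha0cast, ← hc0cast] at h1
    simp only [map_add, map_mul, map_natCast, map_one] at h1
    rw [(ZMod.natCast_eq_zero_iff a0 p).mpr hpa, (ZMod.natCast_eq_zero_iff c0 p).mpr hpc] at h1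
    simp at h1
  -- correction term
  set t : ℕ := ∏ p ∈ c0.primeFactors.filter (fun p => ¬ p ∣ a0), p with ht
  have hcop : Nat.Coprime (a0 + t * N) c0 := by
    refine Nat.coprime_of_dvd (fun p hp hpa1 hpc => ?_)
    by_cases hpa : p ∣ a0
    · have hptN : p ∣ t * N := (Nat.dvd_add_right hpa).mp hpa1
      rcases (Nat.Prime.dvd_mul hp).mp hptN with hpt | hpN
      · rw [ht, Prime.dvd_finsetProd_iff hp.prime] at hpt
        obtain ⟨q, hq, hpq⟩ := hpt
        rw [Finset.mem_filter, Nat.mem_primeFactors] at hq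
        have : p = q := (Nat.prime_dvd_prime_iff_eq hp hq.1.1).mp hpq
        exact hq.2 (this ▸ hpa)
      · exact hgcd p hp hpN hpa hpc
    · have hpt : p ∣ t := by
        rw [ht]
        exact Finset.dvd_prod_of_mem _
          (Finset.mem_filter.mpr ⟨Nat.mem_primeFactors.mpr ⟨hp, hpc, hc0pos⟩, hpa⟩)
      exact hpa ((Nat.dvd_add_left (Dvd.dvd.mul_right hpt N)).mp hpa1)
  have hcopZ : IsCoprime ((a0 + t * N : ℕ) : ℤ) ((c0 : ℕ) : ℤ) :=
    Nat.isCoprime_iff_coprime.mpr hcop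
  obtain ⟨γ, h00, h10⟩ := hcopZ.exists_SL2_col 0
  refine ⟨γ, ?_, ?_⟩
  · rw [h00]
    push_cast
    rw [ZMod.natCast_self, mul_zero, add_zero]
    exact ha0cast
  · rw [h10]
    exact_mod_cast hc0cast

theorem exists_smul_base_eq [NeZero N] (x : P1 N) : ∃ γ : SL(2, ℤ), γ • base N = x := by
  obtain ⟨a, c, h, rfl⟩ := exists_rep x
  obtain ⟨γ, h1, h2⟩ := exists_SL2Z_col a c h
  refine ⟨γ, ?_⟩
  rw [smul_base]
  congr 1

variable (N)

/-- The coset map `γ Γ₀(N) ↦ γ • [1 : 0]`. -/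
def cosetToP1 : SL(2, ℤ) ⧸ CongruenceSubgroup.Gamma0 N → P1 N :=
  Quotient.lift (fun γ : SL(2, ℤ) => γ • base N) (by
    intro g h hgh
    have hmem : g⁻¹ * h ∈ CongruenceSubgroup.Gamma0 N := QuotientGroup.leftRel_apply.mp hgh
    have := (smul_base_eq_base_iff (g⁻¹ * h)).mpr hmem
    show g • base N = h • base N
    calc g • base N = g • ((g⁻¹ * h) • base N) := by rw [this]
      _ = h • base N := by rw [← mul_smul, mul_inv_cancel_left])

@[simp]
theorem cosetToP1_mk (γ : SL(2, ℤ)) :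
    cosetToP1 N (QuotientGroup.mk γ) = γ • base N := rfl

theorem cosetToP1_injective : Function.Injective (cosetToP1 N) := by
  intro x y hxy
  induction x using QuotientGroup.induction_on with
  | H g =>
    induction y using QuotientGroup.induction_on with
    | H h =>
      rw [cosetToP1_mk, cosetToP1_mk] at hxy
      rw [QuotientGroup.eq, ← smul_base_eq_base_iff, mul_smul, ← hxy, ← mul_smul,
        inv_mul_cancel, one_smul]

theorem cosetToP1_surjective [NeZero N] : Function.Surjective (cosetToP1 N) := by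
  intro x
  obtain ⟨γ, rfl⟩ := exists_smul_base_eq x
  exact ⟨QuotientGroup.mk γ, rfl⟩

/-- `SL(2,ℤ) ⧸ Γ₀(N) ≃ P¹(ℤ/N)`. -/
noncomputable def cosetEquiv [NeZero N] : SL(2, ℤ) ⧸ CongruenceSubgroup.Gamma0 N ≃ P1 N :=
  Equiv.ofBijective (cosetToP1 N) ⟨cosetToP1_injective N, cosetToP1_surjective N⟩

theorem cosetEquiv_cosetPerm [NeZero N] (g : SL(2, ℤ))
    (x : SL(2, ℤ) ⧸ CongruenceSubgroup.Gamma0 N) :
    cosetEquiv N (cosetPerm N g x) = g • cosetEquiv N x := by
  induction x using QuotientGroup.induction_on with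
  | H h =>
    show cosetToP1 N (QuotientGroup.mk (g * h)) = g • cosetToP1 N (QuotientGroup.mk h)
    rw [cosetToP1_mk, cosetToP1_mk, mul_smul]

end P1Model

end Fermat.Agent.S24
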