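import Mathlib
import Fermat.Prelude.Def_ModularCurve_GenusNumerics
import Fermat.Agent.S24.P1Model

/-!
# S24, side B6: `Nat.card (X0 N) = dedekindPsi N`
-/

set_option autoImplicit false

namespace Fermat.Agent.S24

open scoped MatrixGroups
open ModularCurve

namespace CardX0

/-! ### The Dedekind psi function is multiplicative -/

/-- indicator of squarefree numbers as an arithmetic function -/
def sqfInd : ArithmeticFunction ℕ :=
  ⟨fun n => if Squarefree n then 1 else 0, by simp⟩

theorem sqfInd_apply (n : ℕ) : sqfInd n = if Squarefree n then 1 else 0 := rfl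

theorem isMultiplicative_sqfInd : sqfInd.IsMultiplicative := by
  refine ⟨by simp [sqfInd_apply], ?_⟩
  intro m n hmn
  simp only [sqfInd_apply, Nat.squarefree_mul hmn]
  by_cases h1 : Squarefree m <;> by_cases h2 : Squarefree n <;> simp [h1, h2]

theorem dedekindPsi_eq (N : ℕ) : dedekindPsi N = (sqfInd * ArithmeticFunction.id) N := by
  rw [ArithmeticFunction.mul_apply,
    Nat.sum_divisorsAntidiagonal (fun d e => sqfInd d * ArithmeticFunction.id e), dedekindPsi,
    Finset.sum_filter]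
  refine Finset.sum_congr rfl (fun d _ => ?_)
  rw [sqfInd_apply, ArithmeticFunction.id_apply]
  split_ifs <;> simp

theorem dedekindPsi_mul {m n : ℕ} (h : m.Coprime n) :
    dedekindPsi (m * n) = dedekindPsi m * dedekindPsi n := by
  rw [dedekindPsi_eq, dedekindPsi_eq, dedekindPsi_eq]
  exact (isMultiplicative_sqfInd.mul ArithmeticFunction.isMultiplicative_id).map_mul_of_coprime h

theorem dedekindPsi_prime_pow {p : ℕ} (hp : p.Prime) {k : ℕ} (hk : 0 < k) :
    dedekindPsi (p ^ k) = p ^ k + p ^ (k - 1) := by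
  rw [dedekindPsi, Finset.sum_filter, Nat.divisors_prime_pow hp, Finset.sum_map]
  simp only [Function.Embedding.coeFn_mk]
  have hsub : ({0, 1} : Finset ℕ) ⊆ Finset.range (k + 1) := by
    intro i hi
    simp only [Finset.mem_insert, Finset.mem_singleton] at hi
    rw [Finset.mem_range]
    omega
  rw [← Finset.sum_subset hsub]
  · rw [Finset.sum_pair (by norm_num)]
    simp only [pow_zero, squarefree_one, if_true, Nat.div_one, pow_one]
    rw [if_pos hp.squarefree]
    congr 1
    have := Nat.pow_div hk hp.pos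
    simpa using this
  · intro i _ hi
    simp only [Finset.mem_insert, Finset.mem_singleton, not_or] at hi
    rw [if_neg]
    rw [Nat.squarefree_pow_iff hp.ne_one hi.1]
    exact fun h => hi.2 h.2

/-! ### Unimodular pairs -/

/-- Unimodular pairs over a commutative ring. -/
abbrev UniPair (R : Type*) [CommRing R] : Type _ := {v : R × R // IsCoprime v.1 v.2}

/-- Transport of unimodular pairs along a ring isomorphism. -/
def uniPairCongr {R S : Type*} [CommRing R] [CommRing S] (e : R ≃+* S) :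
    UniPair R ≃ UniPair S where
  toFun v := ⟨(e v.1.1, e v.1.2), v.2.map (e : R →+* S)⟩
  invFun w := ⟨(e.symm w.1.1, e.symm w.1.2), w.2.map (e.symm : S →+* R)⟩
  left_inv v := by
    apply Subtype.ext
    simp
  right_inv w := by
    apply Subtype.ext
    simp

/-- Unimodular pairs over a product ring. -/
def uniPairProd (R S : Type*) [CommRing R] [CommRing S] :
    UniPair (R × S) ≃ UniPair R × UniPair S where
  toFun v := (⟨(v.1.1.1, v.1.2.1), v.2.map (RingHom.fst R S)⟩,
    ⟨(v.1.1.2, v.1.2.2), v.2.map (RingHom.snd R S)⟩)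
  invFun w := ⟨((w.1.1.1, w.2.1.1), (w.1.1.2, w.2.1.2)), by
    obtain ⟨x₁, y₁, h₁⟩ := w.1.2
    obtain ⟨x₂, y₂, h₂⟩ := w.2.2
    exact ⟨(x₁, x₂), (y₁, y₂), Prod.ext h₁ h₂⟩⟩
  left_inv v := rfl
  right_inv w := rfl

/-- The number of unimodular pairs mod `N` (Jordan's totient `J₂`). -/
noncomputable def J2 (N : ℕ) : ℕ := Nat.card (UniPair (ZMod N))

theorem J2_mul {m n : ℕ} (h : m.Coprime n) : J2 (m * n) = J2 m * J2 n := by
  unfold J2
  rw [Nat.card_congr ((uniPairCongr (ZMod.chineseRemainder h)).trans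
    (uniPairProd (ZMod m) (ZMod n))), Nat.card_prod]

theorem J2_one : J2 1 = 1 := by
  unfold J2
  rw [Nat.card_eq_one_iff_unique]
  refine ⟨⟨fun a b => Subtype.ext (Subsingleton.elim _ _)⟩, ⟨⟨(0, 0), ?_⟩⟩⟩
  exact ⟨0, 0, Subsingleton.elim _ _⟩

theorem isCoprime_iff_isUnit_or {p k : ℕ} (hp : p.Prime) (hk : 0 < k) (a c : ZMod (p ^ k)) :
    IsCoprime a c ↔ IsUnit a ∨ IsUnit c := by
  have hne : NeZero (p ^ k) := ⟨pow_ne_zero k hp.ne_zero⟩
  constructor
  · intro h
    by_contra hcon
    rw [not_or] at hcon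
    obtain ⟨ha, hc⟩ := hcon
    have ha' : p ∣ a.val := by
      by_contra hpa
      apply ha
      have := (ZMod.isUnit_natCast_iff_not_dvd_pow (a := a.val) hp hk).mpr hpa
      rwa [ZMod.natCast_zmod_val] at this
    have hc' : p ∣ c.val := by
      by_contra hpc
      apply hc
      have := (ZMod.isUnit_natCast_iff_not_dvd_pow (a := c.val) hp hk).mpr hpc
      rwa [ZMod.natCast_zmod_val] at this
    obtain ⟨x, y, hxy⟩ := h
    have : Fact p.Prime := ⟨hp⟩
    have h1 := congrArg (ZMod.castHom (dvd_pow_self p hk.ne') (ZMod p)) hxy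
    rw [← ZMod.natCast_zmod_val a, ← ZMod.natCast_zmod_val c] at h1
    simp only [map_add, map_mul, map_natCast, map_one] at h1
    rw [(ZMod.natCast_eq_zero_iff a.val p).mpr ha', (ZMod.natCast_eq_zero_iff c.val p).mpr hc']
      at h1
    simp at h1
  · rintro (h | h)
    · obtain ⟨u, rfl⟩ := h
      exact ⟨((u⁻¹ : (ZMod (p ^ k))ˣ) : ZMod (p ^ k)), 0, by simp⟩
    · obtain ⟨u, rfl⟩ := h
      exact ⟨0, ((u⁻¹ : (ZMod (p ^ k))ˣ) : ZMod (p ^ k)), by simp⟩

theorem pow_pred_mul_add {p k : ℕ} (hp : p.Prime) (hk : 0 < k) :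
    p ^ k = p ^ (k - 1) * (p - 1) + p ^ (k - 1) := by
  obtain ⟨k', rfl⟩ := Nat.exists_eq_succ_of_ne_zero hk.ne'
  obtain ⟨r, rfl⟩ := Nat.exists_eq_succ_of_ne_zero hp.ne_zero
  simp only [Nat.succ_eq_add_one, Nat.add_sub_cancel, pow_succ]
  ring

theorem J2_prime_pow {p k : ℕ} (hp : p.Prime) (hk : 0 < k) :
    J2 (p ^ k) + (p ^ (k - 1)) ^ 2 = (p ^ k) ^ 2 := by
  classical
  have hne : NeZero (p ^ k) := ⟨pow_ne_zero k hp.ne_zero⟩
  set R := ZMod (p ^ k) with hR
  -- units and non-units
  have hU : Fintype.card {a : R // IsUnit a} = Nat.totient (p ^ k) := by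
    rw [← ZMod.card_units_eq_totient (p ^ k)]
    refine (Fintype.card_congr (Equiv.ofBijective
      (fun u : Rˣ => (⟨(u : R), u.isUnit⟩ : {a : R // IsUnit a})) ⟨?_, ?_⟩)).symm
    · intro u v h
      exact Units.ext (congrArg Subtype.val h)
    · rintro ⟨a, ha⟩
      exact ⟨ha.unit, Subtype.ext ha.unit_spec⟩
  have hM : Fintype.card {a : R // ¬ IsUnit a} = p ^ (k - 1) := by
    have h1 := Fintype.card_subtype_compl (fun a : R => IsUnit a)
    rw [hU, ZMod.card, Nat.totient_prime_pow hp hk] at h1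
    rw [h1, pow_pred_mul_add hp hk]
    exact Nat.add_sub_cancel_left _ _
  have hMM : Fintype.card {v : R × R // ¬ IsUnit v.1 ∧ ¬ IsUnit v.2} = (p ^ (k - 1)) ^ 2 := by
    rw [Fintype.card_congr (Equiv.subtypeProdEquivProd
      (p := fun a : R => ¬ IsUnit a) (q := fun c : R => ¬ IsUnit c)), Fintype.card_prod, hM, sq]
  have hJ : J2 (p ^ k) = Fintype.card {v : R × R // IsUnit v.1 ∨ IsUnit v.2} := by
    unfold J2
    rw [← Nat.card_eq_fintype_card]
    exact Nat.card_congr (Equiv.subtypeEquivRight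
      (fun v => isCoprime_iff_isUnit_or hp hk v.1 v.2))
  have hcompl := Fintype.card_subtype_compl (fun v : R × R => IsUnit v.1 ∨ IsUnit v.2)
  have hcompl' : Fintype.card {v : R × R // ¬ (IsUnit v.1 ∨ IsUnit v.2)}
      = (p ^ (k - 1)) ^ 2 := by
    rw [← hMM]
    exact Fintype.card_congr (Equiv.subtypeEquivRight (fun v => not_or))
  rw [hcompl', Fintype.card_prod, ZMod.card] at hcompl
  have hle : Fintype.card {v : R × R // IsUnit v.1 ∨ IsUnit v.2} ≤ p ^ k * p ^ k := by
    have := Fintype.card_subtype_le (fun v : R × R => IsUnit v.1 ∨ IsUnit v.2)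
    rwa [Fintype.card_prod, ZMod.card] at this
  rw [hJ, sq (p ^ k)]
  omega

theorem J2_eq (N : ℕ) (hN : N ≠ 0) : J2 N = Nat.totient N * dedekindPsi N := by
  induction N using Nat.recOnPosPrimePosCoprime with
  | prime_pow p k hp hk =>
    have h1 := J2_prime_pow hp hk
    have h3 := pow_pred_mul_add hp hk
    rw [Nat.totient_prime_pow hp hk, dedekindPsi_prime_pow hp hk]
    generalize p ^ (k - 1) = q at h1 h3 ⊢
    generalize p - 1 = r at h3 ⊢
    rw [h3] at h1 ⊢
    have h2 : q * r * (q * r + q + q) + q ^ 2 = (q * r + q) ^ 2 := by ring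
    exact Nat.add_right_cancel (h1.trans h2.symm)
  | zero => exact absurd rfl hN
  | one => simp [J2_one]
  | coprime a b ha hb hab iha ihb =>
    rw [J2_mul hab, Nat.totient_mul hab, dedekindPsi_mul hab, iha (by omega), ihb (by omega)]
    ring

/-! ### Counting `P¹(ℤ/N)` -/

open P1Model

theorem stabilizer_eq_bot (N : ℕ) (v : Unimod N) : MulAction.stabilizer (ZMod N)ˣ v = ⊥ := by
  rw [Subgroup.eq_bot_iff_forall]
  intro u hu
  rw [MulAction.mem_stabilizer_iff] at hu
  have h := congrArg Subtype.val hu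
  obtain ⟨x, y, hxy⟩ := v.2
  have h1 : (u : ZMod N) * v.1.1 = v.1.1 := congrArg Prod.fst h
  have h2 : (u : ZMod N) * v.1.2 = v.1.2 := congrArg Prod.snd h
  apply Units.ext
  rw [Units.val_one]
  linear_combination (u : ZMod N) * (-hxy) + x * h1 + y * h2 + hxy

theorem card_P1_mul_totient (N : ℕ) [NeZero N] :
    Nat.card (P1 N) * Nat.totient N = J2 N := by
  have e := MulAction.selfEquivOrbitsQuotientProd (G := (ZMod N)ˣ) (X := Unimod N)
    (stabilizer_eq_bot N)
  have h1 : Nat.card (Unimod N) = Nat.card (P1 N) * Nat.card (ZMod N)ˣ := by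
    rw [Nat.card_congr e, Nat.card_prod]
  have h2 : Nat.card (ZMod N)ˣ = Nat.totient N := by
    rw [Nat.card_eq_fintype_card, ZMod.card_units_eq_totient]
  have h3 : Nat.card (Unimod N) = J2 N := rfl
  rw [← h3, h1, h2]

end CardX0

open CardX0 in
/-- The index of `Γ₀(N)` in `SL(2,ℤ)` is the Dedekind psi function. -/
theorem card_X0 (N : ℕ) [NeZero N] : Nat.card (X0 N) = dedekindPsi N := by
  have h1 : Nat.card (X0 N) = Nat.card (P1Model.P1 N) := Nat.card_congr (P1Model.cosetEquiv N)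
  have h2 := card_P1_mul_totient N
  rw [J2_eq N (NeZero.ne N), mul_comm] at h2
  rw [h1]
  exact Nat.eq_of_mul_eq_mul_left (Nat.totient_pos.mpr (Nat.pos_of_ne_zero (NeZero.ne N))) h2

end Fermat.Agent.S24
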