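import Mathlib
import Fermat.Prelude.Def_ModularCurve_GenusNumerics
import Fermat.Agent.S24.OrbDefs

/-!
# Cosets of `Γ₀(N)` in `SL(2, ℤ)`: the first-column model

* `Cosets.mk_eq_mk_iff`: `⟦g⟧ = ⟦g'⟧ ↔ N ∣ g 0 0 * g' 1 0 - g 1 0 * g' 0 0`;
* first columns of `S * g`, `T * g`, `S * T * g`;
* fixed cosets of `S` / `S * T` correspond to roots of `x² + 1` / `x² + x + 1` in `ZMod N`;
* a generic orbit count for a cyclic group acting with prime exponent.
-/

set_option autoImplicit false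

open CongruenceSubgroup MatrixGroups ModularGroup

namespace Fermat.Agent.S24
namespace Cosets

theorem mul_apply_zero_zero (γ g : SL(2, ℤ)) :
    (γ * g) 0 0 = γ 0 0 * g 0 0 + γ 0 1 * g 1 0 := by
  rw [Matrix.SpecialLinearGroup.coe_mul, Matrix.mul_apply, Fin.sum_univ_two]

theorem mul_apply_one_zero (γ g : SL(2, ℤ)) :
    (γ * g) 1 0 = γ 1 0 * g 0 0 + γ 1 1 * g 1 0 := by
  rw [Matrix.SpecialLinearGroup.coe_mul, Matrix.mul_apply, Fin.sum_univ_two]

/-- lower-left entry of `g⁻¹ * g'` -/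
theorem inv_mul_apply_one_zero (g g' : SL(2, ℤ)) :
    (g⁻¹ * g') 1 0 = g 0 0 * g' 1 0 - g 1 0 * g' 0 0 := by
  rw [mul_apply_one_zero, Matrix.SpecialLinearGroup.coe_inv, Matrix.adjugate_fin_two]
  simp
  ring

/-- Coset criterion: `g Γ₀(N) = g' Γ₀(N)` iff the first columns are proportional mod `N`. -/
theorem mk_eq_mk_iff (N : ℕ) (g g' : SL(2, ℤ)) :
    (g : SL(2, ℤ) ⧸ Gamma0 N) = g' ↔ (N : ℤ) ∣ g 0 0 * g' 1 0 - g 1 0 * g' 0 0 := by
  rw [QuotientGroup.eq, Gamma0_mem, inv_mul_apply_one_zero, ZMod.intCast_zmod_eq_zero_iff_dvd]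

theorem smul_mk (N : ℕ) (γ g : SL(2, ℤ)) :
    γ • (g : SL(2, ℤ) ⧸ Gamma0 N) = ((γ * g : SL(2, ℤ)) : SL(2, ℤ) ⧸ Gamma0 N) := rfl

theorem det_eq (g : SL(2, ℤ)) : g 0 0 * g 1 1 - g 0 1 * g 1 0 = 1 := by
  have := g.det_coe
  rw [Matrix.det_fin_two] at this
  exact this

theorem isCoprime_col (g : SL(2, ℤ)) : IsCoprime (g 0 0) (g 1 0) :=
  ⟨g 1 1, - g 0 1, by linear_combination det_eq g⟩

theorem S_mul_apply (g : SL(2, ℤ)) :
    (S * g) 0 0 = - g 1 0 ∧ (S * g) 1 0 = g 0 0 := by
  rw [mul_apply_zero_zero, mul_apply_one_zero]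
  simp [S]

theorem T_mul_apply (g : SL(2, ℤ)) :
    (T * g) 0 0 = g 0 0 + g 1 0 ∧ (T * g) 1 0 = g 1 0 := by
  rw [mul_apply_zero_zero, mul_apply_one_zero]
  simp [T]

theorem ST_mul_apply (g : SL(2, ℤ)) :
    (S * T * g) 0 0 = - g 1 0 ∧ (S * T * g) 1 0 = g 0 0 + g 1 0 := by
  rw [mul_assoc, (S_mul_apply (T * g)).1, (S_mul_apply (T * g)).2, (T_mul_apply g).1,
    (T_mul_apply g).2]
  simp

theorem S_smul_eq_iff (N : ℕ) (g : SL(2, ℤ)) :
    S • (g : SL(2, ℤ) ⧸ Gamma0 N) = g ↔
      (N : ℤ) ∣ g 0 0 ^ 2 + (0 : ℤ) * (g 0 0 * g 1 0) + g 1 0 ^ 2 := by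
  rw [smul_mk, eq_comm, mk_eq_mk_iff, (S_mul_apply g).1, (S_mul_apply g).2]
  constructor <;> intro h <;> convert h using 1 <;> ring

theorem ST_smul_eq_iff (N : ℕ) (g : SL(2, ℤ)) :
    (S * T) • (g : SL(2, ℤ) ⧸ Gamma0 N) = g ↔
      (N : ℤ) ∣ g 0 0 ^ 2 + (1 : ℤ) * (g 0 0 * g 1 0) + g 1 0 ^ 2 := by
  rw [smul_mk, eq_comm, mk_eq_mk_iff, (ST_mul_apply g).1, (ST_mul_apply g).2]
  constructor <;> intro h <;> convert h using 1 <;> ring

theorem S_pow_two_smul (N : ℕ) (q : SL(2, ℤ) ⧸ Gamma0 N) : S ^ 2 • q = q := by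
  induction q using QuotientGroup.induction_on with
  | H g =>
    rw [pow_two, mul_smul, smul_mk, smul_mk, mk_eq_mk_iff, (S_mul_apply (S * g)).1,
      (S_mul_apply (S * g)).2, (S_mul_apply g).1, (S_mul_apply g).2]
    exact ⟨0, by ring⟩

theorem ST_pow_three_smul (N : ℕ) (q : SL(2, ℤ) ⧸ Gamma0 N) : (S * T) ^ 3 • q = q := by
  induction q using QuotientGroup.induction_on with
  | H g =>
    rw [pow_succ, pow_two, mul_smul, mul_smul, smul_mk, smul_mk, smul_mk, mk_eq_mk_iff,
      (ST_mul_apply (S * T * (S * T * g))).1, (ST_mul_apply (S * T * (S * T * g))).2,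
      (ST_mul_apply (S * T * g)).1, (ST_mul_apply (S * T * g)).2,
      (ST_mul_apply g).1, (ST_mul_apply g).2]
    exact ⟨0, by ring⟩

/-- The lower unipotent matrix `[[1,0],[x,1]]`. -/
def lowerTri (x : ℤ) : SL(2, ℤ) := ⟨!![1, 0; x, 1], by simp [Matrix.det_fin_two_of]⟩

@[simp] theorem lowerTri_apply_zero_zero (x : ℤ) : lowerTri x 0 0 = 1 := rfl
@[simp] theorem lowerTri_apply_one_zero (x : ℤ) : lowerTri x 1 0 = x := rfl

/-- Fixed cosets of an element whose fixed-point condition is the binary form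
`a² + ε a c + c²` correspond to roots of `x² + ε x + 1` in `ZMod N`. -/
theorem card_fixed_eq (N : ℕ) (ε : ℤ) (γ : SL(2, ℤ))
    (hγ : ∀ g : SL(2, ℤ), γ • (g : SL(2, ℤ) ⧸ Gamma0 N) = g ↔
      (N : ℤ) ∣ g 0 0 ^ 2 + ε * (g 0 0 * g 1 0) + g 1 0 ^ 2) :
    Nat.card {q : SL(2, ℤ) ⧸ Gamma0 N // γ • q = q}
      = Nat.card {x : ZMod N // x ^ 2 + (ε : ZMod N) * x + 1 = 0} := by
  symm
  refine Nat.card_congr (Equiv.ofBijective
    (fun x => ⟨((lowerTri (x.1.cast : ℤ) : SL(2, ℤ)) : SL(2, ℤ) ⧸ Gamma0 N), ?_⟩) ⟨?_, ?_⟩)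
  · rw [hγ, lowerTri_apply_zero_zero, lowerTri_apply_one_zero,
      ← ZMod.intCast_zmod_eq_zero_iff_dvd]
    push_cast
    linear_combination x.2
  · intro x y hxy
    have h := (mk_eq_mk_iff N _ _).mp (congrArg Subtype.val hxy)
    rw [lowerTri_apply_zero_zero, lowerTri_apply_one_zero, lowerTri_apply_zero_zero,
      lowerTri_apply_one_zero, ← ZMod.intCast_zmod_eq_zero_iff_dvd] at h
    push_cast at h
    exact Subtype.ext (by linear_combination -h)
  · rintro ⟨q, hq⟩
    induction q using QuotientGroup.induction_on with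
    | H g =>
      have h0 := (hγ g).mp hq
      rw [← ZMod.intCast_zmod_eq_zero_iff_dvd] at h0
      push_cast at h0
      set a : ZMod N := ((g 0 0 : ℤ) : ZMod N) with ha
      set c : ZMod N := ((g 1 0 : ℤ) : ZMod N) with hc
      set u : ZMod N := ((g 1 1 : ℤ) : ZMod N) with hu
      set v : ZMod N := ((- g 0 1 : ℤ) : ZMod N) with hv
      have huv : u * a + v * c = 1 := by
        have := congrArg (fun z : ℤ => (z : ZMod N)) (det_eq g)
        simp only [Int.cast_sub, Int.cast_mul, Int.cast_one] at this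
        rw [hu, hv, ha, hc]
        push_cast
        linear_combination this
      set w : ZMod N := u ^ 2 * a + 2 * u * v * c - v ^ 2 * (a + ε * c) with hw
      have haw : a * w = 1 := by
        rw [hw]
        linear_combination (u * a + v * c + 1) * huv - v ^ 2 * h0
      refine ⟨⟨c * w, ?_⟩, ?_⟩
      · linear_combination w ^ 2 * h0 - (ε * (c * w) + 1 + a * w) * haw
      · refine Subtype.ext ?_
        show ((lowerTri ((c * w : ZMod N).cast : ℤ) : SL(2, ℤ)) : SL(2, ℤ) ⧸ Gamma0 N) = g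
        rw [mk_eq_mk_iff, lowerTri_apply_zero_zero, lowerTri_apply_one_zero,
          ← ZMod.intCast_zmod_eq_zero_iff_dvd]
        push_cast
        show 1 * c - c * w * a = 0
        linear_combination -c * haw

theorem orbit_zpowers_eq_singleton {G X : Type*} [Group G] [MulAction G X] (γ : G) (x : X)
    (hx : γ • x = x) : MulAction.orbit (Subgroup.zpowers γ) x = {x} := by
  ext y
  simp only [MulAction.mem_orbit_iff, Set.mem_singleton_iff]
  constructor
  · rintro ⟨⟨g, hg⟩, rfl⟩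
    obtain ⟨k, rfl⟩ := Subgroup.mem_zpowers_iff.mp hg
    show γ ^ k • x = x
    exact MulAction.zpow_smul_eq_iff_minimalPeriod_dvd.mpr (by
      have h1 : Function.minimalPeriod (γ • ·) x = 1 :=
        Function.minimalPeriod_eq_one_iff_isFixedPt.mpr hx
      rw [h1]; simp)
  · rintro rfl
    exact ⟨1, one_smul _ _⟩

open Function in
/-- Orbit count for a cyclic group whose generator acts with prime exponent `p`:
`p * #orbits = #X + (p - 1) * #fixed points`. -/
theorem mul_card_orbits_of_pow_smul {G X : Type*} [Group G] [MulAction G X] [Finite X] (γ : G)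
    {p : ℕ} (hp : p.Prime) (h : ∀ x : X, γ ^ p • x = x) :
    p * Nat.card (MulAction.orbitRel.Quotient (Subgroup.zpowers γ) X)
      = Nat.card X + (p - 1) * Nat.card {x : X // γ • x = x} := by
  classical
  set Ω := MulAction.orbitRel.Quotient (Subgroup.zpowers γ) X with hΩ
  have : Fintype X := Fintype.ofFinite X
  have : Fintype Ω := Fintype.ofFinite Ω
  have hper : ∀ x : X, minimalPeriod (γ • ·) x = 1 ∨ minimalPeriod (γ • ·) x = p := by
    intro x
    have : IsPeriodicPt (γ • ·) p x := by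
      show (γ • ·)^[p] x = x
      rw [smul_iterate]; exact h x
    exact (Nat.dvd_prime hp).mp this.minimalPeriod_dvd
  have h1 : Nat.card X = ∑ ω : Ω, minimalPeriod (γ • ·) ω.out := by
    rw [Nat.card_congr (MulAction.selfEquivSigmaOrbits (Subgroup.zpowers γ) X), Nat.card_sigma]
    refine Finset.sum_congr rfl fun ω _ => ?_
    rw [Nat.card_eq_fintype_card, ← MulAction.minimalPeriod_eq_card]
  have h2 : Nat.card {x : X // γ • x = x}
      = (Finset.univ.filter fun ω : Ω => γ • ω.out = ω.out).card := by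
    rw [Nat.card_eq_fintype_card, ← Fintype.card_subtype]
    have key : ∀ x : X, γ • x = x → (Quotient.mk'' x : Ω).out = x := by
      intro x hx
      have hmem : (Quotient.mk'' x : Ω).out ∈ MulAction.orbit (Subgroup.zpowers γ) x := by
        rw [← MulAction.orbitRel_apply]
        exact Quotient.exact' (Quotient.out_eq' _)
      rw [orbit_zpowers_eq_singleton γ x hx] at hmem
      exact hmem
    refine Fintype.card_congr (Equiv.ofBijective
      (fun x => ⟨(Quotient.mk'' x.1 : Ω), ?_⟩) ⟨?_, ?_⟩)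
    · rw [key x.1 x.2]; exact x.2
    · intro x y hxy
      have := congrArg (fun ω : {ω : Ω // γ • ω.out = ω.out} => ω.1.out) hxy
      simp only [key x.1 x.2, key y.1 y.2] at this
      exact Subtype.ext this
    · rintro ⟨ω, hω⟩
      exact ⟨⟨ω.out, hω⟩, Subtype.ext (Quotient.out_eq' ω)⟩
  have h3 : ∑ ω : Ω, minimalPeriod (γ • ·) ω.out
      = (Finset.univ.filter fun ω : Ω => γ • ω.out = ω.out).card
        + p * (Finset.univ.filter fun ω : Ω => ¬ γ • ω.out = ω.out).card := by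
    rw [← Finset.sum_filter_add_sum_filter_not Finset.univ (fun ω : Ω => γ • ω.out = ω.out)]
    congr 1
    · rw [Finset.card_eq_sum_ones]
      refine Finset.sum_congr rfl fun ω hω => ?_
      exact minimalPeriod_eq_one_iff_isFixedPt.mpr (Finset.mem_filter.mp hω).2
    · rw [mul_comm, ← smul_eq_mul, ← Finset.sum_const]
      refine Finset.sum_congr rfl fun ω hω => ?_
      rcases hper ω.out with h1 | h1
      · exact absurd (minimalPeriod_eq_one_iff_isFixedPt.mp h1) (Finset.mem_filter.mp hω).2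
      · exact h1
  have h4 : Nat.card Ω = (Finset.univ.filter fun ω : Ω => γ • ω.out = ω.out).card
        + (Finset.univ.filter fun ω : Ω => ¬ γ • ω.out = ω.out).card := by
    rw [Nat.card_eq_fintype_card, ← Finset.card_univ]
    exact (Finset.card_filter_add_card_filter_not _).symm
  rw [h1, h3, h2, h4]
  obtain ⟨k, rfl⟩ : ∃ k, p = k + 1 := ⟨p - 1, (Nat.succ_pred_eq_of_pos hp.pos).symm⟩
  simp only [Nat.add_sub_cancel]
  ring

/-- `2 * #orbits(S) = #cosets + ν₂(N)`. -/
theorem two_mul_orbCount_S_card (N : ℕ) [NeZero N] :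
    2 * orbCount (cosetPerm N S) = Nat.card (X0 N) + ModularCurve.nuTwo N := by
  have h := mul_card_orbits_of_pow_smul (G := Equiv.Perm (X0 N)) (X := X0 N) (cosetPerm N S)
    Nat.prime_two (fun x => by
      show ((cosetPerm N S) ^ 2) x = x
      rw [pow_two, ← cosetPerm_mul, ← pow_two, cosetPerm_apply]
      exact S_pow_two_smul N x)
  have h2 : Nat.card {x : X0 N // cosetPerm N S • x = x} = ModularCurve.nuTwo N := by
    show Nat.card {q : SL(2, ℤ) ⧸ Gamma0 N // S • q = q} = _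
    rw [card_fixed_eq N 0 S (S_smul_eq_iff N), ModularCurve.nuTwo]
    exact Nat.card_congr (Equiv.subtypeEquivRight (fun x => by simp))
  rw [h2] at h
  simpa [orbCount] using h

/-- `3 * #orbits(S * T) = #cosets + 2 * ν₃(N)`. -/
theorem three_mul_orbCount_ST_card (N : ℕ) [NeZero N] :
    3 * orbCount (cosetPerm N (S * T)) = Nat.card (X0 N) + 2 * ModularCurve.nuThree N := by
  have h := mul_card_orbits_of_pow_smul (G := Equiv.Perm (X0 N)) (X := X0 N)
    (cosetPerm N (S * T)) Nat.prime_three (fun x => by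
      show ((cosetPerm N (S * T)) ^ 3) x = x
      rw [pow_succ, pow_two, ← cosetPerm_mul, ← cosetPerm_mul, ← pow_two, ← pow_succ,
        cosetPerm_apply]
      exact ST_pow_three_smul N x)
  have h2 : Nat.card {x : X0 N // cosetPerm N (S * T) • x = x} = ModularCurve.nuThree N := by
    show Nat.card {q : SL(2, ℤ) ⧸ Gamma0 N // (S * T) • q = q} = _
    rw [card_fixed_eq N 1 (S * T) (ST_smul_eq_iff N), ModularCurve.nuThree]
    exact Nat.card_congr (Equiv.subtypeEquivRight (fun x => by simp))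
  rw [h2] at h
  simpa [orbCount] using h

end Cosets
end Fermat.Agent.S24
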