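import Mathlib
import Fermat.Prelude.Def_ModularCurve_GenusNumerics
import Fermat.Agent.S24.OrbDefs
import Fermat.Agent.S24.CosetsBasic

/-!
# `T`-orbits on `SL(2, ℤ) ⧸ Γ₀(N)`: the number of cusps

`orbCount_cosetPerm_T : orbCount (cosetPerm N T) = ModularCurve.cuspCount N`, via an explicit
bijection between `Σ d ∣ N, (ZMod (gcd d (N / d)))ˣ` and the `T`-orbits on the cosets.
-/

set_option autoImplicit false

open CongruenceSubgroup MatrixGroups ModularGroup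

namespace Fermat.Agent.S24
namespace Cosets

theorem T_zpow_mul_apply (k : ℤ) (g : SL(2, ℤ)) :
    (T ^ k * g) 0 0 = g 0 0 + k * g 1 0 ∧ (T ^ k * g) 1 0 = g 1 0 := by
  rw [mul_apply_zero_zero, mul_apply_one_zero, coe_T_zpow]
  simp

/-- A matrix in `SL(2, ℤ)` with prescribed coprime first column. -/
theorem exists_col (a c : ℤ) (h : IsCoprime a c) : ∃ γ : SL(2, ℤ), γ 0 0 = a ∧ γ 1 0 = c := by
  obtain ⟨u, v, huv⟩ := h
  refine ⟨⟨!![a, -v; c, u], ?_⟩, rfl, rfl⟩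
  rw [Matrix.det_fin_two_of]
  linear_combination huv

theorem cosetPerm_zpow (N : ℕ) (g : SL(2, ℤ)) (k : ℤ) :
    cosetPerm N g ^ k = cosetPerm N (g ^ k) :=
  ((MulAction.toPermHom (SL(2, ℤ)) (X0 N)).map_zpow g k).symm

/-- The orbit space of `T` on the cosets. -/
abbrev TOrb (N : ℕ) : Type :=
  MulAction.orbitRel.Quotient (Subgroup.zpowers (cosetPerm N T)) (X0 N)

/-- Criterion for two cosets to lie in the same `T`-orbit. -/
theorem orbit_mk_eq_iff (N : ℕ) (g g' : SL(2, ℤ)) :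
    (Quotient.mk'' (g : X0 N) : TOrb N) = Quotient.mk'' (g' : X0 N) ↔
      ∃ k : ℤ, (N : ℤ) ∣ (g' 0 0 + k * g' 1 0) * g 1 0 - g' 1 0 * g 0 0 := by
  rw [Quotient.eq'', MulAction.orbitRel_apply, MulAction.mem_orbit_iff]
  constructor
  · rintro ⟨⟨π, hπ⟩, h⟩
    obtain ⟨k, rfl⟩ := Subgroup.mem_zpowers_iff.mp hπ
    refine ⟨k, ?_⟩
    have h' : ((T ^ k * g' : SL(2, ℤ)) : X0 N) = g := by
      rw [← h]
      show _ = (cosetPerm N T ^ k) (g' : X0 N)
      rw [cosetPerm_zpow]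
      rfl
    have := (mk_eq_mk_iff N _ _).mp h'
    rwa [(T_zpow_mul_apply k g').1, (T_zpow_mul_apply k g').2] at this
  · rintro ⟨k, hk⟩
    refine ⟨⟨cosetPerm N T ^ k, Subgroup.zpow_mem_zpowers _ k⟩, ?_⟩
    show (cosetPerm N T ^ k) (g' : X0 N) = g
    rw [cosetPerm_zpow]
    show ((T ^ k * g' : SL(2, ℤ)) : X0 N) = g
    rw [mk_eq_mk_iff, (T_zpow_mul_apply k g').1, (T_zpow_mul_apply k g').2]
    exact hk

theorem isUnit_intCast_of_isCoprime {n : ℕ} {a : ℤ} (h : IsCoprime a (n : ℤ)) :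
    IsUnit ((a : ℤ) : ZMod n) := by
  obtain ⟨x, y, hxy⟩ := h
  have := congrArg (fun z : ℤ => (z : ZMod n)) hxy
  simp only [Int.cast_add, Int.cast_mul, Int.cast_natCast, ZMod.natCast_self, mul_zero,
    add_zero, Int.cast_one] at this
  exact IsUnit.of_mul_eq_one _ (by rw [mul_comm]; exact this)

/-- Units mod `g` lift to integers prime to `d` when `g ∣ d`. -/
theorem exists_isCoprime_lift {g d : ℕ} (hd : d ≠ 0) (hgd : g ∣ d) (r : (ZMod g)ˣ) :
    ∃ a : ℤ, IsCoprime a (d : ℤ) ∧ ((a : ℤ) : ZMod g) = (r : ZMod g) := by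
  have : NeZero d := ⟨hd⟩
  obtain ⟨u, rfl⟩ := ZMod.unitsMap_surjective hgd r
  refine ⟨((u : ZMod d).val : ℤ), ?_, ?_⟩
  · rw [Nat.isCoprime_iff_coprime, ← ZMod.isUnit_iff_coprime, ZMod.natCast_zmod_val]
    exact u.isUnit
  · rw [Int.cast_natCast, ZMod.natCast_val]
    rfl

/-- Index type for the cusps of `Γ₀(N)`. -/
abbrev CuspIdx (N : ℕ) : Type := Σ d : N.divisors, (ZMod (Nat.gcd d (N / d)))ˣ

theorem exists_cuspRep (N : ℕ) (i : CuspIdx N) :
    ∃ γ : SL(2, ℤ), γ 1 0 = ((i.1 : ℕ) : ℤ) ∧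
      ((γ 0 0 : ℤ) : ZMod (Nat.gcd i.1 (N / i.1))) = (i.2 : ZMod (Nat.gcd i.1 (N / i.1))) := by
  obtain ⟨⟨d, hd⟩, r⟩ := i
  have hd0 : d ≠ 0 := (Nat.pos_of_mem_divisors hd).ne'
  obtain ⟨a, ha, har⟩ := exists_isCoprime_lift hd0 (Nat.gcd_dvd_left d (N / d)) r
  obtain ⟨γ, h0, h1⟩ := exists_col a d ha
  exact ⟨γ, h1, by rw [h0]; exact har⟩

/-- A chosen representative matrix for a cusp index. -/
noncomputable def cuspRep (N : ℕ) (i : CuspIdx N) : SL(2, ℤ) := (exists_cuspRep N i).choose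

theorem cuspRep_apply_one_zero (N : ℕ) (i : CuspIdx N) :
    cuspRep N i 1 0 = ((i.1 : ℕ) : ℤ) := (exists_cuspRep N i).choose_spec.1

theorem cuspRep_apply_zero_zero (N : ℕ) (i : CuspIdx N) :
    ((cuspRep N i 0 0 : ℤ) : ZMod (Nat.gcd i.1 (N / i.1))) = (i.2 : ZMod (Nat.gcd i.1 (N / i.1))) :=
  (exists_cuspRep N i).choose_spec.2

/-- The map from cusp indices to `T`-orbits. -/
noncomputable def cuspMap (N : ℕ) (i : CuspIdx N) : TOrb N :=
  Quotient.mk'' ((cuspRep N i : SL(2, ℤ)) : X0 N)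

theorem cuspMap_injective (N : ℕ) [NeZero N] : Function.Injective (cuspMap N) := by
  intro i j hij
  obtain ⟨k, hk⟩ := (orbit_mk_eq_iff N _ _).mp hij
  have hci := isCoprime_col (cuspRep N i)
  have hcj := isCoprime_col (cuspRep N j)
  have h1i := cuspRep_apply_one_zero N i
  have h1j := cuspRep_apply_one_zero N j
  have h0i := cuspRep_apply_zero_zero N i
  have h0j := cuspRep_apply_zero_zero N j
  rw [h1i] at hci
  rw [h1j] at hcj
  rw [h1i, h1j] at hk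
  set ai := cuspRep N i 0 0 with hai
  set aj := cuspRep N j 0 0 with haj
  obtain ⟨⟨d, hd⟩, r⟩ := i
  obtain ⟨⟨d', hd'⟩, r'⟩ := j
  simp only at hci hcj hk h0i h0j
  have hdN : (d : ℤ) ∣ (N : ℤ) := Int.natCast_dvd_natCast.mpr (Nat.dvd_of_mem_divisors hd)
  have hd'N : (d' : ℤ) ∣ (N : ℤ) := Int.natCast_dvd_natCast.mpr (Nat.dvd_of_mem_divisors hd')
  -- d' ∣ d
  have h1 : (d' : ℤ) ∣ d := by
    have : (d' : ℤ) ∣ aj * d := by
      have h := hd'N.trans hk
      have : aj * (d : ℤ) = ((aj + k * d') * d - d' * ai) - d' * (k * d - ai) := by ring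
      rw [this]
      exact dvd_sub h (dvd_mul_right _ _)
    exact hcj.symm.dvd_of_dvd_mul_left this
  have h2 : (d : ℤ) ∣ d' := by
    have : (d : ℤ) ∣ ai * d' := by
      have h := hdN.trans hk
      have : ai * (d' : ℤ) = d * (aj + k * d') - ((aj + k * d') * d - d' * ai) := by ring
      rw [this]
      exact dvd_sub (dvd_mul_right _ _) h
    exact hci.symm.dvd_of_dvd_mul_left this
  have hdd : d = d' :=
    Nat.dvd_antisymm (Int.natCast_dvd_natCast.mp h2) (Int.natCast_dvd_natCast.mp h1)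
  subst hdd
  have hd0 : d ≠ 0 := (Nat.pos_of_mem_divisors hd).ne'
  have hdvd : d ∣ N := Nat.dvd_of_mem_divisors hd
  -- N / d ∣ aj + k d - ai
  have h3 : ((N / d : ℕ) : ℤ) ∣ aj + k * d - ai := by
    have hN : (N : ℤ) = d * ((N / d : ℕ) : ℤ) := by
      rw [← Nat.cast_mul, Nat.mul_div_cancel' hdvd]
    rw [hN] at hk
    have : (d : ℤ) * ((N / d : ℕ) : ℤ) ∣ d * (aj + k * d - ai) := by
      convert hk using 1; ring
    exact (mul_dvd_mul_iff_left (by exact_mod_cast hd0)).mp this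
  have h4 : ((Nat.gcd d (N / d) : ℕ) : ℤ) ∣ aj - ai := by
    have hg1 : ((Nat.gcd d (N / d) : ℕ) : ℤ) ∣ aj + k * d - ai :=
      (Int.natCast_dvd_natCast.mpr (Nat.gcd_dvd_right d (N / d))).trans h3
    have hg2 : ((Nat.gcd d (N / d) : ℕ) : ℤ) ∣ k * d :=
      (Int.natCast_dvd_natCast.mpr (Nat.gcd_dvd_left d (N / d))).mul_left k
    have : aj - ai = (aj + k * d - ai) - k * d := by ring
    rw [this]
    exact dvd_sub hg1 hg2
  have h5 : (r : ZMod (Nat.gcd d (N / d))) = r' := by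
    rw [← h0i, ← h0j]
    exact (ZMod.intCast_eq_intCast_iff_dvd_sub _ _ _).mpr h4
  exact Sigma.ext rfl (heq_of_eq (Units.ext h5))

theorem cuspMap_surjective (N : ℕ) [NeZero N] : Function.Surjective (cuspMap N) := by
  intro ω
  induction ω using Quotient.inductionOn' with
  | h x =>
  induction x using QuotientGroup.induction_on with
  | H h =>
  have hN0 : N ≠ 0 := NeZero.ne N
  set a := h 0 0 with ha
  set c := h 1 0 with hc
  set d : ℕ := Int.gcd c N with hd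
  have hdN : d ∣ N := Int.natCast_dvd_natCast.mp (Int.gcd_dvd_right c N)
  have hdpos : 0 < d := Int.gcd_pos_of_ne_zero_right c (by exact_mod_cast hN0)
  have hd0 : d ≠ 0 := hdpos.ne'
  obtain ⟨u, hu⟩ : (d : ℤ) ∣ c := Int.gcd_dvd_left c N
  have hcop : IsCoprime u ((N / d : ℕ) : ℤ) := by
    rw [Int.isCoprime_iff_gcd_eq_one]
    have h1 := Int.gcd_div_gcd_div_gcd (i := c) (j := (N : ℤ)) hdpos
    have h2 : c / (Int.gcd c N : ℤ) = u := by
      rw [← hd, hu]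
      exact Int.mul_ediv_cancel_left u (by exact_mod_cast hd0)
    have h3 : (N : ℤ) / (Int.gcd c N : ℤ) = ((N / d : ℕ) : ℤ) := by
      rw [← hd]; exact (Int.natCast_div N d).symm
    rwa [h2, h3] at h1
  set g : ℕ := Nat.gcd d (N / d) with hg
  have hgd : (g : ℤ) ∣ d := Int.natCast_dvd_natCast.mpr (Nat.gcd_dvd_left d (N / d))
  have hgN : (g : ℤ) ∣ ((N / d : ℕ) : ℤ) := Int.natCast_dvd_natCast.mpr (Nat.gcd_dvd_right d (N / d))
  have hac : IsCoprime a c := isCoprime_col h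
  have hag : IsCoprime a (g : ℤ) := hac.of_isCoprime_of_dvd_right (hgd.trans ⟨u, hu⟩)
  have hug : IsCoprime u (g : ℤ) := hcop.of_isCoprime_of_dvd_right hgN
  set r : (ZMod g)ˣ := (isUnit_intCast_of_isCoprime hag).unit *
    ((isUnit_intCast_of_isCoprime hug).unit)⁻¹ with hr
  refine ⟨⟨⟨d, Nat.mem_divisors.mpr ⟨hdN, hN0⟩⟩, r⟩, ?_⟩
  rw [cuspMap, orbit_mk_eq_iff]
  set i : CuspIdx N := ⟨⟨d, Nat.mem_divisors.mpr ⟨hdN, hN0⟩⟩, r⟩ with hi
  have h1 : cuspRep N i 1 0 = (d : ℤ) := cuspRep_apply_one_zero N i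
  have h0 : ((cuspRep N i 0 0 : ℤ) : ZMod g) = (r : ZMod g) := cuspRep_apply_zero_zero N i
  set ar := cuspRep N i 0 0 with har
  -- g ∣ a - ar * u
  have h2 : (g : ℤ) ∣ a - ar * u := by
    rw [← ZMod.intCast_zmod_eq_zero_iff_dvd]
    push_cast
    rw [h0, hr]
    simp only [Units.val_mul, IsUnit.unit_spec]
    have hu1 : ((isUnit_intCast_of_isCoprime hug).unit⁻¹ : (ZMod g)ˣ).val * ((u : ℤ) : ZMod g) = 1 := by
      simp
    linear_combination (-(a : ZMod g)) * hu1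
  obtain ⟨t, ht⟩ := h2
  obtain ⟨x, y, hxy⟩ := hcop
  have hbez : (g : ℤ) = d * Nat.gcdA d (N / d) + ((N / d : ℕ) : ℤ) * Nat.gcdB d (N / d) :=
    Nat.gcd_eq_gcd_ab d (N / d)
  set p := Nat.gcdA d (N / d)
  set q := Nat.gcdB d (N / d)
  have hN : (N : ℤ) = d * ((N / d : ℕ) : ℤ) := by
    rw [← Nat.cast_mul, Nat.mul_div_cancel' hdN]
  refine ⟨-(t * p * x), ?_⟩
  rw [h1, hN]
  refine ⟨t * (d * p * y + q * x * u + q * y * ((N / d : ℕ) : ℤ)), ?_⟩
  change (a + -(t * p * x) * c) * (d : ℤ) - c * ar = _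
  rw [hu]
  have e1 : a = ar * u + g * t := by linarith
  rw [e1, hbez]
  linear_combination (-(d : ℤ) * t * (d * p + ((N / d : ℕ) : ℤ) * q)) * hxy

theorem card_units_zmod {n : ℕ} (hn : n ≠ 0) : Nat.card (ZMod n)ˣ = n.totient := by
  have : NeZero n := ⟨hn⟩
  rw [Nat.card_eq_fintype_card, ZMod.card_units_eq_totient]

theorem card_cuspIdx (N : ℕ) : Nat.card (CuspIdx N) = ModularCurve.cuspCount N := by
  have : ∀ d : N.divisors, Finite (ZMod (Nat.gcd d (N / d)))ˣ := by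
    intro d
    have hd0 : (d : ℕ) ≠ 0 := (Nat.pos_of_mem_divisors d.2).ne'
    have : NeZero (Nat.gcd d (N / d)) := ⟨fun h => hd0 (Nat.gcd_eq_zero_iff.mp h).1⟩
    infer_instance
  rw [CuspIdx, Nat.card_sigma, ModularCurve.cuspCount,
    ← Finset.sum_coe_sort N.divisors (fun d => Nat.totient (Nat.gcd d (N / d)))]
  refine Finset.sum_congr rfl fun d _ => ?_
  have hd0 : (d : ℕ) ≠ 0 := (Nat.pos_of_mem_divisors d.2).ne'
  exact card_units_zmod (fun h => hd0 (Nat.gcd_eq_zero_iff.mp h).1)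

/-- The `T`-orbits on the cosets of `Γ₀(N)` are in bijection with the cusp indices. -/
noncomputable def cuspEquiv (N : ℕ) [NeZero N] : CuspIdx N ≃ TOrb N :=
  Equiv.ofBijective (cuspMap N) ⟨cuspMap_injective N, cuspMap_surjective N⟩

end Cosets

open Cosets in
/-- The number of orbits of `T` on `SL(2, ℤ) ⧸ Γ₀(N)` is the number of cusps. -/
theorem orbCount_cosetPerm_T (N : ℕ) [NeZero N] :
    orbCount (cosetPerm N T) = ModularCurve.cuspCount N := by
  rw [orbCount, ← Nat.card_congr (cuspEquiv N), card_cuspIdx]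

end Fermat.Agent.S24
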