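import Mathlib
import Fermat.Agent.S24.OrbDefs

/-!
# S24, side B6 (abstract part): orbit counts of permutations

* `orbCount_inv`, `orbCount_permCongr`, `orbCount_conj`
* `orbCount_add_card_support` : `orbCount σ + #support = card X + #cycleFactors`
* `two_mul_orbCount_of_sq_eq_one`, `three_mul_orbCount_of_cube_eq_one`
* `sign_eq_neg_one_pow` : `sign σ = (-1)^(card X - orbCount σ)`
* `scott_ineq` : Ree–Scott inequality for a transitive product-one triple
* `exists_genus_of_transitive`
-/

set_option autoImplicit false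

namespace Fermat.Agent.S24

open Equiv

namespace PermGenus

variable {X : Type*}

theorem orbitRel_zpowers_iff (π : Perm X) (x y : X) :
    MulAction.orbitRel (Subgroup.zpowers π) X x y ↔ π.SameCycle y x := by
  rw [MulAction.orbitRel_apply, MulAction.mem_orbit_iff]
  constructor
  · rintro ⟨⟨g, hg⟩, rfl⟩
    obtain ⟨k, rfl⟩ := Subgroup.mem_zpowers_iff.mp hg
    exact ⟨k, rfl⟩
  · rintro ⟨k, hk⟩
    exact ⟨⟨π ^ k, Subgroup.zpow_mem_zpowers π k⟩, hk⟩

theorem perm_apply_inv (σ : Perm X) (x : X) : σ (σ⁻¹ x) = x := σ.apply_symm_apply x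

theorem perm_inv_apply (σ : Perm X) (x : X) : σ⁻¹ (σ x) = x := σ.symm_apply_apply x

theorem permCongr_zpow {Y : Type*} (e : X ≃ Y) (π : Perm X) (k : ℤ) :
    (e.permCongr π) ^ k = e.permCongr (π ^ k) :=
  (map_zpow e.permCongrHom π k).symm

end PermGenus

open PermGenus

theorem orbCount_permCongr {X Y : Type*} (e : X ≃ Y) (π : Perm X) :
    orbCount (e.permCongr π) = orbCount π := by
  unfold orbCount
  refine (Nat.card_congr (Quotient.congr e ?_)).symm
  intro a b
  rw [orbitRel_zpowers_iff, orbitRel_zpowers_iff]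
  constructor
  · rintro ⟨k, hk⟩
    refine ⟨k, ?_⟩
    rw [permCongr_zpow, Equiv.permCongr_apply, Equiv.symm_apply_apply, hk]
  · rintro ⟨k, hk⟩
    refine ⟨k, ?_⟩
    rw [permCongr_zpow, Equiv.permCongr_apply, Equiv.symm_apply_apply] at hk
    exact e.injective hk

theorem orbCount_conj {X : Type*} (σ π : Perm X) : orbCount (σ * π * σ⁻¹) = orbCount π := by
  rw [← orbCount_permCongr σ π]
  congr 1

theorem orbCount_inv {X : Type*} (π : Perm X) : orbCount π⁻¹ = orbCount π := by
  unfold orbCount
  rw [Subgroup.zpowers_inv]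

namespace PermGenus

section Fintype

variable {X : Type*} [Fintype X] [DecidableEq X]

/-- The orbit of `x` as a cycle factor or a fixed point. -/
noncomputable def orbitCode (σ : Perm X) (x : X) :
    {c // c ∈ σ.cycleFactorsFinset} ⊕ {x // σ x = x} :=
  if h : σ x = x then Sum.inr ⟨x, h⟩
  else Sum.inl ⟨σ.cycleOf x, Perm.cycleOf_mem_cycleFactorsFinset_iff.mpr (Perm.mem_support.mpr h)⟩

theorem orbitCode_eq_iff (σ : Perm X) (x y : X) :
    orbitCode σ x = orbitCode σ y ↔ σ.SameCycle y x := by
  unfold orbitCode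
  by_cases hx : σ x = x
  · by_cases hy : σ y = y
    · rw [dif_pos hx, dif_pos hy]
      simp only [Sum.inr.injEq, Subtype.mk.injEq]
      constructor
      · rintro rfl; exact Perm.SameCycle.refl _ _
      · rintro ⟨k, hk⟩
        rw [← hk]
        exact (Function.IsFixedPt.perm_zpow hy k).eq
    · rw [dif_pos hx, dif_neg hy]
      simp only [reduceCtorEq, false_iff]
      intro h
      exact hy ((h.apply_eq_self_iff).mpr hx)
  · by_cases hy : σ y = y
    · rw [dif_neg hx, dif_pos hy]
      simp only [reduceCtorEq, false_iff]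
      intro h
      exact hx ((h.apply_eq_self_iff).mp hy)
    · rw [dif_neg hx, dif_neg hy]
      simp only [Sum.inl.injEq, Subtype.mk.injEq]
      rw [eq_comm, ← Perm.sameCycle_iff_cycleOf_eq_of_mem_support (Perm.mem_support.mpr hy)
        (Perm.mem_support.mpr hx)]

theorem orbitCode_surjective (σ : Perm X) : Function.Surjective (orbitCode σ) := by
  rintro (⟨c, hc⟩ | ⟨x, hx⟩)
  · obtain ⟨hcyc, -⟩ := Perm.mem_cycleFactorsFinset_iff.mp hc
    obtain ⟨a, ha, -⟩ := hcyc
    have ha' : a ∈ c.support := Perm.mem_support.mpr ha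
    have hca : c = σ.cycleOf a := Perm.cycle_is_cycleOf ha' hc
    have hsa : σ a ≠ a := by
      have := Perm.cycleOf_mem_cycleFactorsFinset_iff.mp (hca ▸ hc)
      exact Perm.mem_support.mp this
    refine ⟨a, ?_⟩
    unfold orbitCode
    rw [dif_neg hsa]
    simp only [Sum.inl.injEq, Subtype.mk.injEq]
    exact hca.symm
  · refine ⟨x, ?_⟩
    unfold orbitCode
    rw [dif_pos hx]

/-- Orbits of `σ` ≃ cycle factors ⊕ fixed points. -/
noncomputable def orbitEquiv (σ : Perm X) :
    MulAction.orbitRel.Quotient (Subgroup.zpowers σ) X ≃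
      {c // c ∈ σ.cycleFactorsFinset} ⊕ {x // σ x = x} :=
  Equiv.ofBijective
    (Quotient.lift (orbitCode σ) (fun a b hab =>
      (orbitCode_eq_iff σ a b).mpr ((orbitRel_zpowers_iff σ a b).mp hab)))
    ⟨by
      intro q₁ q₂
      induction q₁ using Quotient.inductionOn with
      | h a =>
        induction q₂ using Quotient.inductionOn with
        | h b =>
          intro h
          exact Quotient.sound ((orbitRel_zpowers_iff σ a b).mpr ((orbitCode_eq_iff σ a b).mp h)),
     by
      intro z
      obtain ⟨x, rfl⟩ := orbitCode_surjective σ z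
      exact ⟨Quotient.mk _ x, rfl⟩⟩

theorem card_fixed_add_card_support (σ : Perm X) :
    Fintype.card {x // σ x = x} + σ.support.card = Fintype.card X := by
  have h1 : Fintype.card {x // σ x = x} = (Finset.univ.filter (fun x => σ x = x)).card :=
    Fintype.card_subtype _
  have h2 : σ.support = Finset.univ.filter (fun x => ¬ σ x = x) := by
    ext x; simp [Perm.mem_support]
  rw [h1, h2, Finset.card_filter_add_card_filter_not (s := Finset.univ) (fun x => σ x = x),
    Finset.card_univ]

theorem orbCount_add_card_support (σ : Perm X) :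
    orbCount σ + σ.support.card = Fintype.card X + σ.cycleFactorsFinset.card := by
  have h : orbCount σ = σ.cycleFactorsFinset.card + Fintype.card {x // σ x = x} := by
    unfold orbCount
    rw [Nat.card_congr (orbitEquiv σ), Nat.card_eq_fintype_card, Fintype.card_sum,
      Fintype.card_coe]
  have := card_fixed_add_card_support σ
  omega

theorem orbCount_add_sum_cycleType (σ : Perm X) :
    orbCount σ + σ.cycleType.sum = Fintype.card X + Multiset.card σ.cycleType := by
  have := orbCount_add_card_support σ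
  rw [Perm.sum_cycleType]
  have h2 : Multiset.card σ.cycleType = σ.cycleFactorsFinset.card := by
    rw [Perm.cycleType_def, Multiset.card_map]; rfl
  omega

theorem orbCount_le_card (σ : Perm X) : orbCount σ ≤ Fintype.card X := by
  have h1 := orbCount_add_sum_cycleType σ
  have h2 : Multiset.card σ.cycleType ≤ σ.cycleType.sum := by
    have : ∀ n ∈ σ.cycleType, 1 ≤ n := fun n hn =>
      le_trans (by norm_num) (Perm.two_le_of_mem_cycleType hn)
    simpa using Multiset.card_nsmul_le_sum this
  omega

theorem sign_eq_neg_one_pow (σ : Perm X) :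
    Perm.sign σ = (-1 : ℤˣ) ^ (Fintype.card X - orbCount σ) := by
  rw [Perm.sign_of_cycleType]
  have h1 := orbCount_add_sum_cycleType σ
  have h2 := orbCount_le_card σ
  have h3 : σ.cycleType.sum + Multiset.card σ.cycleType
      = (Fintype.card X - orbCount σ) + 2 * Multiset.card σ.cycleType := by omega
  rw [h3, pow_add, pow_mul]
  simp

theorem cycleType_eq_replicate_of_pow_prime {p : ℕ} (hp : p.Prime) (σ : Perm X)
    (h : σ ^ p = 1) : σ.cycleType.sum = p * Multiset.card σ.cycleType := by
  have hall : ∀ n ∈ σ.cycleType, n = p := by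
    intro n hn
    have h1 : n ∣ p := (Perm.dvd_of_mem_cycleType hn).trans (orderOf_dvd_of_pow_eq_one h)
    have h2 := Perm.two_le_of_mem_cycleType hn
    rcases (Nat.dvd_prime hp).mp h1 with h1 | h1
    · omega
    · exact h1
  rw [Multiset.eq_replicate_card.mpr hall, Multiset.sum_replicate, Multiset.card_replicate,
    smul_eq_mul, mul_comm]

end Fintype

end PermGenus

open PermGenus

/-- For an involution: `2 * #orbits = card + #fixed points`. -/
theorem two_mul_orbCount_of_sq_eq_one {X : Type*} [Finite X] (π : Perm X) (h : π ^ 2 = 1) :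
    2 * orbCount π = Nat.card X + Nat.card {x // π x = x} := by
  classical
  have := Fintype.ofFinite X
  have h1 := orbCount_add_sum_cycleType π
  have h2 := cycleType_eq_replicate_of_pow_prime Nat.prime_two π h
  have h3 := card_fixed_add_card_support π
  rw [← Perm.sum_cycleType] at h3
  rw [Nat.card_eq_fintype_card, Nat.card_eq_fintype_card]
  omega

/-- For a permutation of order dividing 3: `3 * #orbits = card + 2 * #fixed points`. -/
theorem three_mul_orbCount_of_cube_eq_one {X : Type*} [Finite X] (π : Perm X) (h : π ^ 3 = 1) :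
    3 * orbCount π = Nat.card X + 2 * Nat.card {x // π x = x} := by
  classical
  have := Fintype.ofFinite X
  have h1 := orbCount_add_sum_cycleType π
  have h2 := cycleType_eq_replicate_of_pow_prime Nat.prime_three π h
  have h3 := card_fixed_add_card_support π
  rw [← Perm.sum_cycleType] at h3
  rw [Nat.card_eq_fintype_card, Nat.card_eq_fintype_card]
  omega

namespace PermGenus

section ScottAbstract

open Module LinearMap

variable {V : Type*} [AddCommGroup V] [Module ℚ V] [FiniteDimensional ℚ V]

/-- Scott's lemma (linear algebra form) for three endomorphisms with `Q1 ∘ Q2 ∘ Q3 = id`. -/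
theorem scott_abstract (Q1 Q2 Q3 : V →ₗ[ℚ] V) (h : ∀ v, Q1 (Q2 (Q3 v)) = v) :
    finrank ℚ V + finrank ℚ ↥(range (LinearMap.id - Q1) ⊔ range (LinearMap.id - Q2)
        ⊔ range (LinearMap.id - Q3))
      ≤ finrank ℚ (range (LinearMap.id - Q1)) + finrank ℚ (range (LinearMap.id - Q2))
        + finrank ℚ (range (LinearMap.id - Q3))
        + finrank ℚ ↥(ker (LinearMap.id - Q1) ⊓ ker (LinearMap.id - Q2)
            ⊓ ker (LinearMap.id - Q3)) := by
  set D1 : V →ₗ[ℚ] V := LinearMap.id - Q1 with hD1
  set D2 : V →ₗ[ℚ] V := LinearMap.id - Q2 with hD2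
  set D3 : V →ₗ[ℚ] V := LinearMap.id - Q3 with hD3
  -- the two maps
  let β : V →ₗ[ℚ] (range D1 × range D2 × range D3) :=
    (rangeRestrict D1).prod ((rangeRestrict D2).prod (rangeRestrict D3))
  let δ : (range D1 × range D2 × range D3) →ₗ[ℚ] V :=
    (range D1).subtype.coprod
      ((Q1.comp (range D2).subtype).coprod ((Q1.comp Q2).comp (range D3).subtype))
  have hδ : ∀ u : range D1 × range D2 × range D3,
      δ u = (u.1 : V) + (Q1 (u.2.1 : V) + Q1 (Q2 (u.2.2 : V))) := by
    intro u; rfl
  have hβ : ∀ v, β v = (⟨D1 v, mem_range_self D1 v⟩, ⟨D2 v, mem_range_self D2 v⟩,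
      ⟨D3 v, mem_range_self D3 v⟩) := by
    intro v; rfl
  have hD1v : ∀ v, D1 v = v - Q1 v := fun v => rfl
  have hD2v : ∀ v, D2 v = v - Q2 v := fun v => rfl
  have hD3v : ∀ v, D3 v = v - Q3 v := fun v => rfl
  -- δ ∘ β = 0
  have hδβ : range β ≤ ker δ := by
    rintro _ ⟨v, rfl⟩
    rw [mem_ker, hδ, hβ]
    simp only [hD1v, hD2v, hD3v, map_sub, h]
    abel
  -- range δ contains the three ranges
  have hsup : range D1 ⊔ range D2 ⊔ range D3 ≤ range δ := by
    refine sup_le (sup_le ?_ ?_) ?_
    · rintro _ ⟨v, rfl⟩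
      refine ⟨(⟨D1 v, mem_range_self D1 v⟩, 0, 0), ?_⟩
      rw [hδ]; simp
    · rintro _ ⟨v, rfl⟩
      refine ⟨(⟨D1 (D2 v), mem_range_self D1 _⟩, ⟨D2 v, mem_range_self D2 v⟩, 0), ?_⟩
      rw [hδ]
      simp only [hD1v, Submodule.coe_zero, map_zero, add_zero]
      abel
    · rintro _ ⟨v, rfl⟩
      refine ⟨(⟨D1 (D3 v), mem_range_self D1 _⟩, ⟨D2 (D3 v), mem_range_self D2 _⟩,
        ⟨D3 v, mem_range_self D3 v⟩), ?_⟩
      rw [hδ]
      simp only [hD1v, hD2v, map_sub]
      abel
  -- kernels
  have hker : ker β = ker D1 ⊓ ker D2 ⊓ ker D3 := by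
    ext v
    simp only [Submodule.mem_inf, mem_ker, hβ, Prod.mk_eq_zero, Submodule.mk_eq_zero]
    tauto
  -- dimension counts
  have h1 := LinearMap.finrank_range_add_finrank_ker β
  have h2 := LinearMap.finrank_range_add_finrank_ker δ
  have h3 : finrank ℚ (range D1 × range D2 × range D3)
      = finrank ℚ (range D1) + (finrank ℚ (range D2) + finrank ℚ (range D3)) := by
    rw [Module.finrank_prod, Module.finrank_prod]
  have h4 : finrank ℚ (range β) ≤ finrank ℚ (ker δ) := Submodule.finrank_mono hδβ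
  have h5 : finrank ℚ ↥(range D1 ⊔ range D2 ⊔ range D3) ≤ finrank ℚ (range δ) :=
    Submodule.finrank_mono hsup
  rw [hker] at h1
  omega

end ScottAbstract

section ScottPerm

open Module LinearMap

variable {X : Type*} [Fintype X] [DecidableEq X]

/-- The operator `v ↦ v ∘ σ` on `X → ℚ`. -/
noncomputable def permOp (σ : Perm X) : (X → ℚ) →ₗ[ℚ] (X → ℚ) := LinearMap.funLeft ℚ ℚ σ

theorem permOp_apply (σ : Perm X) (v : X → ℚ) (x : X) : permOp σ v x = v (σ x) := rfl

/-- `1 - permOp σ`. -/
noncomputable def defOp (σ : Perm X) : (X → ℚ) →ₗ[ℚ] (X → ℚ) := LinearMap.id - permOp σ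

theorem defOp_apply (σ : Perm X) (v : X → ℚ) (x : X) : defOp σ v x = v x - v (σ x) := rfl

theorem mem_ker_defOp (σ : Perm X) (v : X → ℚ) : v ∈ ker (defOp σ) ↔ ∀ x, v (σ x) = v x := by
  rw [mem_ker]
  constructor
  · intro h x
    have := congrFun h x
    rw [defOp_apply, Pi.zero_apply, sub_eq_zero] at this
    exact this.symm
  · intro h
    ext x
    rw [defOp_apply, Pi.zero_apply, h, sub_self]

theorem orbCount_le_finrank_ker (σ : Perm X) : orbCount σ ≤ finrank ℚ (ker (defOp σ)) := by
  classical
  let Q := MulAction.orbitRel.Quotient (Subgroup.zpowers σ) X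
  have : Fintype Q := Fintype.ofFinite Q
  let f : (Q → ℚ) →ₗ[ℚ] (X → ℚ) := LinearMap.funLeft ℚ ℚ (Quotient.mk'' : X → Q)
  have hf : Function.Injective f :=
    LinearMap.funLeft_injective_of_surjective ℚ ℚ _ Quotient.mk''_surjective
  have hrange : range f ≤ ker (defOp σ) := by
    rintro _ ⟨w, rfl⟩
    rw [mem_ker_defOp]
    intro x
    show w (Quotient.mk'' (σ x)) = w (Quotient.mk'' x)
    congr 1
    apply Quotient.sound'
    rw [MulAction.orbitRel_apply, MulAction.mem_orbit_iff]
    exact ⟨⟨σ, Subgroup.mem_zpowers σ⟩, rfl⟩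
  have h1 : finrank ℚ (range f) = finrank ℚ (Q → ℚ) := LinearMap.finrank_range_of_inj hf
  have h2 : finrank ℚ (Q → ℚ) = Fintype.card Q := Module.finrank_fintype_fun_eq_card ℚ
  have h3 : orbCount σ = Fintype.card Q := by
    unfold orbCount
    rw [Nat.card_eq_fintype_card]
  have h4 := Submodule.finrank_mono hrange
  omega

theorem finrank_range_defOp_le (σ : Perm X) :
    finrank ℚ (range (defOp σ)) + orbCount σ ≤ Fintype.card X := by
  have h1 := LinearMap.finrank_range_add_finrank_ker (defOp σ)
  have h2 := orbCount_le_finrank_ker σ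
  have h3 : finrank ℚ (X → ℚ) = Fintype.card X := Module.finrank_fintype_fun_eq_card ℚ
  omega

variable (a b c : Perm X)

theorem finrank_inf_ker_le [Nonempty X]
    (htr : ∀ x y : X, ∃ w ∈ Subgroup.closure ({a, b, c} : Set (Perm X)), w x = y) :
    finrank ℚ ↥(ker (defOp c) ⊓ ker (defOp b) ⊓ ker (defOp a)) ≤ 1 := by
  obtain ⟨x0⟩ := ‹Nonempty X›
  have hle : ker (defOp c) ⊓ ker (defOp b) ⊓ ker (defOp a)
      ≤ Submodule.span ℚ {(fun _ => 1 : X → ℚ)} := by
    intro v hv
    simp only [Submodule.mem_inf, mem_ker_defOp] at hv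
    obtain ⟨⟨hc, hb⟩, ha⟩ := hv
    have hall : ∀ w ∈ Subgroup.closure ({a, b, c} : Set (Perm X)), ∀ x, v (w x) = v x := by
      intro w hw
      induction hw using Subgroup.closure_induction with
      | mem g hg =>
        rcases hg with rfl | rfl | rfl
        · exact ha
        · exact hb
        · exact hc
      | one => intro x; rfl
      | mul g₁ g₂ _ _ h₁ h₂ => intro x; rw [Perm.mul_apply, h₁, h₂]
      | inv g _ h₁ =>
        intro x
        have := h₁ (g⁻¹ x)
        rw [perm_apply_inv] at this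
        exact this.symm
    rw [Submodule.mem_span_singleton]
    refine ⟨v x0, ?_⟩
    ext y
    obtain ⟨w, hw, rfl⟩ := htr x0 y
    simp [hall w hw x0]
  calc finrank ℚ ↥(ker (defOp c) ⊓ ker (defOp b) ⊓ ker (defOp a))
      ≤ finrank ℚ ↥(Submodule.span ℚ {(fun _ => 1 : X → ℚ)}) := Submodule.finrank_mono hle
    _ ≤ 1 := by
      have := finrank_span_le_card (R := ℚ) ({(fun _ => 1 : X → ℚ)} : Set (X → ℚ))
      simpa using this

theorem defOp_single (σ : Perm X) (y : X) :
    defOp σ (Pi.single y 1) = Pi.single y 1 - Pi.single (σ⁻¹ y) 1 := by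
  ext x
  rw [defOp_apply, Pi.sub_apply]
  congr 1
  by_cases hxy : σ x = y
  · have : x = σ⁻¹ y := by rw [← hxy, perm_inv_apply]
    rw [hxy, this, Pi.single_eq_same, Pi.single_eq_same]
  · have : x ≠ σ⁻¹ y := by
      intro hx; apply hxy; rw [hx, perm_apply_inv]
    rw [Pi.single_eq_of_ne hxy, Pi.single_eq_of_ne this]

theorem card_le_finrank_sup_range [Nonempty X]
    (htr : ∀ x y : X, ∃ w ∈ Subgroup.closure ({a, b, c} : Set (Perm X)), w x = y) :
    Fintype.card X ≤
      finrank ℚ ↥(range (defOp c) ⊔ range (defOp b) ⊔ range (defOp a)) + 1 := by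
  obtain ⟨x0⟩ := ‹Nonempty X›
  set W : Submodule ℚ (X → ℚ) := range (defOp c) ⊔ range (defOp b) ⊔ range (defOp a) with hW
  have hgen : ∀ σ : Perm X, range (defOp σ) ≤ W → ∀ y, (Pi.single y 1 - Pi.single (σ y) 1 : X → ℚ) ∈ W := by
    intro σ hσ y
    have h1 : (Pi.single (σ y) 1 - Pi.single (σ⁻¹ (σ y)) 1 : X → ℚ) ∈ W :=
      hσ ⟨Pi.single (σ y) 1, defOp_single σ (σ y)⟩
    rw [perm_inv_apply] at h1
    have := W.neg_mem h1
    rwa [neg_sub] at this
  have hall : ∀ w ∈ Subgroup.closure ({a, b, c} : Set (Perm X)),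
      ∀ y, (Pi.single y 1 - Pi.single (w y) 1 : X → ℚ) ∈ W := by
    intro w hw
    induction hw using Subgroup.closure_induction with
    | mem g hg =>
      rcases hg with rfl | rfl | rfl
      · exact hgen _ le_sup_right
      · exact hgen _ (le_sup_of_le_left le_sup_right)
      · exact hgen _ (le_sup_of_le_left le_sup_left)
    | one => intro y; simp
    | mul g₁ g₂ _ _ h₁ h₂ =>
      intro y
      have := W.add_mem (h₂ y) (h₁ (g₂ y))
      rw [Perm.mul_apply]
      convert this using 1
      abel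
    | inv g _ h₁ =>
      intro y
      have := W.neg_mem (h₁ (g⁻¹ y))
      rw [perm_apply_inv, neg_sub] at this
      exact this
  have hmem : ∀ x : X, (Pi.single x 1 : X → ℚ) ∈ W ⊔ Submodule.span ℚ {(Pi.single x0 1 : X → ℚ)} := by
    intro x
    obtain ⟨w, hw, rfl⟩ := htr x0 x
    have h1 : (Pi.single x0 1 - Pi.single (w x0) 1 : X → ℚ) ∈ W := hall w hw x0
    have h2 : (Pi.single x0 1 : X → ℚ) ∈ Submodule.span ℚ {(Pi.single x0 1 : X → ℚ)} :=
      Submodule.subset_span rfl
    have h2' : (Pi.single x0 1 : X → ℚ) ∈ W ⊔ Submodule.span ℚ {(Pi.single x0 1 : X → ℚ)} :=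
      (le_sup_right : Submodule.span ℚ {(Pi.single x0 1 : X → ℚ)} ≤ _) h2
    have h1' : (Pi.single x0 1 - Pi.single (w x0) 1 : X → ℚ)
        ∈ W ⊔ Submodule.span ℚ {(Pi.single x0 1 : X → ℚ)} :=
      (le_sup_left : W ≤ _) h1
    have h3 := Submodule.sub_mem _ h2' h1'
    rwa [sub_sub_cancel] at h3
  have htop : W ⊔ Submodule.span ℚ {(Pi.single x0 1 : X → ℚ)} = ⊤ := by
    rw [eq_top_iff]
    intro v _
    rw [pi_eq_sum_univ' v]
    exact Submodule.sum_mem _ (fun x _ => Submodule.smul_mem _ _ (hmem x))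
  have h1 : finrank ℚ ↥(W ⊔ Submodule.span ℚ {(Pi.single x0 1 : X → ℚ)}) = Fintype.card X := by
    rw [htop, finrank_top, Module.finrank_fintype_fun_eq_card]
  have h2 := Submodule.finrank_add_le_finrank_add_finrank W
    (Submodule.span ℚ {(Pi.single x0 1 : X → ℚ)})
  have h3 : finrank ℚ ↥(Submodule.span ℚ {(Pi.single x0 1 : X → ℚ)}) ≤ 1 := by
    have := finrank_span_le_card (R := ℚ) ({(Pi.single x0 1 : X → ℚ)} : Set (X → ℚ))
    simpa using this
  omega

/-- Ree–Scott inequality for a transitive product-one triple. -/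
theorem scott_ineq [Nonempty X] (habc : a * b * c = 1)
    (htr : ∀ x y : X, ∃ w ∈ Subgroup.closure ({a, b, c} : Set (Perm X)), w x = y) :
    orbCount a + orbCount b + orbCount c + 2 * Fintype.card X ≤ 3 * Fintype.card X + 2 := by
  have hprod : ∀ v : X → ℚ, permOp c (permOp b (permOp a v)) = v := by
    intro v
    ext x
    rw [permOp_apply, permOp_apply, permOp_apply]
    have : a (b (c x)) = x := by
      have := congrArg (fun σ : Perm X => σ x) habc
      simpa [Perm.mul_apply] using this
    rw [this]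
  have hS := scott_abstract (permOp c) (permOp b) (permOp a) hprod
  have hV : finrank ℚ (X → ℚ) = Fintype.card X := Module.finrank_fintype_fun_eq_card ℚ
  have h1 := card_le_finrank_sup_range a b c htr
  have h2 := finrank_inf_ker_le a b c htr
  have ha := finrank_range_defOp_le a
  have hb := finrank_range_defOp_le b
  have hc := finrank_range_defOp_le c
  change finrank ℚ (X → ℚ) + finrank ℚ ↥(range (defOp c) ⊔ range (defOp b) ⊔ range (defOp a))
      ≤ finrank ℚ (range (defOp c)) + finrank ℚ (range (defOp b)) + finrank ℚ (range (defOp a))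
        + finrank ℚ ↥(ker (defOp c) ⊓ ker (defOp b) ⊓ ker (defOp a)) at hS
  omega

end ScottPerm

end PermGenus

open PermGenus

/-- Ree–Scott + parity: a transitive product-one triple of permutations has a genus. -/
theorem exists_genus_of_transitive {X : Type*} [Finite X] [Nonempty X]
    (a b c : Perm X) (habc : a * b * c = 1)
    (htr : ∀ x y : X, ∃ w ∈ Subgroup.closure ({a, b, c} : Set (Perm X)), w x = y) :
    ∃ g : ℕ, (2 * g : ℤ) = (Nat.card X : ℤ) - orbCount a - orbCount b - orbCount c + 2 := by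
  classical
  have := Fintype.ofFinite X
  have hS := scott_ineq a b c habc htr
  have ha := orbCount_le_card a
  have hb := orbCount_le_card b
  have hc := orbCount_le_card c
  -- parity
  have hsign : Perm.sign a * Perm.sign b * Perm.sign c = 1 := by
    rw [← map_mul, ← map_mul, habc, map_one]
  rw [sign_eq_neg_one_pow a, sign_eq_neg_one_pow b, sign_eq_neg_one_pow c, ← pow_add,
    ← pow_add] at hsign
  have heven : Even ((Fintype.card X - orbCount a) + (Fintype.card X - orbCount b)
      + (Fintype.card X - orbCount c)) := by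
    by_contra hodd
    rw [Nat.not_even_iff_odd] at hodd
    rw [hodd.neg_one_pow] at hsign
    exact absurd hsign (by decide)
  obtain ⟨m, hm⟩ := heven
  rw [Nat.card_eq_fintype_card]
  refine ⟨m + 1 - Fintype.card X, ?_⟩
  omega

end Fermat.Agent.S24
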