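import Mathlib
import Fermat.Prelude.Def_ModularCurve_GenusNumerics
import Fermat.Agent.S24.PermGenus

/-!
# S24, side B6: the genus numerics of `X₀(N)` from the four orbit counts

`exists_genus_of_counts` takes the four counts (index, `S`-orbits, `S*T`-orbits, `T`-orbits)
as hypotheses and produces the natural number `g` with
`2 g = ψ(N) - #orb(S*T) - #orb(S) - #orb(T) + 2` and `(g : ℚ) = genusFormula N`.
-/

set_option autoImplicit false

namespace Fermat.Agent.S24

open scoped MatrixGroups
open ModularCurve Equiv

namespace GenusNumerics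

/-- every `cosetPerm N γ` lies in the subgroup generated by the `S`- and `T`-permutations. -/
theorem cosetPerm_mem_closure (N : ℕ) (γ : SL(2, ℤ)) :
    cosetPerm N γ ∈ Subgroup.closure
      ({cosetPerm N ModularGroup.S, cosetPerm N ModularGroup.T} : Set (Perm (X0 N))) := by
  have hγ : γ ∈ Subgroup.closure ({ModularGroup.S, ModularGroup.T} : Set SL(2, ℤ)) := by
    rw [SpecialLinearGroup.SL2Z_generators]; exact Subgroup.mem_top γ
  induction hγ using Subgroup.closure_induction with
  | mem g hg =>
    rcases hg with rfl | rfl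
    · exact Subgroup.subset_closure (Set.mem_insert _ _)
    · exact Subgroup.subset_closure (Set.mem_insert_of_mem _ rfl)
  | one => rw [cosetPerm_one]; exact Subgroup.one_mem _
  | mul g₁ g₂ _ _ h₁ h₂ => rw [cosetPerm_mul]; exact Subgroup.mul_mem _ h₁ h₂
  | inv g _ h₁ =>
    have : cosetPerm N g⁻¹ = (cosetPerm N g)⁻¹ := by
      rw [eq_inv_iff_mul_eq_one, ← cosetPerm_mul, inv_mul_cancel, cosetPerm_one]
    rw [this]
    exact Subgroup.inv_mem _ h₁

end GenusNumerics

open GenusNumerics

/-- The product-one triple `((S*T)⁻¹, S, T)` acting on `X0 N` has a genus. -/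
theorem exists_genus_X0 (N : ℕ) [NeZero N] :
    ∃ g : ℕ, (2 * g : ℤ) = (Nat.card (X0 N) : ℤ)
        - orbCount (cosetPerm N (ModularGroup.S * ModularGroup.T))
        - orbCount (cosetPerm N ModularGroup.S)
        - orbCount (cosetPerm N ModularGroup.T) + 2 := by
  have hfin : Finite (X0 N) := Subgroup.finite_quotient_of_finiteIndex
  have hne : Nonempty (X0 N) := ⟨QuotientGroup.mk 1⟩
  set a : Perm (X0 N) := (cosetPerm N (ModularGroup.S * ModularGroup.T))⁻¹ with ha
  set b : Perm (X0 N) := cosetPerm N ModularGroup.S with hb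
  set c : Perm (X0 N) := cosetPerm N ModularGroup.T with hc
  have habc : a * b * c = 1 := by
    rw [ha, hb, hc, cosetPerm_mul, mul_assoc, inv_mul_cancel]
  have hle : Subgroup.closure ({b, c} : Set (Perm (X0 N)))
      ≤ Subgroup.closure ({a, b, c} : Set (Perm (X0 N))) :=
    Subgroup.closure_mono (Set.subset_insert _ _)
  have htr : ∀ x y : X0 N, ∃ w ∈ Subgroup.closure ({a, b, c} : Set (Perm (X0 N))), w x = y := by
    intro x y
    induction x using QuotientGroup.induction_on with
    | H g₁ =>
      induction y using QuotientGroup.induction_on with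
      | H g₂ =>
        refine ⟨cosetPerm N (g₂ * g₁⁻¹), hle (cosetPerm_mem_closure N _), ?_⟩
        rw [cosetPerm_mk, inv_mul_cancel_right]
  obtain ⟨g, hg⟩ := exists_genus_of_transitive a b c habc htr
  refine ⟨g, ?_⟩
  rw [hg, ha, orbCount_inv]

/-- Final numerics: from the four counts, the genus of `X₀(N)`. -/
theorem exists_genus_of_counts (N : ℕ) [NeZero N]
    (hcard : Nat.card (X0 N) = dedekindPsi N)
    (hS : 2 * orbCount (cosetPerm N ModularGroup.S) = dedekindPsi N + nuTwo N)
    (hST : 3 * orbCount (cosetPerm N (ModularGroup.S * ModularGroup.T))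
      = dedekindPsi N + 2 * nuThree N)
    (hT : orbCount (cosetPerm N ModularGroup.T) = cuspCount N) :
    ∃ g : ℕ, (2 * g : ℤ) = (dedekindPsi N : ℤ)
        - orbCount (cosetPerm N (ModularGroup.S * ModularGroup.T))
        - orbCount (cosetPerm N ModularGroup.S)
        - orbCount (cosetPerm N ModularGroup.T) + 2
      ∧ (g : ℚ) = genusFormula N := by
  obtain ⟨g, hg⟩ := exists_genus_X0 N
  rw [hcard] at hg
  refine ⟨g, hg, ?_⟩
  have hgQ : (2 * g : ℚ) = (dedekindPsi N : ℚ)
        - orbCount (cosetPerm N (ModularGroup.S * ModularGroup.T))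
        - orbCount (cosetPerm N ModularGroup.S)
        - orbCount (cosetPerm N ModularGroup.T) + 2 := by
    exact_mod_cast hg
  have hSQ : (2 : ℚ) * orbCount (cosetPerm N ModularGroup.S) = dedekindPsi N + nuTwo N := by
    exact_mod_cast hS
  have hSTQ : (3 : ℚ) * orbCount (cosetPerm N (ModularGroup.S * ModularGroup.T))
      = dedekindPsi N + 2 * nuThree N := by
    exact_mod_cast hST
  have hTQ : (orbCount (cosetPerm N ModularGroup.T) : ℚ) = cuspCount N := by
    exact_mod_cast hT
  unfold genusFormula
  linarith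

end Fermat.Agent.S24
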