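import Mathlib
import Fermat.Prelude.Def_ModularCurve_GenusNumerics
import Fermat.Agent.S24.GenusNumerics
import Fermat.Agent.S24.CardX0
import Fermat.Agent.S24.CosetsBasic
import Fermat.Agent.S24.CosetsCusps

/-!
# S24, side B6: the genus numerics of `X₀(N)`, unconditional

`exists_genus N` : the natural number `g` with
`2 g = ψ(N) - #orb(S*T) - #orb(S) - #orb(T) + 2` and `(g : ℚ) = genusFormula N`,
where the orbit counts are those of `S*T`, `S`, `T` acting on `X0 N = SL(2,ℤ) ⧸ Γ₀(N)`.
-/

set_option autoImplicit false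

namespace Fermat.Agent.S24

open scoped MatrixGroups
open ModularCurve

theorem two_mul_orbCount_S (N : ℕ) [NeZero N] :
    2 * orbCount (cosetPerm N ModularGroup.S) = dedekindPsi N + nuTwo N := by
  rw [← card_X0 N]
  exact Cosets.two_mul_orbCount_S_card N

theorem three_mul_orbCount_ST (N : ℕ) [NeZero N] :
    3 * orbCount (cosetPerm N (ModularGroup.S * ModularGroup.T))
      = dedekindPsi N + 2 * nuThree N := by
  rw [← card_X0 N]
  exact Cosets.three_mul_orbCount_ST_card N

/-- The genus numerics of `X₀(N)`. -/
theorem exists_genus (N : ℕ) [NeZero N] :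
    ∃ g : ℕ, (2 * g : ℤ) = (dedekindPsi N : ℤ)
        - orbCount (cosetPerm N (ModularGroup.S * ModularGroup.T))
        - orbCount (cosetPerm N ModularGroup.S)
        - orbCount (cosetPerm N ModularGroup.T) + 2
      ∧ (g : ℚ) = genusFormula N :=
  exists_genus_of_counts N (card_X0 N) (two_mul_orbCount_S N) (three_mul_orbCount_ST N)
    (orbCount_cosetPerm_T N)

end Fermat.Agent.S24
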