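import Mathlib

/-!
# S24, package B1: the analytic `j`-invariant

`jFun τ = E₄(τ)³ / Δ(τ)` on the upper half plane: holomorphy, `SL(2, ℤ)`-invariance, the
Wronskian identity `2 E₄ D E₆ - 3 D E₄ E₆ = -1728 Δ` and its consequences for the ramification
of `j`.
-/

set_option autoImplicit false

open Complex Filter Topology Function
open UpperHalfPlane hiding I
open ModularForm EisensteinSeries Derivative
open scoped Real Manifold MatrixGroups ModularForm

namespace Fermat.Agent.S24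

local notation "Δ" => ModularForm.discriminant
local notation "𝕢" => Function.Periodic.qParam

/-- The analytic `j`-invariant on the upper half plane. -/
noncomputable def jFun (τ : ℍ) : ℂ := E₄ τ ^ 3 / Δ τ

namespace JAnalytic

theorem hasDerivAt_qParam_one (z : ℂ) : HasDerivAt (𝕢 1) (𝕢 1 z * (2 * π * I)) z := by
  have h : HasDerivAt (𝕢 1) (𝕢 1 z * (2 * π * I / ((1 : ℝ) : ℂ))) z := by
    have := (((hasDerivAt_id z).const_mul (2 * π * I)).div_const ((1 : ℝ) : ℂ)).cexp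
    simp only [id_eq, mul_one] at this
    exact this
  rw [ofReal_one, div_one] at h
  exact h

/-- The normalised derivative in terms of the cusp function. -/
theorem D_eq_qParam_mul_deriv {F : ℍ → ℂ} (hper : Periodic (F ∘ ofComplex) (1 : ℝ))
    (hhol : MDiff F) (hbdd : IsBoundedAtImInfty F) (τ : ℍ) :
    D F τ = 𝕢 1 τ * deriv (cuspFunction 1 F) (𝕢 1 τ) := by
  have hq : ‖𝕢 1 (τ : ℂ)‖ < 1 := by
    simpa using UpperHalfPlane.norm_qParam_lt_one 1 τ
  have hg : HasDerivAt (cuspFunction 1 F) (deriv (cuspFunction 1 F) (𝕢 1 τ)) (𝕢 1 τ) :=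
    (differentiableAt_cuspFunction one_pos hper hhol hbdd hq).hasDerivAt
  have hcomp := hg.comp (τ : ℂ) (hasDerivAt_qParam_one τ)
  have e : F ∘ ofComplex =ᶠ[𝓝 (τ : ℂ)] cuspFunction 1 F ∘ 𝕢 1 := by
    filter_upwards [isOpen_upperHalfPlaneSet.mem_nhds τ.im_pos] with z hz
    have := eq_cuspFunction (h := 1) (f := F) ⟨z, hz⟩ one_ne_zero hper
    simp only [Function.comp_apply, ofComplex_apply_of_im_pos hz]
    exact this.symm
  have hd : deriv (F ∘ ofComplex) τ = deriv (cuspFunction 1 F) (𝕢 1 τ) * (𝕢 1 τ * (2 * π * I)) :=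
    (hcomp.congr_of_eventuallyEq e).deriv
  have hpi : (2 * π * I : ℂ) ≠ 0 := by simp [Real.pi_ne_zero]
  rw [normalizedDerivOfComplex, hd]
  field_simp

/-- `D F / q` tends to the first `q`-expansion coefficient. -/
theorem tendsto_deriv_cuspFunction {F : ℍ → ℂ} (hper : Periodic (F ∘ ofComplex) (1 : ℝ))
    (hhol : MDiff F) (hbdd : IsBoundedAtImInfty F) :
    Tendsto (fun τ : ℍ => deriv (cuspFunction 1 F) (𝕢 1 τ)) atImInfty
      (𝓝 ((qExpansion 1 F).coeff 1)) := by
  have han : AnalyticAt ℂ (cuspFunction 1 F) 0 :=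
    analyticAt_cuspFunction_zero one_pos hper hhol hbdd
  have hc : ContinuousAt (deriv (cuspFunction 1 F)) 0 := han.deriv.continuousAt
  have h1 : (qExpansion 1 F).coeff 1 = deriv (cuspFunction 1 F) 0 := by
    rw [qExpansion_coeff]
    simp
  rw [h1]
  exact hc.tendsto.comp (qParam_tendsto_atImInfty one_pos)

theorem tendsto_D_zero {F : ℍ → ℂ} (hper : Periodic (F ∘ ofComplex) (1 : ℝ))
    (hhol : MDiff F) (hbdd : IsBoundedAtImInfty F) :
    Tendsto (D F) atImInfty (𝓝 0) := by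
  have h := (qParam_tendsto_atImInfty one_pos).mul (tendsto_deriv_cuspFunction hper hhol hbdd)
  rw [zero_mul] at h
  refine h.congr fun τ => ?_
  exact (D_eq_qParam_mul_deriv hper hhol hbdd τ).symm

section LevelOne

variable {k : ℤ} (f : ModularForm 𝒮ℒ k)

theorem mf_per : Periodic (⇑f ∘ ofComplex) (1 : ℝ) :=
  SlashInvariantFormClass.periodic_comp_ofComplex f one_mem_strictPeriods_SL

theorem mf_bdd : IsBoundedAtImInfty ⇑f :=
  have : Fact (IsCusp OnePoint.infty 𝒮ℒ) :=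
    ⟨(𝒮ℒ).isCusp_of_mem_strictPeriods one_pos one_mem_strictPeriods_SL⟩
  ModularFormClass.bdd_at_infty f

theorem mf_hol : MDiff ⇑f := ModularFormClass.holo f

theorem mf_slash (γ : SL(2, ℤ)) : ⇑f ∣[k] γ = ⇑f := by
  rw [ModularForm.SL_slash]
  exact SlashInvariantFormClass.slash_action_eq f _ ⟨γ, rfl⟩

theorem mf_smul (γ : SL(2, ℤ)) (z : ℍ) : f (γ • z) = f z * denom γ z ^ k := by
  have h := congrFun (mf_slash f γ) z
  rw [ModularForm.SL_slash_apply] at h
  rw [← h, mul_assoc, ← zpow_add₀ (denom_ne_zero _ _)]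
  simp

theorem mf_tendsto : Tendsto ⇑f atImInfty (𝓝 ((qExpansion 1 f).coeff 0)) := by
  have han : AnalyticAt ℂ (cuspFunction 1 f) 0 :=
    analyticAt_cuspFunction_zero one_pos (mf_per f) (mf_hol f) (mf_bdd f)
  have h0 : (qExpansion 1 f).coeff 0 = cuspFunction 1 f 0 := by
    rw [qExpansion_coeff]
    simp
  rw [h0]
  refine (han.continuousAt.tendsto.comp (qParam_tendsto_atImInfty one_pos)).congr fun τ => ?_
  exact eq_cuspFunction τ one_ne_zero (mf_per f)

/-- The transformation rule of the normalised derivative of a level one form. -/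
theorem mf_D_smul (γ : SL(2, ℤ)) (z : ℍ) :
    D ⇑f (γ • z) = (D ⇑f z + (k : ℂ) * (2 * π * I)⁻¹ * (γ 1 0 / denom γ z) * f z) *
      denom γ z ^ (k + 2) := by
  have h := congrFun (normalizedDerivOfComplex_SL_slash (k := k) (mf_hol f) (γ := γ)) z
  rw [mf_slash f γ] at h
  simp only [Pi.sub_apply, ModularForm.SL_slash_apply] at h
  have hd : denom γ z ≠ 0 := denom_ne_zero _ _
  have h2 : D ⇑f (γ • z) * denom γ z ^ (-(k + 2)) =
      D ⇑f z + (k : ℂ) * (2 * π * I)⁻¹ * (γ 1 0 / denom γ z) * f z := by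
    linear_combination -h
  rw [← h2, mul_assoc, ← zpow_add₀ hd]
  simp

end LevelOne

/-- The Wronskian of `E₄` and `E₆`. -/
noncomputable def wronskian (τ : ℍ) : ℂ := 2 * E₄ τ * D E₆ τ - 3 * D E₄ τ * E₆ τ

theorem wronskian_mdifferentiable : MDiff wronskian := by
  have h4 : MDiff (D ⇑E₄) := normalizedDerivOfComplex_mdifferentiable (mf_hol E₄)
  have h6 : MDiff (D ⇑E₆) := normalizedDerivOfComplex_mdifferentiable (mf_hol E₆)
  exact ((mdifferentiable_const.mul (mf_hol E₄)).mul h6).sub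
    ((mdifferentiable_const.mul h4).mul (mf_hol E₆))

theorem wronskian_smul (γ : SL(2, ℤ)) (z : ℍ) :
    wronskian (γ • z) = wronskian z * denom γ z ^ (12 : ℤ) := by
  have hd : denom γ z ≠ 0 := denom_ne_zero _ _
  simp only [wronskian]
  rw [mf_smul E₄ γ z, mf_smul E₆ γ z, mf_D_smul E₄ γ z, mf_D_smul E₆ γ z]
  have e4 : denom γ z ^ ((4 : ℤ) + 2) = denom γ z ^ (6 : ℕ) := by
    rw [← zpow_natCast]; norm_num
  have e6 : denom γ z ^ ((6 : ℤ) + 2) = denom γ z ^ (8 : ℕ) := by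
    rw [← zpow_natCast]; norm_num
  have e4' : denom γ z ^ (4 : ℤ) = denom γ z ^ (4 : ℕ) := by
    rw [← zpow_natCast]; norm_num
  have e6' : denom γ z ^ (6 : ℤ) = denom γ z ^ (6 : ℕ) := by
    rw [← zpow_natCast]; norm_num
  have e12 : denom γ z ^ (12 : ℤ) = denom γ z ^ (12 : ℕ) := by
    rw [← zpow_natCast]; norm_num
  simp only [e4, e6, e4', e6', e12]
  push_cast
  ring

theorem wronskian_slash (γ : SL(2, ℤ)) : wronskian ∣[(12 : ℤ)] γ = wronskian := by
  funext z
  rw [ModularForm.SL_slash_apply, wronskian_smul, mul_assoc, ← zpow_add₀ (denom_ne_zero _ _)]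
  simp

theorem wronskian_isZeroAtImInfty : IsZeroAtImInfty wronskian := by
  have h4 := tendsto_D_zero (mf_per E₄) (mf_hol E₄) (mf_bdd E₄)
  have h6 := tendsto_D_zero (mf_per E₆) (mf_hol E₆) (mf_bdd E₆)
  have t4 := mf_tendsto E₄
  have t6 := mf_tendsto E₆
  have h := ((tendsto_const_nhds (x := (2 : ℂ))).mul t4).mul h6
  have h' := ((tendsto_const_nhds (x := (3 : ℂ))).mul h4).mul t6
  have := h.sub h'
  simp only [mul_zero, zero_mul, sub_zero] at this
  exact this

/-- The Wronskian as a cusp form of weight 12 and level one. -/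
noncomputable def wronskianCuspForm : CuspForm 𝒮ℒ 12 where
  toFun := wronskian
  slash_action_eq' A hA := by
    obtain ⟨γ, rfl⟩ := hA
    exact wronskian_slash γ
  holo' := wronskian_mdifferentiable
  zero_at_cusps' hc := by
    rw [Subgroup.IsArithmetic.isCusp_iff_isCusp_SL2Z] at hc
    rw [OnePoint.isZeroAt_iff_forall_SL2Z hc]
    intro γ _
    rw [wronskian_slash]
    exact wronskian_isZeroAtImInfty

theorem wronskianCuspForm_apply (τ : ℍ) : wronskianCuspForm τ = wronskian τ := rfl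

theorem qParam_ne_zero (τ : ℍ) : 𝕢 1 (τ : ℂ) ≠ 0 := by
  simp [Function.Periodic.qParam]

/-- The Wronskian identity `2 E₄ D E₆ - 3 D E₄ E₆ = -1728 Δ`. -/
theorem wronskian_eq (τ : ℍ) : wronskian τ = -1728 * Δ τ := by
  obtain ⟨c, hc⟩ := CuspForm.exists_smul_discriminant_of_weight_eq_twelve wronskianCuspForm
  have hfun : ∀ τ : ℍ, wronskian τ = c * Δ τ := fun τ => by
    have := congrArg (fun g : CuspForm 𝒮ℒ 12 => g τ) hc
    rw [← wronskianCuspForm_apply]
    simpa using this.symm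
  suffices hcval : c = -1728 by rw [hfun, hcval]
  set A : ℍ → ℂ := fun τ => 2 * E₄ τ * deriv (cuspFunction 1 E₆) (𝕢 1 τ) -
    3 * deriv (cuspFunction 1 E₄) (𝕢 1 τ) * E₆ τ with hA
  set P : ℍ → ℂ := fun τ => ∏' n, (1 - eta_q n τ) ^ 24 with hP
  have hW : ∀ τ : ℍ, wronskian τ = 𝕢 1 τ * A τ := fun τ => by
    simp only [wronskian, hA]
    rw [D_eq_qParam_mul_deriv (mf_per E₄) (mf_hol E₄) (mf_bdd E₄),
      D_eq_qParam_mul_deriv (mf_per E₆) (mf_hol E₆) (mf_bdd E₆)]
    ring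
  have hAP : ∀ τ : ℍ, A τ = c * P τ := fun τ => by
    have h1 := hfun τ
    rw [hW, discriminant_eq_q_prod] at h1
    have hq := qParam_ne_zero τ
    have : 𝕢 1 (τ : ℂ) * A τ = 𝕢 1 (τ : ℂ) * (c * P τ) := by rw [h1, hP]; ring
    exact mul_left_cancel₀ hq this
  have hlimA : Tendsto A atImInfty (𝓝 (2 * 1 * (-504) - 3 * 240 * 1)) := by
    have t4 := mf_tendsto E₄
    have t6 := mf_tendsto E₆
    rw [E_qExpansion_coeff_zero _ ⟨2, rfl⟩] at t4
    rw [E_qExpansion_coeff_zero _ ⟨3, rfl⟩] at t6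
    have d4 := tendsto_deriv_cuspFunction (mf_per E₄) (mf_hol E₄) (mf_bdd E₄)
    have d6 := tendsto_deriv_cuspFunction (mf_per E₆) (mf_hol E₆) (mf_bdd E₆)
    rw [E₄_qExpansion_coeff_one] at d4
    rw [E₆_qExpansion_coeff_one] at d6
    exact (((tendsto_const_nhds (x := (2 : ℂ))).mul t4).mul d6).sub
      (((tendsto_const_nhds (x := (3 : ℂ))).mul d4).mul t6)
  have hlimP : Tendsto (fun τ => c * P τ) atImInfty (𝓝 (c * 1)) :=
    (tendsto_atImInfty_tprod_one_sub_eta_q_pow).const_mul c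
  have hlimA' : Tendsto A atImInfty (𝓝 (c * 1)) := hlimP.congr fun τ => (hAP τ).symm
  have := tendsto_nhds_unique hlimA' hlimA
  rw [mul_one] at this
  rw [this]
  norm_num

end JAnalytic

open JAnalytic

theorem discriminant_mdifferentiable : MDiff Δ := CuspForm.discriminant.holo'

theorem discriminant_smul (γ : SL(2, ℤ)) (z : ℍ) : Δ (γ • z) = Δ z * denom γ z ^ (12 : ℤ) := by
  have hs : Δ ∣[(12 : ℤ)] γ = Δ := by
    rw [ModularForm.SL_slash]
    exact SlashInvariantFormClass.slash_action_eq CuspForm.discriminant _ ⟨γ, rfl⟩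
  have h := congrFun hs z
  rw [ModularForm.SL_slash_apply] at h
  rw [← h, mul_assoc, ← zpow_add₀ (denom_ne_zero _ _)]
  simp

theorem jFun_mul_discriminant (τ : ℍ) : jFun τ * Δ τ = E₄ τ ^ 3 := by
  rw [jFun, div_mul_cancel₀ _ (discriminant_ne_zero τ)]

theorem jFun_sub_mul_discriminant (τ : ℍ) : (jFun τ - 1728) * Δ τ = E₆ τ ^ 2 := by
  rw [sub_mul, jFun_mul_discriminant, discriminant_eq_E₄_cube_sub_E₆_sq]
  ring

theorem jFun_sub_1728 (τ : ℍ) : jFun τ - 1728 = E₆ τ ^ 2 / Δ τ := by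
  rw [eq_div_iff (discriminant_ne_zero τ), jFun_sub_mul_discriminant]

theorem jFun_eq_zero_iff (τ : ℍ) : jFun τ = 0 ↔ E₄ τ = 0 := by
  rw [jFun, div_eq_zero_iff]
  simp [discriminant_ne_zero τ]

theorem jFun_eq_1728_iff (τ : ℍ) : jFun τ = 1728 ↔ E₆ τ = 0 := by
  rw [← sub_eq_zero, jFun_sub_1728, div_eq_zero_iff]
  simp [discriminant_ne_zero τ]

theorem jFun_mdifferentiable : MDiff jFun := by
  rw [UpperHalfPlane.mdifferentiable_iff]
  intro z hz
  have h4 : DifferentiableAt ℂ (⇑E₄ ∘ ofComplex) z := by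
    have := UpperHalfPlane.mdifferentiableAt_iff.mp ((mf_hol E₄) ⟨z, hz⟩)
    simpa using this
  have hΔ : DifferentiableAt ℂ (Δ ∘ ofComplex) z := by
    have := UpperHalfPlane.mdifferentiableAt_iff.mp (discriminant_mdifferentiable ⟨z, hz⟩)
    simpa using this
  have : DifferentiableAt ℂ (fun w => (⇑E₄ ∘ ofComplex) w ^ 3 / (Δ ∘ ofComplex) w) z :=
    (h4.pow 3).div hΔ (discriminant_ne_zero _)
  exact this.differentiableWithinAt

theorem jFun_smul (γ : SL(2, ℤ)) (z : ℍ) : jFun (γ • z) = jFun z := by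
  have hd : denom γ z ≠ 0 := denom_ne_zero _ _
  simp only [jFun]
  rw [mf_smul E₄ γ z, discriminant_smul]
  have e4 : denom γ z ^ (4 : ℤ) = denom γ z ^ (4 : ℕ) := by
    rw [← zpow_natCast]; norm_num
  have e12 : denom γ z ^ (12 : ℤ) = denom γ z ^ (12 : ℕ) := by
    rw [← zpow_natCast]; norm_num
  simp only [e4, e12]
  have hΔ := discriminant_ne_zero z
  field_simp

/-- `j(z) q(z) → 1` at `i∞`. -/
theorem tendsto_jFun_mul_qParam :
    Tendsto (fun z : ℍ => jFun z * cexp (2 * π * I * z)) atImInfty (𝓝 1) := by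
  have t4 := mf_tendsto E₄
  rw [E_qExpansion_coeff_zero _ ⟨2, rfl⟩] at t4
  have tP := tendsto_atImInfty_tprod_one_sub_eta_q_pow
  have h := (t4.pow 3).div tP one_ne_zero
  simp only [one_pow, div_one] at h
  refine h.congr fun z => ?_
  have hq : cexp (2 * π * I * z) = 𝕢 1 (z : ℂ) := by simp [Function.Periodic.qParam]
  have hqne := qParam_ne_zero z
  have hΔ := discriminant_ne_zero z
  have hprod := discriminant_eq_q_prod z
  rw [hq, jFun]
  rw [hprod] at hΔ ⊢
  have hP : (∏' n, (1 - eta_q n z) ^ 24) ≠ 0 := right_ne_zero_of_mul hΔ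
  simp only [Pi.div_apply]
  field_simp

theorem hasDerivAt_comp_ofComplex {F : ℍ → ℂ} (hF : MDiff F) (τ : ℍ) :
    HasDerivAt (F ∘ ofComplex) (2 * π * I * D F τ) τ := by
  have hd : DifferentiableAt ℂ (F ∘ ofComplex) τ :=
    UpperHalfPlane.mdifferentiableAt_iff.mp (hF τ)
  have hpi : (2 * π * I : ℂ) ≠ 0 := by simp [Real.pi_ne_zero]
  have := hd.hasDerivAt
  rw [normalizedDerivOfComplex, ← mul_assoc, mul_inv_cancel₀ hpi, one_mul]
  exact this

/-- The derivative of `j`: `j' = -2πi E₄² E₆ / Δ`. -/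
theorem hasDerivAt_jFun (τ : ℍ) :
    HasDerivAt (jFun ∘ ofComplex) (-(2 * π * I) * E₄ τ ^ 2 * E₆ τ / Δ τ) τ := by
  have h4 := hasDerivAt_comp_ofComplex (mf_hol E₄) τ
  have h6 := hasDerivAt_comp_ofComplex (mf_hol E₆) τ
  have hfun : jFun ∘ ofComplex = fun z => 1728 * (⇑E₄ ∘ ofComplex) z ^ 3 /
      ((⇑E₄ ∘ ofComplex) z ^ 3 - (⇑E₆ ∘ ofComplex) z ^ 2) := by
    funext z
    simp only [Function.comp_apply, jFun, discriminant_eq_E₄_cube_sub_E₆_sq]
    rw [div_div_eq_mul_div]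
    ring
  have hΔ := discriminant_ne_zero τ
  have hW := wronskian_eq τ
  rw [wronskian, discriminant_eq_E₄_cube_sub_E₆_sq] at hW
  rw [discriminant_eq_E₄_cube_sub_E₆_sq] at hΔ ⊢
  have hden : (⇑E₄ ∘ ofComplex) (τ : ℂ) ^ 3 - (⇑E₆ ∘ ofComplex) (τ : ℂ) ^ 2 ≠ 0 := by
    simp only [Function.comp_apply, ofComplex_apply]
    intro h
    apply hΔ
    rw [h, zero_div]
  rw [hfun]
  have hd := ((h4.pow 3).const_mul (1728 : ℂ)).div ((h4.pow 3).sub (h6.pow 2)) hden
  refine hd.congr_deriv ?_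
  simp only [Function.comp_apply, ofComplex_apply, Pi.pow_apply, Pi.sub_apply, Nat.cast_ofNat,
    Nat.add_one_sub_one, pow_one] at hden ⊢
  generalize E₄ τ = a at *
  generalize E₆ τ = b at *
  generalize D (⇑E₄) τ = a' at *
  generalize D (⇑E₆) τ = b' at *
  generalize (2 * π * I : ℂ) = c at *
  have hW' : 2 * a * b' - 3 * a' * b = -(a ^ 3 - b ^ 2) := by
    rw [hW]; ring
  field_simp
  linear_combination (c * a ^ 2 * b) * hW'

theorem two_pi_I_ne_zero : (2 * π * I : ℂ) ≠ 0 := by simp [Real.pi_ne_zero]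

/-- `j` is unramified away from `j = 0` and `j = 1728`. -/
theorem deriv_jFun_ne_zero {τ : ℍ} (h0 : jFun τ ≠ 0) (h1 : jFun τ ≠ 1728) :
    deriv (jFun ∘ ofComplex) τ ≠ 0 := by
  rw [(hasDerivAt_jFun τ).deriv]
  have h4 : E₄ τ ≠ 0 := fun h => h0 ((jFun_eq_zero_iff τ).mpr h)
  have h6 : E₆ τ ≠ 0 := fun h => h1 ((jFun_eq_1728_iff τ).mpr h)
  have hΔ := discriminant_ne_zero τ
  have hpi := two_pi_I_ne_zero
  exact div_ne_zero (mul_ne_zero (mul_ne_zero (neg_ne_zero.mpr hpi) (pow_ne_zero 2 h4)) h6) hΔ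

theorem E₆_ne_zero_of_E₄_eq_zero {τ : ℍ} (h : E₄ τ = 0) : E₆ τ ≠ 0 := by
  intro h6
  have := discriminant_ne_zero τ
  rw [discriminant_eq_E₄_cube_sub_E₆_sq, h, h6] at this
  simp at this

theorem E₄_ne_zero_of_E₆_eq_zero {τ : ℍ} (h : E₆ τ = 0) : E₄ τ ≠ 0 := fun h4 =>
  E₆_ne_zero_of_E₄_eq_zero h4 h

/-- The zeros of `E₄` are simple. -/
theorem deriv_E₄_ne_zero {τ : ℍ} (h : E₄ τ = 0) : deriv (⇑E₄ ∘ ofComplex) τ ≠ 0 := by
  rw [(hasDerivAt_comp_ofComplex (mf_hol E₄) τ).deriv]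
  have hW := wronskian_eq τ
  rw [wronskian, h] at hW
  have hΔ := discriminant_ne_zero τ
  refine mul_ne_zero two_pi_I_ne_zero fun hD => ?_
  rw [hD] at hW
  simp at hW
  exact hΔ hW

/-- The zeros of `E₆` are simple. -/
theorem deriv_E₆_ne_zero {τ : ℍ} (h : E₆ τ = 0) : deriv (⇑E₆ ∘ ofComplex) τ ≠ 0 := by
  rw [(hasDerivAt_comp_ofComplex (mf_hol E₆) τ).deriv]
  have hW := wronskian_eq τ
  rw [wronskian, h] at hW
  have hΔ := discriminant_ne_zero τ
  refine mul_ne_zero two_pi_I_ne_zero fun hD => ?_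
  rw [hD] at hW
  simp at hW
  exact hΔ hW

/-- The point `ρ = e^{2πi/3}`. -/
noncomputable def rho : ℍ :=
  ⟨-1 / 2 + (Real.sqrt 3 / 2 : ℝ) * I, by
    have : (-1 / 2 + ((Real.sqrt 3 / 2 : ℝ) : ℂ) * I).im = Real.sqrt 3 / 2 := by simp
    rw [this]
    positivity⟩

theorem coe_rho : (rho : ℂ) = -1 / 2 + (Real.sqrt 3 / 2 : ℝ) * I := rfl

theorem rho_sq_add : (rho : ℂ) ^ 2 + rho + 1 = 0 := by
  have h3 : ((Real.sqrt 3 : ℝ) : ℂ) ^ 2 = 3 := by
    rw [← ofReal_pow, Real.sq_sqrt (by norm_num : (0 : ℝ) ≤ 3)]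
    norm_num
  rw [coe_rho]
  push_cast
  linear_combination (-1 / 4 : ℂ) * h3 + ((Real.sqrt 3 : ℂ) ^ 2 / 4) * I_sq

theorem rho_add_one_ne_zero : (rho : ℂ) + 1 ≠ 0 := by
  intro h
  have him := congrArg Complex.im h
  have hpos := rho.im_pos
  simp only [add_im, one_im, add_zero, zero_im] at him
  rw [UpperHalfPlane.coe_im] at him
  exact hpos.ne' him

/-- The elliptic element `S * T` of order 3 (modulo `±1`) fixing `ρ`. -/
def gST : SL(2, ℤ) := ModularGroup.S * ModularGroup.T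

theorem gST_00 : (gST 0 0 : ℤ) = 0 := by decide
theorem gST_01 : (gST 0 1 : ℤ) = -1 := by decide
theorem gST_10 : (gST 1 0 : ℤ) = 1 := by decide
theorem gST_11 : (gST 1 1 : ℤ) = 1 := by decide

theorem denom_gST (z : ℍ) : denom gST z = (z : ℂ) + 1 := by
  rw [ModularGroup.denom_apply, gST_10, gST_11]
  simp

theorem gST_smul_rho : gST • rho = rho := by
  apply UpperHalfPlane.ext
  rw [UpperHalfPlane.coe_specialLinearGroup_apply, gST_00, gST_01, gST_10, gST_11]
  have h := rho_sq_add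
  have hne := rho_add_one_ne_zero
  simp only [algebraMap_int_eq, eq_intCast, Int.cast_zero, ofReal_zero, zero_mul, Int.cast_neg,
    Int.cast_one, ofReal_neg, ofReal_one, zero_add, one_mul]
  rw [div_eq_iff hne]
  linear_combination -h

theorem S_smul_I : ModularGroup.S • UpperHalfPlane.I = UpperHalfPlane.I := by
  apply UpperHalfPlane.ext
  rw [UpperHalfPlane.modular_S_smul]
  simp

theorem denom_gST_rho_sq : denom gST rho ^ 2 = (rho : ℂ) := by
  rw [denom_gST]
  linear_combination rho_sq_add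

theorem rho_sq_ne_one : (rho : ℂ) ^ 2 ≠ 1 := by
  intro h1
  have h2 := rho_sq_add
  rw [h1] at h2
  have him := congrArg Complex.im h2
  have hpos := rho.im_pos
  simp only [add_im, one_im, add_zero, zero_im, zero_add] at him
  rw [UpperHalfPlane.coe_im] at him
  exact hpos.ne' him

theorem E₄_rho : E₄ rho = 0 := by
  have h := mf_smul E₄ gST rho
  rw [gST_smul_rho] at h
  have e4 : denom gST rho ^ (4 : ℤ) = (denom gST rho ^ 2) ^ 2 := by
    rw [← pow_mul, ← zpow_natCast]; norm_num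
  have h' : E₄ rho = E₄ rho * (rho : ℂ) ^ 2 := by
    have := h
    simp only [e4, denom_gST_rho_sq] at this
    exact this
  have h3 : E₄ rho * ((rho : ℂ) ^ 2 - 1) = 0 := by linear_combination -h'
  rcases mul_eq_zero.mp h3 with h4 | h4
  · exact h4
  · exact absurd (sub_eq_zero.mp h4) rho_sq_ne_one

theorem E₆_I : E₆ UpperHalfPlane.I = 0 := by
  have h := mf_smul E₆ ModularGroup.S UpperHalfPlane.I
  rw [S_smul_I, ModularGroup.denom_S] at h
  have e6 : ((UpperHalfPlane.I : ℍ) : ℂ) ^ (6 : ℤ) = -1 := by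
    have : ((UpperHalfPlane.I : ℍ) : ℂ) = Complex.I := rfl
    rw [this, show (6 : ℤ) = ((6 : ℕ) : ℤ) by norm_num, zpow_natCast]
    have h2 : Complex.I ^ 6 = (Complex.I ^ 2) ^ 3 := by ring
    rw [h2, Complex.I_sq]
    norm_num
  have h' : E₆ UpperHalfPlane.I = E₆ UpperHalfPlane.I * (-1) := by
    have := h
    simp only [e6] at this
    exact this
  have h2 : (2 : ℂ) * E₆ UpperHalfPlane.I = 0 := by linear_combination h'
  exact (mul_eq_zero.mp h2).resolve_left two_ne_zero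

theorem jFun_rho : jFun rho = 0 := (jFun_eq_zero_iff rho).mpr E₄_rho

theorem jFun_I : jFun UpperHalfPlane.I = 1728 := (jFun_eq_1728_iff _).mpr E₆_I

namespace JAnalytic

theorem isBoundedAtImInfty_of_tendsto {f : ℍ → ℂ} {c : ℂ} (h : Tendsto f atImInfty (𝓝 c)) :
    IsBoundedAtImInfty f :=
  h.isBigO_one ℝ

/-- The function `E₄³ - a Δ`. -/
noncomputable def shiftForm (a : ℂ) (τ : ℍ) : ℂ := E₄ τ ^ 3 - a * Δ τ

theorem shiftForm_smul (a : ℂ) (γ : SL(2, ℤ)) (z : ℍ) :
    shiftForm a (γ • z) = shiftForm a z * denom γ z ^ (12 : ℤ) := by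
  simp only [shiftForm]
  rw [mf_smul E₄ γ z, discriminant_smul]
  have e4 : denom γ z ^ (4 : ℤ) = denom γ z ^ (4 : ℕ) := by
    rw [← zpow_natCast]; norm_num
  have e12 : denom γ z ^ (12 : ℤ) = denom γ z ^ (12 : ℕ) := by
    rw [← zpow_natCast]; norm_num
  simp only [e4, e12]
  ring

theorem shiftForm_tendsto (a : ℂ) : Tendsto (shiftForm a) atImInfty (𝓝 1) := by
  have t4 := mf_tendsto E₄
  rw [E_qExpansion_coeff_zero _ ⟨2, rfl⟩] at t4
  have tΔ : Tendsto Δ atImInfty (𝓝 0) := discriminant_isZeroAtImInfty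
  have := (t4.pow 3).sub (tΔ.const_mul a)
  simp only [one_pow, mul_zero, sub_zero] at this
  exact this

theorem shiftForm_differentiableAt (a : ℂ) (τ : ℍ) :
    DifferentiableAt ℂ (shiftForm a ∘ ofComplex) τ := by
  have h4 : DifferentiableAt ℂ (⇑E₄ ∘ ofComplex) τ :=
    UpperHalfPlane.mdifferentiableAt_iff.mp ((mf_hol E₄) τ)
  have hΔ : DifferentiableAt ℂ (Δ ∘ ofComplex) τ :=
    UpperHalfPlane.mdifferentiableAt_iff.mp (discriminant_mdifferentiable τ)
  exact (h4.pow 3).sub (hΔ.const_mul a)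

theorem invShift_slash (a : ℂ) (hf : ∀ τ : ℍ, shiftForm a τ ≠ 0) (γ : SL(2, ℤ)) :
    (fun τ => (shiftForm a τ)⁻¹) ∣[(-12 : ℤ)] γ = fun τ => (shiftForm a τ)⁻¹ := by
  funext z
  rw [ModularForm.SL_slash_apply, shiftForm_smul]
  have hd : denom γ z ≠ 0 := denom_ne_zero _ _
  have e12 : denom γ z ^ (12 : ℤ) = denom γ z ^ (12 : ℕ) := by
    rw [← zpow_natCast]; norm_num
  have e12' : denom γ z ^ (-(-12 : ℤ)) = denom γ z ^ (12 : ℕ) := by
    rw [neg_neg, ← zpow_natCast]; norm_num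
  rw [e12, e12']
  have := hf z
  field_simp

/-- If `E₄³ - aΔ` had no zero, its inverse would be a modular form of weight `-12`. -/
noncomputable def invShiftForm (a : ℂ) (hf : ∀ τ : ℍ, shiftForm a τ ≠ 0) : ModularForm 𝒮ℒ (-12) where
  toFun := fun τ => (shiftForm a τ)⁻¹
  slash_action_eq' A hA := by
    obtain ⟨γ, rfl⟩ := hA
    exact invShift_slash a hf γ
  holo' := by
    rw [UpperHalfPlane.mdifferentiable_iff]
    intro z hz
    have h1 := shiftForm_differentiableAt a ⟨z, hz⟩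
    have h2 : DifferentiableAt ℂ (fun w => ((shiftForm a ∘ ofComplex) w)⁻¹) z :=
      h1.inv (hf _)
    exact h2.differentiableWithinAt
  bdd_at_cusps' hc := by
    rw [Subgroup.IsArithmetic.isCusp_iff_isCusp_SL2Z] at hc
    rw [OnePoint.isBoundedAt_iff_forall_SL2Z hc]
    intro γ _
    rw [invShift_slash a hf γ]
    have := (shiftForm_tendsto a).inv₀ one_ne_zero
    exact isBoundedAtImInfty_of_tendsto this

end JAnalytic

/-- The `j`-invariant takes every complex value. -/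
theorem jFun_surjective : Function.Surjective jFun := by
  intro a
  by_contra hne
  simp only [not_exists] at hne
  have hf : ∀ τ : ℍ, shiftForm a τ ≠ 0 := fun τ h => hne τ (by
    rw [jFun, div_eq_iff (discriminant_ne_zero τ)]
    rw [shiftForm] at h
    linear_combination h)
  have h0 := ModularFormClass.levelOne_neg_weight_eq_zero (by norm_num : (-12 : ℤ) < 0)
    (invShiftForm a hf)
  have h1 := congrFun h0 UpperHalfPlane.I
  exact inv_ne_zero (hf UpperHalfPlane.I) h1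

namespace JAnalytic

/-- The function `j · q`, which extends holomorphically to the cusp. -/
noncomputable def jMulQ (z : ℍ) : ℂ := jFun z * 𝕢 1 z

theorem periodic_jFun : Periodic (jFun ∘ ofComplex) (1 : ℝ) := by
  intro w
  have h4 := mf_per E₄ w
  have hΔ : (Δ ∘ ofComplex) (w + (1 : ℝ)) = (Δ ∘ ofComplex) w :=
    SlashInvariantFormClass.periodic_comp_ofComplex CuspForm.discriminant
      one_mem_strictPeriods_SL w
  simp only [Function.comp_apply] at h4 hΔ ⊢
  simp only [jFun, h4, hΔ]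

theorem periodic_qParam_ofComplex :
    Periodic (fun w : ℂ => 𝕢 1 ((ofComplex w : ℍ) : ℂ)) (1 : ℝ) := by
  intro w
  by_cases hw : 0 < w.im
  · have hw' : 0 < (w + (1 : ℝ)).im := by simpa using hw
    simp only [ofComplex_apply_of_im_pos hw, ofComplex_apply_of_im_pos hw', UpperHalfPlane.coe_mk]
    simp only [Function.Periodic.qParam, ofReal_one, div_one]
    rw [mul_add, mul_one, Complex.exp_add, Complex.exp_two_pi_mul_I, mul_one]
  · have hw0 : w.im ≤ 0 := not_lt.mp hw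
    have hw' : (w + (1 : ℝ)).im ≤ 0 := by simpa using hw0
    simp only [ofComplex_apply_of_im_nonpos hw0, ofComplex_apply_of_im_nonpos hw']

theorem periodic_jMulQ : Periodic (jMulQ ∘ ofComplex) (1 : ℝ) := by
  intro w
  have h1 := periodic_jFun w
  have h2 := periodic_qParam_ofComplex w
  simp only [Function.comp_apply] at h1 h2 ⊢
  simp only [jMulQ, h1, h2]

theorem jMulQ_tendsto : Tendsto jMulQ atImInfty (𝓝 1) := by
  refine tendsto_jFun_mul_qParam.congr fun z => ?_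
  simp [jMulQ, Function.Periodic.qParam]

theorem jMulQ_mdifferentiable : MDiff jMulQ := by
  rw [UpperHalfPlane.mdifferentiable_iff]
  intro z hz
  have h1 : DifferentiableAt ℂ (jFun ∘ ofComplex) z :=
    UpperHalfPlane.mdifferentiableAt_iff.mp (jFun_mdifferentiable ⟨z, hz⟩)
  have h2 : DifferentiableAt ℂ (𝕢 1) z := (hasDerivAt_qParam_one z).differentiableAt
  have h3 : DifferentiableAt ℂ (fun w => (jFun ∘ ofComplex) w * 𝕢 1 w) z := h1.mul h2
  refine h3.differentiableWithinAt.congr (fun w hw => ?_) ?_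
  · simp only [Function.comp_apply, jMulQ]
    rw [ofComplex_apply_of_im_pos hw]
  · simp only [Function.comp_apply, jMulQ]
    rw [ofComplex_apply_of_im_pos hz]

end JAnalytic

/-- `j` grows at most like `e^{2π Im z}` on `Im z ≥ 1`. -/
theorem exists_bound_jFun :
    ∃ C : ℝ, ∀ z : ℍ, 1 ≤ z.im → ‖jFun z‖ ≤ C * Real.exp (2 * π * z.im) := by
  have hbdd : IsBoundedAtImInfty jMulQ := isBoundedAtImInfty_of_tendsto jMulQ_tendsto
  have hdiff : DifferentiableOn ℂ (cuspFunction 1 jMulQ) (Metric.ball 0 1) :=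
    differentiableOn_cuspFunction_ball one_pos periodic_jMulQ jMulQ_mdifferentiable hbdd
  set r : ℝ := Real.exp (-2 * π) with hr
  have hr1 : r < 1 := by
    rw [hr, Real.exp_lt_one_iff]
    have := Real.pi_pos
    linarith
  have hsub : Metric.closedBall (0 : ℂ) r ⊆ Metric.ball 0 1 :=
    Metric.closedBall_subset_ball hr1
  obtain ⟨C, hC⟩ := (isCompact_closedBall (0 : ℂ) r).exists_bound_of_continuousOn
    (hdiff.continuousOn.mono hsub)
  refine ⟨C, fun z hz => ?_⟩
  have hq : ‖𝕢 1 (z : ℂ)‖ = Real.exp (-2 * π * z.im) := by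
    rw [Function.Periodic.norm_qParam]
    simp
  have hqr : ‖𝕢 1 (z : ℂ)‖ ≤ r := by
    rw [hq, hr, Real.exp_le_exp]
    have := Real.pi_pos
    nlinarith
  have hmem : 𝕢 1 (z : ℂ) ∈ Metric.closedBall (0 : ℂ) r := by
    simpa using hqr
  have hval : cuspFunction 1 jMulQ (𝕢 1 z) = jMulQ z :=
    eq_cuspFunction z one_ne_zero periodic_jMulQ
  have h1 := hC _ hmem
  rw [hval, jMulQ, norm_mul, hq] at h1
  have hpos : 0 < Real.exp (-2 * π * z.im) := Real.exp_pos _
  have h2 : Real.exp (2 * π * z.im) * Real.exp (-2 * π * z.im) = 1 := by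
    rw [← Real.exp_add]
    simp
  calc ‖jFun z‖ = ‖jFun z‖ * Real.exp (-2 * π * z.im) * Real.exp (2 * π * z.im) := by
        rw [mul_assoc, mul_comm (Real.exp (-2 * π * z.im)), h2, mul_one]
    _ ≤ C * Real.exp (2 * π * z.im) :=
        mul_le_mul_of_nonneg_right h1 (Real.exp_pos _).le

end Fermat.Agent.S24
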