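/-
S24 project, side B, package B2c: Taylor expansion of holomorphic functions on the upper half
plane at a point `τ0`, in the Cayley coordinate `w = (τ - τ0) / (τ - conj τ0)`, as an injective
`ℂ`-algebra homomorphism into `PowerSeries ℂ`; behaviour under elements of `SL(2, ℤ)` fixing `τ0`.
-/
import Mathlib

set_option autoImplicit false

open UpperHalfPlane Complex
open scoped Manifold MatrixGroups ComplexConjugate Nat Topology

namespace Fermat.Agent.S24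

/-- The subalgebra of holomorphic functions on the upper half plane. -/
def holAlg : Subalgebra ℂ (ℍ → ℂ) where
  carrier := {f | MDifferentiable 𝓘(ℂ) 𝓘(ℂ) f}
  mul_mem' := fun {_ _} hf hg => MDifferentiable.mul hf hg
  one_mem' := mdifferentiable_const
  add_mem' := fun {_ _} hf hg => MDifferentiable.add hf hg
  zero_mem' := mdifferentiable_const
  algebraMap_mem' := fun _ => mdifferentiable_const

theorem mem_holAlg {f : ℍ → ℂ} : f ∈ holAlg ↔ MDifferentiable 𝓘(ℂ) 𝓘(ℂ) f := Iff.rfl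

/-- The inverse Cayley map attached to `τ0`: it maps the open unit disc onto the upper half
plane, and `0` to `τ0`. -/
noncomputable def cay (τ0 : ℍ) (w : ℂ) : ℂ := ((τ0 : ℂ) - conj (τ0 : ℂ) * w) / (1 - w)

/-- The Cayley coordinate attached to `τ0`. -/
noncomputable def cayInv (τ0 : ℍ) (τ : ℂ) : ℂ := (τ - (τ0 : ℂ)) / (τ - conj (τ0 : ℂ))

theorem cay_zero (τ0 : ℍ) : cay τ0 0 = τ0 := by simp [cay]

theorem cay_im (τ0 : ℍ) (w : ℂ) :
    (cay τ0 w).im = τ0.im * (1 - normSq w) / normSq (1 - w) := by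
  unfold cay
  rw [Complex.div_im]
  simp only [Complex.sub_im, Complex.sub_re, Complex.mul_im, Complex.mul_re, Complex.conj_re,
    Complex.conj_im, Complex.one_re, Complex.one_im, UpperHalfPlane.coe_im, normSq_apply]
  ring

theorem cay_one_sub_ne_zero {w : ℂ} (hw : ‖w‖ < 1) : (1 : ℂ) - w ≠ 0 := by
  intro h
  have : w = 1 := by linear_combination -h
  rw [this] at hw
  simp at hw

theorem cay_im_pos (τ0 : ℍ) {w : ℂ} (hw : ‖w‖ < 1) : 0 < (cay τ0 w).im := by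
  rw [cay_im]
  have h1 : normSq w < 1 := by
    rw [normSq_eq_norm_sq]
    have := norm_nonneg w
    nlinarith
  have h2 : 0 < normSq (1 - w) := normSq_pos.mpr (cay_one_sub_ne_zero hw)
  have h3 := τ0.im_pos
  positivity

theorem cay_coe_sub_conj_ne_zero (τ0 : ℍ) : (τ0 : ℂ) - conj (τ0 : ℂ) ≠ 0 := by
  intro h
  have h1 := congrArg Complex.im h
  simp only [Complex.sub_im, Complex.conj_im, UpperHalfPlane.coe_im, Complex.zero_im] at h1
  have := τ0.im_pos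
  linarith

theorem cay_sub_conj_ne_zero (τ0 τ : ℍ) : (τ : ℂ) - conj (τ0 : ℂ) ≠ 0 := by
  intro h
  have h1 := congrArg Complex.im h
  simp only [Complex.sub_im, Complex.conj_im, UpperHalfPlane.coe_im, Complex.zero_im] at h1
  have := τ0.im_pos
  have := τ.im_pos
  linarith

theorem norm_cayInv_lt_one (τ0 τ : ℍ) : ‖cayInv τ0 τ‖ < 1 := by
  unfold cayInv
  rw [norm_div, div_lt_one (norm_pos_iff.mpr (cay_sub_conj_ne_zero τ0 τ))]
  have h := τ0.im_pos
  have h' := τ.im_pos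
  rw [Complex.norm_def, Complex.norm_def]
  apply Real.sqrt_lt_sqrt (normSq_nonneg _)
  simp only [normSq_apply, Complex.sub_re, Complex.sub_im, Complex.conj_re, Complex.conj_im,
    UpperHalfPlane.coe_im, UpperHalfPlane.coe_re]
  nlinarith [mul_pos h h']

theorem cay_cayInv (τ0 τ : ℍ) : cay τ0 (cayInv τ0 τ) = τ := by
  unfold cay cayInv
  have h1 := cay_sub_conj_ne_zero τ0 τ
  have h2 := cay_coe_sub_conj_ne_zero τ0
  have h3 : (1 : ℂ) - ((τ : ℂ) - τ0) / (τ - conj (τ0 : ℂ)) = ((τ0 : ℂ) - conj (τ0 : ℂ)) / (τ - conj (τ0 : ℂ)) := by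
    field_simp
    ring
  rw [h3]
  field_simp
  ring

theorem cayInv_cay (τ0 : ℍ) {w : ℂ} (hw : (1 : ℂ) - w ≠ 0) : cayInv τ0 (cay τ0 w) = w := by
  unfold cay cayInv
  have h2 := cay_coe_sub_conj_ne_zero τ0
  have e1 : ((τ0 : ℂ) - conj (τ0 : ℂ) * w) / (1 - w) - τ0 = w * ((τ0 : ℂ) - conj (τ0 : ℂ)) / (1 - w) := by
    field_simp
    ring
  have e2 : ((τ0 : ℂ) - conj (τ0 : ℂ) * w) / (1 - w) - conj (τ0 : ℂ) = ((τ0 : ℂ) - conj (τ0 : ℂ)) / (1 - w) := by
    field_simp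
    ring
  rw [e1, e2]
  field_simp

/-- A function on the upper half plane, read in the Cayley coordinate at `τ0`. -/
noncomputable def cayFun (τ0 : ℍ) (f : ℍ → ℂ) (w : ℂ) : ℂ := f (ofComplex (cay τ0 w))

theorem cayFun_apply (τ0 : ℍ) (f : ℍ → ℂ) (w : ℂ) : cayFun τ0 f w = f (ofComplex (cay τ0 w)) :=
  rfl

theorem cayFun_zero_apply (τ0 : ℍ) (f : ℍ → ℂ) : cayFun τ0 f 0 = f τ0 := by
  rw [cayFun_apply, cay_zero, ofComplex_apply]

theorem cayFun_cayInv (τ0 : ℍ) (f : ℍ → ℂ) (τ : ℍ) : cayFun τ0 f (cayInv τ0 τ) = f τ := by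
  rw [cayFun_apply, cay_cayInv, ofComplex_apply]

theorem differentiableOn_cay (τ0 : ℍ) : DifferentiableOn ℂ (cay τ0) (Metric.ball 0 1) := by
  unfold cay
  refine DifferentiableOn.div ?_ ?_ ?_
  · fun_prop
  · fun_prop
  · intro w hw
    exact cay_one_sub_ne_zero (by simpa using hw)

theorem differentiableOn_cayFun (τ0 : ℍ) {f : ℍ → ℂ} (hf : MDifferentiable 𝓘(ℂ) 𝓘(ℂ) f) :
    DifferentiableOn ℂ (cayFun τ0 f) (Metric.ball 0 1) := by
  have h1 := UpperHalfPlane.mdifferentiable_iff.mp hf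
  have h2 : DifferentiableOn ℂ ((f ∘ ofComplex) ∘ cay τ0) (Metric.ball 0 1) :=
    h1.comp (differentiableOn_cay τ0) (fun w hw => cay_im_pos τ0 (by simpa using hw))
  exact h2

theorem analyticAt_cayFun (τ0 : ℍ) {f : ℍ → ℂ} (hf : MDifferentiable 𝓘(ℂ) 𝓘(ℂ) f) :
    AnalyticAt ℂ (cayFun τ0 f) 0 :=
  (differentiableOn_cayFun τ0 hf).analyticAt (Metric.ball_mem_nhds 0 one_pos)

theorem analyticOnNhd_cayFun (τ0 : ℍ) {f : ℍ → ℂ} (hf : MDifferentiable 𝓘(ℂ) 𝓘(ℂ) f) :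
    AnalyticOnNhd ℂ (cayFun τ0 f) (Metric.ball 0 1) :=
  (differentiableOn_cayFun τ0 hf).analyticOnNhd Metric.isOpen_ball

/-- Taylor expansion at `τ0` in the Cayley coordinate, as an algebra homomorphism. -/
noncomputable def taylorCay (τ0 : ℍ) : holAlg →ₐ[ℂ] PowerSeries ℂ where
  toFun f := PowerSeries.mk fun n => ((n ! : ℕ) : ℂ)⁻¹ * iteratedDeriv n (cayFun τ0 f) 0
  map_one' := by
    ext n
    have h1 : cayFun τ0 ((1 : holAlg) : ℍ → ℂ) = fun _ => (1 : ℂ) := rfl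
    rw [PowerSeries.coeff_mk, h1, iteratedDeriv_const, PowerSeries.coeff_one]
    split_ifs <;> simp_all
  map_mul' f g := by
    ext n
    have hf := analyticAt_cayFun τ0 (mem_holAlg.mp f.2)
    have hg := analyticAt_cayFun τ0 (mem_holAlg.mp g.2)
    have h1 : cayFun τ0 ((f * g : holAlg) : ℍ → ℂ) = cayFun τ0 f * cayFun τ0 g := rfl
    simp only [PowerSeries.coeff_mk, h1, iteratedDeriv_mul hf.contDiffAt hg.contDiffAt,
      Finset.mul_sum, PowerSeries.coeff_mul, Finset.Nat.sum_antidiagonal_eq_sum_range_succ_mk,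
      Nat.succ_eq_add_one]
    refine Finset.sum_congr rfl fun i hi ↦ ?_
    rw [Nat.cast_choose _ (by grind)]
    field_simp [Nat.factorial_ne_zero]
  map_zero' := by
    ext n
    have h1 : cayFun τ0 ((0 : holAlg) : ℍ → ℂ) = fun _ => (0 : ℂ) := rfl
    rw [PowerSeries.coeff_mk, h1, iteratedDeriv_const]
    simp
  map_add' f g := by
    ext n
    have hf := analyticAt_cayFun τ0 (mem_holAlg.mp f.2)
    have hg := analyticAt_cayFun τ0 (mem_holAlg.mp g.2)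
    have h1 : cayFun τ0 ((f + g : holAlg) : ℍ → ℂ) = cayFun τ0 f + cayFun τ0 g := rfl
    simp only [PowerSeries.coeff_mk, h1, iteratedDeriv_add hf.contDiffAt hg.contDiffAt, map_add,
      mul_add]
  commutes' c := by
    ext n
    have h1 : cayFun τ0 ((algebraMap ℂ holAlg c : holAlg) : ℍ → ℂ) = fun _ => c := rfl
    rw [PowerSeries.coeff_mk, h1, iteratedDeriv_const, PowerSeries.algebraMap_apply,
      Algebra.algebraMap_self_apply, PowerSeries.coeff_C]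
    split_ifs <;> simp_all

theorem coeff_taylorCay (τ0 : ℍ) (f : holAlg) (n : ℕ) :
    PowerSeries.coeff n (taylorCay τ0 f)
      = ((n ! : ℕ) : ℂ)⁻¹ * iteratedDeriv n (cayFun τ0 f) 0 := by
  change PowerSeries.coeff n (PowerSeries.mk
    fun n => ((n ! : ℕ) : ℂ)⁻¹ * iteratedDeriv n (cayFun τ0 f) 0) = _
  rw [PowerSeries.coeff_mk]

theorem constantCoeff_taylorCay (τ0 : ℍ) (f : holAlg) :
    PowerSeries.constantCoeff (taylorCay τ0 f) = (f : ℍ → ℂ) τ0 := by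
  rw [← PowerSeries.coeff_zero_eq_constantCoeff_apply, coeff_taylorCay, iteratedDeriv_zero,
    cayFun_zero_apply]
  simp

theorem hasDerivAt_cay_zero (τ0 : ℍ) :
    HasDerivAt (cay τ0) ((τ0 : ℂ) - conj (τ0 : ℂ)) 0 := by
  unfold cay
  have h1 : HasDerivAt (fun w : ℂ => (τ0 : ℂ) - conj (τ0 : ℂ) * w) (-(conj (τ0 : ℂ))) 0 := by
    simpa using ((hasDerivAt_id (0 : ℂ)).const_mul (conj (τ0 : ℂ))).const_sub (τ0 : ℂ)
  have h2 : HasDerivAt (fun w : ℂ => (1 : ℂ) - w) (-1) 0 := by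
    simpa using (hasDerivAt_id (0 : ℂ)).const_sub (1 : ℂ)
  exact (h1.div h2 (by simp)).congr_deriv (by ring)

theorem coeff_one_taylorCay (τ0 : ℍ) (f : holAlg) :
    PowerSeries.coeff 1 (taylorCay τ0 f)
      = ((τ0 : ℂ) - conj (τ0 : ℂ)) * deriv ((f : ℍ → ℂ) ∘ ofComplex) τ0 := by
  rw [coeff_taylorCay, iteratedDeriv_one]
  have h1 : DifferentiableAt ℂ ((f : ℍ → ℂ) ∘ ofComplex) (cay τ0 0) := by
    rw [cay_zero]
    exact (UpperHalfPlane.mdifferentiable_iff.mp (mem_holAlg.mp f.2)).differentiableAt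
      (isOpen_upperHalfPlaneSet.mem_nhds τ0.im_pos)
  have h2 : HasDerivAt (cayFun τ0 f)
      (deriv ((f : ℍ → ℂ) ∘ ofComplex) (cay τ0 0) * ((τ0 : ℂ) - conj (τ0 : ℂ))) 0 :=
    h1.hasDerivAt.comp 0 (hasDerivAt_cay_zero τ0)
  rw [h2.deriv, cay_zero]
  simp
  ring

theorem taylorCay_eq_zero_iff (τ0 : ℍ) (f : holAlg) : taylorCay τ0 f = 0 ↔ f = 0 := by
  refine ⟨fun h => ?_, fun h => by rw [h, map_zero]⟩
  have hf := mem_holAlg.mp f.2
  -- all Taylor coefficients vanish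
  have h0 : ∀ n, iteratedDeriv n (cayFun τ0 f) 0 = 0 := by
    intro n
    have h1 := congrArg (PowerSeries.coeff n) h
    rw [coeff_taylorCay, map_zero] at h1
    rcases mul_eq_zero.mp h1 with h2 | h2
    · exact absurd h2 (inv_ne_zero (Nat.cast_ne_zero.mpr (Nat.factorial_ne_zero n)))
    · exact h2
  -- hence the function vanishes near `0`
  have h1 : cayFun τ0 f =ᶠ[𝓝 0] 0 := by
    have h2 := (analyticAt_cayFun τ0 hf).hasFPowerSeriesAt
    have h3 : (fun n ↦ iteratedDeriv n (cayFun τ0 f) 0 / (n.factorial : ℂ)) = 0 := by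
      funext n
      simp [h0 n]
    rw [h3, FormalMultilinearSeries.ofScalars_series_eq_zero_of_scalar_zero] at h2
    exact h2.eventually_eq_zero
  -- hence on the unit disc
  have h2 := (analyticOnNhd_cayFun τ0 hf).eqOn_zero_of_preconnected_of_eventuallyEq_zero
    (convex_ball (0 : ℂ) 1).isPreconnected (Metric.mem_ball_self one_pos) h1
  apply Subtype.ext
  funext τ
  have h3 := h2 (show cayInv τ0 τ ∈ Metric.ball (0 : ℂ) 1 by
    simpa using norm_cayInv_lt_one τ0 τ)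
  rw [cayFun_cayInv] at h3
  exact h3

theorem taylorCay_injective (τ0 : ℍ) : Function.Injective (taylorCay τ0) :=
  (injective_iff_map_eq_zero (taylorCay τ0)).mpr fun f hf => (taylorCay_eq_zero_iff τ0 f).mp hf

/-- Precomposition of holomorphic functions with the action of an element of `SL(2, ℤ)`. -/
noncomputable def holComp (γ : SL(2, ℤ)) : holAlg →ₐ[ℂ] holAlg where
  toFun f := ⟨fun z => (f : ℍ → ℂ) (γ • z),
    mem_holAlg.mpr ((mem_holAlg.mp f.2).comp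
      (mdifferentiable_smul (g := (γ : GL (Fin 2) ℝ)) (by simp)))⟩
  map_one' := rfl
  map_mul' _ _ := rfl
  map_zero' := rfl
  map_add' _ _ := rfl
  commutes' _ := rfl

theorem holComp_apply (γ : SL(2, ℤ)) (f : holAlg) (z : ℍ) :
    (holComp γ f : ℍ → ℂ) z = (f : ℍ → ℂ) (γ • z) := rfl

/-- The multiplier of an element of `SL(2, ℤ)` at a point: if `γ` fixes `τ0`, then in the Cayley
coordinate at `τ0` it acts as multiplication by `cayTwist γ τ0`. -/
noncomputable def cayTwist (γ : SL(2, ℤ)) (τ0 : ℍ) : ℂ :=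
  1 / (((γ 1 0 : ℤ) : ℂ) * (τ0 : ℂ) + ((γ 1 1 : ℤ) : ℂ)) ^ 2

theorem taylorCay_coe_smul (γ : SL(2, ℤ)) (τ : ℍ) :
    ((γ • τ : ℍ) : ℂ) = (((γ 0 0 : ℤ) : ℂ) * τ + ((γ 0 1 : ℤ) : ℂ))
      / (((γ 1 0 : ℤ) : ℂ) * τ + ((γ 1 1 : ℤ) : ℂ)) := by
  rw [coe_specialLinearGroup_apply]
  simp

theorem taylorCay_denom_ne_zero (γ : SL(2, ℤ)) (τ : ℍ) :
    ((γ 1 0 : ℤ) : ℂ) * τ + ((γ 1 1 : ℤ) : ℂ) ≠ 0 := by
  have h := UpperHalfPlane.denom_ne_zero (γ : GL (Fin 2) ℝ) τ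
  simpa [denom] using h

theorem taylorCay_det (γ : SL(2, ℤ)) :
    ((γ 0 0 : ℤ) : ℂ) * ((γ 1 1 : ℤ) : ℂ) - ((γ 0 1 : ℤ) : ℂ) * ((γ 1 0 : ℤ) : ℂ) = 1 := by
  have h := γ.det_coe
  rw [Matrix.det_fin_two] at h
  exact_mod_cast h

theorem taylorCay_denom_mul_conj (γ : SL(2, ℤ)) (τ0 : ℍ) (hγ : γ • τ0 = τ0) :
    (((γ 1 0 : ℤ) : ℂ) * τ0 + ((γ 1 1 : ℤ) : ℂ))
      * (((γ 1 0 : ℤ) : ℂ) * conj (τ0 : ℂ) + ((γ 1 1 : ℤ) : ℂ)) = 1 := by
  have h1 := ModularGroup.im_smul_eq_div_normSq γ τ0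
  rw [hγ] at h1
  have h2 : normSq (denom (γ : GL (Fin 2) ℝ) τ0) = 1 := by
    have h3 := τ0.im_pos
    have h4 : normSq (denom (γ : GL (Fin 2) ℝ) τ0) ≠ 0 := by
      intro h0
      rw [h0, div_zero] at h1
      exact h3.ne' h1
    field_simp at h1
    nlinarith
  have h5 : denom (γ : GL (Fin 2) ℝ) τ0 = ((γ 1 0 : ℤ) : ℂ) * τ0 + ((γ 1 1 : ℤ) : ℂ) := by
    simp [denom]
  rw [h5] at h2
  have h6 := Complex.mul_conj (((γ 1 0 : ℤ) : ℂ) * τ0 + ((γ 1 1 : ℤ) : ℂ))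
  rw [h2] at h6
  simpa using h6

theorem cayInv_smul (γ : SL(2, ℤ)) (τ0 : ℍ) (hγ : γ • τ0 = τ0) (τ : ℍ) :
    cayInv τ0 ((γ • τ : ℍ) : ℂ) = cayTwist γ τ0 * cayInv τ0 τ := by
  have hfix := taylorCay_coe_smul γ τ0
  rw [hγ] at hfix
  have hD0 := taylorCay_denom_ne_zero γ τ0
  have hD := taylorCay_denom_ne_zero γ τ
  have hdet := taylorCay_det γ
  have hn := taylorCay_denom_mul_conj γ τ0 hγ
  have hτ := taylorCay_coe_smul γ τ
  unfold cayInv cayTwist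
  rw [hτ]
  have hcA : conj ((γ 0 0 : ℤ) : ℂ) = ((γ 0 0 : ℤ) : ℂ) := map_intCast _ _
  have hcB : conj ((γ 0 1 : ℤ) : ℂ) = ((γ 0 1 : ℤ) : ℂ) := map_intCast _ _
  have hcC : conj ((γ 1 0 : ℤ) : ℂ) = ((γ 1 0 : ℤ) : ℂ) := map_intCast _ _
  have hcD : conj ((γ 1 1 : ℤ) : ℂ) = ((γ 1 1 : ℤ) : ℂ) := map_intCast _ _
  generalize ((γ 0 0 : ℤ) : ℂ) = A at *
  generalize ((γ 0 1 : ℤ) : ℂ) = B at *
  generalize ((γ 1 0 : ℤ) : ℂ) = C at *
  generalize ((γ 1 1 : ℤ) : ℂ) = D at *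
  have hD0' : C * conj (τ0 : ℂ) + D ≠ 0 := by
    intro h0
    rw [h0, mul_zero] at hn
    exact zero_ne_one hn
  -- the fixed point equations
  have h1 : (τ0 : ℂ) * (C * τ0 + D) = A * τ0 + B := by
    rw [eq_div_iff hD0] at hfix
    exact hfix
  have h2 : conj (τ0 : ℂ) * (C * conj (τ0 : ℂ) + D) = A * conj (τ0 : ℂ) + B := by
    have h5 := congrArg conj h1
    simpa only [map_mul, map_add, hcA, hcB, hcC, hcD] using h5
  have hX : (A * τ + B) / (C * τ + D) * (C * τ + D) = A * τ + B := div_mul_cancel₀ _ hD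
  have e1 : (A * τ + B) / (C * τ + D) - τ0 = ((τ : ℂ) - τ0) / ((C * τ + D) * (C * τ0 + D)) := by
    rw [eq_div_iff (mul_ne_zero hD hD0)]
    linear_combination (C * (τ0 : ℂ) + D) * hX - (C * (τ : ℂ) + D) * h1 + ((τ : ℂ) - τ0) * hdet
  have e2 : (A * τ + B) / (C * τ + D) - conj (τ0 : ℂ)
      = ((τ : ℂ) - conj (τ0 : ℂ)) / ((C * τ + D) * (C * conj (τ0 : ℂ) + D)) := by
    rw [eq_div_iff (mul_ne_zero hD hD0')]
    linear_combination (C * conj (τ0 : ℂ) + D) * hX - (C * (τ : ℂ) + D) * h2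
      + ((τ : ℂ) - conj (τ0 : ℂ)) * hdet
  have h3 := cay_sub_conj_ne_zero τ0 τ
  rw [e1, e2]
  have h4 : C * conj (τ0 : ℂ) + D = 1 / (C * τ0 + D) := by
    rw [eq_div_iff hD0]
    linear_combination hn
  rw [h4]
  have hD'' : (τ : ℂ) * C + D ≠ 0 := by rwa [mul_comm]
  field_simp

theorem norm_cayTwist (γ : SL(2, ℤ)) (τ0 : ℍ) (hγ : γ • τ0 = τ0) : ‖cayTwist γ τ0‖ = 1 := by
  have hn := taylorCay_denom_mul_conj γ τ0 hγ
  have h1 : ‖((γ 1 0 : ℤ) : ℂ) * τ0 + ((γ 1 1 : ℤ) : ℂ)‖ = 1 := by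
    have h2 := congrArg (fun z : ℂ => ‖z‖) hn
    simp only [norm_mul, norm_one] at h2
    have h3 : ‖((γ 1 0 : ℤ) : ℂ) * conj (τ0 : ℂ) + ((γ 1 1 : ℤ) : ℂ)‖
        = ‖((γ 1 0 : ℤ) : ℂ) * τ0 + ((γ 1 1 : ℤ) : ℂ)‖ := by
      rw [← Complex.norm_conj]
      simp
    rw [h3] at h2
    have h4 := norm_nonneg (((γ 1 0 : ℤ) : ℂ) * τ0 + ((γ 1 1 : ℤ) : ℂ))
    nlinarith
  unfold cayTwist
  rw [norm_div, norm_pow, h1]
  simp

theorem cay_smul_ofComplex (γ : SL(2, ℤ)) (τ0 : ℍ) (hγ : γ • τ0 = τ0) {w : ℂ} (hw : ‖w‖ < 1) :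
    γ • ofComplex (cay τ0 w) = ofComplex (cay τ0 (cayTwist γ τ0 * w)) := by
  have hτ : ((ofComplex (cay τ0 w) : ℍ) : ℂ) = cay τ0 w := by
    rw [ofComplex_apply_of_im_pos (cay_im_pos τ0 hw)]
  have hw' : ‖cayTwist γ τ0 * w‖ < 1 := by
    rw [norm_mul, norm_cayTwist γ τ0 hγ, one_mul]
    exact hw
  have hR : ((ofComplex (cay τ0 (cayTwist γ τ0 * w)) : ℍ) : ℂ) = cay τ0 (cayTwist γ τ0 * w) := by
    rw [ofComplex_apply_of_im_pos (cay_im_pos τ0 hw')]
  apply UpperHalfPlane.ext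
  have h1 := cayInv_smul γ τ0 hγ (ofComplex (cay τ0 w))
  rw [hτ, cayInv_cay τ0 (cay_one_sub_ne_zero hw)] at h1
  rw [hR, ← h1, cay_cayInv]

theorem cayFun_comp_smul (γ : SL(2, ℤ)) (τ0 : ℍ) (hγ : γ • τ0 = τ0) (f : ℍ → ℂ) {w : ℂ}
    (hw : ‖w‖ < 1) :
    cayFun τ0 (fun z => f (γ • z)) w = cayFun τ0 f (cayTwist γ τ0 * w) := by
  rw [cayFun_apply, cayFun_apply, cay_smul_ofComplex γ τ0 hγ hw]

theorem taylorCay_iteratedDeriv_comp_const_mul (F : ℂ → ℂ) (ζ : ℂ) (n : ℕ) :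
    iteratedDeriv n (fun w => F (ζ * w)) = fun w => ζ ^ n * iteratedDeriv n F (ζ * w) := by
  induction n with
  | zero => simp
  | succ n ih =>
    rw [iteratedDeriv_succ, ih]
    funext w
    rw [deriv_const_mul_field, deriv_comp_mul_left, iteratedDeriv_succ]
    simp only [smul_eq_mul]
    ring

/-- **Twist**: if `γ` fixes `τ0`, then precomposition with `γ` rescales the Taylor expansion at
`τ0` by the multiplier `cayTwist γ τ0`. -/
theorem taylorCay_holComp (τ0 : ℍ) (γ : SL(2, ℤ)) (hγ : γ • τ0 = τ0) (f : holAlg) :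
    taylorCay τ0 (holComp γ f) = PowerSeries.rescale (cayTwist γ τ0) (taylorCay τ0 f) := by
  ext n
  rw [PowerSeries.coeff_rescale, coeff_taylorCay, coeff_taylorCay]
  have h1 : cayFun τ0 (holComp γ f : ℍ → ℂ)
      =ᶠ[𝓝 0] fun w => cayFun τ0 f (cayTwist γ τ0 * w) := by
    filter_upwards [Metric.ball_mem_nhds (0 : ℂ) one_pos] with w hw
    exact cayFun_comp_smul γ τ0 hγ f (by simpa using hw)
  rw [h1.iteratedDeriv_eq n, taylorCay_iteratedDeriv_comp_const_mul]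
  simp only [mul_zero]
  ring

/-! ### Orders of vanishing -/

theorem X_dvd_taylorCay_iff (τ0 : ℍ) (f : holAlg) :
    (PowerSeries.X : PowerSeries ℂ) ∣ taylorCay τ0 f ↔ (f : ℍ → ℂ) τ0 = 0 := by
  rw [PowerSeries.X_dvd_iff, constantCoeff_taylorCay]

theorem order_taylorCay_eq_zero (τ0 : ℍ) (f : holAlg) (h : (f : ℍ → ℂ) τ0 ≠ 0) :
    (taylorCay τ0 f).order = 0 := by
  have h1 : (taylorCay τ0 f).order = ((0 : ℕ) : ℕ∞) := by
    rw [PowerSeries.order_eq_nat]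
    refine ⟨?_, fun i hi => absurd hi (Nat.not_lt_zero i)⟩
    rw [PowerSeries.coeff_zero_eq_constantCoeff_apply, constantCoeff_taylorCay]
    exact h
  simpa using h1

theorem order_taylorCay_eq_one (τ0 : ℍ) (f : holAlg) (h0 : (f : ℍ → ℂ) τ0 = 0)
    (h1 : deriv ((f : ℍ → ℂ) ∘ ofComplex) τ0 ≠ 0) :
    (taylorCay τ0 f).order = 1 := by
  have h2 : (taylorCay τ0 f).order = ((1 : ℕ) : ℕ∞) := by
    rw [PowerSeries.order_eq_nat]
    refine ⟨?_, fun i hi => ?_⟩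
    · rw [coeff_one_taylorCay]
      exact mul_ne_zero (cay_coe_sub_conj_ne_zero τ0) h1
    · have hi0 : i = 0 := by omega
      rw [hi0, PowerSeries.coeff_zero_eq_constantCoeff_apply, constantCoeff_taylorCay]
      exact h0
  simpa using h2

/-! ### The multipliers of `S` and `S * T` at their fixed points -/

theorem cayTwist_S (τ0 : ℍ) (h : ModularGroup.S • τ0 = τ0) : cayTwist ModularGroup.S τ0 = -1 := by
  have hfix := taylorCay_coe_smul ModularGroup.S τ0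
  rw [h] at hfix
  have h0 : (τ0 : ℂ) ≠ 0 := UpperHalfPlane.ne_zero τ0
  simp [ModularGroup.S] at hfix
  have h2 : (τ0 : ℂ) ^ 2 = -1 := by
    rw [eq_div_iff h0] at hfix
    rw [sq]
    exact hfix
  unfold cayTwist
  simp [ModularGroup.S, h2]

theorem cayTwist_ST_entries :
    (ModularGroup.S * ModularGroup.T : SL(2, ℤ)) 0 0 = 0
      ∧ (ModularGroup.S * ModularGroup.T : SL(2, ℤ)) 0 1 = -1
      ∧ (ModularGroup.S * ModularGroup.T : SL(2, ℤ)) 1 0 = 1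
      ∧ (ModularGroup.S * ModularGroup.T : SL(2, ℤ)) 1 1 = 1 := by
  decide

theorem cayTwist_ST_eq (τ0 : ℍ) (h : (ModularGroup.S * ModularGroup.T) • τ0 = τ0) :
    (τ0 : ℂ) ^ 2 + τ0 + 1 = 0 ∧ cayTwist (ModularGroup.S * ModularGroup.T) τ0 = (τ0 : ℂ) ^ 2 := by
  have hfix := taylorCay_coe_smul (ModularGroup.S * ModularGroup.T) τ0
  rw [h] at hfix
  have hD := taylorCay_denom_ne_zero (ModularGroup.S * ModularGroup.T) τ0
  have h0 : (τ0 : ℂ) ≠ 0 := UpperHalfPlane.ne_zero τ0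
  obtain ⟨e00, e01, e10, e11⟩ := cayTwist_ST_entries
  unfold cayTwist
  rw [e10, e11] at hD ⊢
  rw [e00, e01, e10, e11] at hfix
  simp only [Int.cast_zero, Int.cast_one, Int.cast_neg, zero_mul, zero_add, one_mul] at hfix hD ⊢
  have h1 : (τ0 : ℂ) ^ 2 + τ0 + 1 = 0 := by
    rw [eq_div_iff hD] at hfix
    linear_combination hfix
  refine ⟨h1, ?_⟩
  have h2 : ((τ0 : ℂ) + 1) ^ 2 = τ0 := by linear_combination h1
  have h3 : (τ0 : ℂ) ^ 3 = 1 := by linear_combination ((τ0 : ℂ) - 1) * h1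
  rw [h2, div_eq_iff h0]
  linear_combination -h3

/-- The multiplier of `S * T` at a fixed point is a primitive cube root of unity. -/
theorem isPrimitiveRoot_cayTwist_ST (τ0 : ℍ)
    (h : (ModularGroup.S * ModularGroup.T) • τ0 = τ0) :
    IsPrimitiveRoot (cayTwist (ModularGroup.S * ModularGroup.T) τ0) 3 := by
  obtain ⟨h1, h2⟩ := cayTwist_ST_eq τ0 h
  rw [h2]
  have h3 : (τ0 : ℂ) ^ 3 = 1 := by linear_combination ((τ0 : ℂ) - 1) * h1
  have h4 : ((τ0 : ℂ) ^ 2) ^ 3 = 1 := by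
    rw [← pow_mul, mul_comm, pow_mul, h3, one_pow]
  have h5 : (τ0 : ℂ) ^ 2 ≠ 1 := by
    intro h6
    have h7 : (τ0 : ℂ) = -2 := by linear_combination h1 - h6
    have h8 := congrArg Complex.im h7
    have h9 := τ0.im_pos
    simp at h8
    rw [h8] at h9
    exact lt_irrefl _ h9
  have h6 := orderOf_eq_prime (p := 3) h4 h5
  rw [← h6]
  exact IsPrimitiveRoot.orderOf _

/-- `-1` is a primitive square root of unity (the multiplier of `S` at a fixed point). -/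
theorem isPrimitiveRoot_cayTwist_S (τ0 : ℍ) (h : ModularGroup.S • τ0 = τ0) :
    IsPrimitiveRoot (cayTwist ModularGroup.S τ0) 2 := by
  rw [cayTwist_S τ0 h]
  exact IsPrimitiveRoot.neg_one 0 (by norm_num)

theorem holComp_one (f : holAlg) : holComp 1 f = f := by
  apply Subtype.ext
  funext z
  rw [holComp_apply, one_smul]

theorem holComp_mul (γ₁ γ₂ : SL(2, ℤ)) (f : holAlg) :
    holComp (γ₁ * γ₂) f = holComp γ₂ (holComp γ₁ f) := by
  apply Subtype.ext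
  funext z
  rw [holComp_apply, holComp_apply, holComp_apply, mul_smul]

/-- The twist, on the coefficients of the associated Laurent series (integer exponents). -/
theorem coeff_ofPowerSeries_taylorCay_holComp (τ0 : ℍ) (γ : SL(2, ℤ)) (hγ : γ • τ0 = τ0)
    (f : holAlg) (m : ℤ) :
    (HahnSeries.ofPowerSeries ℤ ℂ (taylorCay τ0 (holComp γ f))).coeff m
      = cayTwist γ τ0 ^ m * (HahnSeries.ofPowerSeries ℤ ℂ (taylorCay τ0 f)).coeff m := by
  rw [taylorCay_holComp τ0 γ hγ]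
  by_cases hm : 0 ≤ m
  · obtain ⟨n, rfl⟩ := Int.eq_ofNat_of_zero_le hm
    rw [HahnSeries.ofPowerSeries_apply_coeff, HahnSeries.ofPowerSeries_apply_coeff,
      PowerSeries.coeff_rescale, zpow_natCast]
  · have h1 : ∀ p : PowerSeries ℂ, (HahnSeries.ofPowerSeries ℤ ℂ p).coeff m = 0 := by
      intro p
      rw [HahnSeries.ofPowerSeries_apply]
      refine HahnSeries.embDomain_of_notMem_range ?_
      rintro ⟨k, rfl⟩
      exact hm (Int.natCast_nonneg k)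
    rw [h1, h1, mul_zero]

theorem cay_S_smul_I : ModularGroup.S • UpperHalfPlane.I = UpperHalfPlane.I :=
  ModularGroup.stabilizer_I.mpr (by simp)

theorem cay_ST_smul_ρ :
    (ModularGroup.S * ModularGroup.T) • UpperHalfPlane.ρ = UpperHalfPlane.ρ :=
  ModularGroup.stabilizer_ρ.mpr (by simp)

end Fermat.Agent.S24
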