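import Mathlib
import Fermat.Prelude.Def_ModularCurve_ArithmeticGalois
import Fermat.Prelude.Def_ModularCurve_JqCoeff
import Fermat.Agent.S24.OrbDefs
import Fermat.Agent.S24.JAnalytic

set_option autoImplicit false

open UpperHalfPlane ModularForm EisensteinSeries ModularCurve
open scoped MatrixGroups

namespace Fermat.Agent.S24

/-! ### Analytic side -/

/-! The analytic `j`-function `jFun = E₄³ / Δ` is defined in `JAnalytic.lean`. -/

/-- Multiplication by a natural number on `ℍ` (junk for `d = 0`). -/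
noncomputable def dmul (d : ℕ) (z : ℍ) : ℍ := ofComplex ((d : ℂ) * z)

theorem coe_dmul {d : ℕ} (hd : 0 < d) (z : ℍ) : (dmul d z : ℂ) = (d : ℂ) * z := by
  have h : 0 < ((d : ℂ) * z).im := by
    rw [Complex.mul_im]
    simp only [Complex.natCast_re, Complex.natCast_im, zero_mul, add_zero]
    exact mul_pos (by exact_mod_cast hd) z.im_pos
  rw [dmul, ofComplex_apply_of_im_pos h]

theorem dmul_one (z : ℍ) : dmul 1 z = z := by
  ext
  rw [coe_dmul one_pos]
  simp

/-- The function `z ↦ j(d z)`. -/
noncomputable def jd (d : ℕ) (z : ℍ) : ℂ := jFun (dmul d z)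

/-- The translate `z ↦ j(d (γ z))` of `jd d` by `γ ∈ SL(2, ℤ)`. -/
noncomputable def jT (d : ℕ) (γ : SL(2, ℤ)) (z : ℍ) : ℂ := jd d (γ • z)

theorem jd_one : jd 1 = jFun := by
  funext z
  rw [jd, dmul_one]

theorem jT_one (d : ℕ) : jT d 1 = jd d := by
  funext z
  rw [jT, one_smul]

theorem jT_mul (d : ℕ) (γ γ' : SL(2, ℤ)) (z : ℍ) : jT d (γ * γ') z = jT d γ (γ' • z) := by
  rw [jT, jT, mul_smul]

/-! ### Formal side, over a general coefficient field -/

section Formal

variable (K : Type*) [Field K] [Algebra ℚ K]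

/-- The function field of `X₀(N)` over `K`, as a subfield of `K((q))`.
For `K = AlgebraicClosure ℚ` this is (reducibly) `ModularCurve.modularFunctionFieldBar N`. -/
noncomputable abbrev FK (N : ℕ) : IntermediateField K (LaurentSeries K) :=
  laurentBaseChange K (modularFunctionFieldFull N)

/-- The formal series `j(q^d)` with coefficients in `K` (junk for `d = 0`). -/
noncomputable def Jser (d : ℕ) : LaurentSeries K :=
  if h : d = 0 then 0 else
    haveI : NeZero d := ⟨h⟩
    coeffEmb K (qExpand ℚ d jq)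

theorem Jser_zero : Jser K 0 = 0 := by
  rw [Jser, dif_pos rfl]

theorem Jser_eq (d : ℕ) [NeZero d] :
    Jser K d = coeffEmb K (qExpand ℚ d jq) := by
  rw [Jser, dif_neg (NeZero.ne d)]

theorem Jser_mem (N : ℕ) {d : ℕ} (hd : d ∣ N) : Jser K d ∈ FK K N := by
  by_cases h : d = 0
  · rw [Jser, dif_pos h]
    exact zero_mem _
  · haveI : NeZero d := ⟨h⟩
    rw [Jser_eq]
    exact coeffEmb_mem_laurentBaseChange _ (jqd_mem_full N hd)

variable {K} in
/-- The series `j(q^d)` is compatible with every change of coefficient field. -/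
theorem coeffMap_Jser {L : Type*} [Field L] [Algebra ℚ L] (φ : K →+* L) (d : ℕ) :
    coeffMap φ (Jser K d) = Jser L d := by
  by_cases h : d = 0
  · subst h
    rw [Jser_zero, Jser_zero, map_zero]
  · haveI : NeZero d := ⟨h⟩
    rw [Jser_eq, Jser_eq, coeffEmb, coeffEmb, coeffMap_coeffMap]
    exact coeffMap_congr (RingHom.ext_rat _ _) _

open Classical in
/-- The generators `j(q^d)`, `d ∣ N`, of the function field (zero if `d ∤ N`). -/
noncomputable def Jgen (N : ℕ) (d : ℕ) : FK K N :=
  if h : d ∣ N then ⟨Jser K d, Jser_mem K N h⟩ else 0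

theorem coe_Jgen (N : ℕ) {d : ℕ} (hd : d ∣ N) :
    ((Jgen K N d : FK K N) : LaurentSeries K) = Jser K d := by
  rw [Jgen, dif_pos hd]

/-- The coordinate `x = j` of the function field. -/
noncomputable def xgen (N : ℕ) : FK K N := Jgen K N 1

theorem coe_xgen (N : ℕ) :
    ((xgen K N : FK K N) : LaurentSeries K) = Jser K 1 :=
  coe_Jgen K N (one_dvd N)

end Formal

/-- A fixed embedding of the algebraic closure of `ℚ` into `ℂ`. -/
noncomputable def kEmb : AlgebraicClosure ℚ →+* ℂ :=
  haveI : Algebra.IsAlgebraic ℚ (AlgebraicClosure ℚ) := AlgebraicClosure.isAlgebraic ℚ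
  (IsAlgClosed.lift : AlgebraicClosure ℚ →ₐ[ℚ] ℂ).toRingHom

theorem kEmb_injective : Function.Injective kEmb := kEmb.injective

example (N : ℕ) : FK (AlgebraicClosure ℚ) N = modularFunctionFieldBar N := rfl

end Fermat.Agent.S24
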