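import Mathlib
import Fermat.Prelude.Def_ModularCurve_JqCoeff

/-!
# S24, side B: `q`-expansions of `Δ` and `E₄` are the formal series of the prelude

* `qExpansion_discriminant` : `qExpansion 1 Δ = (X * dedekindEtaUnit).map (Int.castRingHom ℂ)`.
* `qExpansion_E4` : `qExpansion 1 E₄ = eisenstein4.map (Int.castRingHom ℂ)`.
-/

set_option autoImplicit false

namespace Fermat.Agent.S24

open Filter Topology Polynomial
open scoped PowerSeries.WithPiTopology

/-- Tannery's theorem for polynomial approximations of a power series: if the coefficients of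
the polynomials `P M` stabilise to `c`, are uniformly dominated on a circle of radius `ρ` and the
values `P M (q)` converge to `L` for some `‖q‖ < ρ`, then `∑ c k q ^ k = L`. -/
theorem jqBridge_hasSum_of_approx (P : ℕ → Polynomial ℂ) (c : ℕ → ℂ) (q L : ℂ) (ρ B : ℝ)
    (hρ : 0 < ρ) (hq : ‖q‖ < ρ)
    (hstab : ∀ k, ∀ᶠ M in atTop, (P M).coeff k = c k)
    (hbound : ∀ M k, ‖(P M).coeff k‖ * ρ ^ k ≤ B)
    (hlim : Tendsto (fun M => (P M).eval q) atTop (𝓝 L)) :
    HasSum (fun k => c k * q ^ k) L := by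
  have hB : 0 ≤ B := le_trans (by positivity) (hbound 0 0)
  set r : ℝ := ‖q‖ / ρ with hr
  have hr0 : 0 ≤ r := by positivity
  have hr1 : r < 1 := (div_lt_one hρ).mpr hq
  have hsumb : Summable fun k : ℕ => B * r ^ k :=
    (summable_geometric_of_lt_one hr0 hr1).mul_left B
  have hfb : ∀ M k, ‖(P M).coeff k * q ^ k‖ ≤ B * r ^ k := by
    intro M k
    have h1 : ‖(P M).coeff k * q ^ k‖ = ‖(P M).coeff k‖ * ρ ^ k * r ^ k := by
      rw [norm_mul, norm_pow, hr, div_pow]
      field_simp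
    rw [h1]
    exact mul_le_mul_of_nonneg_right (hbound M k) (by positivity)
  have hpt : ∀ k, Tendsto (fun M => (P M).coeff k * q ^ k) atTop (𝓝 (c k * q ^ k)) := by
    intro k
    refine Tendsto.congr' ?_ tendsto_const_nhds
    filter_upwards [hstab k] with M hM
    rw [hM]
  have h1 := tendsto_tsum_of_dominated_convergence (𝓕 := atTop)
    (f := fun M k => (P M).coeff k * q ^ k) (g := fun k => c k * q ^ k) hsumb hpt
    (Eventually.of_forall hfb)
  have h2 : ∀ M, ∑' k, (P M).coeff k * q ^ k = (P M).eval q := by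
    intro M
    rw [Polynomial.eval_eq_sum_range]
    refine tsum_eq_sum fun k hk => ?_
    rw [Finset.mem_range, not_lt, Nat.succ_le_iff] at hk
    rw [Polynomial.coeff_eq_zero_of_natDegree_lt hk, zero_mul]
  simp only [h2] at h1
  have h3 : L = ∑' k, c k * q ^ k := tendsto_nhds_unique hlim h1
  have hsum : Summable fun k => c k * q ^ k := by
    refine Summable.of_norm_bounded hsumb fun k => ?_
    obtain ⟨M, hM⟩ := (hstab k).exists
    rw [← hM]
    exact hfb M k
  rw [h3]
  exact hsum.hasSum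

/-- Coefficientwise domination of a complex polynomial by a real one. -/
def JqMaj (A : Polynomial ℂ) (A' : Polynomial ℝ) : Prop := ∀ k, ‖A.coeff k‖ ≤ A'.coeff k

theorem JqMaj.mul {A B : Polynomial ℂ} {A' B' : Polynomial ℝ} (h : JqMaj A A')
    (h' : JqMaj B B') : JqMaj (A * B) (A' * B') := by
  intro k
  rw [Polynomial.coeff_mul, Polynomial.coeff_mul]
  refine (norm_sum_le _ _).trans (Finset.sum_le_sum fun x _ => ?_)
  rw [norm_mul]
  exact mul_le_mul (h _) (h' _) (norm_nonneg _) ((norm_nonneg _).trans (h _))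

theorem jqMaj_one : JqMaj 1 1 := by
  intro k
  rw [Polynomial.coeff_one, Polynomial.coeff_one]
  split_ifs <;> simp

theorem JqMaj.pow {A : Polynomial ℂ} {A' : Polynomial ℝ} (h : JqMaj A A') (n : ℕ) :
    JqMaj (A ^ n) (A' ^ n) := by
  induction n with
  | zero => simpa using jqMaj_one
  | succ n ih => rw [pow_succ, pow_succ]; exact ih.mul h

theorem JqMaj.prod {ι : Type*} (s : Finset ι) {A : ι → Polynomial ℂ} {A' : ι → Polynomial ℝ}
    (h : ∀ i ∈ s, JqMaj (A i) (A' i)) : JqMaj (∏ i ∈ s, A i) (∏ i ∈ s, A' i) := by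
  classical
  induction s using Finset.induction_on with
  | empty => simpa using jqMaj_one
  | insert a s ha ih =>
    rw [Finset.prod_insert ha, Finset.prod_insert ha]
    exact (h a (Finset.mem_insert_self a s)).mul
      (ih fun i hi => h i (Finset.mem_insert_of_mem hi))

theorem jqMaj_X : JqMaj X X := by
  intro k
  rw [Polynomial.coeff_X, Polynomial.coeff_X]
  split_ifs <;> simp

theorem jqMaj_one_sub_X_pow (m : ℕ) : JqMaj (1 - X ^ m) (1 + X ^ m) := by
  intro k
  rw [Polynomial.coeff_sub, Polynomial.coeff_add, Polynomial.coeff_one, Polynomial.coeff_one,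
    Polynomial.coeff_X_pow, Polynomial.coeff_X_pow]
  split_ifs <;> norm_num

theorem JqMaj.coeff_mul_pow_le {A : Polynomial ℂ} {A' : Polynomial ℝ} (h : JqMaj A A') {ρ : ℝ}
    (hρ : 0 ≤ ρ) (k : ℕ) : ‖A.coeff k‖ * ρ ^ k ≤ A'.eval ρ := by
  have h0 : ∀ j, 0 ≤ A'.coeff j * ρ ^ j := fun j =>
    mul_nonneg ((norm_nonneg _).trans (h j)) (pow_nonneg hρ j)
  by_cases hk : k ≤ A'.natDegree
  · rw [Polynomial.eval_eq_sum_range]
    calc ‖A.coeff k‖ * ρ ^ k ≤ A'.coeff k * ρ ^ k :=
          mul_le_mul_of_nonneg_right (h k) (pow_nonneg hρ k)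
      _ ≤ ∑ j ∈ Finset.range (A'.natDegree + 1), A'.coeff j * ρ ^ j :=
          Finset.single_le_sum (f := fun j => A'.coeff j * ρ ^ j) (fun j _ => h0 j)
            (Finset.mem_range.mpr (Nat.lt_succ_of_le hk))
  · have h1 : A'.coeff k = 0 := Polynomial.coeff_eq_zero_of_natDegree_lt (not_le.mp hk)
    have h2 : ‖A.coeff k‖ = 0 := le_antisymm (h1 ▸ h k) (norm_nonneg _)
    rw [h2, zero_mul, Polynomial.eval_eq_sum_range]
    exact Finset.sum_nonneg fun j _ => h0 j

/-- The integral polynomial approximations of `X * ∏ (1 - X ^ (n + 1)) ^ 24`. -/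
noncomputable def jqDeltaPoly (M : ℕ) : Polynomial ℤ :=
  X * (∏ n ∈ Finset.range M, (1 - X ^ (n + 1))) ^ 24

theorem jqBridge_coe_deltaPoly (M : ℕ) :
    ((jqDeltaPoly M : Polynomial ℤ) : PowerSeries ℤ) =
      PowerSeries.X * (∏ n ∈ Finset.range M, (1 - PowerSeries.X ^ (n + 1))) ^ 24 := by
  unfold jqDeltaPoly
  rw [Polynomial.coe_mul, Polynomial.coe_pow, Polynomial.coe_X]
  congr 2
  rw [← Polynomial.coeToPowerSeries.ringHom_apply, map_prod]
  refine Finset.prod_congr rfl fun n _ => ?_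
  simp

theorem jqBridge_deltaPoly_stab (k : ℕ) :
    ∀ᶠ M in atTop, (jqDeltaPoly M).coeff k =
      (PowerSeries.X * ModularCurve.dedekindEtaUnit : PowerSeries ℤ).coeff k := by
  have h1 : Tendsto (fun M => ∏ n ∈ Finset.range M, ((1 : PowerSeries ℤ) - PowerSeries.X ^ (n + 1)))
      atTop (𝓝 ModularCurve.etaProd) :=
    (PowerSeries.WithPiTopology.multipliable_one_sub_X_pow ℤ).hasProd.tendsto_prod_nat
  have h2 : Tendsto (fun M => PowerSeries.X *
      (∏ n ∈ Finset.range M, ((1 : PowerSeries ℤ) - PowerSeries.X ^ (n + 1))) ^ 24)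
      atTop (𝓝 (PowerSeries.X * ModularCurve.etaProd ^ 24)) :=
    (h1.pow 24).const_mul _
  have h3 := ((PowerSeries.WithPiTopology.continuous_coeff ℤ k).tendsto _).comp h2
  rw [nhds_discrete, tendsto_pure] at h3
  filter_upwards [h3] with M hM
  rw [← Polynomial.coeff_coe, jqBridge_coe_deltaPoly]
  exact hM

theorem jqBridge_deltaPoly_bound {ρ : ℝ} (hρ0 : 0 ≤ ρ) (hρ1 : ρ < 1) (M k : ℕ) :
    ‖((jqDeltaPoly M).map (Int.castRingHom ℂ)).coeff k‖ * ρ ^ k ≤
      Real.exp (24 * ∑' n : ℕ, ρ ^ (n + 1)) := by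
  have hmaj : JqMaj ((jqDeltaPoly M).map (Int.castRingHom ℂ))
      (X * (∏ n ∈ Finset.range M, (1 + X ^ (n + 1))) ^ 24) := by
    have e : (jqDeltaPoly M).map (Int.castRingHom ℂ) =
        X * (∏ n ∈ Finset.range M, (1 - X ^ (n + 1))) ^ 24 := by
      simp [jqDeltaPoly, Polynomial.map_prod]
    rw [e]
    exact jqMaj_X.mul ((JqMaj.prod _ fun n _ => jqMaj_one_sub_X_pow (n + 1)).pow 24)
  refine (hmaj.coeff_mul_pow_le hρ0 k).trans ?_
  have hsum : Summable fun n : ℕ => ρ ^ (n + 1) :=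
    (summable_nat_add_iff 1).mpr (summable_geometric_of_lt_one hρ0 hρ1)
  have h1 : ∏ n ∈ Finset.range M, (1 + ρ ^ (n + 1)) ≤ Real.exp (∑' n : ℕ, ρ ^ (n + 1)) := by
    calc ∏ n ∈ Finset.range M, (1 + ρ ^ (n + 1))
        ≤ ∏ n ∈ Finset.range M, Real.exp (ρ ^ (n + 1)) :=
          Finset.prod_le_prod (fun n _ => by positivity)
            (fun n _ => by rw [add_comm]; exact Real.add_one_le_exp _)
      _ = Real.exp (∑ n ∈ Finset.range M, ρ ^ (n + 1)) := (Real.exp_sum _ _).symm
      _ ≤ Real.exp (∑' n : ℕ, ρ ^ (n + 1)) :=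
          Real.exp_le_exp.mpr (hsum.sum_le_tsum _ fun n _ => by positivity)
  have h0 : 0 ≤ ∏ n ∈ Finset.range M, (1 + ρ ^ (n + 1)) :=
    Finset.prod_nonneg fun n _ => by positivity
  simp only [Polynomial.eval_mul, Polynomial.eval_X, Polynomial.eval_pow, Polynomial.eval_prod,
    Polynomial.eval_add, Polynomial.eval_one]
  calc ρ * (∏ n ∈ Finset.range M, (1 + ρ ^ (n + 1))) ^ 24
      ≤ 1 * (Real.exp (∑' n : ℕ, ρ ^ (n + 1))) ^ 24 :=
        mul_le_mul hρ1.le (pow_le_pow_left₀ h0 h1 24) (pow_nonneg h0 24) zero_le_one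
    _ = Real.exp (24 * ∑' n : ℕ, ρ ^ (n + 1)) := by
        rw [one_mul, ← Real.exp_nat_mul]; norm_num

theorem jqBridge_deltaPoly_tendsto {q : ℂ} (hq : ‖q‖ < 1) :
    Tendsto (fun M => ((jqDeltaPoly M).map (Int.castRingHom ℂ)).eval q) atTop
      (𝓝 (q * ∏' n : ℕ, (1 - q ^ (n + 1)) ^ 24)) := by
  have h1 : Tendsto (fun M => ∏ n ∈ Finset.range M, (1 - q ^ (n + 1))) atTop
      (𝓝 (∏' n : ℕ, (1 - q ^ (n + 1)))) :=
    (ModularForm.multipliable_one_sub_pow hq).hasProd.tendsto_prod_nat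
  have h2 := (h1.pow 24).const_mul q
  rw [(ModularForm.multipliable_one_sub_pow hq).tprod_pow 24]
  refine h2.congr fun M => ?_
  simp [jqDeltaPoly, Polynomial.eval_prod, Polynomial.map_prod]

open UpperHalfPlane in
/-- The discriminant is the sum of the formal series `X * ∏ (1 - X ^ n) ^ 24` at `q`. -/
theorem jqBridge_hasSum_discriminant (τ : ℍ) :
    HasSum (fun k => (((PowerSeries.X * ModularCurve.dedekindEtaUnit : PowerSeries ℤ).coeff k : ℤ)
      : ℂ) • Function.Periodic.qParam 1 τ ^ k) (ModularForm.discriminant τ) := by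
  set q : ℂ := Function.Periodic.qParam 1 τ with hq
  have hq1 : ‖q‖ < 1 := Function.Periodic.norm_qParam_lt_one one_pos τ.im_pos
  obtain ⟨ρ, hqρ, hρ1⟩ := exists_between hq1
  have hρ0 : 0 < ρ := lt_of_le_of_lt (norm_nonneg _) hqρ
  have key := jqBridge_hasSum_of_approx (fun M => (jqDeltaPoly M).map (Int.castRingHom ℂ))
    (fun k => (((PowerSeries.X * ModularCurve.dedekindEtaUnit : PowerSeries ℤ).coeff k : ℤ) : ℂ))
    q (q * ∏' n : ℕ, (1 - q ^ (n + 1)) ^ 24) ρ (Real.exp (24 * ∑' n : ℕ, ρ ^ (n + 1))) hρ0 hqρ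
    (fun k => by
      filter_upwards [jqBridge_deltaPoly_stab k] with M hM
      rw [Polynomial.coeff_map, hM]
      rfl)
    (fun M k => jqBridge_deltaPoly_bound hρ0.le hρ1 M k) (jqBridge_deltaPoly_tendsto hq1)
  have hΔ : ModularForm.discriminant τ = q * ∏' n : ℕ, (1 - q ^ (n + 1)) ^ 24 := by
    rw [ModularForm.discriminant_eq_q_prod]
  rw [hΔ]
  simpa [smul_eq_mul] using key

/-- (Q1) The `q`-expansion of the discriminant is the formal product `X * ∏ (1 - X ^ n) ^ 24`. -/
theorem qExpansion_discriminant :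
    UpperHalfPlane.qExpansion 1 ModularForm.discriminant =
      (PowerSeries.X * ModularCurve.dedekindEtaUnit : PowerSeries ℤ).map (Int.castRingHom ℂ) := by
  ext m
  rw [PowerSeries.coeff_map]
  exact (ModularFormClass.qExpansion_coeff_unique one_pos one_mem_strictPeriods_SL
    (f := CuspForm.discriminant) (fun τ => jqBridge_hasSum_discriminant τ) m).symm

/-- (Q2) The `q`-expansion of `E₄` is the formal Eisenstein series of the prelude. -/
theorem qExpansion_E4 :
    UpperHalfPlane.qExpansion 1 ModularForm.E₄ =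
      ModularCurve.eisenstein4.map (Int.castRingHom ℂ) := by
  ext m
  rw [PowerSeries.coeff_map, EisensteinSeries.E_qExpansion_coeff (by norm_num) ⟨2, rfl⟩ m]
  simp only [ModularCurve.eisenstein4, PowerSeries.coeff_mk]
  split_ifs with h
  · simp
  · have hb : _root_.bernoulli 4 = -1 / 30 := by decide +kernel
    rw [hb, ArithmeticFunction.sigma_apply]
    simp only [eq_intCast]
    push_cast
    ring

/-- (Q3, formal) In `PowerSeries ℂ`: `E₄³ = jNum * η-unit`, i.e.
`(qExpansion 1 E₄) ^ 3 * X = jNum * qExpansion 1 Δ`. -/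
theorem qExpansion_E4_cube_mul_X :
    (UpperHalfPlane.qExpansion 1 ModularForm.E₄) ^ 3 * PowerSeries.X =
      ModularCurve.jNum.map (Int.castRingHom ℂ) *
        UpperHalfPlane.qExpansion 1 ModularForm.discriminant := by
  rw [qExpansion_discriminant, qExpansion_E4, ← map_pow, ← PowerSeries.map_X (Int.castRingHom ℂ),
    ← map_mul, ← map_mul]
  congr 1
  have h := ModularCurve.dedekindEtaUnit_mul_inv
  rw [ModularCurve.jNum]
  calc ModularCurve.eisenstein4 ^ 3 * PowerSeries.X
      = ModularCurve.eisenstein4 ^ 3 * PowerSeries.X *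
          (ModularCurve.dedekindEtaUnit * ModularCurve.dedekindEtaUnitInv) := by rw [h, mul_one]
    _ = _ := by ring

/-- (Q3) In `LaurentSeries ℂ`: the `q`-expansion of `E₄ ^ 3` is the formal `j` (with complex
coefficients) times the `q`-expansion of `Δ`. -/
theorem ofPowerSeries_qExpansion_E4_cube :
    HahnSeries.ofPowerSeries ℤ ℂ ((UpperHalfPlane.qExpansion 1 ModularForm.E₄) ^ 3) =
      ModularCurve.jqModC ℂ *
        HahnSeries.ofPowerSeries ℤ ℂ (UpperHalfPlane.qExpansion 1 ModularForm.discriminant) := by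
  have h := congrArg (HahnSeries.ofPowerSeries ℤ ℂ) qExpansion_E4_cube_mul_X
  rw [map_mul, map_mul, HahnSeries.ofPowerSeries_X] at h
  have hX : (HahnSeries.single (1 : ℤ) (1 : ℂ)) * HahnSeries.single (-1 : ℤ) (1 : ℂ) = 1 := by
    rw [HahnSeries.single_mul_single]; simp
  calc HahnSeries.ofPowerSeries ℤ ℂ ((UpperHalfPlane.qExpansion 1 ModularForm.E₄) ^ 3)
      = HahnSeries.ofPowerSeries ℤ ℂ ((UpperHalfPlane.qExpansion 1 ModularForm.E₄) ^ 3) *
          (HahnSeries.single (1 : ℤ) (1 : ℂ) * HahnSeries.single (-1 : ℤ) (1 : ℂ)) := by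
        rw [hX, mul_one]
    _ = (HahnSeries.ofPowerSeries ℤ ℂ ((UpperHalfPlane.qExpansion 1 ModularForm.E₄) ^ 3) *
          HahnSeries.single (1 : ℤ) (1 : ℂ)) * HahnSeries.single (-1 : ℤ) (1 : ℂ) := by
        rw [mul_assoc]
    _ = _ := by
        rw [h, ModularCurve.jqModC]
        ring

end Fermat.Agent.S24
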