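import Mathlib
import Fermat.Prelude.Thm_ModularCurve_coeffMap_qExpand
import Fermat.Agent.S24.BDefs
import Fermat.Agent.S23.QLaurent
import Fermat.Agent.S24.QExpDelta

/-!
# S24, the bridge between the formal and the analytic side

A polynomial relation between the formal series `j(q^d)` holds iff the same relation holds
between the analytic functions `τ ↦ j(d τ)`.
-/

set_option autoImplicit false

open Complex Filter Topology Function
open UpperHalfPlane hiding I
open ModularForm EisensteinSeries ModularCurve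
open scoped Real Manifold MatrixGroups ModularForm

namespace Fermat.Agent.S24

open Fermat.Agent.S23

local notation "Δ" => ModularForm.discriminant
local notation "𝕢" => Function.Periodic.qParam

namespace Bridge

/-! ### The map `τ ↦ d τ` -/

theorem im_dmul {d : ℕ} (hd : 0 < d) (z : ℍ) : (dmul d z).im = d * z.im := by
  have h := congrArg Complex.im (coe_dmul hd z)
  rw [Complex.mul_im] at h
  simpa using h

theorem tendsto_dmul {d : ℕ} (hd : 0 < d) : Tendsto (dmul d) atImInfty atImInfty := by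
  rw [atImInfty, tendsto_comap_iff]
  have h1 : Tendsto (fun z : ℍ => z.im) atImInfty atTop := tendsto_comap
  refine tendsto_atTop_mono (fun z => ?_) h1
  simp only [Function.comp_apply]
  rw [im_dmul hd]
  have hd1 : (1 : ℝ) ≤ d := by exact_mod_cast hd
  nlinarith [z.im_pos]

theorem qParam_dmul {d : ℕ} (hd : 0 < d) (z : ℍ) :
    𝕢 1 (dmul d z : ℂ) = 𝕢 1 (z : ℂ) ^ d := by
  rw [coe_dmul hd]
  simp only [Function.Periodic.qParam, ofReal_one, div_one]
  rw [← Complex.exp_nat_mul]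
  congr 1
  ring

theorem qFun_dmul {d : ℕ} (hd : 0 < d) (z : ℍ) : qFun 1 (dmul d z) = qFun 1 z ^ d :=
  qParam_dmul hd z

theorem dmul_vadd {d : ℕ} (hd : 0 < d) (z : ℍ) :
    dmul d ((1 : ℝ) +ᵥ z) = ((d : ℕ) : ℝ) +ᵥ dmul d z := by
  ext
  rw [coe_dmul hd, UpperHalfPlane.coe_vadd, UpperHalfPlane.coe_vadd, coe_dmul hd]
  push_cast
  ring

theorem natCast_vadd_of_periodic {F : ℍ → ℂ} (hF : Periodic (F ∘ ofComplex) (1 : ℝ)) (n : ℕ)
    (z : ℍ) : F (((n : ℕ) : ℝ) +ᵥ z) = F z := by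
  induction n with
  | zero =>
    congr 1
    ext
    simp
  | succ n ih =>
    rw [← ih, ← forall_vadd_of_periodic hF (((n : ℕ) : ℝ) +ᵥ z)]
    congr 1
    ext
    simp only [UpperHalfPlane.coe_vadd]
    push_cast
    ring

variable {F : ℍ → ℂ}

theorem mdiff_comp_dmul {d : ℕ} (hd : 0 < d) (hF : MDiff F) : MDiff (F ∘ dmul d) := by
  rw [UpperHalfPlane.mdifferentiable_iff] at hF ⊢
  have hmul : DifferentiableOn ℂ (fun w : ℂ => (d : ℂ) * w) {z | 0 < z.im} :=
    (differentiable_const _).mul differentiable_id |>.differentiableOn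
  have hmaps : Set.MapsTo (fun w : ℂ => (d : ℂ) * w) {z | 0 < z.im} {z | 0 < z.im} := by
    intro w hw
    simp only [Set.mem_ofPred_eq, Complex.mul_im, Complex.natCast_re, Complex.natCast_im,
      zero_mul, add_zero] at hw ⊢
    exact mul_pos (by exact_mod_cast hd) hw
  refine (hF.comp hmul hmaps).congr fun w hw => ?_
  simp only [Function.comp_apply, dmul]
  rw [ofComplex_apply_of_im_pos hw]

theorem periodic_comp_dmul {d : ℕ} (hd : 0 < d) (hF : Periodic (F ∘ ofComplex) (1 : ℝ)) :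
    Periodic ((F ∘ dmul d) ∘ ofComplex) (1 : ℝ) := by
  apply periodic_of_forall_vadd
  intro τ
  simp only [Function.comp_apply]
  rw [dmul_vadd hd, natCast_vadd_of_periodic hF]

theorem bdd_comp_dmul {d : ℕ} (hd : 0 < d) (hF : IsBoundedAtImInfty F) :
    IsBoundedAtImInfty (F ∘ dmul d) := by
  rw [UpperHalfPlane.isBoundedAtImInfty_iff] at hF ⊢
  obtain ⟨M, A, h⟩ := hF
  refine ⟨M, A, fun z hz => ?_⟩
  apply h
  rw [im_dmul hd]
  have hd1 : (1 : ℝ) ≤ d := by exact_mod_cast hd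
  nlinarith [z.im_pos]

/-! ### `q`-expansion of `F (d τ)` -/

/-- The power series `p(X ^ d)`. -/
noncomputable def expandPS (d : ℕ) (p : PowerSeries ℂ) : PowerSeries ℂ :=
  PowerSeries.mk fun k => if d ∣ k then p.coeff (k / d) else 0

theorem qExpansion_comp_dmul {d : ℕ} (hd : 0 < d) (hol : MDiff F)
    (per : Periodic (F ∘ ofComplex) (1 : ℝ)) (bdd : IsBoundedAtImInfty F) :
    qExpansion 1 (F ∘ dmul d) = expandPS d (qExpansion 1 F) := by
  have han := analyticAt_cusp one_pos (mdiff_comp_dmul hd hol) (periodic_comp_dmul hd per)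
    (bdd_comp_dmul hd bdd)
  ext k
  rw [expandPS, PowerSeries.coeff_mk]
  refine (qExpansion_coeff_unique' (h := 1) (f := F ∘ dmul d)
    (c := fun k => if d ∣ k then (qExpansion 1 F).coeff (k / d) else 0) one_pos han
    (fun τ => ?_) k).symm
  have h1 := hasSum_qExpansion one_pos per hol bdd (dmul d τ)
  have hinj : Function.Injective (fun m : ℕ => d * m) := fun a b hab =>
    Nat.eq_of_mul_eq_mul_left hd hab
  rw [← hinj.hasSum_iff]
  · have e : ((fun k : ℕ => (if d ∣ k then (qExpansion 1 F).coeff (k / d) else 0) • 𝕢 1 (τ : ℂ) ^ k) ∘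
        fun m : ℕ => d * m) =
        fun m : ℕ => (qExpansion 1 F).coeff m • 𝕢 1 (dmul d τ : ℂ) ^ m := by
      funext m
      simp only [Function.comp_apply]
      rw [if_pos (Dvd.intro m rfl), Nat.mul_div_cancel_left m hd, qParam_dmul hd, pow_mul]
    rw [e]
    exact h1
  · intro k hk
    have : ¬ d ∣ k := fun ⟨m, hm⟩ => hk ⟨m, hm.symm⟩
    simp [this]

theorem qExpand_ofPowerSeries (d : ℕ) [NeZero d] (p : PowerSeries ℂ) :
    qExpand ℂ d (HahnSeries.ofPowerSeries ℤ ℂ p) =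
      HahnSeries.ofPowerSeries ℤ ℂ (expandPS d p) := by
  have hd : 0 < d := Nat.pos_of_ne_zero (NeZero.ne d)
  ext n
  rcases lt_or_ge n 0 with hn | hn
  · rw [ofPowerSeries_coeff_of_neg _ hn]
    by_cases hdn : (d : ℤ) ∣ n
    · obtain ⟨k, rfl⟩ := hdn
      rw [qExpand_coeff_mul]
      have hk : k < 0 := by
        by_contra hk
        have : (0 : ℤ) ≤ d * k := mul_nonneg (by positivity) (not_lt.mp hk)
        omega
      exact ofPowerSeries_coeff_of_neg _ hk
    · exact qExpand_coeff_of_not_dvd d _ hdn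
  · lift n to ℕ using hn
    rw [HahnSeries.ofPowerSeries_apply_coeff, expandPS, PowerSeries.coeff_mk]
    by_cases hdn : d ∣ n
    · obtain ⟨k, rfl⟩ := hdn
      rw [if_pos (Dvd.intro k rfl), Nat.mul_div_cancel_left k hd]
      push_cast
      rw [qExpand_coeff_mul, HahnSeries.ofPowerSeries_apply_coeff]
    · rw [if_neg hdn]
      refine qExpand_coeff_of_not_dvd d _ ?_
      exact_mod_cast hdn

theorem comp_dmul_mul_qpow {d : ℕ} (hd : 0 < d) (F : ℍ → ℂ) (m : ℕ) :
    (F ∘ dmul d) * qFun 1 ^ (d * m) = (F * qFun 1 ^ m) ∘ dmul d := by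
  funext τ
  simp only [Pi.mul_apply, Function.comp_apply, Pi.pow_apply]
  rw [qFun_dmul hd, pow_mul]

theorem isWH_comp_dmul {d : ℕ} (hd : 0 < d) (hF : IsWH 1 F) : IsWH 1 (F ∘ dmul d) := by
  obtain ⟨m, hm⟩ := hF.bdd
  refine ⟨mdiff_comp_dmul hd hF.holo, periodic_comp_dmul hd hF.per, d * m, ?_⟩
  rw [comp_dmul_mul_qpow hd]
  exact bdd_comp_dmul hd hm

theorem qLaurent_comp_dmul (d : ℕ) [NeZero d] (hF : IsWH 1 F) :
    qLaurent 1 (F ∘ dmul d) = qExpand ℂ d (qLaurent 1 F) := by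
  have hd : 0 < d := Nat.pos_of_ne_zero (NeZero.ne d)
  obtain ⟨m, hm⟩ := hF.bdd
  have hb : IsBoundedAtImInfty ((F ∘ dmul d) * qFun 1 ^ (d * m)) := by
    rw [comp_dmul_mul_qpow hd]
    exact bdd_comp_dmul hd hm
  rw [qLaurent_eq one_pos (isWH_comp_dmul hd hF) hb, qLaurent_eq one_pos hF hm]
  unfold qLaurentAt
  rw [map_mul, qExpand_single, qExpand_ofPowerSeries, comp_dmul_mul_qpow hd,
    qExpansion_comp_dmul hd (mdiff_mul_qpow hF.holo m) (periodic_mul_qpow one_ne_zero hF.per m) hm]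
  have e : (-((d * m : ℕ) : ℤ)) = (d : ℤ) * -(m : ℤ) := by push_cast; ring
  rw [e]

/-! ### The `q`-expansion of `j` -/

theorem jFun_mul_qFun : jFun * qFun 1 ^ 1 = JAnalytic.jMulQ := by
  funext τ
  simp [JAnalytic.jMulQ, qFun]

theorem isWH_jFun : IsWH 1 jFun :=
  ⟨jFun_mdifferentiable, JAnalytic.periodic_jFun, 1, by
    rw [jFun_mul_qFun]
    exact JAnalytic.isBoundedAtImInfty_of_tendsto JAnalytic.jMulQ_tendsto⟩

theorem discriminant_per : Periodic (Δ ∘ ofComplex) (1 : ℝ) :=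
  SlashInvariantFormClass.periodic_comp_ofComplex CuspForm.discriminant one_mem_strictPeriods_SL

theorem discriminant_bdd : IsBoundedAtImInfty Δ := by
  have : Fact (IsCusp OnePoint.infty 𝒮ℒ) :=
    ⟨(𝒮ℒ).isCusp_of_mem_strictPeriods one_pos one_mem_strictPeriods_SL⟩
  exact ModularFormClass.bdd_at_infty CuspForm.discriminant

theorem qExpansion_discriminant_ne_zero : qExpansion 1 Δ ≠ 0 := by
  intro h
  have h0 := (qExpansion_eq_zero_iff one_pos discriminant_per discriminant_mdifferentiable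
    discriminant_bdd).mp h
  exact discriminant_ne_zero UpperHalfPlane.I (congrFun h0 _)

theorem qExpansion_E4_cube :
    qExpansion 1 ((⇑E₄ : ℍ → ℂ) ^ 3) = (qExpansion 1 ⇑E₄) ^ 3 := by
  have han : AnalyticAt ℂ (cuspFunction 1 ⇑E₄) 0 :=
    analyticAt_cusp one_pos (JAnalytic.mf_hol E₄) (JAnalytic.mf_per E₄) (JAnalytic.mf_bdd E₄)
  have han2 : AnalyticAt ℂ (cuspFunction 1 (⇑E₄ * ⇑E₄)) 0 :=
    analyticAt_cusp one_pos ((JAnalytic.mf_hol E₄).mul (JAnalytic.mf_hol E₄))
      (by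
        intro w
        have h := JAnalytic.mf_per E₄ w
        simp only [Function.comp_apply, Pi.mul_apply] at h ⊢
        rw [h])
      (BoundedAtFilter.mul (JAnalytic.mf_bdd E₄) (JAnalytic.mf_bdd E₄))
  rw [pow_succ, pow_two, qExpansion_mul han2 han, qExpansion_mul han han]
  ring

theorem qLaurent_jFun : qLaurent 1 jFun = jqModC ℂ := by
  have hΔ : IsWH 1 (Δ : ℍ → ℂ) :=
    IsWH.of_bounded discriminant_mdifferentiable discriminant_per discriminant_bdd
  have hprod : jFun * (Δ : ℍ → ℂ) = (⇑E₄ : ℍ → ℂ) ^ 3 := by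
    funext τ
    simp only [Pi.mul_apply, Pi.pow_apply]
    exact jFun_mul_discriminant τ
  have h4 : IsWH 1 ((⇑E₄ : ℍ → ℂ) ^ 3) := by
    rw [← hprod]
    exact isWH_jFun.mul hΔ
  have hb4 : IsBoundedAtImInfty ((⇑E₄ : ℍ → ℂ) ^ 3) := by
    have h := BoundedAtFilter.mul (BoundedAtFilter.mul (JAnalytic.mf_bdd E₄) (JAnalytic.mf_bdd E₄))
      (JAnalytic.mf_bdd E₄)
    rwa [← pow_two, ← pow_succ] at h
  have h1 := qLaurent_mul one_pos isWH_jFun hΔ
  rw [hprod, qLaurent_of_bounded one_pos h4.holo h4.per hb4,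
    qLaurent_of_bounded one_pos discriminant_mdifferentiable discriminant_per discriminant_bdd,
    qExpansion_E4_cube, ofPowerSeries_qExpansion_E4_cube] at h1
  have hne : HahnSeries.ofPowerSeries ℤ ℂ (qExpansion 1 Δ) ≠ 0 := by
    intro h
    apply qExpansion_discriminant_ne_zero
    apply HahnSeries.ofPowerSeries_injective (Γ := ℤ)
    rw [h, map_zero]
  exact (mul_right_cancel₀ hne h1).symm

end Bridge

/-! ### The two analytic lemmas -/

theorem jd_eq_comp (d : ℕ) : jd d = jFun ∘ dmul d := rfl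

/-- `τ ↦ j(d τ)` is weakly holomorphic of period `1`. -/
theorem isWH_jd {d : ℕ} (hd : 0 < d) : Fermat.Agent.S23.IsWH 1 (jd d) :=
  Bridge.isWH_comp_dmul hd Bridge.isWH_jFun

/-- The Laurent `q`-expansion of `τ ↦ j(d τ)` is the formal series `j(q^d)`. -/
theorem qLaurent_jd {d : ℕ} (hd : 0 < d) : Fermat.Agent.S23.qLaurent 1 (jd d) = Jser ℂ d := by
  have : NeZero d := ⟨hd.ne'⟩
  rw [jd_eq_comp, Bridge.qLaurent_comp_dmul d Bridge.isWH_jFun, Bridge.qLaurent_jFun, Jser_eq,
    coeffEmb, coeffMap_qExpand]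
  congr 1
  rw [← jqModC_rat]
  exact (map_jqModC (algebraMap ℚ ℂ)).symm

namespace Bridge

/-! ### The bridge -/

section Alg

variable {K : Type*} [Field K] [Algebra ℚ K] (φ : K →+* ℂ) {ι : Type*} (d : ι → ℕ)

theorem coeffMap_aeval_Jser (P : MvPolynomial ι K) :
    coeffMap φ (MvPolynomial.aeval (fun i => Jser K (d i)) P) =
      MvPolynomial.aeval (fun i => Jser ℂ (d i)) (MvPolynomial.map φ P) := by
  induction P using MvPolynomial.induction_on with
  | C a =>
    rw [MvPolynomial.aeval_C, MvPolynomial.map_C, MvPolynomial.aeval_C,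
      algebraMap_laurentSeries_eq_single, algebraMap_laurentSeries_eq_single, coeffMap_single]
  | add p q hp hq => rw [map_add, map_add, map_add, map_add, hp, hq]
  | mul_X p i hp =>
    rw [map_mul, map_mul, map_mul, map_mul, hp, MvPolynomial.aeval_X, MvPolynomial.map_X,
      MvPolynomial.aeval_X, coeffMap_Jser]

/-- The functions `j(d i τ)` as elements of the algebra of weakly holomorphic functions. -/
noncomputable def jdWH (hd : ∀ i, 0 < d i) (i : ι) : WH 1 one_pos :=
  ⟨jd (d i), isWH_jd (hd i)⟩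

theorem aeval_Jser_eq_qL (hd : ∀ i, 0 < d i) (Q : MvPolynomial ι ℂ) :
    MvPolynomial.aeval (fun i => Jser ℂ (d i)) Q =
      qL 1 one_pos (MvPolynomial.aeval (jdWH d hd) Q) := by
  have h := AlgHom.congr_fun (MvPolynomial.comp_aeval (jdWH d hd) (qL 1 one_pos)) Q
  rw [AlgHom.comp_apply] at h
  rw [h]
  congr 2
  funext i
  rw [qL_apply]
  exact (qLaurent_jd (hd i)).symm

theorem aeval_jdWH_apply (hd : ∀ i, 0 < d i) (Q : MvPolynomial ι ℂ) (τ : ℍ) :
    (MvPolynomial.aeval (jdWH d hd) Q : WH 1 one_pos).1 τ =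
      MvPolynomial.eval (fun i => jd (d i) τ) Q := by
  have h := AlgHom.congr_fun (MvPolynomial.comp_aeval (jdWH d hd)
    ((Pi.evalAlgHom ℂ (fun _ : ℍ => ℂ) τ).comp (WH 1 one_pos).val)) Q
  rw [AlgHom.comp_apply] at h
  rw [← MvPolynomial.coe_aeval_eq_eval]
  exact h

end Alg

end Bridge

/-- **The bridge.** A polynomial relation with coefficients in `K` between the formal series
`j(q^{d_i})` holds iff the conjugate relation holds between the functions `τ ↦ j(d_i τ)`. -/
theorem bridge (K : Type*) [Field K] [Algebra ℚ K] (φ : K →+* ℂ) {ι : Type*} (d : ι → ℕ)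
    (hd : ∀ i, 0 < d i) (P : MvPolynomial ι K) :
    MvPolynomial.aeval (fun i => Jser K (d i)) P = 0 ↔
      ∀ τ : ℍ, MvPolynomial.eval (fun i => jd (d i) τ) (MvPolynomial.map φ P) = 0 := by
  rw [← (coeffMap φ).injective.eq_iff, map_zero, Bridge.coeffMap_aeval_Jser,
    Bridge.aeval_Jser_eq_qL d hd, ← map_zero (qL 1 one_pos), (qL_injective 1 one_pos).eq_iff]
  constructor
  · intro h τ
    rw [← Bridge.aeval_jdWH_apply d hd, h]
    rfl
  · intro h
    apply Subtype.ext
    funext τ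
    rw [Bridge.aeval_jdWH_apply d hd]
    exact h τ

end Fermat.Agent.S24
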