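/-
S24 package A5: Riemann-Hurwitz bookkeeping.  From the place counts above `0`, `b`, `∞` of a
function `x`, the local orders of `dx`, and `deg (principal) = 0`, compute the prelude genus.
-/
import Mathlib
import Fermat.Prelude.Def_AlgebraicCurve_CanonicalDivisor

set_option autoImplicit false

noncomputable section

namespace Fermat.Agent.S24

open AlgebraicCurve KaehlerDifferential

namespace Assembly

variable {K F : Type*} [Field K] [Field F] [Algebra K F]

/-- For `f ≠ 0` the adic valuation is `exp (-ord f)`. -/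
theorem adicValuation_eq_exp (v : Place K F) {f : F} (hf : f ≠ 0) :
    v.adicValuation f = WithZero.exp (-(v.ord f)) := by
  unfold Place.ord
  rw [neg_neg, WithZero.exp_log (v.adicValuation_ne_zero hf)]

theorem adicValuation_le_one_of_mem (v : Place K F) {f : F} (hf : f ∈ v.toValuationSubring) :
    v.adicValuation f ≤ 1 := by
  have h := v.adicValuation_coe ⟨f, hf⟩
  rw [h]
  exact IsDedekindDomain.HeightOneSpectrum.intValuation_le_one _ _

theorem mem_iff_adicValuation_le_one (v : Place K F) (f : F) :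
    f ∈ v.toValuationSubring ↔ v.adicValuation f ≤ 1 := by
  refine ⟨adicValuation_le_one_of_mem v, fun h => ?_⟩
  by_contra hf
  have hf0 : f ≠ 0 := fun h0 => hf (h0 ▸ v.toValuationSubring.zero_mem)
  have hinv : f⁻¹ ∈ v.toValuationSubring :=
    (v.toValuationSubring.mem_or_inv_mem f).resolve_left hf
  have h1 : v.adicValuation f⁻¹ ≤ 1 := adicValuation_le_one_of_mem v hinv
  have h2 : v.adicValuation f * v.adicValuation f⁻¹ = 1 := by
    rw [← map_mul, mul_inv_cancel₀ hf0, map_one]
  have h3 : v.adicValuation f⁻¹ = 1 := by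
    refine le_antisymm h1 ?_
    by_contra hlt
    rw [not_le] at hlt
    have h0 : v.adicValuation f ≠ 0 := v.adicValuation_ne_zero hf0
    have : v.adicValuation f * v.adicValuation f⁻¹ < 1 := by
      calc v.adicValuation f * v.adicValuation f⁻¹ ≤ 1 * v.adicValuation f⁻¹ :=
            mul_le_mul_left h _
        _ < 1 := by rw [one_mul]; exact hlt
    rw [h2] at this
    exact lt_irrefl _ this
  have hu : IsUnit (⟨f⁻¹, hinv⟩ : v.toValuationSubring) :=
    (v.adicValuation_coe_eq_one_iff ⟨f⁻¹, hinv⟩).mp h3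
  obtain ⟨u, hu⟩ := hu
  apply hf
  have h4 : ((u⁻¹ : v.toValuationSubringˣ) : v.toValuationSubring) * ⟨f⁻¹, hinv⟩ = 1 := by
    rw [← hu]; exact u.inv_mul
  have h5 : (((u⁻¹ : v.toValuationSubringˣ) : v.toValuationSubring) : F) * f⁻¹ = 1 :=
    congrArg Subtype.val h4
  have h6 : (((u⁻¹ : v.toValuationSubringˣ) : v.toValuationSubring) : F) = f := by
    field_simp at h5
    exact h5
  rw [← h6]
  exact Subtype.property _

theorem ord_nonneg_iff (v : Place K F) {f : F} (hf : f ≠ 0) :
    0 ≤ v.ord f ↔ v.adicValuation f ≤ 1 := by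
  rw [adicValuation_eq_exp v hf, ← WithZero.exp_zero, WithZero.exp_le_exp]
  omega

theorem ord_pos_iff (v : Place K F) {f : F} (hf : f ≠ 0) :
    0 < v.ord f ↔ v.adicValuation f < 1 := by
  rw [adicValuation_eq_exp v hf, ← WithZero.exp_zero, WithZero.exp_lt_exp]
  omega

theorem ord_neg_iff (v : Place K F) {f : F} (hf : f ≠ 0) :
    v.ord f < 0 ↔ 1 < v.adicValuation f := by
  rw [adicValuation_eq_exp v hf, ← WithZero.exp_zero, WithZero.exp_lt_exp]
  omega

theorem adicValuation_algebraMap (v : Place K F) {a : K} (ha : a ≠ 0) :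
    v.adicValuation (algebraMap K F a) = 1 := by
  have hu : IsUnit (algebraMap K v.toValuationSubring a) :=
    (IsUnit.mk0 a ha).map (algebraMap K v.toValuationSubring)
  have := (v.adicValuation_coe_eq_one_iff (algebraMap K v.toValuationSubring a)).mpr hu
  rwa [v.coe_algebraMap] at this

theorem adicValuation_algebraMap_le_one (v : Place K F) (a : K) :
    v.adicValuation (algebraMap K F a) ≤ 1 :=
  adicValuation_le_one_of_mem v (v.algebraMap_mem' a)

/-- At most one constant is congruent to `x` modulo the maximal ideal. -/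
theorem eq_of_adicValuation_sub_lt_one (v : Place K F) (x : F) {a a' : K}
    (h : v.adicValuation (x - algebraMap K F a) < 1)
    (h' : v.adicValuation (x - algebraMap K F a') < 1) : a = a' := by
  by_contra hne
  have h1 : v.adicValuation (algebraMap K F (a' - a)) = 1 :=
    adicValuation_algebraMap v (sub_ne_zero.mpr (Ne.symm hne))
  have h2 : algebraMap K F (a' - a) = (x - algebraMap K F a) - (x - algebraMap K F a') := by
    rw [map_sub]; ring
  rw [h2] at h1
  have h3 := Valuation.map_sub v.adicValuation (x - algebraMap K F a) (x - algebraMap K F a')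
  rw [h1] at h3
  exact absurd h3 (not_le.mpr (max_lt h h'))

theorem adicValuation_le_one_of_sub_lt_one (v : Place K F) (x : F) {a : K}
    (h : v.adicValuation (x - algebraMap K F a) < 1) : v.adicValuation x ≤ 1 := by
  have h1 : x = (x - algebraMap K F a) + algebraMap K F a := by ring
  rw [h1]
  exact (Valuation.map_add v.adicValuation _ _).trans
    (max_le h.le (adicValuation_algebraMap_le_one v a))

theorem finsum_mem_sub_one {α : Type*} {S : Set α} (hS : S.Finite) (h : α → ℤ) :
    ∑ᶠ v ∈ S, (h v - 1) = (∑ᶠ v ∈ S, h v) - (Nat.card S : ℤ) := by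
  rw [finsum_mem_sub_distrib _ _ hS]
  congr 1
  rw [finsum_mem_eq_finite_toFinset_sum _ hS, Finset.sum_const, nsmul_eq_mul, mul_one,
    Nat.card_eq_card_finite_toFinset hS]

theorem finsum_mem_neg_sub_one {α : Type*} {S : Set α} (hS : S.Finite) (h : α → ℤ) :
    ∑ᶠ v ∈ S, (-h v - 1) = -(∑ᶠ v ∈ S, h v) - (Nat.card S : ℤ) := by
  rw [finsum_mem_sub_one hS (fun v => -h v), finsum_mem_neg_distrib _ hS]

end Assembly

namespace Assembly

variable {K F : Type*} [Field K] [Field F] [Algebra K F]

/-- When all places have degree one, the degree of a divisor is the sum of its values. -/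
theorem degree_eq_finsum (hdeg : ∀ v : Place K F, v.deg = 1) (W : Divisor K F) :
    Divisor.degree W = ∑ᶠ v : Place K F, W v := by
  rw [finsum_eq_sum_of_support_subset _ (s := W.support) (by rw [Finsupp.fun_support_eq])]
  unfold Divisor.degree
  rw [Finsupp.liftAddHom_apply]
  unfold Finsupp.sum
  refine Finset.sum_congr rfl fun v _ => ?_
  simp [hdeg v]

/-- A3 in finsum form: the orders of a nonzero function have finite support. -/
theorem finite_ord_ne_zero (hprinc : HasPrincipalDivisors K F) {c : F} (hc : c ≠ 0) :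
    {v : Place K F | v.ord c ≠ 0}.Finite := by
  obtain ⟨W, hW, -⟩ := hprinc.exists_divisor c hc
  refine W.support.finite_toSet.subset ?_
  intro v hv
  have hv' : v.ord c ≠ 0 := hv
  rw [Finset.mem_coe, Finsupp.mem_support_iff, hW v]
  exact hv'

/-- A3 in finsum form: the orders of a nonzero function sum to zero. -/
theorem finsum_ord_eq_zero (hdeg : ∀ v : Place K F, v.deg = 1)
    (hprinc : HasPrincipalDivisors K F) {c : F} (hc : c ≠ 0) :
    ∑ᶠ v : Place K F, v.ord c = 0 := by
  obtain ⟨W, hW, hW0⟩ := hprinc.exists_divisor c hc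
  rw [degree_eq_finsum hdeg W] at hW0
  rw [← hW0]
  exact finsum_congr fun v => (hW v).symm

end Assembly

open Assembly in
/-- A5, degree form (abstract: all inputs from A1/A3/A4 as hypotheses).  The divisor of any
nonzero differential has degree `n - P0 - P1 - Pinf`. -/
theorem degree_eq_of_counts {K F : Type*} [Field K] [Field F] [Algebra K F]
    (x : F) (b : K) (hb : b ≠ 0) (n P0 P1 Pinf : ℕ)
    (hdeg : ∀ v : Place K F, v.deg = 1)
    (hres : ∀ (v : Place K F) (f : F), f ∈ v.toValuationSubring →
      ∃ a : K, 0 < v.ord (f - algebraMap K F a) ∨ f = algebraMap K F a)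
    (hxK : ∀ a : K, x ≠ algebraMap K F a)
    (hDx : (D K F x : Ω[F⁄K]) ≠ 0)
    (hspan : Submodule.span F {(D K F x : Ω[F⁄K])} = ⊤)
    (hgen : ∀ v : Place K F, v.DCoordGenerates)
    (hpos : ∀ (v : Place K F) (a : K), 0 < v.ord (x - algebraMap K F a) →
      v.ordDifferential (D K F x) = v.ord (x - algebraMap K F a) - 1)
    (hneg : ∀ v : Place K F, v.ord x < 0 → v.ordDifferential (D K F x) = v.ord x - 1)
    (hprinc : HasPrincipalDivisors K F)
    (hfin0 : {v : Place K F | 0 < v.ord x}.Finite)
    (hsum0 : ∑ᶠ v ∈ {v : Place K F | 0 < v.ord x}, v.ord x = (n : ℤ))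
    (hfinb : {v : Place K F | 0 < v.ord (x - algebraMap K F b)}.Finite)
    (hsumb : ∑ᶠ v ∈ {v : Place K F | 0 < v.ord (x - algebraMap K F b)},
      v.ord (x - algebraMap K F b) = (n : ℤ))
    (hfininf : {v : Place K F | 0 < v.ord x⁻¹}.Finite)
    (hsuminf : ∑ᶠ v ∈ {v : Place K F | 0 < v.ord x⁻¹}, v.ord x⁻¹ = (n : ℤ))
    (hunr : ∀ a : K, a ≠ 0 → a ≠ b → ∀ v : Place K F,
      0 < v.ord (x - algebraMap K F a) → v.ord (x - algebraMap K F a) = 1)
    (h0 : Nat.card {v : Place K F // 0 < v.ord x} = P0)
    (h1 : Nat.card {v : Place K F // 0 < v.ord (x - algebraMap K F b)} = P1)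
    (hinf : Nat.card {v : Place K F // 0 < v.ord x⁻¹} = Pinf)
    (ω : Ω[F⁄K]) (hω : ω ≠ 0) (W : Divisor K F)
    (hW : ∀ v : Place K F, W v = v.ordDifferential ω) :
    Divisor.degree W = (n : ℤ) - P0 - P1 - Pinf := by
  classical
  have : Nontrivial Ω[F⁄K] := ⟨⟨D K F x, 0, hDx⟩⟩
  have hx0 : x ≠ 0 := fun h => hxK 0 (by rw [h, map_zero])
  have hxa : ∀ a : K, x - algebraMap K F a ≠ 0 := fun a h => hxK a (sub_eq_zero.mp h)
  -- the three special fibres
  set S0 : Set (Place K F) := {v | 0 < v.ord x} with hS0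
  set Sb : Set (Place K F) := {v | 0 < v.ord (x - algebraMap K F b)} with hSb
  set Sinf : Set (Place K F) := {v | 0 < v.ord x⁻¹} with hSinf
  -- local computation of the order of `dx`
  have hκ : ∀ v : Place K F, v.ordDifferential (D K F x) =
      S0.indicator (fun v => v.ord x - 1) v +
      Sb.indicator (fun v => v.ord (x - algebraMap K F b) - 1) v +
      Sinf.indicator (fun v => -v.ord x⁻¹ - 1) v := by
    intro v
    by_cases hv : 1 < v.adicValuation x
    · have hneg' : v.ord x < 0 := (ord_neg_iff v hx0).mpr hv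
      have hn0 : v ∉ S0 := fun h => by
        have : 0 < v.ord x := h
        omega
      have hnb : v ∉ Sb := fun h => by
        have h' : v.adicValuation (x - algebraMap K F b) < 1 := (ord_pos_iff v (hxa b)).mp h
        exact absurd (adicValuation_le_one_of_sub_lt_one v x h') (not_le.mpr hv)
      have hinf' : v ∈ Sinf := by
        show 0 < v.ord x⁻¹
        rw [v.ord_inv]; omega
      rw [Set.indicator_of_notMem hn0, Set.indicator_of_notMem hnb, Set.indicator_of_mem hinf',
        hneg v hneg', v.ord_inv]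
      ring
    · rw [not_lt] at hv
      have hmem : x ∈ v.toValuationSubring := (mem_iff_adicValuation_le_one v x).mpr hv
      obtain ⟨a, ha | ha⟩ := hres v x hmem
      swap
      · exact absurd ha (hxK a)
      have ha' : v.adicValuation (x - algebraMap K F a) < 1 := (ord_pos_iff v (hxa a)).mp ha
      have hninf : v ∉ Sinf := fun h => by
        have h1 : 0 < v.ord x⁻¹ := h
        rw [v.ord_inv] at h1
        have h2 : 0 ≤ v.ord x := (ord_nonneg_iff v hx0).mpr hv
        omega
      have hmem0 : v ∈ S0 → a = 0 := fun h => by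
        have h1 : v.adicValuation x < 1 := (ord_pos_iff v hx0).mp h
        have h2 : v.adicValuation (x - algebraMap K F 0) < 1 := by rwa [map_zero, sub_zero]
        exact eq_of_adicValuation_sub_lt_one v x ha' h2
      have hmemb : v ∈ Sb → a = b := fun h => by
        have h1 : v.adicValuation (x - algebraMap K F b) < 1 := (ord_pos_iff v (hxa b)).mp h
        exact eq_of_adicValuation_sub_lt_one v x ha' h1
      rw [Set.indicator_of_notMem hninf, add_zero, hpos v a ha]
      by_cases ha0 : a = 0
      · subst ha0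
        have hin0 : v ∈ S0 := by
          show 0 < v.ord x
          have := ha
          rwa [map_zero, sub_zero] at this
        have hnb : v ∉ Sb := fun h => hb (hmemb h).symm
        rw [Set.indicator_of_mem hin0, Set.indicator_of_notMem hnb, map_zero, sub_zero, add_zero]
      · by_cases hab : a = b
        · subst hab
          have hinb : v ∈ Sb := ha
          have hn0 : v ∉ S0 := fun h => ha0 (hmem0 h)
          rw [Set.indicator_of_notMem hn0, Set.indicator_of_mem hinb, zero_add]
        · have hn0 : v ∉ S0 := fun h => ha0 (hmem0 h)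
          have hnb : v ∉ Sb := fun h => hab (hmemb h)
          rw [Set.indicator_of_notMem hn0, Set.indicator_of_notMem hnb, hunr a ha0 hab v ha]
          ring
  -- the sum of the local orders of `dx`
  have hsupp0 : (Function.support (S0.indicator fun v : Place K F => v.ord x - 1)).Finite :=
    hfin0.subset Set.support_indicator_subset
  have hsuppb : (Function.support
      (Sb.indicator fun v : Place K F => v.ord (x - algebraMap K F b) - 1)).Finite :=
    hfinb.subset Set.support_indicator_subset
  have hsuppinf : (Function.support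
      (Sinf.indicator fun v : Place K F => -v.ord x⁻¹ - 1)).Finite :=
    hfininf.subset Set.support_indicator_subset
  have hsupp0b : (Function.support (fun v : Place K F =>
      S0.indicator (fun v => v.ord x - 1) v +
      Sb.indicator (fun v => v.ord (x - algebraMap K F b) - 1) v)).Finite :=
    (hsupp0.union hsuppb).subset (Function.support_add _ _)
  have hκsum : ∑ᶠ v : Place K F, v.ordDifferential (D K F x) =
      ((n : ℤ) - P0) + ((n : ℤ) - P1) + (-(n : ℤ) - Pinf) := by
    rw [finsum_congr hκ, finsum_add_distrib hsupp0b hsuppinf, finsum_add_distrib hsupp0 hsuppb,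
      ← finsum_mem_def, ← finsum_mem_def, ← finsum_mem_def, finsum_mem_sub_one hfin0,
      finsum_mem_sub_one hfinb, finsum_mem_neg_sub_one hfininf, hsum0, hsumb, hsuminf]
    have e0 : Nat.card S0 = P0 := h0
    have e1 : Nat.card Sb = P1 := h1
    have e2 : Nat.card Sinf = Pinf := hinf
    rw [e0, e1, e2]
  have hκfin : (Function.support fun v : Place K F => v.ordDifferential (D K F x)).Finite := by
    refine ((hsupp0.union hsuppb).union hsuppinf).subset ?_
    intro v hv
    rw [Function.mem_support, hκ v] at hv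
    by_contra hnot
    simp only [Set.mem_union, Function.mem_support, not_or, not_not] at hnot
    apply hv
    rw [hnot.1.1, hnot.1.2, hnot.2]
    ring
  -- write `ω = c • dx`
  obtain ⟨c, hc⟩ := Submodule.mem_span_singleton.mp
    (hspan ▸ (Submodule.mem_top : ω ∈ (⊤ : Submodule F Ω[F⁄K])))
  have hc0 : c ≠ 0 := by
    rintro rfl
    rw [zero_smul] at hc
    exact hω hc.symm
  have hpt : ∀ v : Place K F, W v = v.ord c + v.ordDifferential (D K F x) := by
    intro v
    have := hgen v
    rw [hW v, ← hc]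
    apply Place.ordDifferential_smul v hc0
    intro h0'
    apply hDx
    rw [← v.differentialCoeff_smul_dCoord (D K F x), h0', zero_smul]
  rw [degree_eq_finsum hdeg W, finsum_congr hpt,
    finsum_add_distrib (finite_ord_ne_zero hprinc hc0) hκfin,
    finsum_ord_eq_zero hdeg hprinc hc0, hκsum]
  ring

open Assembly in
/-- A5, genus form (abstract: all inputs from A1/A3/A4 as hypotheses). -/
theorem genus_eq_of_counts {K F : Type*} [Field K] [Field F] [Algebra K F]
    [HasCanonicalDivisor (K := K) (F := F)]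
    (x : F) (b : K) (hb : b ≠ 0) (n P0 P1 Pinf g : ℕ)
    (hdeg : ∀ v : Place K F, v.deg = 1)
    (hres : ∀ (v : Place K F) (f : F), f ∈ v.toValuationSubring →
      ∃ a : K, 0 < v.ord (f - algebraMap K F a) ∨ f = algebraMap K F a)
    (hxK : ∀ a : K, x ≠ algebraMap K F a)
    (hDx : (D K F x : Ω[F⁄K]) ≠ 0)
    (hspan : Submodule.span F {(D K F x : Ω[F⁄K])} = ⊤)
    (hgen : ∀ v : Place K F, v.DCoordGenerates)
    (hpos : ∀ (v : Place K F) (a : K), 0 < v.ord (x - algebraMap K F a) →
      v.ordDifferential (D K F x) = v.ord (x - algebraMap K F a) - 1)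
    (hneg : ∀ v : Place K F, v.ord x < 0 → v.ordDifferential (D K F x) = v.ord x - 1)
    (hprinc : HasPrincipalDivisors K F)
    (hfin0 : {v : Place K F | 0 < v.ord x}.Finite)
    (hsum0 : ∑ᶠ v ∈ {v : Place K F | 0 < v.ord x}, v.ord x = (n : ℤ))
    (hfinb : {v : Place K F | 0 < v.ord (x - algebraMap K F b)}.Finite)
    (hsumb : ∑ᶠ v ∈ {v : Place K F | 0 < v.ord (x - algebraMap K F b)},
      v.ord (x - algebraMap K F b) = (n : ℤ))
    (hfininf : {v : Place K F | 0 < v.ord x⁻¹}.Finite)
    (hsuminf : ∑ᶠ v ∈ {v : Place K F | 0 < v.ord x⁻¹}, v.ord x⁻¹ = (n : ℤ))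
    (hunr : ∀ a : K, a ≠ 0 → a ≠ b → ∀ v : Place K F,
      0 < v.ord (x - algebraMap K F a) → v.ord (x - algebraMap K F a) = 1)
    (h0 : Nat.card {v : Place K F // 0 < v.ord x} = P0)
    (h1 : Nat.card {v : Place K F // 0 < v.ord (x - algebraMap K F b)} = P1)
    (hinf : Nat.card {v : Place K F // 0 < v.ord x⁻¹} = Pinf)
    (hg : (2 * g : ℤ) = n - P0 - P1 - Pinf + 2) :
    AlgebraicCurve.genus K F = g := by
  have hex : ∃ ω : Ω[F⁄K], ω ≠ 0 := ⟨_, hDx⟩
  unfold AlgebraicCurve.genus
  rw [dif_pos hex, degree_eq_of_counts x b hb n P0 P1 Pinf hdeg hres hxK hDx hspan hgen hpos hneg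
    hprinc hfin0 hsum0 hfinb hsumb hfininf hsuminf hunr h0 h1 hinf _ hex.choose_spec _
    (fun v => canonicalDivisorOf_apply hex.choose_spec v)]
  omega

namespace Assembly

open IntermediateField

variable {K F : Type*} [Field K] [Field F] [Algebra K F]

theorem adjoin_sub_algebraMap (x : F) (b : K) : K⟮x - algebraMap K F b⟯ = K⟮x⟯ := by
  apply le_antisymm
  · rw [adjoin_simple_le_iff]
    exact sub_mem (mem_adjoin_simple_self K x) (IntermediateField.algebraMap_mem _ b)
  · rw [adjoin_simple_le_iff]
    have h := add_mem (mem_adjoin_simple_self K (x - algebraMap K F b))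
      (IntermediateField.algebraMap_mem K⟮x - algebraMap K F b⟯ b)
    rwa [sub_add_cancel] at h

theorem adjoin_inv (x : F) : K⟮x⁻¹⟯ = K⟮x⟯ := by
  apply le_antisymm
  · rw [adjoin_simple_le_iff]
    exact inv_mem (mem_adjoin_simple_self K x)
  · rw [adjoin_simple_le_iff]
    have h := inv_mem (mem_adjoin_simple_self K x⁻¹)
    rwa [inv_inv] at h

theorem transcendental_sub_algebraMap {x : F} (hx : Transcendental K x) (b : K) :
    Transcendental K (x - algebraMap K F b) := by
  intro h
  apply hx
  have h2 := h.add (isAlgebraic_algebraMap (R := K) (A := F) b)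
  rwa [sub_add_cancel] at h2

theorem transcendental_inv {x : F} (hx : Transcendental K x) : Transcendental K x⁻¹ := by
  intro h
  apply hx
  have h2 := h.inv
  rwa [inv_inv] at h2

theorem ne_algebraMap_of_transcendental {x : F} (hx : Transcendental K x) (a : K) :
    x ≠ algebraMap K F a := by
  rintro rfl
  exact hx (isAlgebraic_algebraMap a)

theorem finiteDimensional_of_finrank {x : F} {n : ℕ} (hn : Module.finrank K⟮x⟯ F = n)
    (hn0 : 0 < n) : FiniteDimensional K⟮x⟯ F :=
  Module.finite_of_finrank_pos (hn ▸ hn0)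

/-- `dx ≠ 0`, from the existence of a pole of `x` and the local nontriviality of `Ω`. -/
theorem D_ne_zero_aux (x : F) (hx : Transcendental K x) (n : ℕ)
    (hn : Module.finrank K⟮x⟯ F = n) (hn0 : 0 < n)
    (hA1c : ∀ y : F, FiniteDimensional K⟮y⟯ F → Transcendental K y →
      ∑ᶠ v ∈ {v : Place K F | 0 < v.ord y}, v.ord y = (Module.finrank K⟮y⟯ F : ℤ))
    (hspan : Submodule.span F {(D K F x : Ω[F⁄K])} = ⊤)
    (hnt : Place K F → Nontrivial Ω[F⁄K]) :
    (D K F x : Ω[F⁄K]) ≠ 0 := by
  have hfin : FiniteDimensional K⟮x⟯ F := finiteDimensional_of_finrank hn hn0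
  have hfininv : FiniteDimensional K⟮x⁻¹⟯ F := by
    rw [adjoin_inv]; exact hfin
  have hrankinv : Module.finrank K⟮x⁻¹⟯ F = n := by
    rw [adjoin_inv]; exact hn
  have hsuminf := hA1c x⁻¹ hfininv (transcendental_inv hx)
  rw [hrankinv] at hsuminf
  -- there is at least one place (a pole of `x`)
  have hplace : Nonempty (Place K F) := by
    by_contra hne
    rw [not_nonempty_iff] at hne
    have : ∑ᶠ v ∈ {v : Place K F | 0 < v.ord x⁻¹}, v.ord x⁻¹ = 0 := by
      rw [finsum_mem_def]
      exact finsum_of_isEmpty _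
    rw [this] at hsuminf
    have : (n : ℤ) = 0 := hsuminf.symm
    omega
  obtain ⟨v₀⟩ := hplace
  have hnt' : Nontrivial Ω[F⁄K] := hnt v₀
  intro h
  rw [h, Submodule.span_zero_singleton] at hspan
  exact bot_ne_top hspan

end Assembly

open Assembly IntermediateField in
/-- A5, degree form with the GENERAL statements of A1/A3/A4 as hypotheses (everything about the
auxiliary functions `x - b` and `x⁻¹` is derived here). -/
theorem degree_eq_of_ramification_aux {K F : Type*} [Field K] [Field F] [Algebra K F]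
    (x : F) (hx : Transcendental K x) (b : K) (hb : b ≠ 0) (n P0 P1 Pinf : ℕ)
    (hn : Module.finrank K⟮x⟯ F = n) (hn0 : 0 < n)
    (hdeg : ∀ v : Place K F, v.deg = 1)
    (hres : ∀ (v : Place K F) (f : F), f ∈ v.toValuationSubring →
      ∃ a : K, 0 < v.ord (f - algebraMap K F a) ∨ f = algebraMap K F a)
    (hA1b : ∀ y : F, FiniteDimensional K⟮y⟯ F → Transcendental K y →
      {v : Place K F | 0 < v.ord y}.Finite)
    (hA1c : ∀ y : F, FiniteDimensional K⟮y⟯ F → Transcendental K y →
      ∑ᶠ v ∈ {v : Place K F | 0 < v.ord y}, v.ord y = (Module.finrank K⟮y⟯ F : ℤ))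
    (hprinc : HasPrincipalDivisors K F)
    (hspan : Submodule.span F {(D K F x : Ω[F⁄K])} = ⊤)
    (hnt : Place K F → Nontrivial Ω[F⁄K])
    (hgen : ∀ v : Place K F, v.DCoordGenerates)
    (hpos : ∀ (v : Place K F) (a : K), 0 < v.ord (x - algebraMap K F a) →
      v.ordDifferential (D K F x) = v.ord (x - algebraMap K F a) - 1)
    (hneg : ∀ v : Place K F, v.ord x < 0 → v.ordDifferential (D K F x) = v.ord x - 1)
    (hunr : ∀ a : K, a ≠ 0 → a ≠ b → ∀ v : Place K F,
      0 < v.ord (x - algebraMap K F a) → v.ord (x - algebraMap K F a) = 1)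
    (h0 : Nat.card {v : Place K F // 0 < v.ord x} = P0)
    (h1 : Nat.card {v : Place K F // 0 < v.ord (x - algebraMap K F b)} = P1)
    (hinf : Nat.card {v : Place K F // 0 < v.ord x⁻¹} = Pinf)
    (ω : Ω[F⁄K]) (hω : ω ≠ 0) (W : Divisor K F)
    (hW : ∀ v : Place K F, W v = v.ordDifferential ω) :
    Divisor.degree W = (n : ℤ) - P0 - P1 - Pinf := by
  have hfin : FiniteDimensional K⟮x⟯ F := finiteDimensional_of_finrank hn hn0
  have hfinb : FiniteDimensional K⟮x - algebraMap K F b⟯ F := by
    rw [adjoin_sub_algebraMap]; exact hfin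
  have hfininv : FiniteDimensional K⟮x⁻¹⟯ F := by
    rw [adjoin_inv]; exact hfin
  have hxb := transcendental_sub_algebraMap hx b
  have hxinv := transcendental_inv hx
  have hrankb : Module.finrank K⟮x - algebraMap K F b⟯ F = n := by
    rw [adjoin_sub_algebraMap]; exact hn
  have hrankinv : Module.finrank K⟮x⁻¹⟯ F = n := by
    rw [adjoin_inv]; exact hn
  have hsum0 := hA1c x hfin hx
  rw [hn] at hsum0
  have hsumb := hA1c _ hfinb hxb
  rw [hrankb] at hsumb
  have hsuminf := hA1c x⁻¹ hfininv hxinv
  rw [hrankinv] at hsuminf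
  exact degree_eq_of_counts x b hb n P0 P1 Pinf hdeg hres
    (ne_algebraMap_of_transcendental hx) (D_ne_zero_aux x hx n hn hn0 hA1c hspan hnt) hspan hgen
    hpos hneg hprinc (hA1b x hfin hx) hsum0 (hA1b _ hfinb hxb) hsumb (hA1b _ hfininv hxinv)
    hsuminf hunr h0 h1 hinf ω hω W hW

open Assembly IntermediateField in
/-- A5, genus form with the GENERAL statements of A1/A3/A4 as hypotheses. -/
theorem genus_eq_of_ramification_aux {K F : Type*} [Field K] [Field F] [Algebra K F]
    [HasCanonicalDivisor (K := K) (F := F)]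
    (x : F) (hx : Transcendental K x) (b : K) (hb : b ≠ 0) (n P0 P1 Pinf g : ℕ)
    (hn : Module.finrank K⟮x⟯ F = n) (hn0 : 0 < n)
    (hdeg : ∀ v : Place K F, v.deg = 1)
    (hres : ∀ (v : Place K F) (f : F), f ∈ v.toValuationSubring →
      ∃ a : K, 0 < v.ord (f - algebraMap K F a) ∨ f = algebraMap K F a)
    (hA1b : ∀ y : F, FiniteDimensional K⟮y⟯ F → Transcendental K y →
      {v : Place K F | 0 < v.ord y}.Finite)
    (hA1c : ∀ y : F, FiniteDimensional K⟮y⟯ F → Transcendental K y →
      ∑ᶠ v ∈ {v : Place K F | 0 < v.ord y}, v.ord y = (Module.finrank K⟮y⟯ F : ℤ))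
    (hprinc : HasPrincipalDivisors K F)
    (hspan : Submodule.span F {(D K F x : Ω[F⁄K])} = ⊤)
    (hnt : Place K F → Nontrivial Ω[F⁄K])
    (hgen : ∀ v : Place K F, v.DCoordGenerates)
    (hpos : ∀ (v : Place K F) (a : K), 0 < v.ord (x - algebraMap K F a) →
      v.ordDifferential (D K F x) = v.ord (x - algebraMap K F a) - 1)
    (hneg : ∀ v : Place K F, v.ord x < 0 → v.ordDifferential (D K F x) = v.ord x - 1)
    (hunr : ∀ a : K, a ≠ 0 → a ≠ b → ∀ v : Place K F,
      0 < v.ord (x - algebraMap K F a) → v.ord (x - algebraMap K F a) = 1)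
    (h0 : Nat.card {v : Place K F // 0 < v.ord x} = P0)
    (h1 : Nat.card {v : Place K F // 0 < v.ord (x - algebraMap K F b)} = P1)
    (hinf : Nat.card {v : Place K F // 0 < v.ord x⁻¹} = Pinf)
    (hg : (2 * g : ℤ) = n - P0 - P1 - Pinf + 2) :
    AlgebraicCurve.genus K F = g := by
  have hex : ∃ ω : Ω[F⁄K], ω ≠ 0 := ⟨_, D_ne_zero_aux x hx n hn hn0 hA1c hspan hnt⟩
  unfold AlgebraicCurve.genus
  rw [dif_pos hex, degree_eq_of_ramification_aux x hx b hb n P0 P1 Pinf hn hn0 hdeg hres hA1b hA1c
    hprinc hspan hnt hgen hpos hneg hunr h0 h1 hinf _ hex.choose_spec _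
    (fun v => canonicalDivisorOf_apply hex.choose_spec v)]
  omega

end Fermat.Agent.S24

end
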