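/-
S24 package A4 (part 1): the local power series expansion at a discrete valuation ring whose
residue field is the base field `K`.
-/
import Mathlib

set_option autoImplicit false

noncomputable section

namespace Fermat.Agent.S24

namespace LocalExpansion

open IsLocalRing PowerSeries

variable {K O : Type*} [Field K] [CommRing O] [IsDomain O] [IsDiscreteValuationRing O]
  [Algebra K O]

/-- The constant which is congruent to `u` modulo the maximal ideal. -/
def res (hres : ∀ u : O, ∃ a : K, u - algebraMap K O a ∈ maximalIdeal O) (u : O) : K :=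
  (hres u).choose

section

variable (hres : ∀ u : O, ∃ a : K, u - algebraMap K O a ∈ maximalIdeal O)

theorem res_spec (u : O) : u - algebraMap K O (res hres u) ∈ maximalIdeal O :=
  (hres u).choose_spec

theorem res_unique {u : O} {a : K} (h : u - algebraMap K O a ∈ maximalIdeal O) :
    res hres u = a := by
  by_contra hne
  have h1 : algebraMap K O (res hres u - a) ∈ maximalIdeal O := by
    have h2 := (maximalIdeal O).sub_mem h (res_spec hres u)
    have h3 : u - algebraMap K O a - (u - algebraMap K O (res hres u)) =
        algebraMap K O (res hres u - a) := by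
      rw [map_sub]; ring
    rwa [h3] at h2
  have h4 : IsUnit (algebraMap K O (res hres u - a)) :=
    (isUnit_iff_ne_zero.mpr (sub_ne_zero.mpr hne)).map _
  exact (mem_maximalIdeal _).mp h1 h4

theorem res_add (u w : O) : res hres (u + w) = res hres u + res hres w := by
  apply res_unique
  have h := (maximalIdeal O).add_mem (res_spec hres u) (res_spec hres w)
  have h3 : u - algebraMap K O (res hres u) + (w - algebraMap K O (res hres w)) =
      u + w - algebraMap K O (res hres u + res hres w) := by
    rw [map_add]; ring
  rwa [h3] at h

theorem res_algebraMap (a : K) : res hres (algebraMap K O a) = a := by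
  apply res_unique
  simp

theorem res_zero : res hres (0 : O) = 0 := by
  have h := res_algebraMap hres (0 : K)
  rwa [map_zero] at h

theorem res_of_mem {u : O} (hu : u ∈ maximalIdeal O) : res hres u = 0 := by
  apply res_unique
  simpa using hu

variable {π : O} (hπ : Irreducible π)

include hres hπ


theorem exists_shift (u : O) : ∃ t : O, u = algebraMap K O (res hres u) + π * t := by
  have h := res_spec hres u
  rw [hπ.maximalIdeal_eq, Ideal.mem_span_singleton] at h
  obtain ⟨t, ht⟩ := h
  exact ⟨t, by rw [← ht]; ring⟩

/-- `(u - res u) / π`. -/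
def shift (u : O) : O := (exists_shift hres hπ u).choose

theorem shift_spec (u : O) : u = algebraMap K O (res hres u) + π * shift hres hπ u :=
  (exists_shift hres hπ u).choose_spec

theorem shift_unique {u t : O} {a : K} (h : u = algebraMap K O a + π * t) :
    res hres u = a ∧ shift hres hπ u = t := by
  have h1 : res hres u = a := by
    apply res_unique
    rw [hπ.maximalIdeal_eq, Ideal.mem_span_singleton]
    exact ⟨t, by rw [h]; ring⟩
  refine ⟨h1, ?_⟩
  have h2 := shift_spec hres hπ u
  rw [h1] at h2
  have h3 : π * shift hres hπ u = π * t := by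
    have h4 : algebraMap K O a + π * shift hres hπ u = algebraMap K O a + π * t := by
      rw [← h2, ← h]
    exact add_left_cancel h4
  exact mul_left_cancel₀ hπ.ne_zero h3

theorem shift_add (u w : O) :
    shift hres hπ (u + w) = shift hres hπ u + shift hres hπ w := by
  refine (shift_unique hres hπ (a := res hres u + res hres w) ?_).2
  conv_lhs => rw [shift_spec hres hπ u, shift_spec hres hπ w]
  rw [map_add]; ring

theorem shift_algebraMap (a : K) : shift hres hπ (algebraMap K O a) = 0 :=
  (shift_unique hres hπ (a := a) (by simp)).2

theorem shift_zero : shift hres hπ (0 : O) = 0 := by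
  have h := shift_algebraMap hres hπ (0 : K)
  rwa [map_zero] at h

theorem res_irreducible_mul (u : O) : res hres (π * u) = 0 :=
  (shift_unique hres hπ (u := π * u) (t := u) (a := 0) (by simp)).1

theorem shift_irreducible_mul (u : O) : shift hres hπ (π * u) = u :=
  (shift_unique hres hπ (u := π * u) (t := u) (a := 0) (by simp)).2

theorem iterate_shift_add (n : ℕ) (u w : O) :
    (shift hres hπ)^[n] (u + w) = (shift hres hπ)^[n] u + (shift hres hπ)^[n] w := by
  induction n generalizing u w with
  | zero => rfl
  | succ n ih => rw [Function.iterate_succ_apply, Function.iterate_succ_apply,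
      Function.iterate_succ_apply, shift_add, ih]

theorem iterate_shift_zero (n : ℕ) : (shift hres hπ)^[n] (0 : O) = 0 := by
  induction n with
  | zero => rfl
  | succ n ih => rw [Function.iterate_succ_apply, shift_zero, ih]

/-- The power series expansion of `u` with respect to the uniformizer `π`. -/
def expFun (u : O) : K⟦X⟧ := PowerSeries.mk fun n => res hres ((shift hres hπ)^[n] u)

theorem expFun_add (u w : O) :
    expFun hres hπ (u + w) = expFun hres hπ u + expFun hres hπ w := by
  ext n
  simp only [expFun, coeff_mk, map_add]
  rw [iterate_shift_add, res_add]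

theorem expFun_algebraMap (a : K) : expFun hres hπ (algebraMap K O a) = C a := by
  ext n
  simp only [expFun, coeff_mk, coeff_C]
  cases n with
  | zero => simp [res_algebraMap]
  | succ n =>
    rw [Function.iterate_succ_apply, shift_algebraMap, iterate_shift_zero, res_zero]
    simp

theorem expFun_irreducible_mul (u : O) :
    expFun hres hπ (π * u) = X * expFun hres hπ u := by
  ext n
  cases n with
  | zero => simp [expFun, res_irreducible_mul hres hπ]
  | succ n =>
    rw [coeff_succ_X_mul]
    simp only [expFun, coeff_mk]
    rw [Function.iterate_succ_apply, shift_irreducible_mul]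

/-- Uniqueness principle: an additive map killing constants and compatible with
multiplication by `π` / `X` vanishes. -/
theorem eq_zero_of_compat (Δ : O → K⟦X⟧) (hadd : ∀ u w, Δ (u + w) = Δ u + Δ w)
    (hK : ∀ a : K, Δ (algebraMap K O a) = 0) (hmul : ∀ u, Δ (π * u) = X * Δ u) (u : O) :
    Δ u = 0 := by
  have hstep : ∀ u, Δ u = X * Δ (shift hres hπ u) := by
    intro u
    conv_lhs => rw [shift_spec hres hπ u]
    rw [hadd, hK, zero_add, hmul]
  have hdvd : ∀ n : ℕ, ∀ u, (X : K⟦X⟧) ^ n ∣ Δ u := by
    intro n
    induction n with
    | zero => intro u; simp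
    | succ n ih =>
      intro u
      rw [hstep u, pow_succ']
      exact mul_dvd_mul_left _ (ih _)
  ext n
  have h := (X_pow_dvd_iff.mp (hdvd (n + 1) u)) n (Nat.lt_succ_self n)
  simpa using h

theorem expFun_smul (a : K) (w : O) :
    expFun hres hπ (algebraMap K O a * w) = C a * expFun hres hπ w := by
  have h := eq_zero_of_compat hres hπ
    (fun w => expFun hres hπ (algebraMap K O a * w) - C a * expFun hres hπ w)
    (fun u w => by
      show expFun hres hπ (algebraMap K O a * (u + w)) - C a * expFun hres hπ (u + w) = _
      rw [mul_add, expFun_add, expFun_add]; ring)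
    (fun b => by
      show expFun hres hπ (algebraMap K O a * algebraMap K O b) -
        C a * expFun hres hπ (algebraMap K O b) = 0
      rw [← map_mul, expFun_algebraMap, expFun_algebraMap, map_mul, sub_self])
    (fun u => by
      show expFun hres hπ (algebraMap K O a * (π * u)) - C a * expFun hres hπ (π * u) = _
      rw [mul_left_comm, expFun_irreducible_mul, expFun_irreducible_mul]; ring) w
  exact sub_eq_zero.mp h

theorem expFun_mul (u w : O) :
    expFun hres hπ (u * w) = expFun hres hπ u * expFun hres hπ w := by
  have h := eq_zero_of_compat hres hπ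
    (fun u => expFun hres hπ (u * w) - expFun hres hπ u * expFun hres hπ w)
    (fun u u' => by
      show expFun hres hπ ((u + u') * w) - expFun hres hπ (u + u') * expFun hres hπ w = _
      rw [add_mul, expFun_add, expFun_add]; ring)
    (fun b => by
      show expFun hres hπ (algebraMap K O b * w) -
        expFun hres hπ (algebraMap K O b) * expFun hres hπ w = 0
      rw [expFun_smul, expFun_algebraMap, sub_self])
    (fun u => by
      show expFun hres hπ (π * u * w) - expFun hres hπ (π * u) * expFun hres hπ w = _
      rw [mul_assoc, expFun_irreducible_mul, expFun_irreducible_mul]; ring) u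
  exact sub_eq_zero.mp h

/-- The expansion as a `K`-algebra homomorphism `O →ₐ[K] K⟦X⟧`. -/
def expansion : O →ₐ[K] K⟦X⟧ where
  toFun := expFun hres hπ
  map_one' := by
    have h := expFun_algebraMap hres hπ (1 : K)
    rwa [map_one, map_one] at h
  map_mul' := expFun_mul hres hπ
  map_zero' := by
    have h := expFun_algebraMap hres hπ (0 : K)
    rwa [map_zero, map_zero] at h
  map_add' := expFun_add hres hπ
  commutes' a := expFun_algebraMap hres hπ a

theorem expansion_irreducible : expansion hres hπ π = X := by
  have h := expFun_irreducible_mul hres hπ 1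
  rw [mul_one] at h
  show expFun hres hπ π = X
  rw [h]
  have h1 : expFun hres hπ 1 = 1 := (expansion hres hπ).map_one
  rw [h1, mul_one]

theorem constantCoeff_expansion (u : O) :
    constantCoeff (expansion hres hπ u) = res hres u := by
  show constantCoeff (expFun hres hπ u) = _
  rw [← coeff_zero_eq_constantCoeff_apply]
  simp [expFun]

theorem constantCoeff_expansion_ne_zero {w : O} (hw : IsUnit w) :
    constantCoeff (expansion hres hπ w) ≠ 0 := by
  have h : IsUnit (expansion hres hπ w) := hw.map _
  exact (isUnit_iff_constantCoeff.mp h).ne_zero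

theorem expansion_injective : Function.Injective (expansion hres hπ) := by
  rw [injective_iff_map_eq_zero]
  intro u hu
  by_contra hne
  obtain ⟨n, w, hw⟩ := IsDiscreteValuationRing.eq_unit_mul_pow_irreducible hne hπ
  rw [hw, map_mul, map_pow, expansion_irreducible] at hu
  rcases mul_eq_zero.mp hu with h | h
  · exact constantCoeff_expansion_ne_zero hres hπ w.isUnit (by rw [h, map_zero])
  · exact pow_ne_zero n X_ne_zero h

section Kaehler

variable {F : Type*} [Field F] [Algebra K F] [Algebra O F] [IsScalarTower K O F]
  [IsFractionRing O F]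

open KaehlerDifferential

/-- Key lemma: a relation `c₂ • D f = c₁ • D π` between differentials of the fraction field
gives the relation `T c₂ * (T f)' = T c₁` between the expansions. -/
theorem expansion_mul_derivative_eq (f c₁ c₂ : O)
    (h : algebraMap O F c₂ • D K F (algebraMap O F f) =
      algebraMap O F c₁ • D K F (algebraMap O F π)) :
    expansion hres hπ c₂ * d⁄dX K (expansion hres hπ f) = expansion hres hπ c₁ := by
  let _ : Algebra O K⟦X⟧ := (expansion hres hπ).toRingHom.toAlgebra
  have : IsScalarTower K O K⟦X⟧ :=
    IsScalarTower.of_algebraMap_eq fun a => ((expansion hres hπ).commutes a).symm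
  have hsmul : ∀ (u : O) (p : K⟦X⟧), u • p = expansion hres hπ u * p := fun u p => rfl
  let δ : Derivation K O K⟦X⟧ := Derivation.compAlgebraMap O (d⁄dX K)
  have hδ : ∀ u : O, δ u = d⁄dX K (expansion hres hπ u) := fun u => rfl
  let φ : Ω[O⁄K] →ₗ[O] K⟦X⟧ := δ.liftKaehlerDifferential
  have hφ : ∀ u : O, φ (D K O u) = d⁄dX K (expansion hres hπ u) := fun u => by
    show δ.liftKaehlerDifferential (D K O u) = _
    rw [Derivation.liftKaehlerDifferential_comp_D, hδ]
  have hω : KaehlerDifferential.map K K O F (c₂ • D K O f - c₁ • D K O π) = 0 := by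
    rw [map_sub, LinearMap.map_smul, LinearMap.map_smul, KaehlerDifferential.map_D,
      KaehlerDifferential.map_D, ← algebraMap_smul F c₂, ← algebraMap_smul F c₁, h, sub_self]
  obtain ⟨s, hs⟩ := (IsLocalizedModule.eq_zero_iff (nonZeroDivisors O)
    (KaehlerDifferential.map K K O F)).mp hω
  have h2 := congrArg φ hs
  rw [map_zero, Submonoid.smul_def, LinearMap.map_smul, map_sub, LinearMap.map_smul,
    LinearMap.map_smul, hφ, hφ, hsmul, hsmul, hsmul, expansion_irreducible, derivative_X,
    mul_one] at h2
  have hs0 : expansion hres hπ (s : O) ≠ 0 := fun h0 =>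
    nonZeroDivisors.ne_zero s.2 (expansion_injective hres hπ (by rw [h0, map_zero]))
  exact sub_eq_zero.mp ((mul_eq_zero.mp h2).resolve_left hs0)

/-- The differential of a uniformizer is nonzero. -/
theorem D_irreducible_ne_zero : D K F (algebraMap O F π) ≠ 0 := by
  intro h0
  have h := expansion_mul_derivative_eq (F := F) hres hπ π 0 1 (by
    rw [map_one, one_smul, map_zero, zero_smul, h0])
  rw [map_one, one_mul, expansion_irreducible, derivative_X, map_zero] at h
  exact one_ne_zero h

end Kaehler

theorem order_expansion_unit_mul_pow (w : Oˣ) (n : ℕ) :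
    order (expansion hres hπ ((w : O) * π ^ n)) = n := by
  rw [map_mul, map_pow, expansion_irreducible, order_mul, order_X_pow,
    order_zero_of_unit (w.isUnit.map _), zero_add]

omit [IsDomain O] [IsDiscreteValuationRing O] [Algebra K O] hres hπ in
/-- In characteristic zero the derivative lowers a positive order by exactly one. -/
theorem order_derivative [CharZero K] (p : K⟦X⟧) (n : ℕ) (hp : order p = (n + 1 : ℕ)) :
    order (d⁄dX K p) = n := by
  rw [order_eq_nat] at hp ⊢
  obtain ⟨h1, h2⟩ := hp
  refine ⟨?_, fun i hi => ?_⟩
  · rw [coeff_derivative]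
    refine mul_ne_zero h1 ?_
    exact_mod_cast Nat.cast_add_one_ne_zero (R := K) n
  · rw [coeff_derivative, h2 (i + 1) (by omega), zero_mul]

section Kaehler

variable {F : Type*} [Field F] [Algebra K F] [Algebra O F] [IsScalarTower K O F]
  [IsFractionRing O F]

open KaehlerDifferential

/-- Order of the coefficient of `D f` with respect to `D π`: if `f` has order `e + 1` and
`c₂ • D f = c₁ • D π` with `c₂ ≠ 0`, then `c₁ / c₂` has order `e`. -/
theorem exists_unit_mul_pow_of_smul_D_eq [CharZero K] (f c₁ c₂ : O) (hc₂ : c₂ ≠ 0)
    (h : algebraMap O F c₂ • D K F (algebraMap O F f) =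
      algebraMap O F c₁ • D K F (algebraMap O F π))
    (w : Oˣ) (e : ℕ) (hf : f = (w : O) * π ^ (e + 1)) :
    ∃ (w₁ w₂ : Oˣ) (k : ℕ), c₂ = (w₂ : O) * π ^ k ∧ c₁ = (w₁ : O) * π ^ (k + e) := by
  have hkey := expansion_mul_derivative_eq (F := F) hres hπ f c₁ c₂ h
  obtain ⟨k, w₂, hw₂⟩ := IsDiscreteValuationRing.eq_unit_mul_pow_irreducible hc₂ hπ
  have ho2 : order (expansion hres hπ c₂) = k := by
    rw [hw₂]; exact order_expansion_unit_mul_pow hres hπ w₂ k
  have hof : order (d⁄dX K (expansion hres hπ f)) = e := by
    apply order_derivative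
    rw [hf]; exact order_expansion_unit_mul_pow hres hπ w (e + 1)
  have ho1 : order (expansion hres hπ c₁) = (k + e : ℕ) := by
    rw [← hkey, order_mul, ho2, hof]; push_cast; rfl
  have hc₁ : c₁ ≠ 0 := by
    rintro rfl
    rw [map_zero, order_zero] at ho1
    exact ENat.top_ne_natCast _ ho1
  obtain ⟨m, w₁, hw₁⟩ := IsDiscreteValuationRing.eq_unit_mul_pow_irreducible hc₁ hπ
  have ho1' : order (expansion hres hπ c₁) = m := by
    rw [hw₁]; exact order_expansion_unit_mul_pow hres hπ w₁ m
  have hm : m = k + e := by
    rw [ho1'] at ho1
    exact_mod_cast ho1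
  exact ⟨w₁, w₂, k, hw₂, by rw [hw₁, hm]⟩

end Kaehler

end

end LocalExpansion

end Fermat.Agent.S24

end
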