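/-
S24 package A4 (part 2): differentials at a place.  `D π ≠ 0`, `DCoordGenerates`, and the order
of `D x` at a place in terms of the order of `x - a` (resp. of `x` at a pole).
-/
import Mathlib
import Fermat.Prelude.Def_AlgebraicCurve_CanonicalDivisor
import Fermat.Agent.S24.LocalExpansion

set_option autoImplicit false

noncomputable section

namespace Fermat.Agent.S24

open AlgebraicCurve KaehlerDifferential IsLocalRing

variable {K F : Type*} [Field K] [Field F] [Algebra K F]

namespace Differentials

variable (v : Place K F)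

/-- The uniformizer used by the prelude in `Place.dCoord`. -/
def unif : v.toValuationSubring :=
  (IsDiscreteValuationRing.exists_irreducible v.toValuationSubring).choose

theorem unif_irreducible : Irreducible (unif v) :=
  (IsDiscreteValuationRing.exists_irreducible v.toValuationSubring).choose_spec

theorem dCoord_eq : v.dCoord = D K F ((unif v : v.toValuationSubring) : F) := rfl

theorem ord_coe_unit_mul_pow (w : v.toValuationSubringˣ) {π : v.toValuationSubring}
    (hπ : Irreducible π) (n : ℕ) :
    v.ord ((((w : v.toValuationSubring) * π ^ n : v.toValuationSubring)) : F) = n := by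
  have h := v.ord_unit_smul_zpow w hπ (n : ℤ)
  rw [zpow_natCast] at h
  rw [← h]
  push_cast
  rfl

theorem mem_maximalIdeal_of_ord_pos (u : v.toValuationSubring) (h : 0 < v.ord (u : F)) :
    u ∈ maximalIdeal v.toValuationSubring := by
  have hu : u ≠ 0 := by
    rintro rfl
    simp at h
  have hπ := unif_irreducible v
  obtain ⟨n, w, hw⟩ := IsDiscreteValuationRing.eq_unit_mul_pow_irreducible hu hπ
  have hn : v.ord (u : F) = n := by rw [hw]; exact ord_coe_unit_mul_pow v w hπ n
  rw [hn] at h
  have hn1 : n ≠ 0 := by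
    rintro rfl
    simp at h
  rw [hπ.maximalIdeal_eq, Ideal.mem_span_singleton, hw]
  exact Dvd.dvd.mul_left (dvd_pow_self _ hn1) _

/-- The residue hypothesis in the shape needed by `LocalExpansion`. -/
theorem hresO
    (hres : ∀ f : F, f ∈ v.toValuationSubring →
      ∃ a : K, 0 < v.ord (f - algebraMap K F a) ∨ f = algebraMap K F a)
    (u : v.toValuationSubring) :
    ∃ a : K, u - algebraMap K v.toValuationSubring a ∈ maximalIdeal v.toValuationSubring := by
  obtain ⟨a, ha | ha⟩ := hres (u : F) u.2
  · refine ⟨a, mem_maximalIdeal_of_ord_pos v _ ?_⟩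
    have h1 : ((u - algebraMap K v.toValuationSubring a : v.toValuationSubring) : F) =
        (u : F) - algebraMap K F a := by
      push_cast
      rw [v.coe_algebraMap]
    rw [h1]
    exact ha
  · refine ⟨a, ?_⟩
    have h1 : u - algebraMap K v.toValuationSubring a = 0 := by
      apply Subtype.ext
      push_cast
      rw [v.coe_algebraMap, ha, sub_self]
    rw [h1]
    exact Submodule.zero_mem _

/-- Every element of `F` of positive order is (the coercion of) `w * π ^ (e + 1)`. -/
theorem exists_eq_unit_mul_pow_of_ord_pos {π : v.toValuationSubring} (hπ : Irreducible π)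
    (f : F) (h : 0 < v.ord f) :
    ∃ (w : v.toValuationSubringˣ) (e : ℕ), v.ord f = (e : ℤ) + 1 ∧
      f = (((w : v.toValuationSubring) * π ^ (e + 1) : v.toValuationSubring) : F) := by
  have hf : f ≠ 0 := by
    rintro rfl
    simp at h
  obtain ⟨w, hw⟩ := v.exists_unit_mul_zpow hf hπ
  obtain ⟨e, he⟩ : ∃ e : ℕ, v.ord f = (e : ℤ) + 1 := ⟨(v.ord f - 1).toNat, by omega⟩
  refine ⟨w, e, he, ?_⟩
  rw [hw, he]
  push_cast
  rw [← zpow_natCast]
  push_cast
  rfl

theorem D_unif_ne_zero
    (hres : ∀ f : F, f ∈ v.toValuationSubring →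
      ∃ a : K, 0 < v.ord (f - algebraMap K F a) ∨ f = algebraMap K F a) :
    D K F ((unif v : v.toValuationSubring) : F) ≠ 0 :=
  LocalExpansion.D_irreducible_ne_zero (F := F) (hresO v hres) (unif_irreducible v)

/-- Core computation: if `x - a` has positive order at `v` and `D x = c • D π`, then
`c ≠ 0` and `ord c = ord (x - a) - 1`. -/
theorem ord_coeff_of_pos [CharZero K]
    (hres : ∀ f : F, f ∈ v.toValuationSubring →
      ∃ a : K, 0 < v.ord (f - algebraMap K F a) ∨ f = algebraMap K F a)
    (x : F) (a : K) (h : 0 < v.ord (x - algebraMap K F a)) (c : F)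
    (hc : D K F x = c • D K F ((unif v : v.toValuationSubring) : F)) :
    c ≠ 0 ∧ v.ord c = v.ord (x - algebraMap K F a) - 1 := by
  have hπ := unif_irreducible v
  obtain ⟨w, e, he, hf⟩ := exists_eq_unit_mul_pow_of_ord_pos v hπ _ h
  -- write `c = c₁ / c₂`
  obtain ⟨c₁, c₂, hc₂, hcc⟩ : ∃ c₁ c₂ : v.toValuationSubring, c₂ ≠ 0 ∧
      (c₂ : F) * c = (c₁ : F) := by
    rcases v.toValuationSubring.mem_or_inv_mem c with hmem | hmem
    · exact ⟨⟨c, hmem⟩, 1, one_ne_zero, by simp⟩
    · by_cases hc0 : c = 0
      · exact ⟨0, 1, one_ne_zero, by simp [hc0]⟩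
      · refine ⟨1, ⟨c⁻¹, hmem⟩, ?_, ?_⟩
        · intro h0
          have h1 := congrArg (Subtype.val) h0
          simp only [ZeroMemClass.coe_zero, inv_eq_zero] at h1
          exact hc0 h1
        · simp [hc0]
  have hDx : D K F x = D K F (x - algebraMap K F a) := by
    rw [map_sub, Derivation.map_algebraMap, sub_zero]
  have hrel : algebraMap v.toValuationSubring F c₂ •
      D K F (algebraMap v.toValuationSubring F ((w : v.toValuationSubring) * unif v ^ (e + 1))) =
      algebraMap v.toValuationSubring F c₁ •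
        D K F (algebraMap v.toValuationSubring F (unif v)) := by
    show (c₂ : F) • D K F ((((w : v.toValuationSubring) * unif v ^ (e + 1) :
      v.toValuationSubring)) : F) = (c₁ : F) • D K F ((unif v : v.toValuationSubring) : F)
    rw [← hf, ← hDx, hc, smul_smul, hcc]
  obtain ⟨w₁, w₂, k, hk₂, hk₁⟩ :=
    LocalExpansion.exists_unit_mul_pow_of_smul_D_eq (F := F) (hresO v hres) hπ _ c₁ c₂ hc₂ hrel
      w e rfl
  have hc₂F : (c₂ : F) ≠ 0 := by
    intro h0
    exact hc₂ (Subtype.ext h0)
  have hc₁ : c₁ ≠ 0 := by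
    rw [hk₁]
    exact mul_ne_zero w₁.ne_zero (pow_ne_zero _ hπ.ne_zero)
  have hc₁F : (c₁ : F) ≠ 0 := by
    intro h0
    exact hc₁ (Subtype.ext h0)
  have hc0 : c ≠ 0 := by
    rintro rfl
    rw [mul_zero] at hcc
    exact hc₁F hcc.symm
  refine ⟨hc0, ?_⟩
  have ho₂ : v.ord (c₂ : F) = k := by rw [hk₂]; exact ord_coe_unit_mul_pow v w₂ hπ k
  have ho₁ : v.ord (c₁ : F) = (k + e : ℕ) := by
    rw [hk₁]; exact ord_coe_unit_mul_pow v w₁ hπ (k + e)
  have hmul := v.ord_mul hc₂F hc0
  rw [hcc, ho₁, ho₂] at hmul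
  rw [he]
  push_cast at hmul
  omega

end Differentials

open Differentials

/-- (A4.1) The module of differentials is nontrivial as soon as there is one place with
residue field `K`. -/
theorem nontrivial_kaehler (v : Place K F)
    (hres : ∀ f : F, f ∈ v.toValuationSubring →
      ∃ a : K, 0 < v.ord (f - algebraMap K F a) ∨ f = algebraMap K F a) :
    Nontrivial Ω[F⁄K] :=
  nontrivial_of_ne _ _ (D_unif_ne_zero v hres)

/-- (A4.2) `D π_v` generates the differentials. -/
theorem dCoordGenerates (v : Place K F)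
    (hres : ∀ f : F, f ∈ v.toValuationSubring →
      ∃ a : K, 0 < v.ord (f - algebraMap K F a) ∨ f = algebraMap K F a)
    (x₀ : F) (hx₀ : Submodule.span F {(D K F x₀ : Ω[F⁄K])} = ⊤) : v.DCoordGenerates := by
  constructor
  have hne := D_unif_ne_zero v hres
  have hmem : v.dCoord ∈ Submodule.span F {(D K F x₀ : Ω[F⁄K])} := by
    rw [hx₀]; exact Submodule.mem_top
  obtain ⟨c, hc⟩ := Submodule.mem_span_singleton.mp hmem
  have hc0 : c ≠ 0 := by
    rintro rfl
    rw [zero_smul] at hc
    exact hne (by rw [← dCoord_eq, ← hc])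
  rw [eq_top_iff, ← hx₀, Submodule.span_le, Set.singleton_subset_iff]
  have h1 : (D K F x₀ : Ω[F⁄K]) = c⁻¹ • v.dCoord := by
    rw [← hc, smul_smul, inv_mul_cancel₀ hc0, one_smul]
  rw [h1]
  exact Submodule.smul_mem _ _ (Submodule.mem_span_singleton_self _)

/-- The generator `D x₀` of the differentials is nonzero (given one place with residue
field `K`). -/
theorem D_ne_zero_of_span_eq_top (v : Place K F)
    (hres : ∀ f : F, f ∈ v.toValuationSubring →
      ∃ a : K, 0 < v.ord (f - algebraMap K F a) ∨ f = algebraMap K F a)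
    (x₀ : F) (hx₀ : Submodule.span F {(D K F x₀ : Ω[F⁄K])} = ⊤) : D K F x₀ ≠ 0 := by
  intro h0
  have hne := D_unif_ne_zero v hres
  have hmem : D K F ((unif v : v.toValuationSubring) : F) ∈
      Submodule.span F {(D K F x₀ : Ω[F⁄K])} := by
    rw [hx₀]; exact Submodule.mem_top
  rw [h0, Submodule.span_zero_singleton, Submodule.mem_bot] at hmem
  exact hne hmem

section Main

variable [CharZero K] (v : Place K F)
  (hres : ∀ f : F, f ∈ v.toValuationSubring →
    ∃ a : K, 0 < v.ord (f - algebraMap K F a) ∨ f = algebraMap K F a)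
  (x₀ : F) (hx₀ : Submodule.span F {(D K F x₀ : Ω[F⁄K])} = ⊤)

include hres hx₀

omit [CharZero K] in
/-- (A4.5) The coefficient of a nonzero differential `D x` is nonzero. -/
theorem differentialCoeff_D_ne_zero (x : F) (hx : D K F x ≠ 0) :
    v.differentialCoeff (D K F x) ≠ 0 := by
  have := dCoordGenerates v hres x₀ hx₀
  intro h0
  have h := v.differentialCoeff_smul_dCoord (D K F x)
  rw [h0, zero_smul] at h
  exact hx h.symm

/-- (A4.3, with nonvanishing) zeros of `x - a`. -/
theorem differentialCoeff_D_of_pos (x : F) (a : K) (h : 0 < v.ord (x - algebraMap K F a)) :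
    v.differentialCoeff (D K F x) ≠ 0 ∧
      v.ordDifferential (D K F x) = v.ord (x - algebraMap K F a) - 1 := by
  have := dCoordGenerates v hres x₀ hx₀
  have hc : D K F x = v.differentialCoeff (D K F x) • D K F ((unif v : v.toValuationSubring) : F) :=
    (v.differentialCoeff_smul_dCoord (D K F x)).symm
  exact ord_coeff_of_pos v hres x a h _ hc

/-- (A4.3) If `x - a` vanishes at `v`, then `ord_v (D x) = ord_v (x - a) - 1`. -/
theorem ordDifferential_D_of_pos (x : F) (a : K) (h : 0 < v.ord (x - algebraMap K F a)) :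
    v.ordDifferential (D K F x) = v.ord (x - algebraMap K F a) - 1 :=
  (differentialCoeff_D_of_pos v hres x₀ hx₀ x a h).2

/-- (A4.4, with nonvanishing) poles of `x`. -/
theorem differentialCoeff_D_of_neg (x : F) (h : v.ord x < 0) :
    v.differentialCoeff (D K F x) ≠ 0 ∧ v.ordDifferential (D K F x) = v.ord x - 1 := by
  have := dCoordGenerates v hres x₀ hx₀
  have := nontrivial_kaehler v hres
  have hx : x ≠ 0 := by
    rintro rfl
    simp at h
  have hy : 0 < v.ord (x⁻¹ - algebraMap K F 0) := by
    rw [map_zero, sub_zero, v.ord_inv]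
    omega
  obtain ⟨hcy, hoy⟩ := differentialCoeff_D_of_pos v hres x₀ hx₀ x⁻¹ 0 hy
  rw [map_zero, sub_zero, v.ord_inv] at hoy
  have hD : D K F x = (-(x ^ 2)) • D K F x⁻¹ := by
    have h1 := Derivation.leibniz_inv (D K F) x⁻¹
    rw [inv_inv] at h1
    exact h1
  have hcoef : v.differentialCoeff (D K F x) = (-(x ^ 2)) * v.differentialCoeff (D K F x⁻¹) := by
    rw [hD, v.differentialCoeff_smul]
  have hx2 : (-(x ^ 2) : F) ≠ 0 := neg_ne_zero.mpr (pow_ne_zero 2 hx)
  refine ⟨by rw [hcoef]; exact mul_ne_zero hx2 hcy, ?_⟩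
  show v.ord (v.differentialCoeff (D K F x)) = _
  rw [hcoef, v.ord_mul hx2 hcy]
  have h2 : v.ord (-(x ^ 2)) = 2 * v.ord x := by
    have h3 : (-(x ^ 2) : F) = (-1) * (x * x) := by ring
    have hm1 : v.ord (-1 : F) = 0 := by
      have h4 := v.ord_mul (f := (-1 : F)) (g := -1) (by norm_num) (by norm_num)
      rw [show ((-1 : F) * -1) = 1 by ring, v.ord_one] at h4
      omega
    rw [h3, v.ord_mul (by norm_num) (mul_ne_zero hx hx), v.ord_mul hx hx, hm1]
    ring
  have h5 : v.ord (v.differentialCoeff (D K F x⁻¹)) = -v.ord x - 1 := hoy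
  rw [h2, h5]
  ring

/-- (A4.4) If `x` has a pole at `v`, then `ord_v (D x) = ord_v x - 1`. -/
theorem ordDifferential_D_of_neg (x : F) (h : v.ord x < 0) :
    v.ordDifferential (D K F x) = v.ord x - 1 :=
  (differentialCoeff_D_of_neg v hres x₀ hx₀ x h).2

/-- (A4.5') An element with a zero or a pole at `v` has nonzero differential. -/
theorem D_ne_zero_of_ord_ne_zero (x : F) (h : v.ord x ≠ 0) : D K F x ≠ 0 := by
  intro h0
  have := dCoordGenerates v hres x₀ hx₀
  have := nontrivial_kaehler v hres
  have hzero : v.differentialCoeff (D K F x) = 0 := by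
    rw [h0]; exact v.differentialCoeff_zero
  rcases lt_or_gt_of_ne h with hlt | hgt
  · exact (differentialCoeff_D_of_neg v hres x₀ hx₀ x hlt).1 hzero
  · have hpos : 0 < v.ord (x - algebraMap K F 0) := by rw [map_zero, sub_zero]; exact hgt
    exact (differentialCoeff_D_of_pos v hres x₀ hx₀ x 0 hpos).1 hzero

omit [CharZero K] in
/-- (A4.6) Order of a multiple of `D x`. -/
theorem ordDifferential_smul_D (x : F) (hx : D K F x ≠ 0) (c : F) (hc : c ≠ 0) :
    v.ordDifferential (c • D K F x) = v.ord c + v.ordDifferential (D K F x) := by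
  have := dCoordGenerates v hres x₀ hx₀
  have := nontrivial_kaehler v hres
  exact v.ordDifferential_smul hc (differentialCoeff_D_ne_zero v hres x₀ hx₀ x hx)

end Main

end Fermat.Agent.S24

end
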