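/-
S24 side A (abstract function fields), package A0a: the definition `IsFF` and elementary
facts about `Place.ord`.  Owner: helper12.
-/
import Mathlib
import Fermat.Prelude.Def_AlgebraicCurve_CanonicalDivisor

set_option autoImplicit false

open IntermediateField AlgebraicCurve

namespace Fermat.Agent.S24

variable {K F : Type*} [Field K] [Field F] [Algebra K F]

/-- `F` is a function field in one variable over `K`: it is finite over `K(x)` for some
transcendental `x`. -/
def IsFF (K F : Type*) [Field K] [Field F] [Algebra K F] : Prop :=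
  ∃ x : F, Transcendental K x ∧ FiniteDimensional K⟮x⟯ F

theorem isFF_of_finrank_pos {x : F} (hx : Transcendental K x)
    (hn : 0 < Module.finrank K⟮x⟯ F) : IsFF K F :=
  ⟨x, hx, Module.finite_of_finrank_pos hn⟩

/-! ### Elementary facts about `Place.ord` -/

theorem ord_algebraMap (v : Place K F) (c : K) : v.ord (algebraMap K F c) = 0 := by
  rcases eq_or_ne c 0 with rfl | hc
  · simp
  · have hu : IsUnit (algebraMap K v.toValuationSubring c) := (IsUnit.mk0 c hc).map _
    have h := v.ord_coe_unit hu.unit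
    rwa [IsUnit.unit_spec, v.coe_algebraMap] at h

theorem ord_nonneg_of_mem (v : Place K F) {f : F} (hf : f ∈ v.toValuationSubring) :
    0 ≤ v.ord f := by
  rcases eq_or_ne f 0 with rfl | hf0
  · simp
  obtain ⟨π, hπ⟩ := IsDiscreteValuationRing.exists_irreducible v.toValuationSubring
  obtain ⟨u, hu⟩ := v.exists_unit_mul_zpow hf0 hπ
  by_contra hneg
  rw [not_le] at hneg
  obtain ⟨m, hm⟩ : ∃ m : ℕ, v.ord f = -((m : ℤ) + 1) :=
    ⟨(-v.ord f - 1).toNat, by omega⟩
  have hπ0 : (π : F) ≠ 0 := by
    simpa [ne_eq, ZeroMemClass.coe_eq_zero] using hπ.ne_zero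
  -- `π` would be a unit
  have hunit : IsUnit π := by
    refine IsUnit.of_mul_eq_one (((u⁻¹ : v.toValuationSubringˣ) : v.toValuationSubring)
      * ⟨f, hf⟩ * π ^ m) ?_
    apply Subtype.ext
    have hu0 : ((u : v.toValuationSubring) : F) ≠ 0 := by
      simp [ne_eq, ZeroMemClass.coe_eq_zero]
    have hinv : (((u⁻¹ : v.toValuationSubringˣ) : v.toValuationSubring) : F)
        * ((u : v.toValuationSubring) : F) = 1 := by
      have h := congrArg (fun z : v.toValuationSubring => (z : F)) (Units.inv_mul u)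
      exact h
    push_cast
    rw [hm] at hu
    rw [hu, zpow_neg, zpow_add_one₀ hπ0, zpow_natCast]
    have hπm : (π : F) ^ m ≠ 0 := pow_ne_zero _ hπ0
    calc (π : F) * ((((u⁻¹ : v.toValuationSubringˣ) : v.toValuationSubring) : F)
          * (((u : v.toValuationSubring) : F) * ((π : F) ^ m * (π : F))⁻¹) * (π : F) ^ m)
        = ((((u⁻¹ : v.toValuationSubringˣ) : v.toValuationSubring) : F)
          * ((u : v.toValuationSubring) : F)) * (((π : F) ^ m * (π : F))
            * ((π : F) ^ m * (π : F))⁻¹) := by ring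
      _ = 1 := by rw [hinv, mul_inv_cancel₀ (mul_ne_zero hπm hπ0), mul_one]
  exact hπ.not_isUnit hunit

theorem mem_of_ord_nonneg (v : Place K F) {f : F} (hf : 0 ≤ v.ord f) :
    f ∈ v.toValuationSubring := by
  rcases eq_or_ne f 0 with rfl | hf0
  · exact zero_mem _
  obtain ⟨π, hπ⟩ := IsDiscreteValuationRing.exists_irreducible v.toValuationSubring
  obtain ⟨u, hu⟩ := v.exists_unit_mul_zpow hf0 hπ
  obtain ⟨m, hm⟩ : ∃ m : ℕ, v.ord f = (m : ℤ) := ⟨(v.ord f).toNat, by omega⟩
  rw [hu, hm, zpow_natCast]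
  exact mul_mem (u : v.toValuationSubring).2 (pow_mem π.2 m)

theorem mem_iff_ord_nonneg (v : Place K F) {f : F} :
    f ∈ v.toValuationSubring ↔ 0 ≤ v.ord f :=
  ⟨ord_nonneg_of_mem v, mem_of_ord_nonneg v⟩

theorem ord_eq_zero_iff_isUnit (v : Place K F) (f : v.toValuationSubring) (hf : f ≠ 0) :
    v.ord (f : F) = 0 ↔ IsUnit f := by
  constructor
  · intro h0
    obtain ⟨π, hπ⟩ := IsDiscreteValuationRing.exists_irreducible v.toValuationSubring
    have hf0 : (f : F) ≠ 0 := by simpa [ne_eq, ZeroMemClass.coe_eq_zero] using hf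
    obtain ⟨u, hu⟩ := v.exists_unit_mul_zpow hf0 hπ
    rw [h0, zpow_zero, mul_one] at hu
    have : f = (u : v.toValuationSubring) := Subtype.ext hu
    rw [this]
    exact u.isUnit
  · intro hu
    have h := v.ord_coe_unit hu.unit
    rwa [IsUnit.unit_spec] at h

theorem ord_pos_iff_mem_maximalIdeal (v : Place K F) (f : v.toValuationSubring) (hf : f ≠ 0) :
    0 < v.ord (f : F) ↔ f ∈ IsLocalRing.maximalIdeal v.toValuationSubring := by
  rw [IsLocalRing.mem_maximalIdeal, mem_nonunits_iff, ← ord_eq_zero_iff_isUnit v f hf]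
  have := ord_nonneg_of_mem v f.2
  omega

theorem ord_neg (v : Place K F) (f : F) : v.ord (-f) = v.ord f := by
  rcases eq_or_ne f 0 with rfl | hf
  · simp
  have h1 : v.ord (-1 : F) = 0 := by
    have h := v.ord_coe_unit (-1)
    simpa using h
  rw [neg_eq_neg_one_mul, v.ord_mul (neg_ne_zero.mpr one_ne_zero) hf, h1, zero_add]

theorem ord_pow (v : Place K F) (f : F) (n : ℕ) : v.ord (f ^ n) = n * v.ord f := by
  have := v.ord_zpow f (n : ℤ)
  rwa [zpow_natCast] at this

theorem ord_add_ge (v : Place K F) {f g : F} (hfg : f + g ≠ 0) :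
    min (v.ord f) (v.ord g) ≤ v.ord (f + g) := by
  rcases eq_or_ne f 0 with rfl | hf
  · simp
  rcases eq_or_ne g 0 with rfl | hg
  · simp
  -- reduce to the case `ord f ≤ ord g`
  wlog hle : v.ord f ≤ v.ord g generalizing f g
  · have := this (f := g) (g := f) (by rwa [add_comm]) hg hf (le_of_not_ge hle)
    rwa [min_comm, add_comm]
  rw [min_eq_left hle]
  -- `f + g = f * (1 + g / f)` with `g / f` integral
  have hgf : g / f ∈ v.toValuationSubring := by
    apply mem_of_ord_nonneg
    rw [div_eq_mul_inv, v.ord_mul hg (inv_ne_zero hf), v.ord_inv]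
    omega
  have h1 : (1 + g / f) ∈ v.toValuationSubring := add_mem (one_mem _) hgf
  have hne : (1 + g / f) ≠ 0 := by
    intro h0
    apply hfg
    have : f + g = f * (1 + g / f) := by field_simp
    rw [this, h0, mul_zero]
  have heq : f + g = f * (1 + g / f) := by field_simp
  rw [heq, v.ord_mul hf hne]
  have := ord_nonneg_of_mem v h1
  omega

theorem ord_add_eq_of_lt (v : Place K F) {f g : F} (hf : f ≠ 0) (h : v.ord f < v.ord g) :
    v.ord (f + g) = v.ord f := by
  rcases eq_or_ne g 0 with rfl | hg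
  · simp
  have hfg : f + g ≠ 0 := by
    intro h0
    have : g = -f := by linear_combination h0
    rw [this, ord_neg] at h
    exact lt_irrefl _ h
  have h1 := ord_add_ge v hfg
  rw [min_eq_left h.le] at h1
  have h2 : min (v.ord (f + g)) (v.ord (-g)) ≤ v.ord (f + g + -g) :=
    ord_add_ge v (by simpa using hf)
  rw [add_neg_cancel_right, ord_neg] at h2
  rcases min_le_iff.mp h2 with h3 | h3
  · omega
  · omega

theorem ord_sub_algebraMap_of_neg (v : Place K F) {f : F} (hf : v.ord f < 0) (a : K) :
    v.ord (f - algebraMap K F a) = v.ord f := by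
  have hf0 : f ≠ 0 := by
    rintro rfl
    simp at hf
  rw [sub_eq_add_neg]
  apply ord_add_eq_of_lt v hf0
  rw [ord_neg, ord_algebraMap]
  exact hf

theorem ord_eq_zero_of_isAlgebraic (v : Place K F) {f : F} (hf : IsAlgebraic K f) :
    v.ord f = 0 := by
  have key : ∀ g : F, IsAlgebraic K g → 0 ≤ v.ord g := by
    intro g hg
    have hint : IsIntegral v.toValuationSubring g := hg.isIntegral.tower_top
    obtain ⟨y, hy⟩ := IsIntegrallyClosed.algebraMap_eq_of_integral hint
    have : g ∈ v.toValuationSubring := by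
      rw [← hy]
      exact y.2
    exact ord_nonneg_of_mem v this
  have h1 := key f hf
  have h2 := key f⁻¹ hf.inv
  rw [v.ord_inv] at h2
  omega

theorem transcendental_of_ord_ne_zero (v : Place K F) {f : F} (h : v.ord f ≠ 0) :
    Transcendental K f := fun hf => h (ord_eq_zero_of_isAlgebraic v hf)

end Fermat.Agent.S24
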