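/-
S24 side A, package A0b: changing the transcendental generator of a function field.
Owner: helper12.
-/
import Mathlib
import Fermat.Agent.S24.FFBasic

set_option autoImplicit false

open IntermediateField AlgebraicCurve
open scoped IntermediateField.algebraAdjoinAdjoin

namespace Fermat.Agent.S24

variable {K F : Type*} [Field K] [Field F] [Algebra K F]

theorem adjoin_inv_eq (x : F) : K⟮x⁻¹⟯ = K⟮x⟯ := by
  apply le_antisymm
  · rw [adjoin_simple_le_iff]
    exact inv_mem (mem_adjoin_simple_self K x)
  · rw [adjoin_simple_le_iff]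
    have := inv_mem (mem_adjoin_simple_self K x⁻¹)
    rwa [inv_inv] at this

theorem adjoin_sub_algebraMap_eq (x : F) (a : K) : K⟮x - algebraMap K F a⟯ = K⟮x⟯ := by
  apply le_antisymm
  · rw [adjoin_simple_le_iff]
    exact sub_mem (mem_adjoin_simple_self K x) (IntermediateField.algebraMap_mem _ a)
  · rw [adjoin_simple_le_iff]
    have := add_mem (mem_adjoin_simple_self K (x - algebraMap K F a))
      (IntermediateField.algebraMap_mem K⟮x - algebraMap K F a⟯ a)
    rwa [sub_add_cancel] at this

theorem finrank_adjoin_inv (x : F) : Module.finrank K⟮x⁻¹⟯ F = Module.finrank K⟮x⟯ F := by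
  rw [adjoin_inv_eq]

theorem finrank_adjoin_sub_algebraMap (x : F) (a : K) :
    Module.finrank K⟮x - algebraMap K F a⟯ F = Module.finrank K⟮x⟯ F := by
  rw [adjoin_sub_algebraMap_eq]

theorem transcendental_inv {x : F} (hx : Transcendental K x) : Transcendental K x⁻¹ := by
  intro h
  apply hx
  have := h.inv
  rwa [inv_inv] at this

theorem transcendental_sub_algebraMap {x : F} (hx : Transcendental K x) (a : K) :
    Transcendental K (x - algebraMap K F a) := by
  intro h
  apply hx
  have := h.add (isAlgebraic_algebraMap (R := K) (A := F) a)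
  rwa [sub_add_cancel] at this

/-- In a function field, `F` is algebraic over `K(y)` for every transcendental `y`. -/
theorem IsFF.isAlgebraic (h : IsFF K F) {y : F} (hy : Transcendental K y) :
    Algebra.IsAlgebraic K⟮y⟯ F := by
  obtain ⟨x, hx, hfin⟩ := h
  have halg : Algebra.IsAlgebraic (Algebra.adjoin K {x}) F :=
    (IsFractionRing.comap_isAlgebraic_iff (K := K⟮x⟯)).mpr inferInstance
  have htr : Algebra.trdeg K F ≤ 1 := by
    have := Algebra.IsAlgebraic.trdeg_le_cardinalMk K ({x} : Set F)
    simpa using this
  have hy' : AlgebraicIndependent K ((↑) : ({y} : Set F) → F) :=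
    algebraicIndependent_unique_type_iff.mpr hy
  have hb : IsTranscendenceBasis K ((↑) : ({y} : Set F) → F) :=
    hy'.isTranscendenceBasis_of_trdeg_le_of_finite (by simpa using htr)
  have := hb.isAlgebraic_field
  rwa [Subtype.range_coe] at this

/-- In a function field, `F` is finite over `K(y)` for EVERY transcendental `y`. -/
theorem IsFF.finiteDimensional (h : IsFF K F) {y : F} (hy : Transcendental K y) :
    FiniteDimensional K⟮y⟯ F := by
  have halg := h.isAlgebraic hy
  obtain ⟨x, hx, hfin⟩ := h
  -- the intermediate field `K(y)(x)`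
  have hxint : IsIntegral K⟮y⟯ x := (halg.isAlgebraic x).isIntegral
  let L : IntermediateField K⟮y⟯ F := K⟮y⟯⟮x⟯
  have hL : FiniteDimensional K⟮y⟯ L := IntermediateField.adjoin.finiteDimensional hxint
  have hle : K⟮x⟯ ≤ L.restrictScalars K := by
    rw [adjoin_simple_le_iff]
    exact mem_adjoin_simple_self K⟮y⟯ x
  let _ : Algebra K⟮x⟯ L := (IntermediateField.inclusion hle).toRingHom.toAlgebra
  have : IsScalarTower K⟮x⟯ L F := IsScalarTower.of_algebraMap_eq (fun z => rfl)
  have hLF : Module.Finite L F := Module.Finite.of_restrictScalars_finite K⟮x⟯ L F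
  exact Module.Finite.trans L F

theorem IsFF.finrank_pos (h : IsFF K F) {y : F} (hy : Transcendental K y) :
    0 < Module.finrank K⟮y⟯ F := by
  have := h.finiteDimensional hy
  exact Module.finrank_pos

end Fermat.Agent.S24
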