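/-
S24 side A, package A1: places of a function field `F/K` lying over `y = 0`.
-/
import Mathlib
import Fermat.Prelude.Def_AlgebraicCurve_DivisorClassGroup

set_option autoImplicit false

noncomputable section

namespace Fermat.Agent.S24

open AlgebraicCurve IsDedekindDomain IsLocalRing
open scoped IntermediateField

namespace PlacesOver

/-- An element of a valuation subring outside the maximal ideal has its inverse in the subring. -/
theorem inv_mem_of_notMem_maximalIdeal {F : Type*} [Field F] (A : ValuationSubring F) (x : A)
    (hx : x ∉ maximalIdeal A) : (x : F)⁻¹ ∈ A := by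
  have hunit : IsUnit x := by
    by_contra hnu
    exact hx ((mem_maximalIdeal _).mpr hnu)
  obtain ⟨c, hc⟩ := hunit.exists_right_inv
  have hc' : (x : F) * (c : F) = 1 := by
    have := congrArg (Subtype.val) hc
    simpa using this
  rw [← eq_inv_of_mul_eq_one_right hc']
  exact c.2

/-- The order function of a place is determined by any normalised `ℤᵐ⁰`-valued valuation with
the same valuation ring. -/
theorem ord_eq_neg_log_of_valuationSubring_eq {K F : Type*} [Field K] [Field F] [Algebra K F]
    (v : Place K F) (w' : Valuation F (WithZero (Multiplicative ℤ)))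
    (h : w'.valuationSubring = v.toValuationSubring) (π : F)
    (hπ : w' π = WithZero.exp (-1 : ℤ)) (f : F) :
    v.ord f = -(WithZero.log (w' f)) := by
  have hmem : ∀ x : F, x ∈ v.toValuationSubring ↔ w' x ≤ 1 := fun x => by
    rw [← h, Valuation.mem_valuationSubring_iff]
  obtain ⟨ϖ, hϖ⟩ := IsDiscreteValuationRing.exists_irreducible v.toValuationSubring
  have hϖ0 : (ϖ : F) ≠ 0 := by
    simpa [ne_eq, ZeroMemClass.coe_eq_zero] using hϖ.ne_zero
  have hwϖ0 : w' (ϖ : F) ≠ 0 := (Valuation.ne_zero_iff _).mpr hϖ0
  have hunit : ∀ u : (v.toValuationSubring)ˣ, w' ((u : v.toValuationSubring) : F) = 1 := by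
    intro u
    have h1 : w' ((u : v.toValuationSubring) : F) ≤ 1 := (hmem _).mp (u : v.toValuationSubring).2
    have h2 : w' (((u⁻¹ : (v.toValuationSubring)ˣ) : v.toValuationSubring) : F) ≤ 1 :=
      (hmem _).mp ((u⁻¹ : (v.toValuationSubring)ˣ) : v.toValuationSubring).2
    have h3 : ((u : v.toValuationSubring) : F) *
        (((u⁻¹ : (v.toValuationSubring)ˣ) : v.toValuationSubring) : F) = 1 := by
      exact congrArg (Subtype.val) (u.mul_inv)
    have h4 : 1 ≤ w' ((u : v.toValuationSubring) : F) *
        w' (((u⁻¹ : (v.toValuationSubring)ˣ) : v.toValuationSubring) : F) := by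
      rw [← map_mul, h3, map_one]
    exact eq_one_of_one_le_mul_left h1 h2 h4
  have hϖlt : w' (ϖ : F) < 1 := by
    by_contra hge
    rw [not_lt] at hge
    have hinv : (ϖ : F)⁻¹ ∈ v.toValuationSubring := by
      rw [hmem, map_inv₀]
      exact inv_le_one_of_one_le₀ hge
    apply hϖ.not_isUnit
    refine IsUnit.of_mul_eq_one (⟨(ϖ : F)⁻¹, hinv⟩ : v.toValuationSubring) ?_
    ext
    simp [hϖ0]
  set k : ℤ := -(WithZero.log (w' (ϖ : F))) with hk
  have hkpos : 0 < k := by
    have : WithZero.log (w' (ϖ : F)) < 0 := (WithZero.log_lt_iff_lt_exp hwϖ0).mpr (by simpa using hϖlt)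
    omega
  have key : ∀ g : F, g ≠ 0 → WithZero.log (w' g) = -k * v.ord g := by
    intro g hg
    obtain ⟨u, hu⟩ := v.exists_unit_mul_zpow hg hϖ
    have h1 : w' g = w' (ϖ : F) ^ (v.ord g) := by
      have := congrArg w' hu
      rw [map_mul, hunit u, one_mul, map_zpow₀] at this
      exact this
    rw [h1, WithZero.log_zpow, hk]
    simp only [smul_eq_mul]
    ring
  have hπ0 : π ≠ 0 := by
    intro h0
    rw [h0, map_zero] at hπ
    exact WithZero.exp_ne_zero hπ.symm
  have hk1 : k = 1 := by
    have h1 := key π hπ0
    rw [hπ, WithZero.log_exp] at h1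
    have h2 : k * v.ord π = 1 := by linarith
    rcases Int.eq_one_or_neg_one_of_mul_eq_one h2 with h3 | h3
    · exact h3
    · omega
  rcases eq_or_ne f 0 with rfl | hf
  · simp
  · rw [key f hf, hk1]
    ring

section Ord

variable {K F : Type*} [Field K] [Field F] [Algebra K F]

theorem mem_of_ord_nonneg (v : Place K F) {f : F} (hf : 0 ≤ v.ord f) :
    f ∈ v.toValuationSubring := by
  rcases eq_or_ne f 0 with rfl | hf0
  · exact zero_mem _
  obtain ⟨π, hπ⟩ := IsDiscreteValuationRing.exists_irreducible v.toValuationSubring
  obtain ⟨u, hu⟩ := v.exists_unit_mul_zpow hf0 hπ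
  obtain ⟨n, hn⟩ := Int.eq_ofNat_of_zero_le hf
  rw [hu, hn, zpow_natCast]
  exact mul_mem (u : v.toValuationSubring).2 (pow_mem π.2 n)

theorem ord_nonneg_of_mem (v : Place K F) {f : F} (hf : f ∈ v.toValuationSubring) :
    0 ≤ v.ord f := by
  rcases eq_or_ne f 0 with rfl | hf0
  · simp
  have h1 : v.adicValuation f ≤ 1 := by
    have := v.adicValuation_coe ⟨f, hf⟩
    rw [this]
    exact HeightOneSpectrum.intValuation_le_one _ _
  have h2 : WithZero.log (v.adicValuation f) ≤ 0 :=
    (WithZero.log_le_iff_le_exp (v.adicValuation_ne_zero hf0)).mpr (by simpa using h1)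
  unfold Place.ord
  omega

theorem ord_pos_iff_mem_maximalIdeal (v : Place K F) (x : v.toValuationSubring) (hx : x ≠ 0) :
    0 < v.ord (x : F) ↔ x ∈ maximalIdeal v.toValuationSubring := by
  have hx0 : (x : F) ≠ 0 := by
    simpa [ne_eq, ZeroMemClass.coe_eq_zero] using hx
  have h1 : 0 < v.ord (x : F) ↔ v.adicValuation (x : F) < 1 := by
    unfold Place.ord
    rw [neg_pos, WithZero.log_lt_iff_lt_exp (v.adicValuation_ne_zero hx0), WithZero.exp_zero]
  rw [h1, v.adicValuation_coe, HeightOneSpectrum.intValuation_lt_one_iff_mem]
  rfl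

theorem ord_pos_iff (v : Place K F) {f : F} (hf0 : f ≠ 0) :
    0 < v.ord f ↔ ∃ hf : f ∈ v.toValuationSubring,
      (⟨f, hf⟩ : v.toValuationSubring) ∈ maximalIdeal v.toValuationSubring := by
  constructor
  · intro h
    have hf := mem_of_ord_nonneg v h.le
    refine ⟨hf, (ord_pos_iff_mem_maximalIdeal v ⟨f, hf⟩ ?_).mp h⟩
    intro h0
    exact hf0 (congrArg Subtype.val h0)
  · rintro ⟨hf, hm⟩
    refine (ord_pos_iff_mem_maximalIdeal v ⟨f, hf⟩ ?_).mpr hm
    intro h0
    exact hf0 (congrArg Subtype.val h0)

end Ord

section Residue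

variable {K F : Type*} [Field K] [Field F] [Algebra K F]

/-- Exchange: if `F` is algebraic over `K(y)` and `f` is transcendental over `K`, then `F` is
algebraic over `K(f)`. -/
theorem isAlgebraic_adjoin_of_transcendental (y : F) (hy : Transcendental K y)
    (halg : Algebra.IsAlgebraic K⟮y⟯ F) (f : F) (hf : Transcendental K f) :
    Algebra.IsAlgebraic K⟮f⟯ F := by
  have h1 : IsAlgebraic (Algebra.adjoin K {y}) f :=
    IntermediateField.isAlgebraic_adjoin_iff.mp (halg.isAlgebraic f)
  have h2 : IsAlgebraic (Algebra.adjoin K {f}) y := IsAlgebraic.adjoin_singleton hy hf h1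
  refine ⟨fun g => ?_⟩
  have h3 : IsAlgebraic (Algebra.adjoin K {y}) g :=
    IntermediateField.isAlgebraic_adjoin_iff.mp (halg.isAlgebraic g)
  have h4 : IsAlgebraic (Algebra.adjoin K {f}) g :=
    IsAlgebraic.adjoin_of_forall_isAlgebraic (fun x hx => by
      have hxy : x = y := hx.1
      rw [hxy]
      exact h2) h3
  exact IntermediateField.isAlgebraic_adjoin_iff.mpr h4

/-- The valuation ring of a place cannot contain a subfield over which `F` is algebraic. -/
theorem not_forall_mem_of_isAlgebraic (v : Place K F) (E : IntermediateField K F)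
    [Algebra.IsAlgebraic E F] : ¬ ∀ c : E, (c : F) ∈ v.toValuationSubring := by
  intro hE
  apply v.ne_top'
  refine SetLike.ext fun g => ⟨fun _ => ValuationSubring.mem_top g, fun _ => ?_⟩
  let φ : E →+* v.toValuationSubring :=
    (algebraMap E F).codRestrict v.toValuationSubring.toSubring hE
  have hint : IsIntegral E g := (Algebra.IsAlgebraic.isAlgebraic g).isIntegral
  obtain ⟨p, hp, hp0⟩ := hint
  have hint' : IsIntegral v.toValuationSubring g :=
    ⟨p.map φ, hp.map φ, by rw [Polynomial.eval₂_map]; exact hp0⟩
  obtain ⟨z, hz⟩ := IsIntegrallyClosed.isIntegral_iff.mp hint'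
  rw [← hz]
  exact z.2

/-- Every element of the valuation ring of a place is congruent to a constant. -/
theorem exists_sub_mem_maximalIdeal [IsAlgClosed K]
    (halg : ∀ f : F, Transcendental K f → Algebra.IsAlgebraic K⟮f⟯ F)
    (v : Place K F) (x : v.toValuationSubring) :
    ∃ a : K, x - algebraMap K v.toValuationSubring a ∈ maximalIdeal v.toValuationSubring := by
  by_cases hr : IsAlgebraic K (residue v.toValuationSubring x)
  · have hint : IsIntegral K (residue v.toValuationSubring x) := hr.isIntegral
    have hdeg : (minpoly K (residue v.toValuationSubring x)).degree = 1 :=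
      IsAlgClosed.degree_eq_one_of_irreducible K (minpoly.irreducible hint)
    obtain ⟨a, ha⟩ := minpoly.mem_range_of_degree_eq_one K _ hdeg
    refine ⟨a, ?_⟩
    rw [← Ideal.Quotient.eq_zero_iff_mem]
    show residue v.toValuationSubring (x - algebraMap K v.toValuationSubring a) = 0
    rw [map_sub, sub_eq_zero, ← ha]
    rfl
  · exfalso
    have hf : Transcendental K (x : F) := by
      intro halgf
      apply hr
      obtain ⟨p, hp0, hp⟩ := halgf
      refine ⟨p, hp0, ?_⟩
      have h1 : Polynomial.aeval x p = 0 := by
        apply Subtype.ext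
        have := Polynomial.aeval_algebraMap_apply F x p
        rw [show algebraMap v.toValuationSubring F x = (x : F) from rfl] at this
        rw [show ((Polynomial.aeval x p : v.toValuationSubring) : F)
          = algebraMap v.toValuationSubring F (Polynomial.aeval x p) from rfl, ← this, hp]
        rfl
      have h2 := Polynomial.aeval_algebraMap_apply (ResidueField v.toValuationSubring) x p
      rw [h1, map_zero] at h2
      exact h2
    have := halg _ hf
    apply not_forall_mem_of_isAlgebraic v K⟮(x : F)⟯
    intro c
    obtain ⟨r, s, hrs⟩ := (IntermediateField.mem_adjoin_simple_iff K _).mp c.2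
    have hcoe : ∀ q : Polynomial K, Polynomial.aeval (x : F) q
        = ((Polynomial.aeval x q : v.toValuationSubring) : F) := fun q =>
      Polynomial.aeval_algebraMap_apply F x q
    rw [hrs, div_eq_mul_inv, hcoe, hcoe]
    refine v.toValuationSubring.mul_mem _ _ (Subtype.mem _) ?_
    by_cases hs : s = 0
    · rw [hs, map_zero]
      simp
    · apply inv_mem_of_notMem_maximalIdeal
      intro hmem
      apply hr
      refine ⟨s, hs, ?_⟩
      have h2 := Polynomial.aeval_algebraMap_apply (ResidueField v.toValuationSubring) x s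
      exact h2.trans ((Ideal.Quotient.eq_zero_iff_mem).mpr hmem)

/-- `hres`: every element of the valuation ring is congruent to a constant (order form). -/
theorem exists_ord_sub_pos [IsAlgClosed K]
    (halg : ∀ f : F, Transcendental K f → Algebra.IsAlgebraic K⟮f⟯ F)
    (v : Place K F) (f : F) (hf : f ∈ v.toValuationSubring) :
    ∃ a : K, 0 < v.ord (f - algebraMap K F a) ∨ f = algebraMap K F a := by
  obtain ⟨a, ha⟩ := exists_sub_mem_maximalIdeal halg v ⟨f, hf⟩
  refine ⟨a, ?_⟩
  by_cases h0 : f = algebraMap K F a
  · exact Or.inr h0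
  · left
    have hne : (⟨f, hf⟩ - algebraMap K v.toValuationSubring a : v.toValuationSubring) ≠ 0 := by
      intro h
      apply h0
      have := congrArg Subtype.val h
      exact sub_eq_zero.mp this
    exact (ord_pos_iff_mem_maximalIdeal v _ hne).mpr ha

/-- Every place has degree one. -/
theorem deg_eq_one [IsAlgClosed K]
    (halg : ∀ f : F, Transcendental K f → Algebra.IsAlgebraic K⟮f⟯ F)
    (v : Place K F) : v.deg = 1 := by
  unfold Place.deg
  rw [finrank_eq_one_iff_of_nonzero' (1 : v.ResidueField) one_ne_zero]
  intro w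
  obtain ⟨x, rfl⟩ := residue_surjective w
  obtain ⟨a, ha⟩ := exists_sub_mem_maximalIdeal halg v x
  refine ⟨a, ?_⟩
  rw [Algebra.smul_def, mul_one]
  have : residue v.toValuationSubring (x - algebraMap K v.toValuationSubring a) = 0 :=
    (Ideal.Quotient.eq_zero_iff_mem).mpr ha
  rw [map_sub, sub_eq_zero] at this
  rw [this]
  rfl

end Residue

section Dedekind

variable {K F : Type*} [Field K] [Field F] [Algebra K F]
variable {R : Type*} [CommRing R] [IsDedekindDomain R] [Algebra R F] [IsFractionRing R F]
  [Algebra K R] [IsScalarTower K R F]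

/-- Distinct height one primes give distinct places. -/
theorem ofHeightOneSpectrum_injective :
    Function.Injective (Place.ofHeightOneSpectrum (K := K) (F := F) (R := R)) := by
  intro w w' h
  have h' : (w.valuation F).valuationSubring = (w'.valuation F).valuationSubring :=
    congrArg Place.toValuationSubring h
  exact HeightOneSpectrum.eq_of_valuation_isEquiv_valuation
    ((Valuation.isEquiv_iff_valuationSubring _ _).mpr h')

/-- A place whose valuation ring contains the Dedekind domain `R` (with fraction field `F`) comes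
from a height one prime of `R`. -/
theorem exists_eq_ofHeightOneSpectrum (v : Place K F)
    (hv : ∀ b : R, algebraMap R F b ∈ v.toValuationSubring) :
    ∃ w : HeightOneSpectrum R, Place.ofHeightOneSpectrum (K := K) w = v := by
  classical
  let φ : R →+* v.toValuationSubring :=
    (algebraMap R F).codRestrict v.toValuationSubring.toSubring hv
  have hφ : ∀ b : R, ((φ b : v.toValuationSubring) : F) = algebraMap R F b := fun b => rfl
  let P : Ideal R := (maximalIdeal v.toValuationSubring).comap φ
  have hPprime : P.IsPrime := Ideal.comap_isPrime φ _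
  have hinv : ∀ b : R, b ∉ P → (algebraMap R F b)⁻¹ ∈ v.toValuationSubring := by
    intro b hb
    exact inv_mem_of_notMem_maximalIdeal v.toValuationSubring (φ b) hb
  have hPne : P ≠ ⊥ := by
    intro hP
    apply v.ne_top'
    refine SetLike.ext fun x => ⟨fun _ => ValuationSubring.mem_top x, fun _ => ?_⟩
    obtain ⟨a, b, hb, rfl⟩ := IsFractionRing.div_surjective (A := R) x
    have hb0 : b ≠ 0 := nonZeroDivisors.ne_zero hb
    have hbP : b ∉ P := by
      rw [hP]; simpa using hb0
    rw [div_eq_mul_inv]
    exact v.toValuationSubring.mul_mem _ _ (hv a) (hinv b hbP)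
  let w : HeightOneSpectrum R := ⟨P, hPprime, hPne⟩
  have hle : (w.valuation F).valuationSubring ≤ v.toValuationSubring := by
    intro x hx
    rw [Valuation.mem_valuationSubring_iff] at hx
    obtain ⟨n, d, hnd⟩ := w.exists_primeCompl_mul_eq_of_integer x hx
    have hdP : (d : R) ∉ P := d.2
    have hd0 : algebraMap R F (d : R) ≠ 0 := by
      intro h0
      apply hdP
      have : (d : R) = 0 := (IsFractionRing.injective R F) (by rw [h0, map_zero])
      rw [this]
      exact P.zero_mem
    have hx' : x = algebraMap R F n * (algebraMap R F (d : R))⁻¹ :=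
      (eq_mul_inv_iff_mul_eq₀ hd0).mpr hnd
    rw [hx']
    exact v.toValuationSubring.mul_mem _ _ (hv n) (hinv d hdP)
  have e := HeightOneSpectrum.valuationSubringAtPrime_eq_valuationSubring (K := F) w
  have hle' : HeightOneSpectrum.valuationSubringAtPrime F w ≤ v.toValuationSubring := e ▸ hle
  have heq := ValuationSubring.eq_of_le_of_ne_top _ hle' v.ne_top'
  exact ⟨w, Place.ext (by rw [Place.ofHeightOneSpectrum_toValuationSubring, ← e, heq])⟩

/-- The order function of the place attached to a height one prime is the adic valuation. -/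
theorem ord_ofHeightOneSpectrum (w : HeightOneSpectrum R) (f : F) :
    (Place.ofHeightOneSpectrum (K := K) w).ord f = -(WithZero.log (w.valuation F f)) := by
  obtain ⟨π, hπ⟩ := w.valuation_exists_uniformizer F
  exact ord_eq_neg_log_of_valuationSubring_eq _ (w.valuation F) rfl π hπ f

end Dedekind

section Main

open scoped IntermediateField.algebraAdjoinAdjoin

universe u v

variable {K : Type u} {F : Type v} [Field K] [Field F] [Algebra K F]

/-- The valuation ring of a place containing `y` contains `K[y]`. -/
theorem adjoin_mem_of_mem (v : Place K F) (y : F) (hy : y ∈ v.toValuationSubring)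
    (a : Algebra.adjoin K {y}) : (a : F) ∈ v.toValuationSubring := by
  let S : Subalgebra K F :=
    { v.toValuationSubring.toSubring with algebraMap_mem' := v.algebraMap_mem' }
  have hle : Algebra.adjoin K {y} ≤ S := Algebra.adjoin_le (by
    intro z hz
    rw [Set.mem_singleton_iff] at hz
    rw [hz]
    exact hy)
  exact hle a.2

/-- The valuation ring of a place containing `y` contains the integral closure of `K[y]`. -/
theorem integralClosure_mem_of_mem (v : Place K F) (y : F) (hy : y ∈ v.toValuationSubring)
    (b : integralClosure (Algebra.adjoin K {y}) F) : (b : F) ∈ v.toValuationSubring := by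
  let φ : Algebra.adjoin K {y} →+* v.toValuationSubring :=
    (algebraMap (Algebra.adjoin K {y}) F).codRestrict v.toValuationSubring.toSubring
      (adjoin_mem_of_mem v y hy)
  obtain ⟨p, hp, hp0⟩ := b.2
  have hint' : IsIntegral v.toValuationSubring (b : F) :=
    ⟨p.map φ, hp.map φ, by rw [Polynomial.eval₂_map]; exact hp0⟩
  obtain ⟨z, hz⟩ := IsIntegrallyClosed.isIntegral_iff.mp hint'
  rw [← hz]
  exact z.2

/-- Abstract form of the parametrisation of the places over `y = 0`: `A` plays the role of `K[y]`,
`B` of its integral closure in `F`. -/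
theorem exists_places_package_aux [IsAlgClosed K]
    (halg : ∀ f : F, Transcendental K f → Algebra.IsAlgebraic K⟮f⟯ F)
    {A : Type v} {B : Type v} [CommRing A] [IsDomain A] [CommRing B] [IsDedekindDomain B]
    [Algebra A B] [Module.Finite A B] [Module.Flat A B] [FaithfulSMul A B]
    [Algebra B F] [IsFractionRing B F] [Algebra K B] [IsScalarTower K B F]
    [Algebra K A] [IsScalarTower K A B]
    (yA : A) (hyA0 : yA ≠ 0) (hmax : (Ideal.span {yA}).IsMaximal)
    (hB : ∀ v : Place K F, 0 < v.ord (algebraMap B F (algebraMap A B yA)) →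
      ∀ b : B, algebraMap B F b ∈ v.toValuationSubring) :
    ∃ (ι : Type v) (_ : Fintype ι) (g : ι → Place K F) (e : ι → ℕ), Function.Injective g ∧
      Set.range g = {v : Place K F | 0 < v.ord (algebraMap B F (algebraMap A B yA))} ∧
      (∀ i, (g i).ord (algebraMap B F (algebraMap A B yA)) = e i) ∧
      ∑ i, e i = Module.finrank A B := by
  classical
  set p : Ideal A := Ideal.span {yA} with hpdef
  have hp0 : p ≠ ⊥ := by
    intro h
    exact hyA0 (Ideal.span_singleton_eq_bot.mp h)
  have : Fintype (p.primesOver B) := (Algebra.QuasiFinite.finite_primesOver p).fintype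
  set yB : B := algebraMap A B yA with hyBdef
  set y : F := algebraMap B F yB with hydef
  have hyB0 : yB ≠ 0 := fun h => hyA0
    ((FaithfulSMul.algebraMap_injective A B) (by rw [← hyBdef, h, map_zero]))
  have hy0 : y ≠ 0 := fun h => hyB0
    ((IsFractionRing.injective B F) (by rw [← hydef, h, map_zero]))
  have hmap : p.map (algebraMap A B) = Ideal.span {yB} := by
    rw [hpdef, Ideal.map_span, Set.image_singleton]
  have hmap0 : p.map (algebraMap A B) ≠ ⊥ := by
    rw [hmap]
    intro h
    exact hyB0 (Ideal.span_singleton_eq_bot.mp h)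
  have hne : ∀ q : p.primesOver B, q.1 ≠ ⊥ := by
    intro q
    have : q.1.LiesOver p := q.2.2
    exact Ideal.ne_bot_of_liesOver_of_ne_bot hp0 q.1
  let w : p.primesOver B → HeightOneSpectrum B := fun q => ⟨q.1, q.2.1, hne q⟩
  have hyBmem : ∀ q : p.primesOver B, yB ∈ q.1 := by
    intro q
    have : q.1.LiesOver p := q.2.2
    have h1 : yA ∈ p := Ideal.subset_span rfl
    rw [Ideal.over_def q.1 p] at h1
    exact h1
  have hord : ∀ w' : HeightOneSpectrum B,
      (Place.ofHeightOneSpectrum (K := K) w').ord y
        = (multiplicity w'.asIdeal (Ideal.span {yB}) : ℤ) := by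
    intro w'
    rw [ord_ofHeightOneSpectrum, hydef, HeightOneSpectrum.valuation_of_algebraMap,
      HeightOneSpectrum.intValuation_eq_exp_neg_multiplicity _ hyB0, WithZero.log_exp, neg_neg]
  have hpos : ∀ w' : HeightOneSpectrum B,
      0 < (Place.ofHeightOneSpectrum (K := K) w').ord y ↔ yB ∈ w'.asIdeal := by
    intro w'
    rw [ord_ofHeightOneSpectrum, ← w'.valuation_lt_one_iff_mem (K := F) yB, neg_pos,
      WithZero.log_lt_iff_lt_exp ((Valuation.ne_zero_iff _).mpr hy0), WithZero.exp_zero]
  refine ⟨p.primesOver B, inferInstance,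
    fun q => Place.ofHeightOneSpectrum (K := K) (w q), fun q => q.1.ramificationIdx A,
    ?_, ?_, ?_, ?_⟩
  · -- injectivity
    intro q q' h
    have h1 := ofHeightOneSpectrum_injective h
    exact Subtype.ext (congrArg HeightOneSpectrum.asIdeal h1)
  · -- the range
    ext v
    constructor
    · rintro ⟨q, rfl⟩
      exact (hpos (w q)).mpr (hyBmem q)
    · intro hv
      obtain ⟨w0, hw0⟩ := exists_eq_ofHeightOneSpectrum v (hB v hv)
      have hyw0 : yB ∈ w0.asIdeal := (hpos w0).mp (hw0 ▸ hv)
      have hle : p ≤ Ideal.under A w0.asIdeal := by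
        rw [hpdef, Ideal.span_le]
        intro z hz
        rw [Set.mem_singleton_iff] at hz
        rw [hz]
        exact hyw0
      have hover : w0.asIdeal.LiesOver p :=
        ⟨hmax.eq_of_le (Ideal.IsPrime.ne_top inferInstance) hle⟩
      exact ⟨⟨w0.asIdeal, w0.isPrime, hover⟩, hw0⟩
  · -- orders are ramification indices
    intro q
    have : q.1.LiesOver p := q.2.2
    have : q.1.IsPrime := q.2.1
    show _ = ((q.1.ramificationIdx A : ℕ) : ℤ)
    rw [hord (w q), Ideal.IsDedekindDomain.ramificationIdx_eq_multiplicity p q.1 hmap0, hmap]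
  · -- the fundamental identity
    have hsum := Ideal.sum_ramification_inertia_eq_finrank p B
    have hf : ∀ q : p.primesOver B, q.1.inertiaDeg A = 1 := by
      intro q
      have : q.1.LiesOver p := q.2.2
      have : q.1.IsPrime := q.2.1
      have : q.1.IsMaximal := q.2.1.isMaximal (hne q)
      rw [Ideal.inertiaDeg_eq_of_isMaximal p q.1]
      let _ : Field (A ⧸ p) := Ideal.Quotient.field p
      rw [finrank_eq_one_iff_of_nonzero' (1 : B ⧸ q.1) one_ne_zero]
      intro wbar
      obtain ⟨b, rfl⟩ := Ideal.Quotient.mk_surjective wbar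
      have hb : algebraMap B F b ∈ (Place.ofHeightOneSpectrum (K := K) (w q)).toValuationSubring :=
        (w q).valuation_le_one b
      obtain ⟨a, ha⟩ := exists_ord_sub_pos halg (Place.ofHeightOneSpectrum (K := K) (w q))
        (algebraMap B F b) hb
      refine ⟨Ideal.Quotient.mk p (algebraMap K A a), ?_⟩
      rw [Algebra.smul_def, mul_one, Ideal.Quotient.algebraMap_mk_of_liesOver]
      rw [Ideal.Quotient.eq]
      have hKB : algebraMap B F (algebraMap A B (algebraMap K A a)) = algebraMap K F a := by
        rw [← IsScalarTower.algebraMap_apply K A B, ← IsScalarTower.algebraMap_apply K B F]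
      rcases ha with ha | ha
      · rw [← hKB, ← map_sub, ord_ofHeightOneSpectrum, neg_pos] at ha
        have hne0 : (w q).valuation F (algebraMap B F (b - algebraMap A B (algebraMap K A a))) ≠ 0 := by
          intro h0
          rw [h0] at ha
          simp at ha
        rw [WithZero.log_lt_iff_lt_exp hne0, WithZero.exp_zero,
          HeightOneSpectrum.valuation_lt_one_iff_mem] at ha
        have := Ideal.neg_mem_iff (I := (w q).asIdeal) |>.mpr ha
        simpa using this
      · rw [← hKB] at ha
        have := (IsFractionRing.injective B F) ha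
        rw [this, sub_self]
        exact Ideal.zero_mem _
    simp only [hf, mul_one] at hsum
    exact hsum

set_option maxHeartbeats 400000 in
/-- Intermediate form of `exists_places_package` with the relevant instances as hypotheses. -/
theorem exists_places_package_aux' [IsAlgClosed K] (y : F)
    [FiniteDimensional K⟮y⟯ F]
    [IsPrincipalIdealRing (Algebra.adjoin K {y})]
    [IsDedekindDomain (integralClosure (Algebra.adjoin K {y}) F)]
    [IsFractionRing (integralClosure (Algebra.adjoin K {y}) F) F]
    [Module.Finite (Algebra.adjoin K {y}) (integralClosure (Algebra.adjoin K {y}) F)]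
    [FaithfulSMul (Algebra.adjoin K {y}) (integralClosure (Algebra.adjoin K {y}) F)]
    (halg : ∀ f : F, Transcendental K f → Algebra.IsAlgebraic K⟮f⟯ F)
    (hyA0 : (⟨y, Algebra.self_mem_adjoin_singleton K y⟩ : Algebra.adjoin K {y}) ≠ 0)
    (hpmax : (Ideal.span
      {(⟨y, Algebra.self_mem_adjoin_singleton K y⟩ : Algebra.adjoin K {y})}).IsMaximal) :
    ∃ (ι : Type v) (_ : Fintype ι) (g : ι → Place K F) (e : ι → ℕ), Function.Injective g ∧
      Set.range g = {v : Place K F | 0 < v.ord y} ∧ (∀ i, (g i).ord y = e i) ∧
      ∑ i, e i = Module.finrank K⟮y⟯ F := by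
  have hB : ∀ v : Place K F, 0 < v.ord y →
      ∀ b : (integralClosure (Algebra.adjoin K {y}) F),
        algebraMap (integralClosure (Algebra.adjoin K {y}) F) F b ∈ v.toValuationSubring :=
    fun v hv b => integralClosure_mem_of_mem v y (mem_of_ord_nonneg v hv.le) b
  have key := exists_places_package_aux (K := K) (F := F) halg
      (A := Algebra.adjoin K {y}) (B := integralClosure (Algebra.adjoin K {y}) F)
      (⟨y, Algebra.self_mem_adjoin_singleton K y⟩ : Algebra.adjoin K {y}) hyA0 hpmax hB
  obtain ⟨ι, hι, g, e, hg, hrange, hord, hsum⟩ := key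
  refine ⟨ι, hι, g, e, hg, hrange, hord, ?_⟩
  rw [hsum]
  exact (IsFractionRing.finrank_eq (Algebra.adjoin K {y}) K⟮y⟯
    (integralClosure (Algebra.adjoin K {y}) F) F).symm

theorem isPrincipalIdealRing_adjoin (y : F) (hy : Transcendental K y) :
    IsPrincipalIdealRing (Algebra.adjoin K {y}) :=
  IsPrincipalIdealRing.of_surjective
    (Polynomial.algEquivOfTranscendental K y hy).toRingEquiv.toRingHom
    (Polynomial.algEquivOfTranscendental K y hy).surjective

theorem isMaximal_span_gen (y : F) (hy : Transcendental K y) :
    (Ideal.span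
      {(⟨y, Algebra.self_mem_adjoin_singleton K y⟩ : Algebra.adjoin K {y})}).IsMaximal := by
  have := isPrincipalIdealRing_adjoin y hy
  have hy0 : y ≠ 0 := fun h => hy (h ▸ isAlgebraic_zero)
  have hyA0 : (⟨y, Algebra.self_mem_adjoin_singleton K y⟩ : Algebra.adjoin K {y}) ≠ 0 :=
    fun h => hy0 (congrArg Subtype.val h)
  have hprime : Prime (⟨y, Algebra.self_mem_adjoin_singleton K y⟩ : Algebra.adjoin K {y}) := by
    have h1 : (Polynomial.algEquivOfTranscendental K y hy) Polynomial.X
        = (⟨y, Algebra.self_mem_adjoin_singleton K y⟩ : Algebra.adjoin K {y}) :=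
      Polynomial.algEquivOfTranscendental_apply_X K y hy
    rw [← h1]
    exact (MulEquiv.prime_iff (Polynomial.algEquivOfTranscendental K y hy).toMulEquiv).mpr
      Polynomial.prime_X
  have hp := (Ideal.span_singleton_prime hyA0).mpr hprime
  refine hp.isMaximal ?_
  intro h
  exact hyA0 (Ideal.span_singleton_eq_bot.mp h)

/-- The places over `y = 0` are parametrised by a finite type, with multiplicities adding up to
the degree `[F : K(y)]`. -/
theorem exists_places_package [IsAlgClosed K] [CharZero K] (y : F) (hy : Transcendental K y)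
    [FiniteDimensional K⟮y⟯ F] :
    ∃ (ι : Type v) (_ : Fintype ι) (g : ι → Place K F) (e : ι → ℕ), Function.Injective g ∧
      Set.range g = {v : Place K F | 0 < v.ord y} ∧ (∀ i, (g i).ord y = e i) ∧
      ∑ i, e i = Module.finrank K⟮y⟯ F := by
  have := isPrincipalIdealRing_adjoin y hy
  have : CharZero F := charZero_of_injective_algebraMap (algebraMap K F).injective
  have : Algebra.IsSeparable K⟮y⟯ F := inferInstance
  have : IsDedekindDomain (integralClosure (Algebra.adjoin K {y}) F) :=
    integralClosure.isDedekindDomain (Algebra.adjoin K {y}) K⟮y⟯ F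
  have : IsFractionRing (integralClosure (Algebra.adjoin K {y}) F) F :=
    integralClosure.isFractionRing_of_finite_extension K⟮y⟯ F
  have : Module.Finite (Algebra.adjoin K {y}) (integralClosure (Algebra.adjoin K {y}) F) :=
    IsIntegralClosure.finite (Algebra.adjoin K {y}) K⟮y⟯ F _
  have : FaithfulSMul (Algebra.adjoin K {y}) (integralClosure (Algebra.adjoin K {y}) F) :=
    (faithfulSMul_iff_algebraMap_injective _ _).mpr (fun a b h =>
      Subtype.ext (congrArg (fun z : integralClosure (Algebra.adjoin K {y}) F => (z : F)) h))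
  have halg : ∀ f : F, Transcendental K f → Algebra.IsAlgebraic K⟮f⟯ F := fun f hf =>
    isAlgebraic_adjoin_of_transcendental y hy inferInstance f hf
  have hy0 : y ≠ 0 := fun h => hy (h ▸ isAlgebraic_zero)
  exact exists_places_package_aux' y halg (fun h => hy0 (congrArg Subtype.val h))
    (isMaximal_span_gen y hy)

end Main

section InterfaceA

universe u v

variable {K : Type u} {F : Type v} [Field K] [Field F] [Algebra K F] [IsAlgClosed K]

/-- (A1a') Every element of the valuation ring of a place is congruent to a (unique) constant. -/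
theorem place_exists_residue (y : F) (hfin : FiniteDimensional K⟮y⟯ F) (hy : Transcendental K y)
    (v : Place K F) (f : F) (hf : f ∈ v.toValuationSubring) :
    ∃ a : K, 0 < v.ord (f - algebraMap K F a) ∨ f = algebraMap K F a :=
  exists_ord_sub_pos
    (fun f hf => isAlgebraic_adjoin_of_transcendental y hy inferInstance f hf) v f hf

/-- (A1a) Every place of a function field over an algebraically closed field has degree one. -/
theorem place_deg_eq_one (y : F) (hfin : FiniteDimensional K⟮y⟯ F) (hy : Transcendental K y)
    (v : Place K F) : v.deg = 1 :=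
  deg_eq_one (fun f hf => isAlgebraic_adjoin_of_transcendental y hy inferInstance f hf) v

end InterfaceA

end PlacesOver

section Interface

open PlacesOver

universe u v

variable {K : Type u} {F : Type v} [Field K] [Field F] [Algebra K F] [IsAlgClosed K] [CharZero K]

/-- (A1b) There are only finitely many places at which `y` has positive order. -/
theorem finite_places_pos (y : F) (hfin : FiniteDimensional K⟮y⟯ F) (hy : Transcendental K y) :
    {v : Place K F | 0 < v.ord y}.Finite := by
  obtain ⟨ι, hι, g, e, hg, hrange, hord, hsum⟩ := exists_places_package y hy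
  rw [← hrange]
  exact Set.finite_range g

/-- (A1c) The fundamental identity: the orders of `y` at its zeros add up to `[F : K(y)]`. -/
theorem sum_ord_eq_finrank (y : F) (hfin : FiniteDimensional K⟮y⟯ F) (hy : Transcendental K y) :
    ∑ᶠ v ∈ {v : Place K F | 0 < v.ord y}, v.ord y = (Module.finrank K⟮y⟯ F : ℤ) := by
  obtain ⟨ι, hι, g, e, hg, hrange, hord, hsum⟩ := exists_places_package y hy
  rw [← hrange, finsum_mem_range hg, finsum_eq_sum_of_fintype, ← hsum, Nat.cast_sum]
  exact Finset.sum_congr rfl fun i _ => hord i

end Interface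

end Fermat.Agent.S24

end
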