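/-
S24 side A, package A1a: over an algebraically closed constant field every place of a
function field has degree one, and every element of the valuation ring has a residue in `K`.
Owner: helper11.
-/
import Mathlib
import Fermat.Agent.S24.FFBasic
import Fermat.Agent.S24.Exchange

set_option autoImplicit false
set_option linter.unusedSectionVars false

open IntermediateField AlgebraicCurve Polynomial
open scoped IntermediateField.algebraAdjoinAdjoin

namespace Fermat.Agent.S24

variable {K F : Type*} [Field K] [Field F] [Algebra K F]

namespace Residue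

theorem algebraMap_mem (v : Place K F) (c : K) : algebraMap K F c ∈ v.toValuationSubring :=
  mem_of_ord_nonneg v (by rw [ord_algebraMap])

/-- Polynomials over `K` in an element of the valuation ring lie in the valuation ring. -/
theorem aeval_mem (v : Place K F) {f : F} (hf : f ∈ v.toValuationSubring) (q : K[X]) :
    aeval f q ∈ v.toValuationSubring := by
  rw [aeval_eq_sum_range]
  refine sum_mem fun i _ => ?_
  rw [Algebra.smul_def]
  exact mul_mem (algebraMap_mem v _) (pow_mem hf i)

/-- Every element of `K[f]` is a polynomial in `f`. -/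
theorem exists_aeval_eq {f : F} (c : Algebra.adjoin K {f}) :
    ∃ q : K[X], aeval f q = (c : F) := by
  obtain ⟨c, hc⟩ := c
  rw [Algebra.adjoin_singleton_eq_range_aeval] at hc
  exact hc

/-- Every element of `K[f]` lies in the valuation ring if `f` does. -/
theorem adjoin_le (v : Place K F) {f : F} (hf : f ∈ v.toValuationSubring)
    (c : Algebra.adjoin K {f}) : (c : F) ∈ v.toValuationSubring := by
  obtain ⟨q, hq⟩ := exists_aeval_eq c
  rw [← hq]
  exact aeval_mem v hf q

/-- Polynomials over `K[f]` evaluated at an element of the valuation ring lie in it. -/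
theorem aeval_adjoin_mem (v : Place K F) {f t : F} (hf : f ∈ v.toValuationSubring)
    (ht : t ∈ v.toValuationSubring) (Q : (Algebra.adjoin K {f})[X]) :
    aeval t Q ∈ v.toValuationSubring := by
  rw [aeval_eq_sum_range]
  refine sum_mem fun i _ => ?_
  rw [Algebra.smul_def]
  exact mul_mem (adjoin_le v hf _) (pow_mem ht i)

/-- If a polynomial in `f` over the algebraically closed field `K` has positive order at `v`,
then so does `f - a` for some `a : K`. -/
theorem exists_pos_of_aeval_pos [IsAlgClosed K] (v : Place K F) {f : F}
    (hf : f ∈ v.toValuationSubring) :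
    ∀ (n : ℕ) (q : K[X]), q.natDegree = n → 0 < v.ord (aeval f q) →
      ∃ a : K, 0 < v.ord (f - algebraMap K F a) := by
  intro n
  induction n with
  | zero =>
    intro q hq hpos
    exfalso
    rw [natDegree_eq_zero] at hq
    obtain ⟨c, rfl⟩ := hq
    rw [aeval_C, ord_algebraMap] at hpos
    exact lt_irrefl _ hpos
  | succ n ih =>
    intro q hq hpos
    have hq0 : q ≠ 0 := by
      rintro rfl
      simp at hq
    have hdeg : q.degree ≠ 0 := by
      rw [degree_eq_natDegree hq0, hq]
      exact_mod_cast Nat.succ_ne_zero n
    obtain ⟨a, ha⟩ := IsAlgClosed.exists_root q hdeg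
    obtain ⟨q', rfl⟩ := dvd_iff_isRoot.mpr ha
    have hq'0 : q' ≠ 0 := right_ne_zero_of_mul hq0
    have hq'deg : q'.natDegree = n := by
      rw [natDegree_mul (X_sub_C_ne_zero a) hq'0, natDegree_X_sub_C] at hq
      omega
    have hev : aeval f ((X - C a) * q') = (f - algebraMap K F a) * aeval f q' := by
      simp
    rw [hev] at hpos
    have hne : (f - algebraMap K F a) * aeval f q' ≠ 0 := by
      intro h0
      rw [h0, v.ord_zero] at hpos
      exact lt_irrefl _ hpos
    rw [v.ord_mul (left_ne_zero_of_mul hne) (right_ne_zero_of_mul hne)] at hpos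
    have h1 : 0 ≤ v.ord (f - algebraMap K F a) :=
      ord_nonneg_of_mem v (sub_mem hf (algebraMap_mem v a))
    rcases h1.lt_or_eq with h1 | h1
    · exact ⟨a, h1⟩
    · exact ih q' hq'deg (by omega)

/-- In a function field, if `f` is a transcendental element of the valuation ring of `v`, then
some polynomial in `f` has positive order at `v`. -/
theorem exists_aeval_pos (hFF : IsFF K F) (v : Place K F) {f : F}
    (hf : f ∈ v.toValuationSubring) (hftr : Transcendental K f) :
    ∃ q : K[X], 0 < v.ord (aeval f q) := by
  obtain ⟨π, hπ⟩ := IsDiscreteValuationRing.exists_irreducible v.toValuationSubring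
  have hπord : v.ord (π : F) = 1 := v.ord_coe_irreducible hπ
  have hπ0 : (π : F) ≠ 0 := by
    intro h0
    rw [h0, v.ord_zero] at hπord
    exact zero_ne_one hπord
  have halg : Algebra.IsAlgebraic K⟮f⟯ F := hFF.isAlgebraic hftr
  have halg' : Algebra.IsAlgebraic (Algebra.adjoin K {f}) F :=
    (IsFractionRing.comap_isAlgebraic_iff (K := K⟮f⟯)).mpr halg
  obtain ⟨Q, hQ0, hQ⟩ := halg'.isAlgebraic (π : F)
  -- divide out the power of `X`
  obtain ⟨Q', hQQ', hndvd⟩ :=
    Polynomial.exists_eq_pow_rootMultiplicity_mul_and_not_dvd Q hQ0 0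
  rw [C_0, sub_zero] at hQQ' hndvd
  have hQ' : aeval (π : F) Q' = 0 := by
    rw [hQQ', map_mul, map_pow, aeval_X] at hQ
    exact (mul_eq_zero.mp hQ).resolve_left (pow_ne_zero _ hπ0)
  have hc0 : Q'.coeff 0 ≠ 0 := fun h => hndvd (X_dvd_iff.mpr h)
  have hc0F : ((Q'.coeff 0 : Algebra.adjoin K {f}) : F) ≠ 0 := by
    intro h
    exact hc0 (Subtype.ext h)
  -- the constant coefficient is `-π * w` with `w` integral
  have hsplit : aeval (π : F) Q'.divX * (π : F) + ((Q'.coeff 0 : Algebra.adjoin K {f}) : F)
      = 0 := by
    have h := congrArg (aeval (π : F)) (Polynomial.divX_mul_X_add Q')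
    rw [map_add, map_mul, aeval_X, aeval_C, hQ'] at h
    exact h
  have hw : aeval (π : F) Q'.divX ∈ v.toValuationSubring := aeval_adjoin_mem v hf π.2 _
  have hceq : ((Q'.coeff 0 : Algebra.adjoin K {f}) : F) = -(aeval (π : F) Q'.divX * (π : F)) :=
    eq_neg_of_add_eq_zero_right hsplit
  have hw0 : aeval (π : F) Q'.divX ≠ 0 := by
    intro h
    rw [h, zero_mul, neg_zero] at hceq
    exact hc0F hceq
  have hcord : 0 < v.ord ((Q'.coeff 0 : Algebra.adjoin K {f}) : F) := by
    rw [hceq, ord_neg, v.ord_mul hw0 hπ0, hπord]
    have := ord_nonneg_of_mem v hw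
    omega
  -- the constant coefficient is a polynomial in `f`
  obtain ⟨q, hq⟩ := exists_aeval_eq (Q'.coeff 0)
  refine ⟨q, ?_⟩
  rw [hq]
  exact hcord

/-- In a function field over an algebraically closed field, every element of a valuation ring
is congruent to a constant. -/
theorem exists_residue_of_mem [IsAlgClosed K] (hFF : IsFF K F) (v : Place K F) {f : F}
    (hf : f ∈ v.toValuationSubring) :
    ∃ a : K, 0 < v.ord (f - algebraMap K F a) ∨ f = algebraMap K F a := by
  by_cases hfalg : IsAlgebraic K f
  · have hint : IsIntegral K f := hfalg.isIntegral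
    have hdeg : (minpoly K f).degree = 1 :=
      IsAlgClosed.degree_eq_one_of_irreducible K (minpoly.irreducible hint)
    obtain ⟨a, ha⟩ := minpoly.mem_range_of_degree_eq_one K f hdeg
    exact ⟨a, Or.inr ha.symm⟩
  · obtain ⟨q, hq⟩ := exists_aeval_pos hFF v hf hfalg
    obtain ⟨a, ha⟩ := exists_pos_of_aeval_pos v hf q.natDegree q rfl hq
    exact ⟨a, Or.inl ha⟩

end Residue

variable [IsAlgClosed K] [CharZero K]

/-- Over an algebraically closed constant field, every element of the valuation ring of a
place of a function field is congruent to a constant modulo the maximal ideal. -/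
theorem place_exists_residue (y : F) (hfin : FiniteDimensional K⟮y⟯ F)
    (hy : Transcendental K y) (v : AlgebraicCurve.Place K F) (f : F)
    (hf : f ∈ v.toValuationSubring) :
    ∃ a : K, 0 < v.ord (f - algebraMap K F a) ∨ f = algebraMap K F a :=
  Residue.exists_residue_of_mem ⟨y, hy, hfin⟩ v hf

/-- Over an algebraically closed constant field, every place of a function field has degree
one. -/
theorem place_deg_eq_one (y : F) (hfin : FiniteDimensional K⟮y⟯ F) (hy : Transcendental K y)
    (v : AlgebraicCurve.Place K F) : v.deg = 1 := by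
  have hsurj : ∀ r : v.ResidueField, ∃ a : K, a • (1 : v.ResidueField) = r := by
    intro r
    obtain ⟨g, rfl⟩ := IsLocalRing.residue_surjective r
    obtain ⟨a, ha⟩ := place_exists_residue y hfin hy v (g : F) g.2
    refine ⟨a, ?_⟩
    rw [← Algebra.algebraMap_eq_smul_one,
      IsScalarTower.algebraMap_apply K v.toValuationSubring v.ResidueField,
      IsLocalRing.ResidueField.algebraMap_eq]
    symm
    rw [← sub_eq_zero, ← map_sub, IsLocalRing.residue_eq_zero_iff]
    rcases ha with ha | ha
    · have hne : g - algebraMap K v.toValuationSubring a ≠ 0 := by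
        intro h0
        have h1 : (g : F) - algebraMap K F a = 0 := by
          have := congrArg (fun z : v.toValuationSubring => (z : F)) h0
          simpa using this
        rw [h1, v.ord_zero] at ha
        exact lt_irrefl _ ha
      exact (ord_pos_iff_mem_maximalIdeal v _ hne).mp ha
    · have hg : g = algebraMap K v.toValuationSubring a := Subtype.ext ha
      rw [hg, sub_self]
      exact zero_mem _
  exact (finrank_eq_one_iff_of_nonzero' (1 : v.ResidueField) one_ne_zero).mpr hsurj

end Fermat.Agent.S24
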