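/-
S24, pure-algebra lemmas for the degree `[F : K(x)]` of the modular function field (package B3alg).
Owner: helper12.
  * `card_le_finrank_of_embeddings`: lower bound from pairwise distinct embeddings agreeing on `K(x)`;
  * `linearIndependent_coeffMap`: linear independence of Laurent series survives extension of the
    coefficient field (so linear dependence descends);
  * `finrank_le_of_adjoin`: upper bound when every element of the `K`-algebra generated by the
    generators has degree `≤ n` over `K(x)`.
-/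
import Mathlib
import Fermat.Prelude.Def_ModularCurve_LaurentCoeff

set_option autoImplicit false

open IntermediateField Polynomial

namespace Fermat.Agent.S24

namespace DegreeAlg

variable {K F : Type*} [Field K] [Field F] [Algebra K F]

/-- Two ring homomorphisms out of `F` agreeing on `K` and on `x` agree on `K(x)`. -/
theorem eq_on_adjoin_simple {Ω : Type*} [Field Ω] (σ τ : F →+* Ω) (x : F)
    (hK : ∀ c : K, σ (algebraMap K F c) = τ (algebraMap K F c)) (hx : σ x = τ x)
    (z : F) (hz : z ∈ K⟮x⟯) : σ z = τ z := by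
  have hle : (K⟮x⟯).toSubfield ≤ σ.eqLocusField τ := by
    show Subfield.closure _ ≤ _
    rw [Subfield.closure_le]
    rintro w (⟨c, rfl⟩ | hw)
    · exact hK c
    · rw [Set.mem_singleton_iff] at hw
      subst hw
      exact hx
  exact hle hz

end DegreeAlg

open DegreeAlg

variable {K F : Type*} [Field K] [Field F] [Algebra K F]

/-- **Lower bound for the degree.** Pairwise distinct ring embeddings of `F` into a field which
agree on `K` and on `x` are at most `[F : K(x)]` in number. -/
theorem card_le_finrank_of_embeddings (x : F) [FiniteDimensional K⟮x⟯ F]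
    {Ω : Type*} [Field Ω] {X : Type*} [Finite X] (Ψ : X → F →+* Ω) (hΨ : Function.Injective Ψ)
    (hK : ∀ (k l : X) (c : K), Ψ k (algebraMap K F c) = Ψ l (algebraMap K F c))
    (hx : ∀ k l : X, Ψ k x = Ψ l x) : Nat.card X ≤ Module.finrank K⟮x⟯ F := by
  rcases isEmpty_or_nonempty X with hX | ⟨⟨k₀⟩⟩
  · simp
  let _ : Algebra K⟮x⟯ Ω := ((Ψ k₀).comp (algebraMap K⟮x⟯ F)).toAlgebra
  let A : X → (F →ₐ[K⟮x⟯] Ω) := fun k =>
    { toRingHom := Ψ k
      commutes' := fun z =>
        eq_on_adjoin_simple (Ψ k) (Ψ k₀) x (hK k k₀) (hx k k₀) (z : F) z.2 }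
  have hA : Function.Injective A := by
    intro k l hkl
    apply hΨ
    ext f
    exact congrArg (fun a : F →ₐ[K⟮x⟯] Ω => a f) hkl
  calc Nat.card X ≤ Nat.card (F →ₐ[K⟮x⟯] Ω) := Nat.card_le_card_of_injective A hA
    _ ≤ Module.finrank K⟮x⟯ F := card_algHom_le_finrank _ _ _

/-- **Descent of linear dependence.** A family of Laurent series over `K` which is linearly
independent over `K` stays linearly independent over any extension `C` of `K` after extending the
coefficients. -/
theorem linearIndependent_coeffMap {K C : Type*} [Field K] [Field C] (φ : K →+* C) {ι : Type*}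
    (f : ι → LaurentSeries K) (h : LinearIndependent K f) :
    LinearIndependent C (fun i => ModularCurve.coeffMap φ (f i)) := by
  let _ : Algebra K C := φ.toAlgebra
  let b := Module.Free.chooseBasis K C
  rw [linearIndependent_iff'] at h ⊢
  intro s g hg i hi
  -- coordinates of the coefficients `g i` in a `K`-basis of `C`
  have key : ∀ β, ∑ j ∈ s, (b.repr (g j) β) • f j = 0 := by
    intro β
    ext z
    have hz := congrArg (fun F : LaurentSeries C => F.coeff z) hg
    simp only [HahnSeries.coeff_sum, HahnSeries.coeff_smul, ModularCurve.coeffMap_coeff,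
      HahnSeries.coeff_zero, smul_eq_mul] at hz
    have h2 := congrArg (fun c : C => b.repr c β) hz
    simp only [map_sum, Finsupp.coe_finsetSum, Finset.sum_apply, map_zero,
      Finsupp.coe_zero, Pi.zero_apply] at h2
    simp only [HahnSeries.coeff_sum, HahnSeries.coeff_smul, smul_eq_mul, HahnSeries.coeff_zero]
    rw [← h2]
    refine Finset.sum_congr rfl fun j _ => ?_
    have : g j * φ ((f j).coeff z) = ((f j).coeff z) • g j := by
      rw [Algebra.smul_def, mul_comm]
      rfl
    rw [this, map_smul, Finsupp.smul_apply, smul_eq_mul, mul_comm]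
  apply b.repr.injective
  ext β
  rw [map_zero, Finsupp.zero_apply]
  exact h s (fun j => b.repr (g j) β) (key β) i hi

/-- **Descent of linear dependence, explicit form** (no module instances involved: scalars act
through multiplication by constant series). -/
theorem exists_relation_of_coeffMap {K C : Type*} [Field K] [Field C] (φ : K →+* C) {ι : Type*}
    [Fintype ι] (f : ι → LaurentSeries K) (c : ι → C) (hc : c ≠ 0)
    (h : ∑ i, HahnSeries.C (c i) * ModularCurve.coeffMap φ (f i) = 0) :
    ∃ k : ι → K, k ≠ 0 ∧ ∑ i, HahnSeries.C (k i) * f i = 0 := by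
  by_contra hno
  push Not at hno
  have hli : LinearIndependent K f := by
    rw [Fintype.linearIndependent_iff]
    intro g hg
    by_contra hg0
    push Not at hg0
    have hg' : g ≠ 0 := by
      obtain ⟨i, hi⟩ := hg0
      exact fun h0 => hi (by rw [h0]; rfl)
    apply hno g hg'
    rw [← hg]
    exact Finset.sum_congr rfl fun i _ => HahnSeries.C_mul_eq_smul
  have hli' := linearIndependent_coeffMap φ f hli
  rw [Fintype.linearIndependent_iff] at hli'
  apply hc
  funext i
  refine hli' c ?_ i
  rw [← h]
  exact Finset.sum_congr rfl fun i _ => HahnSeries.C_mul_eq_smul.symm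

namespace DegreeAlg

/-- A nontrivial `K`-linear relation between the `x ^ i * θ ^ k` (`k ≤ n`) gives a nonzero
polynomial of degree `≤ n` over `K(x)` killing `θ`, when `x` is transcendental. -/
theorem exists_poly_of_not_linearIndependent {x : F} (hx : Transcendental K x) (θ : F) (n D : ℕ)
    (h : ¬ LinearIndependent K
      (fun ik : Fin (D + 1) × Fin (n + 1) => x ^ (ik.1 : ℕ) * θ ^ (ik.2 : ℕ))) :
    ∃ p : Polynomial K⟮x⟯, p ≠ 0 ∧ p.natDegree ≤ n ∧ Polynomial.aeval θ p = 0 := by
  rw [Fintype.linearIndependent_iff] at h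
  push Not at h
  obtain ⟨c, hc, ⟨i₀, k₀⟩, hne⟩ := h
  -- the coefficients `a k = ∑ i, c (i, k) x ^ i ∈ K(x)`
  let q : Fin (n + 1) → Polynomial K := fun k => ∑ i : Fin (D + 1), C (c (i, k)) * X ^ (i : ℕ)
  let a : Fin (n + 1) → K⟮x⟯ := fun k =>
    ⟨aeval x (q k), by
      rw [mem_adjoin_simple_iff]
      exact ⟨q k, 1, by simp⟩⟩
  have hq : q k₀ ≠ 0 := by
    intro h0
    apply hne
    have := congrArg (fun r : Polynomial K => r.coeff (i₀ : ℕ)) h0
    simp only [q, finsetSum_coeff, coeff_C_mul, coeff_X_pow, coeff_zero] at this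
    rw [Finset.sum_eq_single i₀] at this
    · simpa using this
    · intro i _ hi
      have : (i₀ : ℕ) ≠ (i : ℕ) := fun h => hi (Fin.ext h.symm)
      simp [this]
    · simp
  have ha : a k₀ ≠ 0 := by
    intro h0
    apply hq
    have h1 : aeval x (q k₀) = 0 := congrArg Subtype.val h0
    by_contra hq0
    exact hx ⟨q k₀, hq0, h1⟩
  let p : Polynomial K⟮x⟯ := ∑ k : Fin (n + 1), C (a k) * X ^ (k : ℕ)
  have hpcoeff : p.coeff (k₀ : ℕ) = a k₀ := by
    simp only [p, finsetSum_coeff, coeff_C_mul, coeff_X_pow]
    rw [Finset.sum_eq_single k₀]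
    · simp
    · intro k _ hk
      have : (k₀ : ℕ) ≠ (k : ℕ) := fun h => hk (Fin.ext h.symm)
      simp [this]
    · simp
  refine ⟨p, fun h0 => ha (by rw [← hpcoeff, h0, coeff_zero]), ?_, ?_⟩
  · refine natDegree_sum_le_of_forall_le _ _ fun k _ => ?_
    exact (natDegree_C_mul_X_pow_le _ _).trans (Nat.lt_succ_iff.mp k.2)
  · simp only [p, map_sum, map_mul, aeval_C, map_pow, aeval_X]
    rw [← hc, Fintype.sum_prod_type, Finset.sum_comm]
    refine Finset.sum_congr rfl fun k _ => ?_
    have : algebraMap K⟮x⟯ F (a k) = ∑ i : Fin (D + 1), algebraMap K F (c (i, k)) * x ^ (i : ℕ) := by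
      show aeval x (q k) = _
      simp [q]
    rw [this, Finset.sum_mul]
    refine Finset.sum_congr rfl fun i _ => ?_
    rw [Algebra.smul_def]
    ring

/-- In characteristic zero, an algebraic extension in which every element has degree `≤ n` is
finite of degree `≤ n` (primitive element theorem). -/
theorem finrank_le_of_forall_natDegree_le {L E : Type*} [Field L] [Field E] [Algebra L E]
    [CharZero L] (n : ℕ) (h : ∀ α : E, IsIntegral L α ∧ (minpoly L α).natDegree ≤ n) :
    FiniteDimensional L E ∧ Module.finrank L E ≤ n := by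
  have hrank : Module.rank L E ≤ n := by
    refine rank_le fun s hs => ?_
    let M : IntermediateField L E := IntermediateField.adjoin L (s : Set E)
    have hfin : FiniteDimensional L M := finiteDimensional_adjoin fun x _ => (h x).1
    obtain ⟨α, hα⟩ := Field.exists_primitive_element L M
    have hαint : IsIntegral L α := (isIntegral_algebraMap_iff (algebraMap M E).injective).mp (h α).1
    have h1 : Module.finrank L M = (minpoly L α).natDegree := by
      rw [← adjoin.finrank hαint, hα, IntermediateField.finrank_top']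
    have h2 : minpoly L α = minpoly L (α : E) :=
      (minpoly.algebraMap_eq (algebraMap M E).injective α).symm
    have h3 : Module.finrank L M ≤ n := by
      rw [h1, h2]
      exact (h α).2
    have hli : LinearIndependent L (fun i : s => (⟨i, subset_adjoin L _ i.2⟩ : M)) := by
      refine LinearIndependent.of_comp M.val.toLinearMap ?_
      exact hs
    have h4 := hli.fintype_card_le_finrank
    rw [Fintype.card_coe] at h4
    exact h4.trans h3
  have hfin : FiniteDimensional L E :=
    Module.rank_lt_aleph0_iff.mp (lt_of_le_of_lt hrank (Cardinal.natCast_lt_aleph0))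
  exact ⟨hfin, Module.finrank_le_of_rank_le hrank⟩

/-- If the field `F` is generated over `K` by `S ∋ x` and all elements of `S` are algebraic over
`K(x)`, then every element of `F` is a quotient `θ / r(x)` with `θ` in the `K`-algebra generated
by `S` and `r` a polynomial with `r(x) ≠ 0`. -/
theorem exists_mul_aeval_mem {x : F} (S : Set F) (hxS : x ∈ S)
    (hS : IntermediateField.adjoin K S = ⊤) (halg : ∀ s ∈ S, IsAlgebraic K⟮x⟯ s) (α : F) :
    ∃ θ ∈ Algebra.adjoin K S, ∃ r : Polynomial K, aeval x r ≠ 0 ∧ α * aeval x r = θ := by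
  have hxA : ∀ r : Polynomial K, aeval x r ∈ Algebra.adjoin K S := fun r =>
    Algebra.adjoin_mono (Set.singleton_subset_iff.mpr hxS) (aeval_mem_adjoin_singleton K x)
  have hle : IntermediateField.adjoin K S ≤
      (IntermediateField.adjoin K⟮x⟯ S).restrictScalars K :=
    IntermediateField.adjoin_le_iff.mpr fun s hs => subset_adjoin K⟮x⟯ S hs
  have hα : α ∈ IntermediateField.adjoin K⟮x⟯ S := hle (hS ▸ IntermediateField.mem_top)
  have hα' : α ∈ Algebra.adjoin K⟮x⟯ S := by
    rw [← adjoin_toSubalgebra_of_isAlgebraic halg]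
    exact hα
  have hα'' : α ∈ Submodule.span K⟮x⟯ (Submonoid.closure S : Set F) := by
    rw [← Algebra.adjoin_eq_span]
    exact hα'
  clear hα hα'
  induction hα'' using Submodule.span_induction with
  | mem m hm =>
      refine ⟨m, ?_, 1, by simp, by simp⟩
      have : Submonoid.closure S ≤ (Algebra.adjoin K S).toSubmonoid :=
        Submonoid.closure_le.mpr Algebra.subset_adjoin
      exact this hm
  | zero => exact ⟨0, zero_mem _, 1, by simp, by simp⟩
  | add a b _ _ iha ihb =>
      obtain ⟨θ1, h1, r1, hr1, e1⟩ := iha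
      obtain ⟨θ2, h2, r2, hr2, e2⟩ := ihb
      refine ⟨θ1 * aeval x r2 + θ2 * aeval x r1,
        add_mem (mul_mem h1 (hxA r2)) (mul_mem h2 (hxA r1)), r1 * r2, ?_, ?_⟩
      · rw [map_mul]
        exact mul_ne_zero hr1 hr2
      · rw [map_mul, ← e1, ← e2]
        ring
  | smul l a _ iha =>
      obtain ⟨θ, h1, r, hr, e⟩ := iha
      obtain ⟨u, w, huw⟩ := (mem_adjoin_simple_iff K (l : F)).mp l.2
      have hsmul : l • a = (l : F) * a := rfl
      by_cases hw : aeval x w = 0
      · refine ⟨0, zero_mem _, 1, by simp, ?_⟩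
        have hl : (l : F) = 0 := by rw [huw, hw, div_zero]
        rw [hsmul, hl]
        simp
      · refine ⟨aeval x u * θ, mul_mem (hxA u) h1, r * w, ?_, ?_⟩
        · rw [map_mul]
          exact mul_ne_zero hr hw
        · rw [hsmul, map_mul, ← e, huw]
          field_simp

/-- Under the hypotheses of `finrank_le_of_adjoin`, every element of `F` is integral of degree
`≤ n` over `K(x)`. -/
theorem natDegree_minpoly_le {x : F} (hx : Transcendental K x) (S : Set F) (hxS : x ∈ S)
    (hS : IntermediateField.adjoin K S = ⊤) (n : ℕ)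
    (hdeg : ∀ θ ∈ Algebra.adjoin K S, ∃ D : ℕ, ¬ LinearIndependent K
      (fun ik : Fin (D + 1) × Fin (n + 1) => x ^ (ik.1 : ℕ) * θ ^ (ik.2 : ℕ))) (α : F) :
    IsIntegral K⟮x⟯ α ∧ (minpoly K⟮x⟯ α).natDegree ≤ n := by
  have hpoly : ∀ θ ∈ Algebra.adjoin K S,
      ∃ p : Polynomial K⟮x⟯, p ≠ 0 ∧ p.natDegree ≤ n ∧ Polynomial.aeval θ p = 0 := fun θ hθ => by
    obtain ⟨D, hD⟩ := hdeg θ hθ
    exact exists_poly_of_not_linearIndependent hx θ n D hD
  have halg : ∀ s ∈ S, IsAlgebraic K⟮x⟯ s := fun s hs => by
    obtain ⟨p, hp0, -, hp⟩ := hpoly s (Algebra.subset_adjoin hs)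
    exact ⟨p, hp0, hp⟩
  obtain ⟨θ, hθ, r, hr, e⟩ := exists_mul_aeval_mem S hxS hS halg α
  obtain ⟨p, hp0, hpn, hp⟩ := hpoly θ hθ
  -- the element `ρ = r(x)` of `K(x)`
  let ρ : K⟮x⟯ := ⟨aeval x r, by
    rw [mem_adjoin_simple_iff]
    exact ⟨r, 1, by simp⟩⟩
  have hρ : ρ ≠ 0 := fun h0 => hr (congrArg Subtype.val h0)
  let p' : Polynomial K⟮x⟯ := p.comp (C ρ * X)
  have hq1 : (C ρ * X : Polynomial K⟮x⟯).natDegree = 1 := by
    rw [natDegree_C_mul_X _ hρ]
  have hp'0 : p' ≠ 0 := by
    intro h0
    rcases Polynomial.comp_eq_zero_iff.mp h0 with h1 | ⟨-, h2⟩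
    · exact hp0 h1
    · have := congrArg natDegree h2
      rw [hq1, natDegree_C] at this
      exact one_ne_zero this
  have hp'n : p'.natDegree ≤ n := by
    rw [natDegree_comp, hq1, mul_one]
    exact hpn
  have hp' : aeval α p' = 0 := by
    rw [aeval_comp]
    have : aeval α (C ρ * X : Polynomial K⟮x⟯) = θ := by
      rw [map_mul, aeval_C, aeval_X, ← e, mul_comm]
      rfl
    rw [this, hp]
  have halgα : IsAlgebraic K⟮x⟯ α := ⟨p', hp'0, hp'⟩
  have hint : IsIntegral K⟮x⟯ α := halgα.isIntegral
  refine ⟨hint, ?_⟩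
  exact (natDegree_le_natDegree (minpoly.degree_le_of_ne_zero K⟮x⟯ α hp'0 hp')).trans hp'n

end DegreeAlg

/-- **Upper bound for the degree.** Let `F` be generated as a field over `K` by a set `S`
containing the transcendental element `x`.  If for every `θ` in the `K`-algebra generated by `S`
the elements `x ^ i * θ ^ k` (`i ≤ D`, `k ≤ n`) are `K`-linearly dependent for some `D`, then
`F` is finite over `K(x)` of degree at most `n`. -/
theorem finrank_le_of_adjoin [CharZero K] {x : F} (hx : Transcendental K x) (S : Set F)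
    (hxS : x ∈ S) (hS : IntermediateField.adjoin K S = ⊤) (n : ℕ)
    (hdeg : ∀ θ ∈ Algebra.adjoin K S, ∃ D : ℕ, ¬ LinearIndependent K
      (fun ik : Fin (D + 1) × Fin (n + 1) => x ^ (ik.1 : ℕ) * θ ^ (ik.2 : ℕ))) :
    FiniteDimensional K⟮x⟯ F ∧ Module.finrank K⟮x⟯ F ≤ n :=
  DegreeAlg.finrank_le_of_forall_natDegree_le n
    (DegreeAlg.natDegree_minpoly_le hx S hxS hS n hdeg)

end Fermat.Agent.S24
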