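import Mathlib.NumberTheory.ModularForms.QExpansion
import Mathlib.NumberTheory.ModularForms.CongruenceSubgroups

/-!
# S24, package B2d: translates of the `j`-function

Everything is stated for an abstract function `j : ℍ → ℂ` satisfying `IsJLike j`
(holomorphic, `SL(2,ℤ)`-invariant, `j z * exp (2πiz) → 1` at `i∞`).

For `d ≥ 1` and `γ ∈ SL(2,ℤ)` we study `z ↦ j (natDil d (γ • z))` ("`j(d·γz)`"):
Hermite form, `Γ₀(N)`-invariance, holomorphy, `N`-periodicity, growth, and the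
stabiliser lemma.
-/

set_option autoImplicit false

namespace Fermat.Agent.S24

open UpperHalfPlane Filter Asymptotics Matrix Matrix.SpecialLinearGroup Complex
open scoped MatrixGroups ModularForm Real Manifold Topology

/-- Multiplication by a natural number on the upper half plane (junk for `d = 0`). -/
noncomputable def natDil (d : ℕ) (z : ℍ) : ℍ := ofComplex ((d : ℂ) * z)

theorem Translates.natDil_im_pos {d : ℕ} (hd : 0 < d) (z : ℍ) : 0 < ((d : ℂ) * (z : ℂ)).im := by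
  have h1 : ((d : ℂ) * (z : ℂ)).im = d * z.im := by
    simp
  rw [h1]
  have : (0 : ℝ) < d := by exact_mod_cast hd
  exact mul_pos this z.im_pos

theorem coe_natDil {d : ℕ} (hd : 0 < d) (z : ℍ) : (natDil d z : ℂ) = (d : ℂ) * z := by
  rw [natDil, ofComplex_apply_of_im_pos (Translates.natDil_im_pos hd z)]

theorem im_natDil {d : ℕ} (hd : 0 < d) (z : ℍ) : (natDil d z).im = d * z.im := by
  have h := congrArg Complex.im (coe_natDil hd z)
  simpa using h

/-- The properties of the `j`-function used in this file. -/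
structure IsJLike (j : ℍ → ℂ) : Prop where
  mdiff : MDiff j
  inv : ∀ (γ : SL(2, ℤ)) (z : ℍ), j (γ • z) = j z
  tendsto : Tendsto (fun z : ℍ => j z * cexp (2 * π * Complex.I * z)) atImInfty (𝓝 1)

namespace IsJLike

variable {j : ℍ → ℂ}

theorem vadd_int (hj : IsJLike j) (n : ℤ) (z : ℍ) : j ((n : ℝ) +ᵥ z) = j z := by
  rw [← modular_T_zpow_smul, hj.inv]

theorem vadd_one (hj : IsJLike j) (z : ℍ) : j ((1 : ℝ) +ᵥ z) = j z := by
  simpa using hj.vadd_int 1 z

end IsJLike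

/-- A function on `ℍ` invariant under `z ↦ h +ᵥ z` gives an `h`-periodic function on `ℂ`. -/
theorem Translates.periodic_comp_ofComplex_of_vadd {f : ℍ → ℂ} {h : ℝ} (hf : ∀ z : ℍ, f (h +ᵥ z) = f z) :
    Function.Periodic (f ∘ ofComplex) h := by
  intro w
  by_cases hw : 0 < im w
  · have hw' : 0 < im (w + h) := by simpa using hw
    simp only [Function.comp_apply, ofComplex_apply_of_im_pos hw', ofComplex_apply_of_im_pos hw]
    rw [← hf ⟨w, hw⟩]
    congr 1
    ext
    simp [add_comm]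
  · have hw1 : im w ≤ 0 := not_lt.mp hw
    have hw' : im (w + h) ≤ 0 := by simpa using hw1
    simp [ofComplex_apply_of_im_nonpos hw', ofComplex_apply_of_im_nonpos hw1]

namespace IsJLike

variable {j : ℍ → ℂ}

/-- The auxiliary bounded function `z ↦ j z * exp (2πiz)`. -/
noncomputable def aux (j : ℍ → ℂ) : ℍ → ℂ := fun z => j z * cexp (2 * π * Complex.I * z)

theorem aux_mdiff (hj : IsJLike j) : MDiff (aux j) := by
  have h1 : MDiff (fun z : ℍ => cexp (2 * π * Complex.I * z)) := by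
    rw [UpperHalfPlane.mdifferentiable_iff]
    have h2 : DifferentiableOn ℂ (fun w : ℂ => cexp (2 * π * Complex.I * w)) {z | 0 < z.im} :=
      (Complex.differentiable_exp.comp (differentiable_id.const_mul _)).differentiableOn
    refine h2.congr fun w hw => ?_
    simp only [Function.comp_apply, ofComplex_apply_of_im_pos hw]
  exact hj.mdiff.mul h1

theorem aux_periodic (hj : IsJLike j) : Function.Periodic (aux j ∘ ofComplex) (1 : ℝ) := by
  apply Translates.periodic_comp_ofComplex_of_vadd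
  intro z
  simp only [aux]
  rw [hj.vadd_one, coe_vadd]
  congr 1
  have : (2 * π * Complex.I * ((1 : ℝ) + (z : ℂ)) : ℂ) = 2 * π * Complex.I * z + 2 * π * Complex.I := by
    push_cast; ring
  rw [this, Complex.exp_add, Complex.exp_two_pi_mul_I, mul_one]

theorem aux_bounded (hj : IsJLike j) : IsBoundedAtImInfty (aux j) := by
  have h := hj.tendsto
  exact h.isBigO_one ℝ

theorem norm_exp_two_pi_I (z : ℍ) : ‖cexp (2 * π * Complex.I * z)‖ = Real.exp (-(2 * π * z.im)) := by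
  rw [Complex.norm_exp]
  congr 1
  simp

theorem norm_eq_aux (z : ℍ) : ‖j z‖ = ‖aux j z‖ * Real.exp (2 * π * z.im) := by
  simp only [aux]
  rw [norm_mul, norm_exp_two_pi_I, mul_assoc, ← Real.exp_add]
  simp

/-- `‖j z‖ ≤ C * exp (2π Im z)` on every half plane `ε ≤ Im z`. -/
theorem exists_norm_le (hj : IsJLike j) {ε : ℝ} (hε : 0 < ε) :
    ∃ C : ℝ, 0 ≤ C ∧ ∀ z : ℍ, ε ≤ z.im → ‖j z‖ ≤ C * Real.exp (2 * π * z.im) := by
  set G := cuspFunction 1 (aux j) with hG
  have hGdiff : DifferentiableOn ℂ G (Metric.ball 0 1) :=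
    differentiableOn_cuspFunction_ball one_pos (by simpa using hj.aux_periodic) hj.aux_mdiff
      hj.aux_bounded
  set r := Real.exp (-2 * π * ε / 1) with hr
  have hr1 : r < 1 := by
    rw [hr, Real.exp_lt_one_iff]
    have : 0 < 2 * π * ε := by positivity
    have h2 : -2 * π * ε / 1 = -(2 * π * ε) := by ring
    rw [h2]; linarith
  have hcont : ContinuousOn G (Metric.closedBall 0 r) :=
    hGdiff.continuousOn.mono (Metric.closedBall_subset_ball hr1)
  obtain ⟨C, hC⟩ := (isCompact_closedBall (0 : ℂ) r).exists_bound_of_continuousOn hcont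
  refine ⟨max C 0, le_max_right _ _, fun z hz => ?_⟩
  have hq : ‖Function.Periodic.qParam 1 z‖ ≤ r := by
    rw [Function.Periodic.norm_qParam, hr, Real.exp_le_exp]
    have : 2 * π * ε ≤ 2 * π * z.im := by gcongr
    have e1 : -2 * π * ε / 1 = -(2 * π * ε) := by ring
    have e2 : -2 * π * (z : ℂ).im / 1 = -(2 * π * z.im) := by
      have : (z : ℂ).im = z.im := rfl
      rw [this]; ring
    rw [e1, e2]; linarith
  have hval : G (Function.Periodic.qParam 1 z) = aux j z :=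
    eq_cuspFunction z one_ne_zero (by simpa using hj.aux_periodic)
  have h1 : ‖aux j z‖ ≤ C := by
    rw [← hval]
    exact hC _ (by simpa [Metric.mem_closedBall, dist_zero_right] using hq)
  rw [norm_eq_aux]
  exact mul_le_mul_of_nonneg_right (h1.trans (le_max_left _ _)) (Real.exp_pos _).le

/-- Two-sided bound for `‖j z‖` near `i∞`. -/
theorem exists_bounds (hj : IsJLike j) :
    ∃ A : ℝ, ∀ z : ℍ, A ≤ z.im →
      Real.exp (2 * π * z.im) / 2 ≤ ‖j z‖ ∧ ‖j z‖ ≤ 2 * Real.exp (2 * π * z.im) := by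
  have h := hj.tendsto
  have h1 : ∀ᶠ z in atImInfty, ‖aux j z - 1‖ < 1 / 2 := by
    have := (Metric.tendsto_nhds.mp h) (1 / 2) (by norm_num)
    simpa [dist_eq_norm, aux] using this
  obtain ⟨A, hA⟩ := (atImInfty_mem _).mp h1
  refine ⟨A, fun z hz => ?_⟩
  have h2 : ‖aux j z - 1‖ < 1 / 2 := hA z hz
  have h3 : ‖aux j z‖ ≤ 2 := by
    have := norm_add_le (aux j z - 1) 1
    simp only [sub_add_cancel, norm_one] at this
    linarith
  have h4 : 1 / 2 ≤ ‖aux j z‖ := by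
    have := norm_sub_norm_le (1 : ℂ) (1 - aux j z)
    simp only [sub_sub_cancel, norm_one] at this
    have h5 : ‖1 - aux j z‖ = ‖aux j z - 1‖ := norm_sub_rev _ _
    linarith
  rw [norm_eq_aux]
  have hpos := Real.exp_pos (2 * π * z.im)
  constructor
  · nlinarith
  · nlinarith

end IsJLike

/-- Explicit formula for the action of `SL(2,ℤ)` on `ℍ`. -/
theorem Translates.coe_SL2Z_smul (g : SL(2, ℤ)) (z : ℍ) :
    ((g • z : ℍ) : ℂ) = ((g 0 0 : ℂ) * z + (g 0 1 : ℂ)) / ((g 1 0 : ℂ) * z + (g 1 1 : ℂ)) := by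
  rw [coe_specialLinearGroup_apply]
  simp

theorem Translates.SL2Z_denom_ne_zero (g : SL(2, ℤ)) (z : ℍ) : ((g 1 0 : ℂ) * z + (g 1 1 : ℂ)) ≠ 0 := by
  have h := UpperHalfPlane.denom_ne_zero (g : GL (Fin 2) ℝ) z
  simpa [UpperHalfPlane.denom] using h

theorem Translates.SL2Z_det (g : SL(2, ℤ)) : g 0 0 * g 1 1 - g 0 1 * g 1 0 = 1 := by
  have h := g.det_coe
  rw [Matrix.det_fin_two] at h
  exact h

/-- **Hermite form**: `d·γz = γ'·((az + b)/e)` with integers `a, e > 0`, `a e = d`. -/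
theorem exists_hermite {d : ℕ} (hd : 0 < d) (γ : SL(2, ℤ)) :
    ∃ (γ' : SL(2, ℤ)) (a b e : ℤ), 0 < a ∧ 0 < e ∧ a * e = d ∧ γ 1 0 = γ' 1 0 * a ∧
      ∀ z : ℍ, ∃ w : ℍ, (w : ℂ) = ((a : ℂ) * z + b) / e ∧ natDil d (γ • z) = γ' • w := by
  have hdet := Translates.SL2Z_det γ
  set α := γ 0 0 with hα
  set β := γ 0 1 with hβ
  set c := γ 1 0 with hc
  set δ := γ 1 1 with hδ
  have hne : (d : ℤ) * α ≠ 0 ∨ c ≠ 0 := by
    by_contra hcon
    rw [not_or, not_not, not_not] at hcon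
    obtain ⟨h1, h2⟩ := hcon
    have hd' : (d : ℤ) ≠ 0 := by exact_mod_cast hd.ne'
    have h3 : α = 0 := by
      rcases mul_eq_zero.mp h1 with h | h
      · exact absurd h hd'
      · exact h
    rw [h3, h2] at hdet
    simp at hdet
  set g : ℤ := (Int.gcd ((d : ℤ) * α) c : ℤ) with hg
  have hgpos : 0 < g := by
    rw [hg]
    have : 0 < Int.gcd ((d : ℤ) * α) c := Int.gcd_pos_iff.mpr hne
    exact_mod_cast this
  obtain ⟨p, hp⟩ : g ∣ (d : ℤ) * α := Int.gcd_dvd_left _ _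
  obtain ⟨r, hr⟩ : g ∣ c := Int.gcd_dvd_right _ _
  have hcop : IsCoprime p r := by
    have h1 : IsCoprime (((d : ℤ) * α) / g) (c / g) := by
      rw [Int.isCoprime_iff_gcd_eq_one]
      exact Int.gcd_div_gcd_div_gcd (Int.gcd_pos_iff.mpr hne)
    have h2 : ((d : ℤ) * α) / g = p := by
      rw [hp]; exact Int.mul_ediv_cancel_left _ hgpos.ne'
    have h3 : c / g = r := by
      rw [hr]; exact Int.mul_ediv_cancel_left _ hgpos.ne'
    rwa [h2, h3] at h1
  obtain ⟨γ', hγ0, hγ1⟩ := hcop.exists_SL2_col 0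
  have hdet' := Translates.SL2Z_det γ'
  set q := γ' 0 1 with hq
  set s := γ' 1 1 with hs
  rw [hγ0, hγ1] at hdet'
  set b : ℤ := s * (d * β) - q * δ with hb
  set e : ℤ := -r * (d * β) + p * δ with he
  have hge : g * e = d := by
    rw [he]
    have h1 : g * (-r * (d * β) + p * δ) = -(g * r) * (d * β) + (g * p) * δ := by ring
    rw [h1, ← hp, ← hr]
    have h2 : -c * (d * β) + d * α * δ = d * (α * δ - β * c) := by ring
    rw [h2, hdet, mul_one]
  have hepos : 0 < e := by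
    have hdpos : (0 : ℤ) < d := by exact_mod_cast hd
    rw [← hge] at hdpos
    exact (pos_iff_pos_of_mul_pos hdpos).mp hgpos
  refine ⟨γ', g, b, e, hgpos, hepos, hge, ?_, fun z => ?_⟩
  · rw [hγ1, hr, mul_comm]
  · have hgR : (0 : ℝ) < g := by exact_mod_cast hgpos
    have heR : (0 : ℝ) < e := by exact_mod_cast hepos
    have heC : (e : ℂ) ≠ 0 := by exact_mod_cast hepos.ne'
    have him : 0 < (((g : ℂ) * z + b) / e).im := by
      have h1 : (((g : ℂ) * z + b) / e).im = g * z.im / e := by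
        have h2 : ((g : ℂ) * z + b) / e = (((g : ℝ) / e : ℝ) : ℂ) * z + ((b : ℝ) / e : ℝ) := by
          push_cast; field_simp
        rw [h2]
        simp
        ring
      rw [h1]
      exact div_pos (mul_pos hgR z.im_pos) heR
    refine ⟨⟨((g : ℂ) * z + b) / e, him⟩, rfl, ?_⟩
    apply UpperHalfPlane.ext
    rw [coe_natDil hd, Translates.coe_SL2Z_smul, Translates.coe_SL2Z_smul]
    show (d : ℂ) * (((α : ℂ) * z + β) / ((c : ℂ) * z + δ)) =
      ((γ' 0 0 : ℂ) * (((g : ℂ) * z + b) / e) + (q : ℂ)) /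
        ((γ' 1 0 : ℂ) * (((g : ℂ) * z + b) / e) + (s : ℂ))
    rw [hγ0, hγ1]
    have hden : ((c : ℂ) * z + δ) ≠ 0 := Translates.SL2Z_denom_ne_zero γ z
    have e1 : (p : ℂ) * (((g : ℂ) * z + b) / e) + (q : ℂ) = ((d : ℂ) * ((α : ℂ) * z + β)) / e := by
      field_simp
      have hpC : ((g : ℂ)) * p = d * α := by exact_mod_cast hp.symm
      have hbC : (b : ℂ) = s * (d * β) - q * δ := by rw [hb]; push_cast; ring
      have heC' : (e : ℂ) = -r * (d * β) + p * δ := by rw [he]; push_cast; ring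
      have hdetC : (p : ℂ) * s - q * r = 1 := by exact_mod_cast hdet'
      rw [hbC, heC']
      linear_combination (z : ℂ) * hpC + (d : ℂ) * β * hdetC
    have e2 : (r : ℂ) * (((g : ℂ) * z + b) / e) + (s : ℂ) = ((c : ℂ) * z + δ) / e := by
      field_simp
      have hrC : ((g : ℂ)) * r = c := by exact_mod_cast hr.symm
      have hbC : (b : ℂ) = s * (d * β) - q * δ := by rw [hb]; push_cast; ring
      have heC' : (e : ℂ) = -r * (d * β) + p * δ := by rw [he]; push_cast; ring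
      have hdetC : (p : ℂ) * s - q * r = 1 := by exact_mod_cast hdet'
      rw [hbC, heC']
      linear_combination (z : ℂ) * hrC + (δ : ℂ) * hdetC
    rw [e1, e2]
    field_simp

/-- `z ↦ d z` commutes with `Γ₀(N)` up to `SL(2,ℤ)`, for `d ∣ N`. -/
theorem exists_natDil_smul_eq {N d : ℕ} (hd : 0 < d) (hdN : d ∣ N) {δ : SL(2, ℤ)}
    (hδ : δ ∈ CongruenceSubgroup.Gamma0 N) :
    ∃ δ' : SL(2, ℤ), ∀ z : ℍ, natDil d (δ • z) = δ' • natDil d z := by
  have h1 : (N : ℤ) ∣ δ 1 0 := by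
    rw [CongruenceSubgroup.Gamma0_mem] at hδ
    exact (ZMod.intCast_zmod_eq_zero_iff_dvd _ _).mp hδ
  have h2 : (d : ℤ) ∣ δ 1 0 := (Int.natCast_dvd_natCast.mpr hdN).trans h1
  obtain ⟨c', hc'⟩ := h2
  have hdet := Translates.SL2Z_det δ
  obtain ⟨δ', h00, h01, h10, h11⟩ : ∃ δ' : SL(2, ℤ), δ' 0 0 = δ 0 0 ∧ δ' 0 1 = d * δ 0 1 ∧
      δ' 1 0 = c' ∧ δ' 1 1 = δ 1 1 := by
    refine ⟨⟨!![δ 0 0, d * δ 0 1; c', δ 1 1], ?_⟩, rfl, rfl, rfl, rfl⟩
    rw [Matrix.det_fin_two_of]
    rw [hc'] at hdet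
    linear_combination hdet
  refine ⟨δ', fun z => ?_⟩
  apply UpperHalfPlane.ext
  rw [coe_natDil hd, Translates.coe_SL2Z_smul, Translates.coe_SL2Z_smul, coe_natDil hd, h00, h01, h10, h11]
  have hden : ((δ 1 0 : ℂ) * z + (δ 1 1 : ℂ)) ≠ 0 := Translates.SL2Z_denom_ne_zero δ z
  have hc'C : (δ 1 0 : ℂ) = (d : ℂ) * c' := by exact_mod_cast hc'
  have hden' : ((c' : ℂ) * ((d : ℂ) * z) + (δ 1 1 : ℂ)) ≠ 0 := by
    have : (c' : ℂ) * ((d : ℂ) * z) + (δ 1 1 : ℂ) = (δ 1 0 : ℂ) * z + (δ 1 1 : ℂ) := by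
      rw [hc'C]; ring
    rw [this]; exact hden
  rw [hc'C] at hden ⊢
  push_cast
  field_simp

namespace IsJLike

variable {j : ℍ → ℂ}

/-- (T2) `Γ₀(N)`-invariance of `z ↦ j (d z)` for `d ∣ N`. -/
theorem natDil_Gamma0_smul (hj : IsJLike j) {N d : ℕ} (hd : 0 < d) (hdN : d ∣ N) {δ : SL(2, ℤ)}
    (hδ : δ ∈ CongruenceSubgroup.Gamma0 N) (z : ℍ) :
    j (natDil d (δ • z)) = j (natDil d z) := by
  obtain ⟨δ', hδ'⟩ := exists_natDil_smul_eq hd hdN hδ
  rw [hδ', hj.inv]

end IsJLike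

/-- The matrix `diag(d, 1)` in `GL(2, ℝ)`. -/
noncomputable def Translates.glDil (d : ℕ) (hd : 0 < d) : GL (Fin 2) ℝ :=
  Matrix.GeneralLinearGroup.mkOfDetNeZero !![(d : ℝ), 0; 0, 1] (by
    rw [Matrix.det_fin_two_of]
    have : (d : ℝ) ≠ 0 := by exact_mod_cast hd.ne'
    simpa using this)

theorem Translates.glDil_det_pos (d : ℕ) (hd : 0 < d) : 0 < (Translates.glDil d hd).det.val := by
  have h : (Translates.glDil d hd).det.val = (d : ℝ) := by
    rw [Matrix.GeneralLinearGroup.val_det_apply]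
    show Matrix.det !![(d : ℝ), 0; 0, 1] = d
    rw [Matrix.det_fin_two_of]; ring
  rw [h]
  exact_mod_cast hd

theorem Translates.natDil_eq_glDil_smul {d : ℕ} (hd : 0 < d) (z : ℍ) : natDil d z = Translates.glDil d hd • z := by
  apply UpperHalfPlane.ext
  rw [coe_natDil hd, coe_smul_of_det_pos (Translates.glDil_det_pos d hd)]
  simp [UpperHalfPlane.num, UpperHalfPlane.denom, Translates.glDil]

theorem mdiff_comp_natDil_smul {d : ℕ} (hd : 0 < d) (γ : SL(2, ℤ)) {f : ℍ → ℂ} (hf : MDiff f) :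
    MDiff (fun z : ℍ => f (natDil d (γ • z))) := by
  have h1 : MDiff (fun z : ℍ => Translates.glDil d hd • z) := mdifferentiable_smul (Translates.glDil_det_pos d hd)
  have h2 : MDiff (fun z : ℍ => (γ : GL (Fin 2) ℝ) • z) := mdifferentiable_smul (by simp)
  have h3 : (fun z : ℍ => f (natDil d (γ • z))) =
      f ∘ (fun z : ℍ => Translates.glDil d hd • z) ∘ (fun z : ℍ => (γ : GL (Fin 2) ℝ) • z) := by
    funext z
    simp only [Function.comp_apply]
    rw [Translates.natDil_eq_glDil_smul hd]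
    rfl
  rw [h3]
  exact hf.comp (h1.comp h2)

/-- `γ T^N γ⁻¹ ∈ Γ₀(N)` for every `γ ∈ SL(2,ℤ)`. -/
theorem Translates.conj_T_zpow_mem_Gamma0 (N : ℕ) (g : SL(2, ℤ)) :
    g * ModularGroup.T ^ (N : ℤ) * g⁻¹ ∈ CongruenceSubgroup.Gamma0 N := by
  rw [CongruenceSubgroup.Gamma0_mem]
  have h1 : (g * ModularGroup.T ^ (N : ℤ) * g⁻¹).1 =
      g.1 * !![1, (N : ℤ); 0, 1] * !![g.1 1 1, -g.1 0 1; -g.1 1 0, g.1 0 0] := by
    have h2 : (g * ModularGroup.T ^ (N : ℤ) * g⁻¹).1 =
      g.1 * (ModularGroup.T ^ (N : ℤ)).1 * (g⁻¹).1 := rfl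
    rw [h2, ModularGroup.coe_T_zpow]
    congr 1
    exact Matrix.adjugate_fin_two g.1
  have h : (g * ModularGroup.T ^ (N : ℤ) * g⁻¹).1 1 0 = -(g.1 1 0) ^ 2 * N := by
    rw [h1]
    simp [Matrix.mul_apply, Fin.sum_univ_two]
    ring
  show (((g * ModularGroup.T ^ (N : ℤ) * g⁻¹).1 1 0 : ℤ) : ZMod N) = 0
  rw [h]
  simp

namespace IsJLike

variable {j : ℍ → ℂ}

/-- (T3) holomorphy of the translates. -/
theorem mdiff_natDil_smul (hj : IsJLike j) {d : ℕ} (hd : 0 < d) (γ : SL(2, ℤ)) :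
    MDiff (fun z : ℍ => j (natDil d (γ • z))) :=
  mdiff_comp_natDil_smul hd γ hj.mdiff

/-- (T4) `N`-periodicity of the translates, for `d ∣ N`. -/
theorem natDil_smul_vadd (hj : IsJLike j) {N d : ℕ} (hd : 0 < d) (hdN : d ∣ N) (γ : SL(2, ℤ))
    (z : ℍ) : j (natDil d (γ • ((N : ℝ) +ᵥ z))) = j (natDil d (γ • z)) := by
  have h1 : ((N : ℝ) +ᵥ z) = ModularGroup.T ^ (N : ℤ) • z := by
    rw [modular_T_zpow_smul]; simp
  have h2 : γ • (ModularGroup.T ^ (N : ℤ) • z) =
      (γ * ModularGroup.T ^ (N : ℤ) * γ⁻¹) • (γ • z) := by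
    rw [← mul_smul, ← mul_smul]
    congr 1
    group
  rw [h1, h2, hj.natDil_Gamma0_smul hd hdN (Translates.conj_T_zpow_mem_Gamma0 N γ)]

theorem periodic_natDil_smul (hj : IsJLike j) {N d : ℕ} (hd : 0 < d) (hdN : d ∣ N)
    (γ : SL(2, ℤ)) :
    Function.Periodic ((fun z : ℍ => j (natDil d (γ • z))) ∘ ofComplex) (N : ℝ) :=
  Translates.periodic_comp_ofComplex_of_vadd (fun z => hj.natDil_smul_vadd hd hdN γ z)

end IsJLike

theorem Translates.im_of_coe_eq {a b e : ℤ} (he : 0 < e) {z w : ℍ}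
    (hw : (w : ℂ) = ((a : ℂ) * z + b) / e) : w.im = a * z.im / e := by
  have heR : (e : ℝ) ≠ 0 := by exact_mod_cast he.ne'
  have h2 : ((a : ℂ) * z + b) / e = (((a : ℝ) / e : ℝ) : ℂ) * z + ((b : ℝ) / e : ℝ) := by
    push_cast; field_simp
  have h3 : w.im = (w : ℂ).im := rfl
  rw [h3, hw, h2]
  simp
  ring

namespace IsJLike

variable {j : ℍ → ℂ}

/-- (T5) growth of the translates: `‖j (d γ z)‖ ≤ C exp (2π d Im z)` on `c ≤ Im z`. -/
theorem exists_norm_natDil_smul_le (hj : IsJLike j) {d : ℕ} (hd : 0 < d) (γ : SL(2, ℤ))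
    {c : ℝ} (hc : 0 < c) :
    ∃ C : ℝ, 0 ≤ C ∧ ∀ z : ℍ, c ≤ z.im →
      ‖j (natDil d (γ • z))‖ ≤ C * Real.exp (2 * π * d * z.im) := by
  obtain ⟨γ', a, b, e, ha, he, hae, -, hw⟩ := exists_hermite hd γ
  have hdR : (0 : ℝ) < d := by exact_mod_cast hd
  obtain ⟨C, hC0, hC⟩ := hj.exists_norm_le (ε := c / d) (div_pos hc hdR)
  refine ⟨C, hC0, fun z hz => ?_⟩
  obtain ⟨w, hwc, hweq⟩ := hw z
  rw [hweq, hj.inv]
  have him : w.im = a * z.im / e := Translates.im_of_coe_eq he hwc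
  have haR : (1 : ℝ) ≤ a := by exact_mod_cast ha
  have heR : (1 : ℝ) ≤ e := by exact_mod_cast he
  have haeR : (a : ℝ) * e = d := by exact_mod_cast hae
  have hzpos : 0 < z.im := z.im_pos
  have hepos : (0 : ℝ) < e := by linarith
  have hapos : (0 : ℝ) < a := by linarith
  have had : (a : ℝ) ≤ d := by nlinarith
  have hed : (e : ℝ) ≤ d := by nlinarith
  have h1 : c / d ≤ w.im := by
    rw [him, div_le_div_iff₀ hdR hepos]
    nlinarith [mul_pos hapos hzpos, mul_le_mul hz had hapos.le (by linarith : (0:ℝ) ≤ z.im)]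
  have h2 : w.im ≤ d * z.im := by
    rw [him, div_le_iff₀ hepos]
    nlinarith [mul_pos hdR hzpos]
  refine (hC w h1).trans ?_
  apply mul_le_mul_of_nonneg_left _ hC0
  rw [Real.exp_le_exp]
  have h2π : 0 < 2 * π := by positivity
  nlinarith

/-- (T5') the translates are `O(exp (2π d Im z))` at `i∞`. -/
theorem isBigO_natDil_smul (hj : IsJLike j) {d : ℕ} (hd : 0 < d) (γ : SL(2, ℤ)) :
    (fun z : ℍ => j (natDil d (γ • z))) =O[atImInfty]
      fun z : ℍ => Real.exp (2 * π * d * z.im) := by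
  obtain ⟨C, -, hC⟩ := hj.exists_norm_natDil_smul_le hd γ one_pos
  refine Asymptotics.IsBigO.of_bound C ?_
  rw [Filter.Eventually, atImInfty_mem]
  refine ⟨1, fun z hz => ?_⟩
  have := hC z hz
  simpa [abs_of_pos (Real.exp_pos _)] using this

/-- (T6) **stabiliser lemma**: if `j (N γ z) = j (N z)` for all `z` then `γ ∈ Γ₀(N)`. -/
theorem mem_Gamma0_of_natDil_smul_eq (hj : IsJLike j) {N : ℕ} (hN : 0 < N) {γ : SL(2, ℤ)}
    (h : ∀ z : ℍ, j (natDil N (γ • z)) = j (natDil N z)) :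
    γ ∈ CongruenceSubgroup.Gamma0 N := by
  obtain ⟨γ', a, b, e, ha, he, hae, hγ, hw⟩ := exists_hermite hN γ
  obtain ⟨A, hA⟩ := hj.exists_bounds
  have haR : (1 : ℝ) ≤ a := by exact_mod_cast ha
  have heR : (1 : ℝ) ≤ e := by exact_mod_cast he
  have haeR : (a : ℝ) * e = N := by exact_mod_cast hae
  have hNR : (1 : ℝ) ≤ N := by exact_mod_cast hN
  have hepos : (0 : ℝ) < e := by linarith
  have he1 : e = 1 := by
    by_contra hne
    have he2 : (2 : ℝ) ≤ e := by
      have : (2 : ℤ) ≤ e := by omega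
      exact_mod_cast this
    set A' := max A 0 with hA'
    have hA'0 : 0 ≤ A' := le_max_right _ _
    have hAA' : A ≤ A' := le_max_left _ _
    set t : ℝ := 1 + A' * e with ht
    have ht1 : 1 ≤ t := by
      rw [ht]; nlinarith
    have htpos : 0 < t := by linarith
    let z : ℍ := ⟨Complex.I * t, by simpa using htpos⟩
    have hzim : z.im = t := by
      show (Complex.I * t).im = t
      simp
    obtain ⟨w, hwc, hweq⟩ := hw z
    have him : w.im = a * t / e := by rw [Translates.im_of_coe_eq he hwc, hzim]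
    have h1 : A ≤ w.im := by
      rw [him, le_div_iff₀ hepos]
      have : A * e ≤ A' * e := mul_le_mul_of_nonneg_right hAA' hepos.le
      nlinarith
    have h2 : A ≤ (natDil N z).im := by
      rw [im_natDil hN, hzim]
      nlinarith
    have h3 := (hA w h1).2
    have h4 := (hA (natDil N z) h2).1
    have h5 : j (natDil N z) = j w := by
      rw [← h z, hweq, hj.inv]
    rw [h5] at h4
    rw [im_natDil hN, hzim] at h4
    rw [him] at h3
    -- `exp (2π N t) / 2 ≤ 2 exp (2π a t / e)`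
    have h6 : Real.exp (2 * π * (N * t)) ≤ 4 * Real.exp (2 * π * (a * t / e)) := by linarith
    have h7 : (a : ℝ) * t / e ≤ N * t / 4 := by
      rw [div_le_div_iff₀ hepos (by norm_num)]
      have : (a : ℝ) * 4 ≤ N * e := by nlinarith
      nlinarith
    have h8 : Real.exp (2 * π * (N * t) - 2 * π * (a * t / e)) ≤ 4 := by
      rw [Real.exp_sub, div_le_iff₀ (Real.exp_pos _)]
      exact h6
    have h9 : (3 : ℝ) ≤ 2 * π * (N * t) - 2 * π * (a * t / e) := by
      have hπ : (2 : ℝ) ≤ π := Real.two_le_pi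
      have hNt : (1 : ℝ) ≤ N * t := by nlinarith
      have : 2 * π * (N * t) - 2 * π * (a * t / e) ≥ 2 * π * (N * t) - 2 * π * (N * t / 4) := by
        have h2π : 0 < 2 * π := by positivity
        nlinarith
      nlinarith
    have h10 : (4 : ℝ) < Real.exp (2 * π * (N * t) - 2 * π * (a * t / e)) :=
      (by linarith : (4 : ℝ) ≤ (2 * π * (N * t) - 2 * π * (a * t / e)) + 1).trans_lt
        (Real.add_one_lt_exp (by linarith))
    linarith
  rw [he1, mul_one] at hae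
  rw [CongruenceSubgroup.Gamma0_mem, hγ, hae]
  simp

/-- (T6') the translates `z ↦ j (N g⁻¹ z)` determine the coset `g Γ₀(N)`. -/
theorem coset_eq_of_natDil_smul_eq (hj : IsJLike j) {N : ℕ} (hN : 0 < N) {g g' : SL(2, ℤ)}
    (h : ∀ z : ℍ, j (natDil N (g⁻¹ • z)) = j (natDil N (g'⁻¹ • z))) :
    (g : SL(2, ℤ) ⧸ CongruenceSubgroup.Gamma0 N) = g' := by
  rw [QuotientGroup.eq]
  apply hj.mem_Gamma0_of_natDil_smul_eq hN
  intro z
  have := h (g' • z)
  rw [inv_smul_smul, ← mul_smul] at this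
  exact this

end IsJLike

end Fermat.Agent.S24
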