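import Mathlib
import Fermat.Agent.S24.BDefs
import Fermat.Agent.S24.Bridge
import Fermat.Agent.S24.TaylorCay
import Fermat.Agent.S24.Translates

/-!
# S24, side B: embeddings of the function field of `X₀(N)` into Laurent series over `ℂ`

* `FK_eq_adjoin`, `FK_ringHom_ext`: the field `FK K N` is generated over `K` by the series
  `j(q^d)`, `d ∣ N`.
* `exists_embedding`: the generic construction of a ring homomorphism `FK K N →+* ℂ((t))` from an
  injective algebra homomorphism `L` defined on an algebra of functions on the upper half plane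
  which contains the translates `jT d g`.
-/

set_option autoImplicit false

open UpperHalfPlane ModularCurve
open scoped MatrixGroups

namespace Fermat.Agent.S24

/-! ### Generators of the function field -/

section Generators

variable (K : Type*) [Field K] [Algebra ℚ K]

theorem EmbFinite.coeffEmb_algebraMap (c : ℚ) :
    coeffEmb K (algebraMap ℚ (LaurentSeries ℚ) c)
      = algebraMap K (LaurentSeries K) (algebraMap ℚ K c) := by
  rw [algebraMap_laurentSeries_eq_single, algebraMap_laurentSeries_eq_single, coeffEmb,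
    coeffMap_single]

/-- The function field `FK K N` is generated over `K` by the series `j(q^d)`, `d ∣ N`. -/
theorem FK_eq_adjoin (N : ℕ) [NeZero N] :
    FK K N = IntermediateField.adjoin K {f | ∃ d, d ∣ N ∧ f = Jser K d} := by
  apply le_antisymm
  · rw [FK, laurentBaseChange, IntermediateField.adjoin_le_iff]
    rintro _ ⟨x, hx, rfl⟩
    rw [SetLike.mem_coe, modularFunctionFieldFull] at hx
    induction hx using IntermediateField.adjoin_induction with
    | mem y hy =>
        obtain ⟨d, hne, hd, rfl⟩ := hy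
        have := hne
        exact IntermediateField.subset_adjoin _ _ ⟨d, hd, (Jser_eq K d).symm⟩
    | algebraMap c =>
        rw [EmbFinite.coeffEmb_algebraMap]
        exact IntermediateField.algebraMap_mem _ _
    | add x y _ _ hx hy => rw [map_add]; exact add_mem hx hy
    | inv x _ hx => rw [map_inv₀]; exact inv_mem hx
    | mul x y _ _ hx hy => rw [map_mul]; exact mul_mem hx hy
  · rw [IntermediateField.adjoin_le_iff]
    rintro _ ⟨d, hd, rfl⟩
    exact Jser_mem K N hd

variable {K}

/-- Two ring homomorphisms out of `FK K N` into a field which agree on the constants and on the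
generators `j(q^d)`, `d ∣ N`, are equal. -/
theorem FK_ringHom_ext {N : ℕ} [NeZero N] {R : Type*} [Field R] (ι₁ ι₂ : FK K N →+* R)
    (hK : ∀ a : K, ι₁ (algebraMap K (FK K N) a) = ι₂ (algebraMap K (FK K N) a))
    (hJ : ∀ d, d ∣ N → ι₁ (Jgen K N d) = ι₂ (Jgen K N d)) : ι₁ = ι₂ := by
  have hle : IntermediateField.adjoin K {f | ∃ d, d ∣ N ∧ f = Jser K d} ≤ FK K N :=
    (FK_eq_adjoin K N).ge
  have key : ∀ x (hx : x ∈ IntermediateField.adjoin K {f | ∃ d, d ∣ N ∧ f = Jser K d}),
      ι₁ ⟨x, hle hx⟩ = ι₂ ⟨x, hle hx⟩ := by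
    intro x hx
    induction hx using IntermediateField.adjoin_induction with
    | mem y hy =>
        obtain ⟨d, hd, rfl⟩ := hy
        have h1 : (⟨Jser K d, hle (IntermediateField.subset_adjoin _ _ ⟨d, hd, rfl⟩)⟩ : FK K N)
            = Jgen K N d := Subtype.ext (coe_Jgen K N hd).symm
        rw [h1]
        exact hJ d hd
    | algebraMap c => exact hK c
    | add x y hx hy ihx ihy =>
        have h1 : (⟨x + y, hle (add_mem hx hy)⟩ : FK K N) = ⟨x, hle hx⟩ + ⟨y, hle hy⟩ := rfl
        rw [h1, map_add, map_add, ihx, ihy]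
    | inv x hx ihx =>
        have h1 : (⟨x⁻¹, hle (inv_mem hx)⟩ : FK K N) = (⟨x, hle hx⟩ : FK K N)⁻¹ := rfl
        rw [h1, map_inv₀, map_inv₀, ihx]
    | mul x y hx hy ihx ihy =>
        have h1 : (⟨x * y, hle (mul_mem hx hy)⟩ : FK K N) = ⟨x, hle hx⟩ * ⟨y, hle hy⟩ := rfl
        rw [h1, map_mul, map_mul, ihx, ihy]
  ext ⟨x, hx⟩
  exact key x ((FK_eq_adjoin K N).le hx)

end Generators

/-! ### Ring homomorphisms out of a finitely generated field -/

section Extension

open scoped IntermediateField.algebraAdjoinAdjoin in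
/-- A ring homomorphism `g` from a polynomial ring to a field `R` whose kernel is the ideal of
relations of a family `J` in a field `E` induces a ring homomorphism `K(J) →+* R`. -/
theorem EmbFinite.exists_ringHom_adjoin {K E R : Type*} [Field K] [Field E] [Algebra K E] [Field R]
    {σ : Type*} (J : σ → E) (g : MvPolynomial σ K →+* R)
    (hg : ∀ P, g P = 0 ↔ MvPolynomial.aeval J P = 0) :
    ∃ ψ : IntermediateField.adjoin K (Set.range J) →+* R,
      ∀ (P : MvPolynomial σ K) (h : MvPolynomial.aeval J P ∈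
        IntermediateField.adjoin K (Set.range J)), ψ ⟨MvPolynomial.aeval J P, h⟩ = g P := by
  have hA : Algebra.adjoin K (Set.range J) = (MvPolynomial.aeval J).range :=
    Algebra.adjoin_range_eq_range_aeval K J
  have hmemA : ∀ P, MvPolynomial.aeval J P ∈ Algebra.adjoin K (Set.range J) := fun P => by
    rw [hA]
    exact AlgHom.mem_range_self _ P
  let f : MvPolynomial σ K →+* Algebra.adjoin K (Set.range J) :=
    ((MvPolynomial.aeval J).codRestrict (Algebra.adjoin K (Set.range J)) hmemA).toRingHom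
  have hfval : ∀ P, ((f P : Algebra.adjoin K (Set.range J)) : E) = MvPolynomial.aeval J P :=
    fun P => rfl
  have hf : Function.Surjective f := by
    rintro ⟨x, hx⟩
    have hx' := hx
    rw [hA] at hx'
    obtain ⟨P, rfl⟩ := hx'
    exact ⟨P, Subtype.ext rfl⟩
  have hker : RingHom.ker f ≤ RingHom.ker g := by
    intro P hP
    rw [RingHom.mem_ker] at hP ⊢
    rw [hg, ← hfval, hP]
    rfl
  let ψ₀ : Algebra.adjoin K (Set.range J) →+* R := f.liftOfSurjective hf ⟨g, hker⟩
  have hψ₀ : ∀ P, ψ₀ (f P) = g P := fun P => f.liftOfSurjective_comp_apply hf ⟨g, hker⟩ P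
  have hinj : Function.Injective ψ₀ := by
    rw [injective_iff_map_eq_zero]
    intro x hx
    obtain ⟨P, rfl⟩ := hf x
    rw [hψ₀, hg] at hx
    exact Subtype.ext (by rw [hfval, hx]; rfl)
  refine ⟨IsFractionRing.lift hinj, fun P h => ?_⟩
  have h1 : (⟨MvPolynomial.aeval J P, h⟩ : IntermediateField.adjoin K (Set.range J))
      = algebraMap (Algebra.adjoin K (Set.range J)) (IntermediateField.adjoin K (Set.range J))
          (f P) := Subtype.ext rfl
  rw [h1, IsFractionRing.lift_algebraMap, hψ₀]

end Extension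

/-! ### The generic embedding -/

section Embedding

variable {K : Type*} [Field K] [Algebra ℚ K]

omit [Algebra ℚ K] in
/-- Evaluation of polynomials at functions is pointwise. -/
theorem EmbFinite.eval₂Hom_apply (φ : K →+* ℂ) {σ : Type*} (𝒮 : Subalgebra ℂ (ℍ → ℂ))
    (f : σ → 𝒮) (P : MvPolynomial σ K) (z : ℍ) :
    ((MvPolynomial.eval₂Hom ((algebraMap ℂ 𝒮).comp φ) f P : 𝒮) : ℍ → ℂ) z
      = MvPolynomial.eval (fun i => ((f i : 𝒮) : ℍ → ℂ) z) (MvPolynomial.map φ P) := by
  have h : ((Pi.evalRingHom (fun _ : ℍ => ℂ) z).comp 𝒮.val.toRingHom).comp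
        (MvPolynomial.eval₂Hom ((algebraMap ℂ 𝒮).comp φ) f)
      = (MvPolynomial.eval (fun i => ((f i : 𝒮) : ℍ → ℂ) z)).comp (MvPolynomial.map φ) := by
    apply MvPolynomial.ringHom_ext
    · intro a
      simp
    · intro i
      simp
  exact DFunLike.congr_fun h P

/-- **Generic embedding.**  Let `L` be an injective algebra homomorphism into `ℂ((t))` defined on
an algebra `𝒮` of functions on the upper half plane containing the translates `jT d g`, `d ∣ N`.
Then there is a ring homomorphism `FK K N →+* ℂ((t))` which is `φ` on the constants and sends the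
generator `j(q^d)` to `L (jT d g)`. -/
theorem exists_embedding (φ : K →+* ℂ) (N : ℕ) [NeZero N]
    (𝒮 : Subalgebra ℂ (ℍ → ℂ)) (L : 𝒮 →ₐ[ℂ] LaurentSeries ℂ) (hL : Function.Injective L)
    (g : SL(2, ℤ)) (hmem : ∀ d, d ∣ N → jT d g ∈ 𝒮) :
    ∃ ι : FK K N →+* LaurentSeries ℂ,
      (∀ a : K, ι (algebraMap K (FK K N) a) = HahnSeries.C (φ a)) ∧
      ∀ d (hd : d ∣ N), ι (Jgen K N d) = L ⟨jT d g, hmem d hd⟩ := by
  let σ := {d : ℕ // d ∣ N}
  let J : σ → LaurentSeries K := fun i => Jser K i.1
  let fS : σ → 𝒮 := fun i => ⟨jT i.1 g, hmem i.1 i.2⟩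
  let gg : MvPolynomial σ K →+* LaurentSeries ℂ :=
    L.toRingHom.comp (MvPolynomial.eval₂Hom ((algebraMap ℂ 𝒮).comp φ) fS)
  have hpos : ∀ i : σ, 0 < i.1 := fun i => Nat.pos_of_dvd_of_pos i.2 (NeZero.pos N)
  have hgg : ∀ P, gg P = 0 ↔ MvPolynomial.aeval J P = 0 := by
    intro P
    rw [bridge K φ (fun i : σ => i.1) hpos P]
    show L (MvPolynomial.eval₂Hom ((algebraMap ℂ 𝒮).comp φ) fS P) = 0 ↔ _
    rw [map_eq_zero_iff L hL]
    constructor
    · intro h τ
      have h1 := EmbFinite.eval₂Hom_apply φ 𝒮 fS P (g⁻¹ • τ)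
      rw [h] at h1
      have h2 : ∀ i : σ, ((fS i : 𝒮) : ℍ → ℂ) (g⁻¹ • τ) = jd i.1 τ := fun i => by
        show jT i.1 g (g⁻¹ • τ) = jd i.1 τ
        rw [jT, smul_inv_smul]
      simp only [h2] at h1
      exact h1.symm
    · intro h
      apply Subtype.ext
      funext z
      rw [EmbFinite.eval₂Hom_apply]
      exact h (g • z)
  obtain ⟨ψ, hψ⟩ := EmbFinite.exists_ringHom_adjoin J gg hgg
  have hrange : Set.range J = {f | ∃ d, d ∣ N ∧ f = Jser K d} := by
    ext f
    constructor
    · rintro ⟨i, rfl⟩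
      exact ⟨i.1, i.2, rfl⟩
    · rintro ⟨d, hd, rfl⟩
      exact ⟨⟨d, hd⟩, rfl⟩
  have hle : FK K N ≤ IntermediateField.adjoin K (Set.range J) := by
    rw [hrange]
    exact (FK_eq_adjoin K N).le
  have hval : ∀ (x : FK K N) (P : MvPolynomial σ K),
      (x : LaurentSeries K) = MvPolynomial.aeval J P →
      ψ (IntermediateField.inclusion hle x) = gg P := by
    intro x P hxP
    have hmemP : MvPolynomial.aeval J P ∈ IntermediateField.adjoin K (Set.range J) := by
      rw [← hxP]
      exact hle x.2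
    have h1 : IntermediateField.inclusion hle x = ⟨MvPolynomial.aeval J P, hmemP⟩ := by
      apply Subtype.ext
      rw [IntermediateField.coe_inclusion]
      exact hxP
    rw [h1, hψ]
  refine ⟨ψ.comp (IntermediateField.inclusion hle).toRingHom, fun a => ?_, fun d hd => ?_⟩
  · have h1 : ((algebraMap K (FK K N) a : FK K N) : LaurentSeries K)
        = MvPolynomial.aeval J (MvPolynomial.C a) := by
      rw [MvPolynomial.aeval_C]
      rfl
    show ψ (IntermediateField.inclusion hle (algebraMap K (FK K N) a)) = _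
    rw [hval _ _ h1]
    show L (MvPolynomial.eval₂Hom ((algebraMap ℂ 𝒮).comp φ) fS (MvPolynomial.C a)) = _
    rw [MvPolynomial.eval₂Hom_C, RingHom.comp_apply, AlgHom.commutes]
    exact LaurentSeries.algebraMap_apply ℂ (φ a)
  · have h1 : ((Jgen K N d : FK K N) : LaurentSeries K)
        = MvPolynomial.aeval J (MvPolynomial.X ⟨d, hd⟩ : MvPolynomial σ K) := by
      rw [MvPolynomial.aeval_X, coe_Jgen K N hd]
    show ψ (IntermediateField.inclusion hle (Jgen K N d)) = _
    rw [hval _ _ h1]
    show L (MvPolynomial.eval₂Hom ((algebraMap ℂ 𝒮).comp φ) fS (MvPolynomial.X ⟨d, hd⟩)) = _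
    rw [MvPolynomial.eval₂Hom_X']

end Embedding

end Fermat.Agent.S24
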