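import Fermat.Agent.S24.BDefs
import Fermat.Agent.S24.Translates
import Fermat.Agent.S23.QLaurent

/-!
# S24, package B2d: translates of the analytic `j`-invariant

Specialisation of `Fermat.Agent.S24.Translates` (abstract `IsJLike j`) to `jFun` (package B1),
stated for the names `dmul`, `jd`, `jT` of `BDefs.lean`:

* `jT_Gamma0_mul`, `jd_Gamma0_smul`  : invariance under `Γ₀(N)` (for `d ∣ N`);
* `jT_mdifferentiable`               : holomorphy;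
* `jT_vadd`, `jT_periodic`           : `N`-periodicity (for `d ∣ N`);
* `exists_norm_jT_le`, `jT_isBigO`   : growth `O(exp (2π d Im z))`;
* `isWH_jT`, `jT_mem_WH`             : weakly holomorphic `N`-periodic (for `d ∣ N`, `0 < N`);
* `mem_Gamma0_iff_jT_eq`, `coset_eq_iff_jT_inv_eq` : the stabiliser lemma.
-/

set_option autoImplicit false

namespace Fermat.Agent.S24

open UpperHalfPlane Filter Asymptotics Matrix Matrix.SpecialLinearGroup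
open scoped MatrixGroups ModularForm Real Manifold Topology

/-- The analytic `j`-invariant satisfies the hypotheses of `Translates.lean`. -/
theorem isJLike_jFun : IsJLike jFun :=
  ⟨jFun_mdifferentiable, jFun_smul, tendsto_jFun_mul_qParam⟩

theorem natDil_eq_dmul (d : ℕ) (z : ℍ) : natDil d z = dmul d z := rfl

theorem jd_apply (d : ℕ) (z : ℍ) : jd d z = jFun (natDil d z) := rfl

theorem jT_apply (d : ℕ) (γ : SL(2, ℤ)) (z : ℍ) : jT d γ z = jFun (natDil d (γ • z)) := rfl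

theorem jT_eq_fun (d : ℕ) (γ : SL(2, ℤ)) : jT d γ = fun z : ℍ => jFun (natDil d (γ • z)) := rfl

/-- For `d = 0` everything is a (junk) constant. -/
theorem jT_zero_apply (γ : SL(2, ℤ)) (z : ℍ) : jT 0 γ z = jFun (ofComplex 0) := by
  simp [jT, jd, dmul]

/-- (T2) `jT d γ` only depends on the coset `Γ₀(N) γ` (for `d ∣ N`). -/
theorem jT_Gamma0_mul {N d : ℕ} (hdN : d ∣ N) {δ : SL(2, ℤ)}
    (hδ : δ ∈ CongruenceSubgroup.Gamma0 N) (γ : SL(2, ℤ)) (z : ℍ) :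
    jT d (δ * γ) z = jT d γ z := by
  rcases Nat.eq_zero_or_pos d with rfl | hd
  · rw [jT_zero_apply, jT_zero_apply]
  · rw [jT_apply, jT_apply, mul_smul, isJLike_jFun.natDil_Gamma0_smul hd hdN hδ]

theorem jT_Gamma0_mul' {N d : ℕ} (hdN : d ∣ N) {δ : SL(2, ℤ)}
    (hδ : δ ∈ CongruenceSubgroup.Gamma0 N) (γ : SL(2, ℤ)) :
    jT d (δ * γ) = jT d γ :=
  funext (jT_Gamma0_mul hdN hδ γ)

/-- (T2) `z ↦ j (d z)` is invariant under `Γ₀(N)` (for `d ∣ N`). -/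
theorem jd_Gamma0_smul {N d : ℕ} (hdN : d ∣ N) {δ : SL(2, ℤ)}
    (hδ : δ ∈ CongruenceSubgroup.Gamma0 N) (z : ℍ) : jd d (δ • z) = jd d z := by
  have h := jT_Gamma0_mul hdN hδ 1 z
  rwa [mul_one, jT_one, jT] at h

theorem jT_of_mem_Gamma0 {N d : ℕ} (hdN : d ∣ N) {δ : SL(2, ℤ)}
    (hδ : δ ∈ CongruenceSubgroup.Gamma0 N) : jT d δ = jd d := by
  have h := jT_Gamma0_mul' hdN hδ 1
  rwa [mul_one, jT_one] at h

/-- (T3) holomorphy of the translates. -/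
theorem jT_mdifferentiable (d : ℕ) (γ : SL(2, ℤ)) : MDiff (jT d γ) := by
  rcases Nat.eq_zero_or_pos d with rfl | hd
  · have h : jT 0 γ = fun _ : ℍ => jFun (ofComplex 0) := funext (jT_zero_apply γ)
    rw [h]
    exact mdifferentiable_const
  · exact isJLike_jFun.mdiff_natDil_smul hd γ

theorem jd_mdifferentiable (d : ℕ) : MDiff (jd d) := by
  rw [← jT_one]
  exact jT_mdifferentiable d 1

/-- (T4) `N`-periodicity of the translates, for `d ∣ N`. -/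
theorem jT_vadd {N d : ℕ} (hdN : d ∣ N) (γ : SL(2, ℤ)) (z : ℍ) :
    jT d γ ((N : ℝ) +ᵥ z) = jT d γ z := by
  rcases Nat.eq_zero_or_pos d with rfl | hd
  · rw [jT_zero_apply, jT_zero_apply]
  · exact isJLike_jFun.natDil_smul_vadd hd hdN γ z

theorem jT_periodic {N d : ℕ} (hdN : d ∣ N) (γ : SL(2, ℤ)) :
    Function.Periodic (jT d γ ∘ ofComplex) (N : ℝ) :=
  Translates.periodic_comp_ofComplex_of_vadd (fun z => jT_vadd hdN γ z)

/-- (T5) growth of the translates: `‖j (d γ z)‖ ≤ C exp (2π d Im z)` on `c ≤ Im z`. -/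
theorem exists_norm_jT_le (d : ℕ) (γ : SL(2, ℤ)) {c : ℝ} (hc : 0 < c) :
    ∃ C : ℝ, 0 ≤ C ∧ ∀ z : ℍ, c ≤ z.im → ‖jT d γ z‖ ≤ C * Real.exp (2 * π * d * z.im) := by
  rcases Nat.eq_zero_or_pos d with rfl | hd
  · refine ⟨‖jFun (ofComplex 0)‖, norm_nonneg _, fun z _ => ?_⟩
    rw [jT_zero_apply]
    simp
  · exact isJLike_jFun.exists_norm_natDil_smul_le hd γ hc

/-- (T5) in the shape used by `InvPoly`: a bound on `1 ≤ Im z`. -/
theorem exists_norm_jT_le_one (d : ℕ) (γ : SL(2, ℤ)) :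
    ∃ C : ℝ, 0 ≤ C ∧ ∀ z : ℍ, 1 ≤ z.im → ‖jT d γ z‖ ≤ C * Real.exp (2 * π * d * z.im) :=
  exists_norm_jT_le d γ one_pos

/-- (T5) with a uniform exponent: for `d ≤ M`. -/
theorem exists_norm_jT_le_of_le {d M : ℕ} (hdM : d ≤ M) (γ : SL(2, ℤ)) :
    ∃ C : ℝ, 0 ≤ C ∧ ∀ z : ℍ, 1 ≤ z.im → ‖jT d γ z‖ ≤ C * Real.exp (2 * π * M * z.im) := by
  obtain ⟨C, hC0, hC⟩ := exists_norm_jT_le_one d γ
  refine ⟨C, hC0, fun z hz => (hC z hz).trans ?_⟩
  apply mul_le_mul_of_nonneg_left _ hC0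
  rw [Real.exp_le_exp]
  have h1 : (d : ℝ) ≤ M := by exact_mod_cast hdM
  have h2 : 0 < z.im := z.im_pos
  have h3 : 0 < 2 * π := by positivity
  have h4 : 2 * π * d ≤ 2 * π * M := by nlinarith
  nlinarith

/-- (T5') the translates are `O(exp (2π d Im z))` at `i∞`. -/
theorem jT_isBigO (d : ℕ) (γ : SL(2, ℤ)) :
    jT d γ =O[atImInfty] fun z : ℍ => Real.exp (2 * π * d * z.im) := by
  obtain ⟨C, -, hC⟩ := exists_norm_jT_le_one d γ
  refine Asymptotics.IsBigO.of_bound C ?_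
  rw [Filter.Eventually, atImInfty_mem]
  refine ⟨1, fun z hz => ?_⟩
  have := hC z hz
  simpa [abs_of_pos (Real.exp_pos _)] using this

/-- The norm of the `N`-th root `q`-parameter. -/
theorem Translates.norm_qFun (N : ℕ) (z : ℍ) :
    ‖Fermat.Agent.S23.qFun (N : ℝ) z‖ = Real.exp (-(2 * π * z.im / N)) := by
  rw [Fermat.Agent.S23.qFun_apply, Function.Periodic.norm_qParam]
  simp
  ring_nf

/-- `jT d γ * q_N ^ (d * N)` is bounded at `i∞`. -/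
theorem jT_mul_qFun_pow_isBoundedAtImInfty {N : ℕ} (hN : 0 < N) (d : ℕ) (γ : SL(2, ℤ)) :
    IsBoundedAtImInfty (jT d γ * Fermat.Agent.S23.qFun (N : ℝ) ^ (d * N)) := by
  obtain ⟨C, hC0, hC⟩ := exists_norm_jT_le_one d γ
  rw [UpperHalfPlane.isBoundedAtImInfty_iff]
  refine ⟨C, 1, fun z hz => ?_⟩
  have hNR : (N : ℝ) ≠ 0 := by exact_mod_cast hN.ne'
  rw [Pi.mul_apply, Pi.pow_apply, norm_mul, norm_pow, Translates.norm_qFun, ← Real.exp_nat_mul]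
  have h1 : ((d * N : ℕ) : ℝ) * -(2 * π * z.im / N) = -(2 * π * d * z.im) := by
    push_cast
    field_simp
  rw [h1]
  calc ‖jT d γ z‖ * Real.exp (-(2 * π * d * z.im))
      ≤ C * Real.exp (2 * π * d * z.im) * Real.exp (-(2 * π * d * z.im)) :=
        mul_le_mul_of_nonneg_right (hC z hz) (Real.exp_pos _).le
    _ = C := by rw [mul_assoc, ← Real.exp_add, add_neg_cancel, Real.exp_zero, mul_one]

/-- The translates are weakly holomorphic `N`-periodic functions (for `d ∣ N`, `0 < N`). -/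
theorem isWH_jT {N d : ℕ} (hN : 0 < N) (hdN : d ∣ N) (γ : SL(2, ℤ)) :
    Fermat.Agent.S23.IsWH (N : ℝ) (jT d γ) :=
  ⟨jT_mdifferentiable d γ, jT_periodic hdN γ,
    ⟨d * N, jT_mul_qFun_pow_isBoundedAtImInfty hN d γ⟩⟩

theorem isWH_jd_of_dvd {N d : ℕ} (hN : 0 < N) (hdN : d ∣ N) :
    Fermat.Agent.S23.IsWH (N : ℝ) (jd d) := by
  rw [← jT_one]
  exact isWH_jT hN hdN 1

theorem jT_mem_WH {N d : ℕ} (hN : 0 < N) (hdN : d ∣ N) (γ : SL(2, ℤ)) :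
    jT d γ ∈ Fermat.Agent.S23.WH (N : ℝ) (Nat.cast_pos.mpr hN) :=
  isWH_jT hN hdN γ

/-- (T6) **Stabiliser lemma**: `j(N γ z) = j(N z)` for all `z` forces `γ ∈ Γ₀(N)`. -/
theorem mem_Gamma0_of_jT_eq {N : ℕ} (hN : 0 < N) {γ : SL(2, ℤ)}
    (h : ∀ z : ℍ, jT N γ z = jd N z) : γ ∈ CongruenceSubgroup.Gamma0 N :=
  isJLike_jFun.mem_Gamma0_of_natDil_smul_eq hN h

theorem mem_Gamma0_iff_jT_eq {N : ℕ} (hN : 0 < N) {γ : SL(2, ℤ)} :
    γ ∈ CongruenceSubgroup.Gamma0 N ↔ jT N γ = jd N :=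
  ⟨fun h => jT_of_mem_Gamma0 dvd_rfl h, fun h => mem_Gamma0_of_jT_eq hN (congrFun h)⟩

/-- `jT N γ = jT N γ'` iff `γ` and `γ'` are in the same right coset `Γ₀(N) γ`. -/
theorem jT_eq_jT_iff {N : ℕ} (hN : 0 < N) {γ γ' : SL(2, ℤ)} :
    jT N γ = jT N γ' ↔ γ * γ'⁻¹ ∈ CongruenceSubgroup.Gamma0 N := by
  rw [mem_Gamma0_iff_jT_eq hN]
  constructor
  · intro h
    funext z
    have h1 := jT_mul N γ γ'⁻¹ z
    have h2 := jT_mul N γ' γ'⁻¹ z
    rw [h1, h, ← h2, mul_inv_cancel, jT_one]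
  · intro h
    funext z
    have h1 := jT_mul N (γ * γ'⁻¹) γ' z
    have h2 : γ * γ'⁻¹ * γ' = γ := by group
    rw [h2, h] at h1
    rw [h1, jT]

/-- The translates `jT N g⁻¹` determine the coset `g Γ₀(N)`. -/
theorem coset_eq_of_jT_inv_eq {N : ℕ} (hN : 0 < N) {g g' : SL(2, ℤ)}
    (h : jT N g⁻¹ = jT N g'⁻¹) : (g : X0 N) = g' := by
  rw [jT_eq_jT_iff hN, inv_inv] at h
  exact QuotientGroup.eq.mpr h

/-- `jT d g⁻¹` is well defined on left cosets `g Γ₀(N)`. -/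
theorem jT_inv_eq_of_coset_eq {N d : ℕ} (hdN : d ∣ N) {g g' : SL(2, ℤ)}
    (h : (g : X0 N) = g') : jT d g⁻¹ = jT d g'⁻¹ := by
  have h' : g⁻¹ * g' ∈ CongruenceSubgroup.Gamma0 N := QuotientGroup.eq.mp h
  have h1 : g'⁻¹ = (g⁻¹ * g')⁻¹ * g⁻¹ := by group
  rw [h1, jT_Gamma0_mul' hdN (inv_mem h')]

theorem coset_eq_iff_jT_inv_eq {N : ℕ} (hN : 0 < N) {g g' : SL(2, ℤ)} :
    (g : X0 N) = g' ↔ jT N g⁻¹ = jT N g'⁻¹ :=
  ⟨jT_inv_eq_of_coset_eq dvd_rfl, coset_eq_of_jT_inv_eq hN⟩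

/-- Right multiplication: `jT d (g * δ)⁻¹ = jT d g⁻¹` for `δ ∈ Γ₀(N)`. -/
theorem jT_mul_Gamma0_inv {N d : ℕ} (hdN : d ∣ N) {δ : SL(2, ℤ)}
    (hδ : δ ∈ CongruenceSubgroup.Gamma0 N) (g : SL(2, ℤ)) :
    jT d (g * δ)⁻¹ = jT d g⁻¹ := by
  rw [_root_.mul_inv_rev, jT_Gamma0_mul' hdN (inv_mem hδ)]

end Fermat.Agent.S24
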