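import Mathlib
import Fermat.Agent.S24.BDefs
import Fermat.Agent.S24.TranslatesJ
import Fermat.Agent.S24.Bridge
import Fermat.Agent.S23.InvPoly
import Fermat.Agent.S23.CosetAlg
import Fermat.Agent.S23.QLaurent

/-!
# S24, package B3-norm: the monic norm polynomial over `ℂ[j]`

Every polynomial expression `θ` in the series `j(q^d)`, `d ∣ N`, is a root of a monic polynomial
of degree `[SL(2,ℤ) : Γ₀(N)]` with coefficients in `ℂ[j]`.  The polynomial is the norm polynomial
`∏ (Y - θ ∘ γ)` over the cosets, whose coefficients are holomorphic `SL(2,ℤ)`-invariant functions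
of exponential growth at `i∞`, hence polynomials in `j`.
-/

set_option autoImplicit false

open UpperHalfPlane ModularForm EisensteinSeries ModularCurve
open scoped MatrixGroups Real Manifold

namespace Fermat.Agent.S24

namespace NormPoly

/-! ### The algebra of holomorphic functions of exponential growth -/

/-- Holomorphic functions on `ℍ` of at most exponential growth on `1 ≤ im z`. -/
def IsGrow (f : ℍ → ℂ) : Prop :=
  MDiff f ∧ ∃ (M : ℕ) (C : ℝ), 0 ≤ C ∧
    ∀ z : ℍ, 1 ≤ z.im → ‖f z‖ ≤ C * Real.exp (2 * π * M * z.im)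

theorem exp_le_exp_of_le {M M' : ℕ} (h : M ≤ M') {y : ℝ} (hy : 1 ≤ y) :
    Real.exp (2 * π * M * y) ≤ Real.exp (2 * π * M' * y) := by
  rw [Real.exp_le_exp]
  have h1 : (M : ℝ) ≤ M' := by exact_mod_cast h
  have h2 : 0 < 2 * π := by positivity
  have h3 : 0 ≤ y := by linarith
  have h4 : 2 * π * (M : ℝ) ≤ 2 * π * M' := mul_le_mul_of_nonneg_left h1 h2.le
  exact mul_le_mul_of_nonneg_right h4 h3

theorem IsGrow.mul {f g : ℍ → ℂ} (hf : IsGrow f) (hg : IsGrow g) : IsGrow (f * g) := by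
  obtain ⟨hf1, M1, C1, hC1, h1⟩ := hf
  obtain ⟨hg1, M2, C2, hC2, h2⟩ := hg
  refine ⟨hf1.mul hg1, M1 + M2, C1 * C2, mul_nonneg hC1 hC2, fun z hz => ?_⟩
  have e : Real.exp (2 * π * ((M1 + M2 : ℕ) : ℝ) * z.im) =
      Real.exp (2 * π * M1 * z.im) * Real.exp (2 * π * M2 * z.im) := by
    rw [← Real.exp_add]
    congr 1
    push_cast
    ring
  rw [Pi.mul_apply, norm_mul, e]
  calc ‖f z‖ * ‖g z‖ ≤ (C1 * Real.exp (2 * π * M1 * z.im)) * (C2 * Real.exp (2 * π * M2 * z.im)) :=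
        mul_le_mul (h1 z hz) (h2 z hz) (norm_nonneg _)
          (mul_nonneg hC1 (Real.exp_pos _).le)
    _ = C1 * C2 * (Real.exp (2 * π * M1 * z.im) * Real.exp (2 * π * M2 * z.im)) := by ring

theorem IsGrow.add {f g : ℍ → ℂ} (hf : IsGrow f) (hg : IsGrow g) : IsGrow (f + g) := by
  obtain ⟨hf1, M1, C1, hC1, h1⟩ := hf
  obtain ⟨hg1, M2, C2, hC2, h2⟩ := hg
  refine ⟨hf1.add hg1, M1 + M2, C1 + C2, add_nonneg hC1 hC2, fun z hz => ?_⟩
  rw [Pi.add_apply]
  have e1 := exp_le_exp_of_le (Nat.le_add_right M1 M2) hz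
  have e2 := exp_le_exp_of_le (Nat.le_add_left M2 M1) hz
  calc ‖f z + g z‖ ≤ ‖f z‖ + ‖g z‖ := norm_add_le _ _
    _ ≤ C1 * Real.exp (2 * π * M1 * z.im) + C2 * Real.exp (2 * π * M2 * z.im) :=
        add_le_add (h1 z hz) (h2 z hz)
    _ ≤ C1 * Real.exp (2 * π * ((M1 + M2 : ℕ) : ℝ) * z.im) +
          C2 * Real.exp (2 * π * ((M1 + M2 : ℕ) : ℝ) * z.im) :=
        add_le_add (mul_le_mul_of_nonneg_left e1 hC1) (mul_le_mul_of_nonneg_left e2 hC2)
    _ = (C1 + C2) * Real.exp (2 * π * ((M1 + M2 : ℕ) : ℝ) * z.im) := by ring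

theorem IsGrow.const (c : ℂ) : IsGrow (fun _ : ℍ => c) := by
  refine ⟨mdifferentiable_const, 0, ‖c‖, norm_nonneg _, fun z _ => ?_⟩
  simp

/-- The algebra of holomorphic functions on `ℍ` of at most exponential growth. -/
def growAlg : Subalgebra ℂ (ℍ → ℂ) where
  carrier := {f | IsGrow f}
  mul_mem' := fun hf hg => hf.mul hg
  add_mem' := fun hf hg => hf.add hg
  algebraMap_mem' := fun c => IsGrow.const c

theorem mem_growAlg {f : ℍ → ℂ} : f ∈ growAlg ↔ IsGrow f := Iff.rfl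

/-! ### The conjugates of a polynomial expression in the `j(d z)` -/

section Conj

variable (N : ℕ)

/-- The translates `j(d (g z))`, `d ∣ N`, as elements of the growth algebra. -/
noncomputable def gen (g : SL(2, ℤ)) (d : {d : ℕ // d ∣ N}) : growAlg :=
  ⟨jT d.1 g, jT_mdifferentiable d.1 g, d.1, exists_norm_jT_le_one d.1 g⟩

theorem gen_Gamma0_mul {δ : SL(2, ℤ)} (hδ : δ ∈ CongruenceSubgroup.Gamma0 N) (g : SL(2, ℤ)) :
    gen N (δ * g) = gen N g := by
  funext d
  exact Subtype.ext (jT_Gamma0_mul' d.2 hδ g)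

theorem gen_out_inv (g : SL(2, ℤ)) :
    gen N ((QuotientGroup.mk g : X0 N).out)⁻¹ = gen N g⁻¹ := by
  obtain ⟨h, hh⟩ := QuotientGroup.mk_out_eq_mul (CongruenceSubgroup.Gamma0 N) g
  rw [hh, mul_inv_rev]
  exact gen_Gamma0_mul N (inv_mem h.2) g⁻¹

/-- The conjugate of `P(j(d z))` attached to the coset `q`. -/
noncomputable def conj (P : MvPolynomial {d : ℕ // d ∣ N} ℂ) (q : X0 N) : growAlg :=
  MvPolynomial.aeval (gen N (q.out)⁻¹) P

theorem conj_apply (P : MvPolynomial {d : ℕ // d ∣ N} ℂ) (q : X0 N) (z : ℍ) :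
    (conj N P q : ℍ → ℂ) z = MvPolynomial.eval (fun d => jT d.1 (q.out)⁻¹ z) P := by
  show ((Pi.evalAlgHom ℂ (fun _ : ℍ => ℂ) z).comp growAlg.val)
    (MvPolynomial.aeval (gen N (q.out)⁻¹) P) = _
  rw [MvPolynomial.comp_aeval_apply]
  have h1 : ∀ f : {d : ℕ // d ∣ N} → ℂ, MvPolynomial.aeval f P = MvPolynomial.eval f P :=
    fun f => rfl
  rw [h1]
  have h2 : (fun i => ((Pi.evalAlgHom ℂ (fun _ : ℍ => ℂ) z).comp growAlg.val)
      (gen N (q.out)⁻¹ i)) = fun d : {d : ℕ // d ∣ N} => jT d.1 (q.out)⁻¹ z :=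
    funext fun d => rfl
  rw [h2]

theorem conj_smul (P : MvPolynomial {d : ℕ // d ∣ N} ℂ) (q : X0 N) (γ : SL(2, ℤ)) (z : ℍ) :
    (conj N P q : ℍ → ℂ) (γ • z) = (conj N P (γ⁻¹ • q) : ℍ → ℂ) z := by
  rw [conj_apply, conj_apply]
  have key : (fun d : {d : ℕ // d ∣ N} => jT d.1 (q.out)⁻¹ (γ • z)) =
      fun d : {d : ℕ // d ∣ N} => jT d.1 ((γ⁻¹ • q).out)⁻¹ z := by
    funext d
    rw [← jT_mul]
    have h1 : (γ⁻¹ • q) = (QuotientGroup.mk (γ⁻¹ * q.out) : X0 N) := by
      conv_lhs => rw [← QuotientGroup.out_eq' q]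
      rfl
    have h2 := gen_out_inv N (γ⁻¹ * q.out)
    rw [← h1, mul_inv_rev, inv_inv] at h2
    exact (congrArg (fun F => ((F d : growAlg) : ℍ → ℂ) z) h2).symm
  rw [key]

theorem conj_one (P : MvPolynomial {d : ℕ // d ∣ N} ℂ) :
    (conj N P (QuotientGroup.mk 1 : X0 N) : ℍ → ℂ) =
      MvPolynomial.aeval (fun d : {d : ℕ // d ∣ N} => jd d.1) P := by
  have h1 : gen N ((QuotientGroup.mk 1 : X0 N).out)⁻¹ = gen N 1 := by
    rw [gen_out_inv, inv_one]
  show growAlg.val (MvPolynomial.aeval (gen N ((QuotientGroup.mk 1 : X0 N).out)⁻¹) P) = _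
  rw [h1, MvPolynomial.comp_aeval_apply]
  have h2 : (fun i => growAlg.val (gen N 1 i)) = fun d : {d : ℕ // d ∣ N} => jd d.1 :=
    funext fun d => jT_one d.1
  rw [h2]

end Conj

/-! ### The norm polynomial and its coefficients -/

section Norm

open Fermat.Agent.S23.Coset

variable (N : ℕ) [NeZero N]

/-- The cosets of `Γ₀(N)` form a finite type (used locally only). -/
noncomputable abbrev fintypeX0 : Fintype (X0 N) := Fintype.ofFinite _

attribute [local instance] fintypeX0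

/-- The norm polynomial `∏ (Y - conj q)`, with coefficients in functions on `ℍ`. -/
noncomputable def normPoly (P : MvPolynomial {d : ℕ // d ∣ N} ℂ) : Polynomial (ℍ → ℂ) :=
  NP (fun q : X0 N => (conj N P q : ℍ → ℂ))

theorem normPoly_monic (P : MvPolynomial {d : ℕ // d ∣ N} ℂ) : (normPoly N P).Monic := by
  classical
  exact NP_monic _

theorem normPoly_natDegree (P : MvPolynomial {d : ℕ // d ∣ N} ℂ) :
    (normPoly N P).natDegree = Nat.card (X0 N) := by
  classical
  rw [normPoly, NP_natDegree, Nat.card_eq_fintype_card]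

theorem normPoly_eval (P : MvPolynomial {d : ℕ // d ∣ N} ℂ) :
    (normPoly N P).eval (MvPolynomial.aeval (fun d : {d : ℕ // d ∣ N} => jd d.1) P) = 0 := by
  classical
  rw [← conj_one]
  exact eval_NP_self (fun q : X0 N => (conj N P q : ℍ → ℂ)) (QuotientGroup.mk 1)

theorem normPoly_coeff_mem (P : MvPolynomial {d : ℕ // d ∣ N} ℂ) (k : ℕ) :
    (normPoly N P).coeff k ∈ growAlg := by
  classical
  have h : normPoly N P = (NP (conj N P)).map growAlg.val.toRingHom := by
    rw [NP_map]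
    rfl
  rw [h, Polynomial.coeff_map]
  exact ((NP (conj N P)).coeff k).2

theorem normPoly_coeff_apply (P : MvPolynomial {d : ℕ // d ∣ N} ℂ) (k : ℕ) (z : ℍ) :
    (normPoly N P).coeff k z = (NP (fun q : X0 N => (conj N P q : ℍ → ℂ) z)).coeff k := by
  classical
  have h := NP_map (Pi.evalRingHom (fun _ : ℍ => ℂ) z) (fun q : X0 N => (conj N P q : ℍ → ℂ))
  have h2 := congrArg (fun p => p.coeff k) h
  simp only [Polynomial.coeff_map] at h2
  exact h2

theorem normPoly_coeff_smul (P : MvPolynomial {d : ℕ // d ∣ N} ℂ) (k : ℕ) (γ : SL(2, ℤ))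
    (z : ℍ) : (normPoly N P).coeff k (γ • z) = (normPoly N P).coeff k z := by
  classical
  rw [normPoly_coeff_apply, normPoly_coeff_apply]
  have h1 : (fun q : X0 N => (conj N P q : ℍ → ℂ) (γ • z)) =
      fun q : X0 N => (conj N P (MulAction.toPerm γ⁻¹ q) : ℍ → ℂ) z :=
    funext fun q => conj_smul N P q γ z
  rw [h1, NP_comp_equiv (MulAction.toPerm γ⁻¹) (fun q : X0 N => (conj N P q : ℍ → ℂ) z)]

/-- Each coefficient of the norm polynomial is a polynomial in `j`. -/
theorem exists_poly_coeff (P : MvPolynomial {d : ℕ // d ∣ N} ℂ) (k : ℕ) :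
    ∃ p : Polynomial ℂ, (normPoly N P).coeff k = Polynomial.aeval jFun p := by
  obtain ⟨hmd, M, C, -, hgrow⟩ := normPoly_coeff_mem N P k
  obtain ⟨p, -, hp⟩ := Fermat.Agent.S23.exists_polynomial_of_invariant _ hmd
    (normPoly_coeff_smul N P k) M C hgrow
  refine ⟨p, funext fun z => ?_⟩
  rw [hp z]
  have h := Polynomial.aeval_algHom_apply (Pi.evalAlgHom ℂ (fun _ : ℍ => ℂ) z) jFun p
  exact h

/-- The analytic form of the norm polynomial identity. -/
theorem exists_monic_poly_analytic (P : MvPolynomial {d : ℕ // d ∣ N} ℂ) :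
    ∃ p : Polynomial (Polynomial ℂ), p.Monic ∧ p.natDegree = Nat.card (X0 N) ∧
      Polynomial.eval₂ (Polynomial.aeval jFun : Polynomial ℂ →ₐ[ℂ] (ℍ → ℂ)).toRingHom
        (MvPolynomial.aeval (fun d : {d : ℕ // d ∣ N} => jd d.1) P) p = 0 := by
  choose pk hpk using exists_poly_coeff N P
  set n : ℕ := Nat.card (X0 N) with hn
  set r : Polynomial (Polynomial ℂ) :=
    ∑ k ∈ Finset.range n, Polynomial.C (pk k) * Polynomial.X ^ k with hr
  have hdeg : r.degree < (n : WithBot ℕ) := by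
    refine lt_of_le_of_lt (Polynomial.degree_sum_le _ _) ?_
    refine (Finset.sup_lt_iff (WithBot.bot_lt_coe n)).mpr fun k hk => ?_
    exact lt_of_le_of_lt (Polynomial.degree_C_mul_X_pow_le k _)
      (WithBot.coe_lt_coe.mpr (Finset.mem_range.mp hk))
  refine ⟨Polynomial.X ^ n + r, Polynomial.monic_X_pow_add hdeg, ?_, ?_⟩
  · refine Polynomial.natDegree_eq_of_degree_eq_some ?_
    rw [Polynomial.degree_add_eq_left_of_degree_lt (by rwa [Polynomial.degree_X_pow]),
      Polynomial.degree_X_pow]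
  · rw [← Polynomial.eval_map]
    have hmap : (Polynomial.X ^ n + r).map
        (Polynomial.aeval jFun : Polynomial ℂ →ₐ[ℂ] (ℍ → ℂ)).toRingHom = normPoly N P := by
      have h1 := (normPoly_monic N P).as_sum
      rw [normPoly_natDegree] at h1
      rw [h1, hr, Polynomial.map_add, Polynomial.map_pow, Polynomial.map_X,
        Polynomial.map_sum]
      congr 1
      refine Finset.sum_congr rfl fun k _ => ?_
      rw [Polynomial.map_mul, Polynomial.map_pow, Polynomial.map_X, Polynomial.map_C, hpk k]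
      rfl
    rw [hmap]
    exact normPoly_eval N P

end Norm

/-! ### Transfer to formal Laurent series -/

section Transfer

open Fermat.Agent.S23

variable (N : ℕ) [NeZero N]

theorem pos_of_dvd (d : {d : ℕ // d ∣ N}) : 0 < d.1 :=
  Nat.pos_of_dvd_of_pos d.2 (NeZero.pos N)

/-- A polynomial identity among the functions `j(d z)` passes to the series `j(q^d)`. -/
theorem transfer (hWH : ∀ d : ℕ, 0 < d → IsWH 1 (jd d))
    (hq : ∀ d : ℕ, 0 < d → qLaurent 1 (jd d) = Jser ℂ d)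
    (P : MvPolynomial {d : ℕ // d ∣ N} ℂ) (p : Polynomial (Polynomial ℂ))
    (h : Polynomial.eval₂ (Polynomial.aeval jFun : Polynomial ℂ →ₐ[ℂ] (ℍ → ℂ)).toRingHom
      (MvPolynomial.aeval (fun d : {d : ℕ // d ∣ N} => jd d.1) P) p = 0) :
    Polynomial.eval₂ (Polynomial.aeval (Jser ℂ 1) : Polynomial ℂ →ₐ[ℂ] LaurentSeries ℂ).toRingHom
      (MvPolynomial.aeval (fun d : {d : ℕ // d ∣ N} => Jser ℂ d.1) P) p = 0 := by
  set A := WH 1 one_pos with hA
  set jA : A := ⟨jd 1, hWH 1 one_pos⟩ with hjA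
  set genA : {d : ℕ // d ∣ N} → A := fun d => ⟨jd d.1, hWH d.1 (pos_of_dvd N d)⟩ with hgenA
  set θA : A := MvPolynomial.aeval genA P with hθA
  -- the identity holds in `A`
  have h1 : Polynomial.eval₂ (Polynomial.aeval jA : Polynomial ℂ →ₐ[ℂ] A).toRingHom θA p = 0 := by
    apply Subtype.val_injective
    have e1 := Polynomial.hom_eval₂ p (Polynomial.aeval jA : Polynomial ℂ →ₐ[ℂ] A).toRingHom
      A.val.toRingHom θA
    have e2 : A.val.toRingHom.comp (Polynomial.aeval jA : Polynomial ℂ →ₐ[ℂ] A).toRingHom =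
        (Polynomial.aeval jFun : Polynomial ℂ →ₐ[ℂ] (ℍ → ℂ)).toRingHom := by
      have e3 : (Polynomial.aeval jFun : Polynomial ℂ →ₐ[ℂ] (ℍ → ℂ)) =
          A.val.comp (Polynomial.aeval jA) := by
        rw [← Polynomial.aeval_algHom]
        congr 1
        exact jd_one.symm
      rw [e3]
      rfl
    have e4 : A.val.toRingHom θA =
        MvPolynomial.aeval (fun d : {d : ℕ // d ∣ N} => jd d.1) P := by
      show A.val (MvPolynomial.aeval genA P) = _
      rw [MvPolynomial.comp_aeval_apply]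
      rfl
    rw [e2, e4, h] at e1
    exact e1
  -- apply the `q`-expansion homomorphism
  have e1 := Polynomial.hom_eval₂ p (Polynomial.aeval jA : Polynomial ℂ →ₐ[ℂ] A).toRingHom
    (qL 1 one_pos).toRingHom θA
  rw [h1, map_zero] at e1
  have e2 : (qL 1 one_pos).toRingHom.comp (Polynomial.aeval jA : Polynomial ℂ →ₐ[ℂ] A).toRingHom =
      (Polynomial.aeval (Jser ℂ 1) : Polynomial ℂ →ₐ[ℂ] LaurentSeries ℂ).toRingHom := by
    have e3 : (Polynomial.aeval (Jser ℂ 1) : Polynomial ℂ →ₐ[ℂ] LaurentSeries ℂ) =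
        (qL 1 one_pos).comp (Polynomial.aeval jA) := by
      rw [← Polynomial.aeval_algHom]
      congr 1
      rw [qL_apply]
      exact (hq 1 one_pos).symm
    rw [e3]
    rfl
  have e4 : (qL 1 one_pos).toRingHom θA =
      MvPolynomial.aeval (fun d : {d : ℕ // d ∣ N} => Jser ℂ d.1) P := by
    show (qL 1 one_pos) (MvPolynomial.aeval genA P) = _
    rw [MvPolynomial.comp_aeval_apply]
    have e5 : (fun i => (qL 1 one_pos) (genA i)) = fun d : {d : ℕ // d ∣ N} => Jser ℂ d.1 :=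
      funext fun d => by
        rw [qL_apply]
        exact hq d.1 (pos_of_dvd N d)
    rw [e5]
  rw [e2, e4] at e1
  exact e1.symm

/-- The norm polynomial theorem, given the bridge between `jd d` and `Jser ℂ d`. -/
theorem exists_monic_norm_poly_of_bridge (hWH : ∀ d : ℕ, 0 < d → IsWH 1 (jd d))
    (hq : ∀ d : ℕ, 0 < d → qLaurent 1 (jd d) = Jser ℂ d) (θ : LaurentSeries ℂ)
    (hθ : θ ∈ Algebra.adjoin ℂ {f : LaurentSeries ℂ | ∃ d, d ∣ N ∧ f = Jser ℂ d}) :
    ∃ p : Polynomial (Polynomial ℂ), p.Monic ∧ p.natDegree = Nat.card (X0 N) ∧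
      Polynomial.eval₂
        (Polynomial.aeval (Jser ℂ 1) : Polynomial ℂ →ₐ[ℂ] LaurentSeries ℂ).toRingHom θ p = 0 := by
  have hset : {f : LaurentSeries ℂ | ∃ d, d ∣ N ∧ f = Jser ℂ d} =
      Set.range (fun d : {d : ℕ // d ∣ N} => Jser ℂ d.1) := by
    ext f
    constructor
    · rintro ⟨d, hd, rfl⟩
      exact ⟨⟨d, hd⟩, rfl⟩
    · rintro ⟨d, rfl⟩
      exact ⟨d.1, d.2, rfl⟩
  rw [hset, Algebra.adjoin_range_eq_range_aeval] at hθ
  obtain ⟨P, rfl⟩ := hθ
  obtain ⟨p, hp1, hp2, hp3⟩ := exists_monic_poly_analytic N P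
  exact ⟨p, hp1, hp2, transfer N hWH hq P p hp3⟩

end Transfer

end NormPoly

/-- **Norm polynomial.** Every polynomial expression `θ` in the series `j(q^d)`, `d ∣ N`, is a
root of a monic polynomial of degree `[SL(2,ℤ) : Γ₀(N)]` with coefficients in `ℂ[j]`. -/
theorem exists_monic_norm_poly (N : ℕ) [NeZero N] (θ : LaurentSeries ℂ)
    (hθ : θ ∈ Algebra.adjoin ℂ {f : LaurentSeries ℂ | ∃ d, d ∣ N ∧ f = Jser ℂ d}) :
    ∃ p : Polynomial (Polynomial ℂ), p.Monic ∧ p.natDegree = Nat.card (X0 N) ∧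
      Polynomial.eval₂
        (Polynomial.aeval (Jser ℂ 1) : Polynomial ℂ →ₐ[ℂ] LaurentSeries ℂ).toRingHom θ p = 0 :=
  NormPoly.exists_monic_norm_poly_of_bridge N (fun _ hd => isWH_jd hd)
    (fun _ hd => qLaurent_jd hd) θ hθ

end Fermat.Agent.S24
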