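/-
S24, package B3: the degree of the modular function field `F = K(j(q^d) : d ∣ N)` over `K(j)`
is the index of `Γ₀(N)`.  Owner: helper12.
-/
import Mathlib
import Fermat.Agent.S24.BDefs
import Fermat.Agent.S24.DegreeAlg
import Fermat.Agent.S24.EmbFinite
import Fermat.Agent.S24.TranslatesJ
import Fermat.Agent.S24.TaylorCay
import Fermat.Agent.S24.NormPoly

set_option autoImplicit false

open IntermediateField Polynomial ModularCurve UpperHalfPlane
open scoped MatrixGroups

namespace Fermat.Agent.S24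

namespace Degree

section Transcendental

variable (K : Type*) [Field K] [Algebra ℚ K]

theorem Jser_one : Jser K 1 = coeffEmb K jq := by
  rw [Jser_eq, qExpand_one_apply]

/-- The coefficient of `q^(-m)` in `j^i`, `i ≤ m`. -/
theorem coeff_Jser_one_pow (i m : ℕ) (him : i ≤ m) :
    ((Jser K 1) ^ i).coeff (-(m : ℤ)) = if i = m then 1 else 0 := by
  rw [Jser_one, ← map_pow, coeffEmb_coeff]
  split_ifs with h
  · subst h
    rw [coeff_jq_pow_self, map_one]
  · have hlt : i < m := lt_of_le_of_ne him h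
    rw [coeff_jq_pow_of_lt (by omega), map_zero]

theorem coeff_algebraMap_mul {L : Type*} [Field L] (c : L) (f : LaurentSeries L) (z : ℤ) :
    (algebraMap L (LaurentSeries L) c * f).coeff z = c * f.coeff z := by
  rw [ModularCurve.algebraMap_laurentSeries_eq_single, HahnSeries.coeff_single_zero_mul]

/-- `j` is transcendental over the constants. -/
theorem transcendental_Jser_one : Transcendental K (Jser K 1) := by
  rw [transcendental_iff]
  intro p hp
  by_contra hp0
  have h := congrArg (fun f : LaurentSeries K => f.coeff (-(p.natDegree : ℤ))) hp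
  simp only [HahnSeries.coeff_zero] at h
  rw [aeval_eq_sum_range] at h
  rw [HahnSeries.coeff_sum, Finset.sum_eq_single p.natDegree] at h
  · rw [Algebra.smul_def, coeff_algebraMap_mul, coeff_Jser_one_pow K _ _ le_rfl, if_pos rfl,
      mul_one] at h
    exact hp0 (leadingCoeff_eq_zero.mp h)
  · intro i hi hne
    rw [Algebra.smul_def, coeff_algebraMap_mul,
      coeff_Jser_one_pow K i _ (Nat.lt_succ_iff.mp (Finset.mem_range.mp hi)), if_neg hne,
      mul_zero]
  · intro h'
    exact absurd (Finset.mem_range.mpr (Nat.lt_succ_self _)) h'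

end Transcendental

end Degree

/-- The coordinate `x = j` of the modular function field is transcendental over `K`. -/
theorem transcendental_xgen (K : Type*) [Field K] [Algebra ℚ K] (N : ℕ) :
    Transcendental K (xgen K N) := by
  intro h
  have h2 : IsAlgebraic K ((xgen K N : FK K N) : LaurentSeries K) :=
    h.algebraMap (A := LaurentSeries K)
  rw [coe_xgen] at h2
  exact Degree.transcendental_Jser_one K h2

namespace Degree

/-! ### Generators -/

section Generators

variable (K : Type*) [Field K] [Algebra ℚ K]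

/-- The generating set `{j(q^d) : d ∣ N}` of the function field. -/
def gens (N : ℕ) : Set (FK K N) := {g | ∃ d, d ∣ N ∧ g = Jgen K N d}

theorem xgen_mem_gens (N : ℕ) : xgen K N ∈ gens K N := ⟨1, one_dvd N, rfl⟩

theorem val_image_gens (N : ℕ) :
    (FK K N).val '' gens K N = {f | ∃ d, d ∣ N ∧ f = Jser K d} := by
  ext f
  constructor
  · rintro ⟨g, ⟨d, hd, rfl⟩, rfl⟩
    exact ⟨d, hd, coe_Jgen K N hd⟩
  · rintro ⟨d, hd, rfl⟩
    exact ⟨Jgen K N d, ⟨d, hd, rfl⟩, coe_Jgen K N hd⟩

theorem adjoin_gens_eq_top (N : ℕ) [NeZero N] :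
    IntermediateField.adjoin K (gens K N) = ⊤ := by
  apply IntermediateField.map_injective (FK K N).val
  rw [IntermediateField.adjoin_map, val_image_gens, ← FK_eq_adjoin, ← AlgHom.fieldRange_eq_map,
    IntermediateField.fieldRange_val]

end Generators

/-! ### The upper bound -/

section Upper

variable {K : Type*} [Field K] [Algebra ℚ K]

theorem algebraMap_eq_C {L : Type*} [Field L] (c : L) :
    algebraMap L (LaurentSeries L) c = HahnSeries.C c := by
  rw [ModularCurve.algebraMap_laurentSeries_eq_single]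
  rfl

omit [Algebra ℚ K] in
theorem coeffMap_algebraMap_eq (φ : K →+* ℂ) (c : K) :
    coeffMap φ (algebraMap K (LaurentSeries K) c) = algebraMap ℂ (LaurentSeries ℂ) (φ c) := by
  rw [algebraMap_laurentSeries_eq_single, algebraMap_laurentSeries_eq_single, coeffMap_single]

theorem coeffMap_mem_adjoin (φ : K →+* ℂ) (N : ℕ) {θ : LaurentSeries K}
    (hθ : θ ∈ Algebra.adjoin K {f | ∃ d, d ∣ N ∧ f = Jser K d}) :
    coeffMap φ θ ∈ Algebra.adjoin ℂ {f | ∃ d, d ∣ N ∧ f = Jser ℂ d} := by
  induction hθ using Algebra.adjoin_induction with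
  | mem x hx =>
      obtain ⟨d, hd, rfl⟩ := hx
      rw [coeffMap_Jser]
      exact Algebra.subset_adjoin ⟨d, hd, rfl⟩
  | algebraMap r =>
      rw [coeffMap_algebraMap_eq]
      exact Subalgebra.algebraMap_mem _ _
  | add x y _ _ hx hy => rw [map_add]; exact add_mem hx hy
  | mul x y _ _ hx hy => rw [map_mul]; exact mul_mem hx hy

/-- Every element of the `K`-algebra generated by the `j(q^d)` satisfies a relation of degree
at most the index of `Γ₀(N)` over `K[j]`. -/
theorem not_linearIndependent_of_mem (φ : K →+* ℂ) (N : ℕ) [NeZero N] (θ : FK K N)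
    (hθ : θ ∈ Algebra.adjoin K (gens K N)) :
    ∃ D : ℕ, ¬ LinearIndependent K
      (fun ik : Fin (D + 1) × Fin (Nat.card (X0 N) + 1) =>
        xgen K N ^ (ik.1 : ℕ) * θ ^ (ik.2 : ℕ)) := by
  have h1 : ((θ : FK K N) : LaurentSeries K) ∈
      Algebra.adjoin K {f | ∃ d, d ∣ N ∧ f = Jser K d} := by
    rw [← val_image_gens, Algebra.adjoin_image]
    exact ⟨θ, hθ, rfl⟩
  have h2 := coeffMap_mem_adjoin φ N h1
  obtain ⟨p, hpm, hpn, hp⟩ := exists_monic_norm_poly N _ h2
  generalize Nat.card (X0 N) = n at hpn ⊢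
  -- a uniform bound for the degrees of the coefficients
  let D : ℕ := (Finset.range (n + 1)).sup fun k => (p.coeff k).natDegree
  have hD : ∀ k ∈ Finset.range (n + 1), (p.coeff k).natDegree < D + 1 := fun k hk =>
    Nat.lt_succ_of_le (Finset.le_sup (f := fun k => (p.coeff k).natDegree) hk)
  refine ⟨D, fun hli => ?_⟩
  let c : Fin (D + 1) × Fin (n + 1) → ℂ := fun ik => (p.coeff ik.2).coeff ik.1
  have hc : c ≠ 0 := by
    intro h0
    have h3 : c (0, Fin.last n) = 0 := by rw [h0]; rfl
    have h4 : p.coeff n = 1 := by rw [← hpn]; exact hpm.coeff_natDegree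
    simp only [c, Fin.val_last, Fin.val_zero] at h3
    rw [h4, coeff_one_zero] at h3
    exact one_ne_zero h3
  let f : Fin (D + 1) × Fin (n + 1) → LaurentSeries K := fun ik =>
    Jser K 1 ^ (ik.1 : ℕ) * (θ : LaurentSeries K) ^ (ik.2 : ℕ)
  have hsum : ∑ ik, HahnSeries.C (c ik) * coeffMap φ (f ik) = 0 := by
    refine Eq.trans ?_ hp
    rw [eval₂_eq_sum_range, hpn, Fintype.sum_prod_type, Finset.sum_comm, Finset.sum_range]
    refine Finset.sum_congr rfl fun k _ => ?_
    have h5 : (Polynomial.aeval (Jser ℂ 1) : Polynomial ℂ →ₐ[ℂ] LaurentSeries ℂ).toRingHom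
        (p.coeff k) = ∑ i : Fin (D + 1), HahnSeries.C ((p.coeff k).coeff i) * Jser ℂ 1 ^ (i : ℕ) := by
      show Polynomial.aeval (Jser ℂ 1) (p.coeff k) = _
      rw [aeval_eq_sum_range' (hD k (Finset.mem_range.mpr k.2)), Finset.sum_range]
      refine Finset.sum_congr rfl fun i _ => ?_
      rw [Algebra.smul_def, algebraMap_eq_C]
    rw [h5, Finset.sum_mul]
    refine Finset.sum_congr rfl fun i _ => ?_
    simp only [f, c, map_mul, map_pow]
    rw [coeffMap_Jser, mul_assoc]
  obtain ⟨k, hk, hk0⟩ := exists_relation_of_coeffMap φ f c hc hsum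
  apply hk
  rw [Fintype.linearIndependent_iff] at hli
  funext ik
  refine hli k ?_ ik
  have hinj : Function.Injective (FK K N).val := (FK K N).val.injective
  apply hinj
  rw [map_sum, map_zero, ← hk0]
  refine Finset.sum_congr rfl fun ik _ => ?_
  rw [Algebra.smul_def, map_mul, map_mul, map_pow, map_pow]
  show algebraMap K (LaurentSeries K) (k ik) * ((xgen K N : LaurentSeries K) ^ _ * _) = _
  rw [coe_xgen, algebraMap_eq_C]
  rfl

end Upper

/-! ### The lower bound -/

section Lower

/-- Taylor expansion at `τ0` (in the Cayley coordinate), with values in Laurent series. -/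
noncomputable def tayL (τ0 : ℍ) : holAlg →ₐ[ℂ] LaurentSeries ℂ :=
  { (HahnSeries.ofPowerSeries ℤ ℂ).comp (taylorCay τ0).toRingHom with
    commutes' := fun c => by
      show HahnSeries.ofPowerSeries ℤ ℂ (taylorCay τ0 (algebraMap ℂ holAlg c)) = _
      rw [AlgHom.commutes, HahnSeries.algebraMap_apply'] }

theorem tayL_apply (τ0 : ℍ) (f : holAlg) :
    tayL τ0 f = HahnSeries.ofPowerSeries ℤ ℂ (taylorCay τ0 f) := rfl

theorem tayL_injective (τ0 : ℍ) : Function.Injective (tayL τ0) := fun _ _ h =>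
  taylorCay_injective τ0 (HahnSeries.ofPowerSeries_injective h)

theorem jT_one_eq (g g' : SL(2, ℤ)) : jT 1 g = jT 1 g' := by
  have h : ∀ γ : SL(2, ℤ), jT 1 γ = jd 1 := fun γ =>
    jT_of_mem_Gamma0 (N := 1) (one_dvd 1)
      (CongruenceSubgroup.Gamma0_mem.mpr (Subsingleton.elim _ _))
  rw [h, h]

theorem card_X0_le_finrank (K : Type*) [Field K] [Algebra ℚ K] (φ : K →+* ℂ) (N : ℕ) [NeZero N]
    [FiniteDimensional K⟮xgen K N⟯ (FK K N)] :
    Nat.card (X0 N) ≤ Module.finrank K⟮xgen K N⟯ (FK K N) := by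
  rcases finite_or_infinite (X0 N) with hfin | hinf
  swap
  · rw [Nat.card_eq_zero_of_infinite]
    exact Nat.zero_le _
  have hmem : ∀ (g : SL(2, ℤ)) (d : ℕ), d ∣ N → jT d g ∈ holAlg := fun g d _ =>
    jT_mdifferentiable d g
  choose Ψ hΨK hΨJ using fun g : SL(2, ℤ) =>
    exists_embedding φ N holAlg (tayL UpperHalfPlane.I) (tayL_injective _) g (hmem g)
  refine card_le_finrank_of_embeddings (xgen K N) (fun q : X0 N => Ψ (q.out)⁻¹) ?_ ?_ ?_
  · intro q q' h
    have h1 : Ψ (q.out)⁻¹ (Jgen K N N) = Ψ (q'.out)⁻¹ (Jgen K N N) :=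
      congrArg (fun ψ : FK K N →+* LaurentSeries ℂ => ψ (Jgen K N N)) h
    rw [hΨJ _ N dvd_rfl, hΨJ _ N dvd_rfl] at h1
    have h2 := congrArg Subtype.val (tayL_injective _ h1)
    have h3 := coset_eq_of_jT_inv_eq (NeZero.pos N) h2
    rwa [QuotientGroup.out_eq', QuotientGroup.out_eq'] at h3
  · intro k l c
    rw [hΨK, hΨK]
  · intro k l
    show Ψ _ (Jgen K N 1) = Ψ _ (Jgen K N 1)
    rw [hΨJ _ 1 (one_dvd N), hΨJ _ 1 (one_dvd N)]
    exact congrArg (tayL _) (Subtype.ext (jT_one_eq _ _))

end Lower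

theorem finrank_FK_aux (K : Type*) [Field K] [Algebra ℚ K] (φ : K →+* ℂ) (N : ℕ) [NeZero N] :
    FiniteDimensional K⟮xgen K N⟯ (FK K N) ∧
      Module.finrank K⟮xgen K N⟯ (FK K N) = Nat.card (X0 N) := by
  have : CharZero K := algebraRat.charZero K
  obtain ⟨hfin, hle⟩ := finrank_le_of_adjoin (transcendental_xgen K N) (gens K N)
    (xgen_mem_gens K N) (adjoin_gens_eq_top K N) (Nat.card (X0 N))
    (fun θ hθ => not_linearIndependent_of_mem φ N θ hθ)
  exact ⟨hfin, le_antisymm hle (card_X0_le_finrank K φ N)⟩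

end Degree

/-- The modular function field `F = K(j(q^d) : d ∣ N)` is finite over `K(j)`. -/
theorem finiteDimensional_FK (K : Type*) [Field K] [Algebra ℚ K] (φ : K →+* ℂ) (N : ℕ)
    [NeZero N] : FiniteDimensional K⟮xgen K N⟯ (FK K N) :=
  (Degree.finrank_FK_aux K φ N).1

/-- **The degree of the modular function field.** `[F : K(j)]` is the index of `Γ₀(N)` in
`SL(2, ℤ)`. -/
theorem finrank_FK (K : Type*) [Field K] [Algebra ℚ K] (φ : K →+* ℂ) (N : ℕ) [NeZero N] :
    Module.finrank K⟮xgen K N⟯ (FK K N) = Nat.card (X0 N) :=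
  (Degree.finrank_FK_aux K φ N).2

end Fermat.Agent.S24
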