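import Mathlib
import Fermat.Prelude.Def_ModularCurve_X0

/-!
# S24: the coefficientwise twist `t ↦ ζ t` of Laurent series

`lsTwist ζ hζ : LaurentSeries C →+* LaurentSeries C` multiplies the coefficient of `t ^ m` by
`ζ ^ m`.
-/

set_option autoImplicit false

namespace Fermat.Agent.S24

variable {C : Type*} [Field C]

/-- The underlying function of `lsTwist`. -/
noncomputable def lsTwistFun (ζ : C) (f : LaurentSeries C) : LaurentSeries C where
  coeff m := ζ ^ m * f.coeff m
  isPWO_support' := f.isPWO_support.mono fun m hm => by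
    simp only [Function.mem_support, ne_eq, HahnSeries.mem_support] at hm ⊢
    exact right_ne_zero_of_mul hm

theorem coeff_lsTwistFun (ζ : C) (f : LaurentSeries C) (m : ℤ) :
    (lsTwistFun ζ f).coeff m = ζ ^ m * f.coeff m := rfl

theorem support_lsTwistFun {ζ : C} (hζ : ζ ≠ 0) (f : LaurentSeries C) :
    (lsTwistFun ζ f).support = f.support := by
  ext m
  simp only [HahnSeries.mem_support, coeff_lsTwistFun, ne_eq, mul_eq_zero, not_or]
  exact ⟨fun h => h.2, fun h => ⟨zpow_ne_zero m hζ, h⟩⟩

/-- The coefficientwise twist by `ζ ≠ 0`, a ring endomorphism of the Laurent series. -/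
noncomputable def lsTwist (ζ : C) (hζ : ζ ≠ 0) : LaurentSeries C →+* LaurentSeries C where
  toFun := lsTwistFun ζ
  map_one' := by
    ext m
    rw [coeff_lsTwistFun, HahnSeries.coeff_one]
    split_ifs with h
    · subst h
      simp
    · simp
  map_mul' f g := by
    ext m
    rw [coeff_lsTwistFun, HahnSeries.coeff_mul, HahnSeries.coeff_mul, Finset.mul_sum]
    have hA : Finset.antidiagonal (lsTwistFun ζ f).isPWO_support
        (lsTwistFun ζ g).isPWO_support m
        = Finset.antidiagonal f.isPWO_support g.isPWO_support m := by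
      ext ij
      simp only [Finset.mem_antidiagonal, support_lsTwistFun hζ]
    rw [hA]
    refine Finset.sum_congr rfl fun ij hij => ?_
    rw [Finset.mem_antidiagonal] at hij
    rw [coeff_lsTwistFun, coeff_lsTwistFun, ← hij.2.2, zpow_add₀ hζ]
    ring
  map_zero' := by
    ext m
    simp [coeff_lsTwistFun]
  map_add' f g := by
    ext m
    simp [coeff_lsTwistFun, mul_add]

theorem coeff_lsTwist (ζ : C) (hζ : ζ ≠ 0) (f : LaurentSeries C) (m : ℤ) :
    (lsTwist ζ hζ f).coeff m = ζ ^ m * f.coeff m := rfl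

theorem lsTwist_C (ζ : C) (hζ : ζ ≠ 0) (a : C) :
    lsTwist ζ hζ (HahnSeries.C a) = HahnSeries.C a := by
  ext m
  rw [coeff_lsTwist, HahnSeries.C_apply, HahnSeries.coeff_single]
  split_ifs with h
  · subst h
    simp
  · simp

theorem lsTwist_ofPowerSeries (ζ : C) (hζ : ζ ≠ 0) (p : PowerSeries C) :
    lsTwist ζ hζ (HahnSeries.ofPowerSeries ℤ C p)
      = HahnSeries.ofPowerSeries ℤ C (PowerSeries.rescale ζ p) := by
  ext m
  rw [coeff_lsTwist]
  rcases le_or_gt 0 m with hm | hm
  · lift m to ℕ using hm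
    rw [HahnSeries.ofPowerSeries_apply_coeff, HahnSeries.ofPowerSeries_apply_coeff,
      PowerSeries.coeff_rescale, zpow_natCast]
  · rw [ModularCurve.ofPowerSeries_coeff_of_neg _ hm, ModularCurve.ofPowerSeries_coeff_of_neg _ hm,
      mul_zero]

theorem support_lsTwist (ζ : C) (hζ : ζ ≠ 0) (f : LaurentSeries C) :
    (lsTwist ζ hζ f).support = f.support := support_lsTwistFun hζ f

theorem lsTwist_injective (ζ : C) (hζ : ζ ≠ 0) : Function.Injective (lsTwist ζ hζ) :=
  (lsTwist ζ hζ).injective

theorem order_lsTwist (ζ : C) (hζ : ζ ≠ 0) (f : LaurentSeries C) :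
    (lsTwist ζ hζ f).order = f.order := by
  by_cases hf : f = 0
  · subst hf
    rw [map_zero]
  · have hf' : lsTwist ζ hζ f ≠ 0 := fun h => hf (lsTwist_injective ζ hζ (by rw [h, map_zero]))
    rw [HahnSeries.order_of_ne hf', HahnSeries.order_of_ne hf]
    congr 1
    exact support_lsTwist ζ hζ f

theorem lsTwist_one_apply (f : LaurentSeries C) : lsTwist (1 : C) one_ne_zero f = f := by
  ext m
  rw [coeff_lsTwist, one_zpow, one_mul]

/-- A ring hom into Laurent series whose coefficients are those of another one twisted by `ζ`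
is the composite with `lsTwist`. -/
theorem eq_lsTwist_of_coeff (ζ : C) (hζ : ζ ≠ 0) (x y : LaurentSeries C)
    (h : ∀ m : ℤ, x.coeff m = ζ ^ m * y.coeff m) : x = lsTwist ζ hζ y := by
  ext m
  rw [coeff_lsTwist, h]

end Fermat.Agent.S24
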