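import Mathlib
import Fermat.Agent.S24.EmbFinite
import Fermat.Agent.S24.TaylorCay
import Fermat.Agent.S24.TranslatesJ
import Fermat.Agent.S24.LsTwist

/-!
# S24, side B: the embeddings of the function field of `X₀(N)` at a point of the upper half plane

For `τ0 : ℍ` and `g ∈ SL(2, ℤ)`, `embAt φ N τ0 g : FK K N →+* ℂ((t))` sends the generator `j(q^d)`
to the Taylor expansion at `τ0` (in the Cayley coordinate) of `z ↦ j(d g⁻¹ z)`.  It only depends
on the coset `g Γ₀(N)`, distinct cosets give distinct embeddings (`embX`, `embX_injective`), and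
an element `γ0` fixing `τ0` acts on the family by a twist (`embX_twist`).
-/

set_option autoImplicit false

open UpperHalfPlane ModularCurve
open scoped MatrixGroups

namespace Fermat.Agent.S24

/-! ### The embeddings at a point of the upper half plane -/

section Taylor

/-- The Taylor expansion at `τ0` (in the Cayley coordinate), with values in Laurent series. -/
noncomputable def taylorLaurent (τ0 : ℍ) : holAlg →ₐ[ℂ] LaurentSeries ℂ where
  toRingHom := (HahnSeries.ofPowerSeries ℤ ℂ).comp (taylorCay τ0).toRingHom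
  commutes' c := by
    show HahnSeries.ofPowerSeries ℤ ℂ (taylorCay τ0 (algebraMap ℂ holAlg c)) = _
    rw [AlgHom.commutes, HahnSeries.algebraMap_apply']

theorem taylorLaurent_apply (τ0 : ℍ) (f : holAlg) :
    taylorLaurent τ0 f = HahnSeries.ofPowerSeries ℤ ℂ (taylorCay τ0 f) := rfl

theorem taylorLaurent_injective (τ0 : ℍ) : Function.Injective (taylorLaurent τ0) :=
  HahnSeries.ofPowerSeries_injective.comp (taylorCay_injective τ0)

theorem jT_mem_holAlg (d : ℕ) (γ : SL(2, ℤ)) : jT d γ ∈ holAlg :=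
  mem_holAlg.mpr (jT_mdifferentiable d γ)

/-- The translate `jT d γ` as an element of the algebra of holomorphic functions. -/
noncomputable def jTHol (d : ℕ) (γ : SL(2, ℤ)) : holAlg := ⟨jT d γ, jT_mem_holAlg d γ⟩

theorem coe_jTHol (d : ℕ) (γ : SL(2, ℤ)) : ((jTHol d γ : holAlg) : ℍ → ℂ) = jT d γ := rfl

theorem holComp_jTHol (d : ℕ) (γ γ0 : SL(2, ℤ)) : holComp γ0 (jTHol d γ) = jTHol d (γ * γ0) := by
  apply Subtype.ext
  funext z
  rw [holComp_apply, coe_jTHol, coe_jTHol, jT_mul]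

variable {K : Type*} [Field K] [Algebra ℚ K]

/-- The embedding of `FK K N` into `ℂ((t))` attached to `g ∈ SL(2, ℤ)` and the point `τ0`: the
generator `j(q^d)` is sent to the Taylor expansion at `τ0` of `z ↦ j(d g⁻¹ z)`. -/
noncomputable def embAt (φ : K →+* ℂ) (N : ℕ) [NeZero N] (τ0 : ℍ) (g : SL(2, ℤ)) :
    FK K N →+* LaurentSeries ℂ :=
  Classical.choose (exists_embedding φ N holAlg (taylorLaurent τ0) (taylorLaurent_injective τ0)
    g⁻¹ (fun d _ => jT_mem_holAlg d g⁻¹))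

theorem embAt_algebraMap (φ : K →+* ℂ) (N : ℕ) [NeZero N] (τ0 : ℍ) (g : SL(2, ℤ)) (a : K) :
    embAt φ N τ0 g (algebraMap K (FK K N) a) = HahnSeries.C (φ a) :=
  (Classical.choose_spec (exists_embedding φ N holAlg (taylorLaurent τ0)
    (taylorLaurent_injective τ0) g⁻¹ (fun d _ => jT_mem_holAlg d g⁻¹))).1 a

theorem embAt_Jgen (φ : K →+* ℂ) (N : ℕ) [NeZero N] (τ0 : ℍ) (g : SL(2, ℤ)) {d : ℕ}
    (hd : d ∣ N) :
    embAt φ N τ0 g (Jgen K N d) = HahnSeries.ofPowerSeries ℤ ℂ (taylorCay τ0 (jTHol d g⁻¹)) :=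
  (Classical.choose_spec (exists_embedding φ N holAlg (taylorLaurent τ0)
    (taylorLaurent_injective τ0) g⁻¹ (fun d _ => jT_mem_holAlg d g⁻¹))).2 d hd

/-- `embAt φ N τ0 g` only depends on the coset `g Γ₀(N)`. -/
theorem embAt_eq_of_coset_eq (φ : K →+* ℂ) (N : ℕ) [NeZero N] (τ0 : ℍ) {g g' : SL(2, ℤ)}
    (h : (g : X0 N) = g') : embAt φ N τ0 g = embAt φ N τ0 g' := by
  apply FK_ringHom_ext
  · intro a
    rw [embAt_algebraMap, embAt_algebraMap]
  · intro d hd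
    rw [embAt_Jgen φ N τ0 g hd, embAt_Jgen φ N τ0 g' hd]
    have h1 : jTHol d g⁻¹ = jTHol d g'⁻¹ := Subtype.ext (jT_inv_eq_of_coset_eq hd h)
    rw [h1]

/-- `embAt φ N τ0 g` determines the coset `g Γ₀(N)`. -/
theorem coset_eq_of_embAt_eq (φ : K →+* ℂ) (N : ℕ) [NeZero N] (τ0 : ℍ) {g g' : SL(2, ℤ)}
    (h : embAt φ N τ0 g = embAt (K := K) φ N τ0 g') : (g : X0 N) = g' := by
  have h1 := DFunLike.congr_fun h (Jgen K N N)
  rw [embAt_Jgen φ N τ0 g dvd_rfl, embAt_Jgen φ N τ0 g' dvd_rfl] at h1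
  have h2 : jTHol N g⁻¹ = jTHol N g'⁻¹ :=
    taylorCay_injective τ0 (HahnSeries.ofPowerSeries_injective h1)
  exact coset_eq_of_jT_inv_eq (NeZero.pos N) (congrArg Subtype.val h2)

/-- **Twist**: if `γ0` fixes `τ0`, then replacing `g` by `γ0⁻¹ * g` twists the embedding by the
multiplier `cayTwist γ0 τ0`. -/
theorem embAt_inv_mul (φ : K →+* ℂ) (N : ℕ) [NeZero N] (τ0 : ℍ) (γ0 : SL(2, ℤ))
    (hγ0 : γ0 • τ0 = τ0) (hζ : cayTwist γ0 τ0 ≠ 0) (g : SL(2, ℤ)) :
    embAt (K := K) φ N τ0 (γ0⁻¹ * g) = (lsTwist (cayTwist γ0 τ0) hζ).comp (embAt φ N τ0 g) := by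
  apply FK_ringHom_ext
  · intro a
    rw [RingHom.comp_apply, embAt_algebraMap, embAt_algebraMap, lsTwist_C]
  · intro d hd
    rw [RingHom.comp_apply, embAt_Jgen φ N τ0 _ hd, embAt_Jgen φ N τ0 g hd,
      lsTwist_ofPowerSeries, ← taylorCay_holComp τ0 γ0 hγ0, holComp_jTHol]
    have h1 : (γ0⁻¹ * g)⁻¹ = g⁻¹ * γ0 := by group
    rw [h1]

theorem cayTwist_ne_zero {γ0 : SL(2, ℤ)} {τ0 : ℍ} (hγ0 : γ0 • τ0 = τ0) : cayTwist γ0 τ0 ≠ 0 := by
  intro h
  have h1 := norm_cayTwist γ0 τ0 hγ0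
  rw [h, norm_zero] at h1
  exact zero_ne_one h1

/-- The family of embeddings at `τ0`, indexed by the cosets `SL(2, ℤ) ⧸ Γ₀(N)`. -/
noncomputable def embX (φ : K →+* ℂ) (N : ℕ) [NeZero N] (τ0 : ℍ) (q : X0 N) :
    FK K N →+* LaurentSeries ℂ :=
  embAt φ N τ0 (Quotient.out q)

theorem embX_mk (φ : K →+* ℂ) (N : ℕ) [NeZero N] (τ0 : ℍ) (g : SL(2, ℤ)) :
    embX (K := K) φ N τ0 (g : X0 N) = embAt φ N τ0 g :=
  embAt_eq_of_coset_eq φ N τ0 (QuotientGroup.out_eq' (g : X0 N))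

theorem embX_injective (φ : K →+* ℂ) (N : ℕ) [NeZero N] (τ0 : ℍ) :
    Function.Injective (embX (K := K) φ N τ0) := by
  intro q q' h
  have h1 := coset_eq_of_embAt_eq φ N τ0 h
  rwa [QuotientGroup.out_eq', QuotientGroup.out_eq'] at h1

theorem embX_algebraMap (φ : K →+* ℂ) (N : ℕ) [NeZero N] (τ0 : ℍ) (q : X0 N) (a : K) :
    embX φ N τ0 q (algebraMap K (FK K N) a) = HahnSeries.C (φ a) :=
  embAt_algebraMap φ N τ0 _ a

/-- The coordinate `x = j` is sent to the Taylor expansion of the `j`-function at `τ0`, by all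
the embeddings. -/
theorem embX_xgen (φ : K →+* ℂ) (N : ℕ) [NeZero N] (τ0 : ℍ) (q : X0 N) :
    embX φ N τ0 q (xgen K N)
      = HahnSeries.ofPowerSeries ℤ ℂ (taylorCay τ0 ⟨jFun, mem_holAlg.mpr jFun_mdifferentiable⟩) := by
  have h1 : ∀ γ : SL(2, ℤ), jTHol 1 γ = ⟨jFun, mem_holAlg.mpr jFun_mdifferentiable⟩ := by
    intro γ
    apply Subtype.ext
    funext z
    rw [coe_jTHol, jT, jd_one, jFun_smul]
  rw [embX, xgen, embAt_Jgen φ N τ0 _ (one_dvd N), h1]

/-- **Twist**: if `γ0` fixes `τ0`, the embedding attached to the coset `γ0⁻¹ q` is the twist of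
the embedding attached to `q` by the multiplier of `γ0` at `τ0`. -/
theorem embX_twist (φ : K →+* ℂ) (N : ℕ) [NeZero N] (τ0 : ℍ) (γ0 : SL(2, ℤ))
    (hγ0 : γ0 • τ0 = τ0) (q : X0 N) (f : FK K N) (m : ℤ) :
    (embX φ N τ0 (cosetPerm N γ0⁻¹ q) f).coeff m
      = cayTwist γ0 τ0 ^ m * (embX φ N τ0 q f).coeff m := by
  induction q using QuotientGroup.induction_on with
  | H g =>
    rw [cosetPerm_mk, embX_mk, embX_mk, embAt_inv_mul φ N τ0 γ0 hγ0 (cayTwist_ne_zero hγ0),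
      RingHom.comp_apply, coeff_lsTwist]

end Taylor

end Fermat.Agent.S24
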