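/-
S24 package A2 (Theorem A''): places of a function field over `y = 0` from a full set of embeddings
into Laurent series; the number of such places is the number of orbits of the twist permutation.
-/
import Mathlib
import Fermat.Prelude.Def_AlgebraicCurve_DivisorClassGroup

set_option autoImplicit false

noncomputable section

namespace Fermat.Agent.S24

open AlgebraicCurve

namespace PlacesEmb

variable {K F : Type*} [Field K] [Field F] [Algebra K F]
variable {C : Type*} [Field C]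

/-- The order of the image of `f` under an embedding into Laurent series (`0` for `f = 0`). -/
def ordE (ι : F →+* LaurentSeries C) (f : F) : ℤ := (ι f).order

theorem ordE_zero (ι : F →+* LaurentSeries C) : ordE ι 0 = 0 := by
  simp [ordE]

theorem ordE_one (ι : F →+* LaurentSeries C) : ordE ι 1 = 0 := by
  simp [ordE]

theorem map_ne_zero' (ι : F →+* LaurentSeries C) {f : F} (hf : f ≠ 0) : ι f ≠ 0 :=
  (map_ne_zero ι).mpr hf

theorem ordE_mul (ι : F →+* LaurentSeries C) {f g : F} (hf : f ≠ 0) (hg : g ≠ 0) :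
    ordE ι (f * g) = ordE ι f + ordE ι g := by
  unfold ordE
  rw [map_mul, HahnSeries.order_mul (map_ne_zero' ι hf) (map_ne_zero' ι hg)]

theorem ordE_inv (ι : F →+* LaurentSeries C) (f : F) : ordE ι f⁻¹ = -ordE ι f := by
  rcases eq_or_ne f 0 with rfl | hf
  · simp [ordE_zero]
  · have h := ordE_mul ι hf (inv_ne_zero hf)
    rw [mul_inv_cancel₀ hf, ordE_one] at h
    linarith

theorem ordE_pow (ι : F →+* LaurentSeries C) (f : F) (n : ℕ) :
    ordE ι (f ^ n) = n * ordE ι f := by
  rcases eq_or_ne f 0 with rfl | hf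
  · rcases Nat.eq_zero_or_pos n with rfl | hn
    · simp [ordE_one]
    · simp [zero_pow hn.ne', ordE_zero]
  · induction n with
    | zero => simp [ordE_one]
    | succ n ih =>
      rw [pow_succ, ordE_mul ι (pow_ne_zero n hf) hf, ih]
      push_cast
      ring

theorem ordE_zpow (ι : F →+* LaurentSeries C) (f : F) (n : ℤ) :
    ordE ι (f ^ n) = n * ordE ι f := by
  obtain ⟨k, rfl | rfl⟩ := n.eq_nat_or_neg
  · rw [zpow_natCast, ordE_pow]
  · rw [zpow_neg, zpow_natCast, ordE_inv, ordE_pow]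
    ring

theorem orderTop_eq_ordE (ι : F →+* LaurentSeries C) {f : F} (hf : f ≠ 0) :
    (ι f).orderTop = (ordE ι f : WithTop ℤ) :=
  (HahnSeries.order_eq_orderTop_of_ne_zero (map_ne_zero' ι hf)).symm

theorem ordE_nonneg_iff (ι : F →+* LaurentSeries C) (f : F) :
    0 ≤ ordE ι f ↔ 0 ≤ (ι f).orderTop :=
  HahnSeries.zero_le_orderTop_iff.symm

/-- The valuation subring of an embedding into Laurent series. -/
def valSubring (ι : F →+* LaurentSeries C) : ValuationSubring F where
  carrier := {f | 0 ≤ (ι f).orderTop}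
  mul_mem' := by
    intro a b ha hb
    show 0 ≤ (ι (a * b)).orderTop
    rw [map_mul, HahnSeries.orderTop_mul]
    exact add_nonneg ha hb
  one_mem' := by simp
  add_mem' := by
    intro a b ha hb
    show 0 ≤ (ι (a + b)).orderTop
    rw [map_add]
    exact (le_min ha hb).trans HahnSeries.min_orderTop_le_orderTop_add
  zero_mem' := by simp
  neg_mem' := by
    intro a ha
    show 0 ≤ (ι (-a)).orderTop
    rw [map_neg, HahnSeries.orderTop_neg]
    exact ha
  mem_or_inv_mem' := by
    intro f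
    show 0 ≤ (ι f).orderTop ∨ 0 ≤ (ι f⁻¹).orderTop
    rw [← ordE_nonneg_iff, ← ordE_nonneg_iff, ordE_inv]
    omega

theorem mem_valSubring_iff (ι : F →+* LaurentSeries C) (f : F) :
    f ∈ valSubring ι ↔ 0 ≤ ordE ι f :=
  (ordE_nonneg_iff ι f).symm

/-- `ι` induces the place `v`: the valuation ring of `v` is the set of elements with image of
nonnegative order. -/
def Induces (ι : F →+* LaurentSeries C) (v : Place K F) : Prop :=
  ∀ f : F, f ∈ v.toValuationSubring ↔ 0 ≤ ordE ι f

theorem Induces.eq {ι : F →+* LaurentSeries C} {v w : Place K F} (hv : Induces ι v)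
    (hw : Induces ι w) : v = w := by
  apply Place.ext
  ext f
  rw [hv f, hw f]

theorem Induces.ordE_unit {ι : F →+* LaurentSeries C} {v : Place K F} (hv : Induces ι v)
    (u : v.toValuationSubringˣ) : ordE ι ((u : v.toValuationSubring) : F) = 0 := by
  have h1 : 0 ≤ ordE ι ((u : v.toValuationSubring) : F) := (hv _).mp (u : v.toValuationSubring).2
  have h2 : 0 ≤ ordE ι (((u⁻¹ : v.toValuationSubringˣ) : v.toValuationSubring) : F) :=
    (hv _).mp ((u⁻¹ : v.toValuationSubringˣ) : v.toValuationSubring).2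
  have h3 : (((u⁻¹ : v.toValuationSubringˣ) : v.toValuationSubring) : F)
      = ((u : v.toValuationSubring) : F)⁻¹ := by
    have h4 : ((u : v.toValuationSubring) : F) *
        (((u⁻¹ : v.toValuationSubringˣ) : v.toValuationSubring) : F) = 1 := by
      have h5 : (u : v.toValuationSubring) * ((u⁻¹ : v.toValuationSubringˣ) : v.toValuationSubring)
          = 1 := u.mul_inv
      exact congrArg (Subtype.val) h5
    exact eq_inv_of_mul_eq_one_right h4
  rw [h3, ordE_inv] at h2
  omega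

theorem Induces.ordE_irreducible_pos {ι : F →+* LaurentSeries C} {v : Place K F}
    (hv : Induces ι v) {ϖ : v.toValuationSubring} (hϖ : Irreducible ϖ) :
    0 < ordE ι (ϖ : F) := by
  by_contra hcon
  have h1 : 0 ≤ ordE ι ((ϖ : F)⁻¹) := by rw [ordE_inv]; omega
  have h2 : (ϖ : F)⁻¹ ∈ v.toValuationSubring := (hv _).mpr h1
  have hϖ0 : (ϖ : F) ≠ 0 := by
    simpa [ne_eq, ZeroMemClass.coe_eq_zero] using hϖ.ne_zero
  apply hϖ.not_isUnit
  refine IsUnit.of_mul_eq_one ⟨(ϖ : F)⁻¹, h2⟩ ?_
  apply Subtype.ext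
  show (ϖ : F) * (ϖ : F)⁻¹ = 1
  exact mul_inv_cancel₀ hϖ0

/-- The order of the image is a positive multiple of the order at the induced place. -/
theorem Induces.ordE_eq {ι : F →+* LaurentSeries C} {v : Place K F}
    (hv : Induces ι v) {ϖ : v.toValuationSubring} (hϖ : Irreducible ϖ) {f : F} (hf : f ≠ 0) :
    ordE ι f = v.ord f * ordE ι (ϖ : F) := by
  obtain ⟨u, hu⟩ := v.exists_unit_mul_zpow hf hϖ
  have hϖ0 : (ϖ : F) ≠ 0 := by
    simpa [ne_eq, ZeroMemClass.coe_eq_zero] using hϖ.ne_zero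
  have hu0 : ((u : v.toValuationSubring) : F) ≠ 0 := by
    simp [ne_eq, ZeroMemClass.coe_eq_zero]
  conv_lhs => rw [hu]
  rw [ordE_mul ι hu0 (zpow_ne_zero _ hϖ0), hv.ordE_unit u, ordE_zpow, zero_add]

theorem Induces.mem_iff_ord_nonneg {ι : F →+* LaurentSeries C} {v : Place K F}
    (hv : Induces ι v) {f : F} (hf : f ≠ 0) : f ∈ v.toValuationSubring ↔ 0 ≤ v.ord f := by
  obtain ⟨ϖ, hϖ⟩ := IsDiscreteValuationRing.exists_irreducible v.toValuationSubring
  have hm := hv.ordE_irreducible_pos hϖ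
  rw [hv f, hv.ordE_eq hϖ hf]
  constructor
  · intro h
    by_contra hneg
    have : v.ord f * ordE ι (ϖ : F) < 0 := mul_neg_of_neg_of_pos (by omega) hm
    omega
  · intro h
    positivity

/-- Constants have order `0`: the multiplicative group of an algebraically closed field is
divisible. -/
theorem ordE_algebraMap [IsAlgClosed K] (ι : F →+* LaurentSeries C) (a : K) :
    ordE ι (algebraMap K F a) = 0 := by
  obtain ⟨b, hb⟩ := IsAlgClosed.exists_pow_nat_eq a
    (n := (ordE ι (algebraMap K F a)).natAbs + 1) (Nat.succ_pos _)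
  have h1 : ordE ι (algebraMap K F a) = (((ordE ι (algebraMap K F a)).natAbs + 1 : ℕ) : ℤ) *
      ordE ι (algebraMap K F b) := by
    conv_lhs => rw [← hb, map_pow, ordE_pow]
  have h2 := congrArg Int.natAbs h1
  rw [Int.natAbs_mul, Int.natAbs_natCast] at h2
  rcases Nat.eq_zero_or_pos (ordE ι (algebraMap K F b)).natAbs with h3 | h3
  · rw [h3, mul_zero] at h2
    exact Int.natAbs_eq_zero.mp h2
  · exfalso
    have h4 : (ordE ι (algebraMap K F a)).natAbs + 1 ≤
        ((ordE ι (algebraMap K F a)).natAbs + 1) * (ordE ι (algebraMap K F b)).natAbs :=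
      Nat.le_mul_of_pos_right _ h3
    omega

theorem isPrincipalIdealRing_valSubring (ι : F →+* LaurentSeries C) :
    IsPrincipalIdealRing (valSubring ι) := by
  classical
  refine ⟨fun I => ?_⟩
  by_cases hI : I = ⊥
  · rw [hI]; exact bot_isPrincipal
  have hex : ∃ n : ℕ, ∃ f ∈ I, f ≠ 0 ∧ ordE ι (f : F) = n := by
    obtain ⟨f, hfI, hf0⟩ := Submodule.exists_mem_ne_zero_of_ne_bot hI
    have h0 : 0 ≤ ordE ι (f : F) := (mem_valSubring_iff ι _).mp f.2
    exact ⟨(ordE ι (f : F)).toNat, f, hfI, hf0, (Int.toNat_of_nonneg h0).symm⟩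
  obtain ⟨f0, hf0I, hf00, hf0n⟩ := Nat.find_spec hex
  have hf00' : (f0 : F) ≠ 0 := by
    simpa [ne_eq, ZeroMemClass.coe_eq_zero] using hf00
  refine ⟨⟨f0, le_antisymm ?_ ?_⟩⟩
  · intro g hg
    rcases eq_or_ne g 0 with rfl | hg0
    · exact Submodule.zero_mem _
    have hg0' : (g : F) ≠ 0 := by
      simpa [ne_eq, ZeroMemClass.coe_eq_zero] using hg0
    have h0 : 0 ≤ ordE ι (g : F) := (mem_valSubring_iff ι _).mp g.2
    have hmin : Nat.find hex ≤ (ordE ι (g : F)).toNat :=
      Nat.find_min' hex ⟨g, hg, hg0, (Int.toNat_of_nonneg h0).symm⟩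
    have hq : (g : F) * (f0 : F)⁻¹ ∈ valSubring ι := by
      rw [mem_valSubring_iff, ordE_mul ι hg0' (inv_ne_zero hf00'), ordE_inv, hf0n]
      have : ((Nat.find hex : ℕ) : ℤ) ≤ ((ordE ι (g : F)).toNat : ℤ) := by exact_mod_cast hmin
      rw [Int.toNat_of_nonneg h0] at this
      omega
    show g ∈ Ideal.span {f0}
    rw [Ideal.mem_span_singleton']
    refine ⟨⟨_, hq⟩, ?_⟩
    apply Subtype.ext
    show (g : F) * (f0 : F)⁻¹ * (f0 : F) = g
    rw [inv_mul_cancel_right₀ hf00']
  · show Ideal.span {f0} ≤ I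
    rw [Ideal.span_singleton_le_iff_mem]
    exact hf0I

/-- The place of an embedding into Laurent series under which some element has positive order. -/
def placeOf [IsAlgClosed K] (ι : F →+* LaurentSeries C) (y : F) (hy : 0 < ordE ι y) :
    Place K F where
  toValuationSubring := valSubring ι
  algebraMap_mem' := fun a => (mem_valSubring_iff ι _).mpr (by rw [ordE_algebraMap])
  ne_top' := by
    intro h
    have h1 : y⁻¹ ∈ valSubring ι := by rw [h]; exact ValuationSubring.mem_top _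
    rw [mem_valSubring_iff, ordE_inv] at h1
    omega
  isPrincipalIdealRing' := isPrincipalIdealRing_valSubring ι

theorem induces_placeOf [IsAlgClosed K] (ι : F →+* LaurentSeries C) (y : F) (hy : 0 < ordE ι y) :
    Induces ι (placeOf (K := K) ι y hy) :=
  fun f => mem_valSubring_iff ι f

theorem mem_placeOf_iff [IsAlgClosed K] (ι : F →+* LaurentSeries C) (y : F) (hy : 0 < ordE ι y)
    (f : F) : f ∈ (placeOf (K := K) ι y hy).toValuationSubring ↔ 0 ≤ (ι f).order :=
  mem_valSubring_iff ι f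

/-! ### Powers and geometric sums of Laurent series with a given leading term -/

theorem pow_lead {P : LaurentSeries C} (hP : P ≠ 0) (i : ℕ) :
    (P ^ i).order = i * P.order ∧ (P ^ i).leadingCoeff = P.leadingCoeff ^ i := by
  induction i with
  | zero => simp
  | succ i ih =>
    rw [pow_succ, HahnSeries.order_mul (pow_ne_zero i hP) hP, HahnSeries.leadingCoeff_mul,
      ih.1, ih.2, pow_succ]
    refine ⟨?_, rfl⟩
    push_cast
    ring

theorem orderTop_geom_sum {P₁ P₂ : LaurentSeries C} (h₁ : P₁ ≠ 0) (h₂ : P₂ ≠ 0)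
    (ho : P₁.order = P₂.order) (hlc : P₁.leadingCoeff = P₂.leadingCoeff) (E : ℕ)
    (hE : (E : C) ≠ 0) :
    (∑ i ∈ Finset.range E, P₁ ^ i * P₂ ^ (E - 1 - i)).orderTop =
      ((((E : ℤ) - 1) * P₂.order : ℤ) : WithTop ℤ) := by
  set S := ∑ i ∈ Finset.range E, P₁ ^ i * P₂ ^ (E - 1 - i) with hS
  have hterm : ∀ i ∈ Finset.range E, (P₁ ^ i * P₂ ^ (E - 1 - i)).order = ((E : ℤ) - 1) * P₂.order ∧
      (P₁ ^ i * P₂ ^ (E - 1 - i)).leadingCoeff = P₂.leadingCoeff ^ (E - 1) := by
    intro i hi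
    have hi' : i < E := Finset.mem_range.mp hi
    rw [HahnSeries.order_mul (pow_ne_zero _ h₁) (pow_ne_zero _ h₂), HahnSeries.leadingCoeff_mul,
      (pow_lead h₁ i).1, (pow_lead h₁ i).2, (pow_lead h₂ _).1, (pow_lead h₂ _).2, ho, hlc,
      ← pow_add]
    refine ⟨?_, by congr 1; omega⟩
    have : ((E - 1 - i : ℕ) : ℤ) = (E : ℤ) - 1 - i := by omega
    rw [this]
    ring
  have hc : S.coeff (((E : ℤ) - 1) * P₂.order) = (E : C) * P₂.leadingCoeff ^ (E - 1) := by
    rw [hS, HahnSeries.coeff_sum]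
    rw [Finset.sum_congr rfl (g := fun _ => P₂.leadingCoeff ^ (E - 1))]
    · simp
    · intro i hi
      rw [← (hterm i hi).2, HahnSeries.leadingCoeff_eq, (hterm i hi).1]
  have hc0 : S.coeff (((E : ℤ) - 1) * P₂.order) ≠ 0 := by
    rw [hc]
    exact mul_ne_zero hE (pow_ne_zero _ (HahnSeries.leadingCoeff_ne_zero.mpr h₂))
  have hS0 : S ≠ 0 := by
    intro h
    rw [h] at hc0
    exact hc0 rfl
  rw [← HahnSeries.order_eq_orderTop_of_ne_zero hS0]
  congr 1
  refine le_antisymm (HahnSeries.order_le_of_coeff_ne_zero hc0) ?_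
  rw [HahnSeries.le_order_iff_forall hS0]
  intro j hj
  rw [hS, HahnSeries.coeff_sum]
  refine Finset.sum_eq_zero fun i hi => ?_
  exact HahnSeries.coeff_eq_zero_of_lt_order (by rw [(hterm i hi).1]; exact hj)

/-! ### Rigidity: an embedding inducing `v` is determined by the leading coefficient of the image
of a uniformizer -/

section Rigidity

variable {v : Place K F} {ι₁ ι₂ : F →+* LaurentSeries C}

theorem coe_irreducible_ne_zero {ϖ : v.toValuationSubring} (hϖ : Irreducible ϖ) :
    (ϖ : F) ≠ 0 := by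
  simpa [ne_eq, ZeroMemClass.coe_eq_zero] using hϖ.ne_zero

theorem min_le_orderTop_sub (hv₁ : Induces ι₁ v) (hv₂ : Induces ι₂ v)
    (hK : ∀ a : K, ι₁ (algebraMap K F a) = ι₂ (algebraMap K F a))
    (hres : ∀ f : F, f ∈ v.toValuationSubring →
      ∃ a : K, 0 < v.ord (f - algebraMap K F a) ∨ f = algebraMap K F a)
    {ϖ : v.toValuationSubring} (hϖ : Irreducible ϖ) (j : ℕ) :
    ∀ f : F, f ∈ v.toValuationSubring →
      min (ι₁ (ϖ : F) - ι₂ (ϖ : F)).orderTop ((((j : ℤ) * ordE ι₂ (ϖ : F) : ℤ)) : WithTop ℤ) ≤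
        (ι₁ f - ι₂ f).orderTop := by
  have hϖ0 : (ϖ : F) ≠ 0 := coe_irreducible_ne_zero hϖ
  induction j with
  | zero =>
    intro f hf
    have h1 : 0 ≤ (ι₁ f).orderTop := (ordE_nonneg_iff ι₁ f).mp ((hv₁ f).mp hf)
    have h2 : 0 ≤ (ι₂ f).orderTop := (ordE_nonneg_iff ι₂ f).mp ((hv₂ f).mp hf)
    refine le_trans ?_ ((le_min h1 h2).trans HahnSeries.min_orderTop_le_orderTop_sub)
    simp
  | succ j ih =>
    intro f hf
    obtain ⟨a, ha⟩ := hres f hf
    have hf₁mem : (f - algebraMap K F a) * (ϖ : F)⁻¹ ∈ v.toValuationSubring := by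
      rcases ha with ha | ha
      · have hne : f - algebraMap K F a ≠ 0 := by
          intro h
          rw [h, v.ord_zero] at ha
          exact lt_irrefl _ ha
        have hne' : (f - algebraMap K F a) * (ϖ : F)⁻¹ ≠ 0 := mul_ne_zero hne (inv_ne_zero hϖ0)
        rw [hv₁.mem_iff_ord_nonneg hne', v.ord_mul hne (inv_ne_zero hϖ0), v.ord_inv,
          v.ord_coe_irreducible hϖ]
        omega
      · rw [ha, sub_self, zero_mul]
        exact zero_mem _
    set f₁ := (f - algebraMap K F a) * (ϖ : F)⁻¹ with hf₁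
    have hfeq : f = algebraMap K F a + ϖ * f₁ := by
      rw [hf₁]
      field_simp
      ring
    have key : ι₁ f - ι₂ f = (ι₁ (ϖ : F) - ι₂ (ϖ : F)) * ι₁ f₁ + ι₂ (ϖ : F) * (ι₁ f₁ - ι₂ f₁) := by
      conv_lhs => rw [hfeq]
      simp only [map_add, map_mul, hK a]
      ring
    rw [key]
    refine le_trans (le_min ?_ ?_) HahnSeries.min_orderTop_le_orderTop_add
    · rw [HahnSeries.orderTop_mul]
      have h1 : 0 ≤ (ι₁ f₁).orderTop := (ordE_nonneg_iff ι₁ f₁).mp ((hv₁ f₁).mp hf₁mem)
      exact (min_le_left _ _).trans (le_add_of_nonneg_right h1)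
    · rw [HahnSeries.orderTop_mul, orderTop_eq_ordE ι₂ hϖ0]
      have h2 := ih f₁ hf₁mem
      refine le_trans ?_ (add_le_add le_rfl h2)
      rw [← min_add_add_left]
      refine min_le_min ?_ ?_
      · exact le_add_of_nonneg_left (by exact_mod_cast (hv₂.ordE_irreducible_pos hϖ).le)
      · rw [← WithTop.coe_add]
        apply le_of_eq
        congr 1
        push_cast
        ring

theorem eq_of_map_uniformizer_eq (hv₁ : Induces ι₁ v) (hv₂ : Induces ι₂ v)
    (hK : ∀ a : K, ι₁ (algebraMap K F a) = ι₂ (algebraMap K F a))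
    (hres : ∀ f : F, f ∈ v.toValuationSubring →
      ∃ a : K, 0 < v.ord (f - algebraMap K F a) ∨ f = algebraMap K F a)
    {ϖ : v.toValuationSubring} (hϖ : Irreducible ϖ) (h0 : ι₁ (ϖ : F) = ι₂ (ϖ : F)) :
    ι₁ = ι₂ := by
  have hm := hv₂.ordE_irreducible_pos hϖ
  have key : ∀ f : F, f ∈ v.toValuationSubring → ι₁ f = ι₂ f := by
    intro f hf
    by_contra hne
    have hne' : ι₁ f - ι₂ f ≠ 0 := sub_ne_zero.mpr hne
    have h := min_le_orderTop_sub hv₁ hv₂ hK hres hϖ ((ι₁ f - ι₂ f).order.toNat + 1) f hf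
    rw [h0, sub_self, HahnSeries.orderTop_zero, min_eq_right le_top,
      ← HahnSeries.order_eq_orderTop_of_ne_zero hne', WithTop.coe_le_coe] at h
    have h3 : ((((ι₁ f - ι₂ f).order.toNat + 1 : ℕ) : ℤ)) ≤
        (((ι₁ f - ι₂ f).order.toNat + 1 : ℕ) : ℤ) * ordE ι₂ (ϖ : F) :=
      le_mul_of_one_le_right (by positivity) hm
    have h4 := Int.self_le_toNat (ι₁ f - ι₂ f).order
    push_cast at h h3
    omega
  refine RingHom.ext fun f => ?_
  rcases v.toValuationSubring.mem_or_inv_mem f with hf | hf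
  · exact key f hf
  · have := key _ hf
    rw [map_inv₀, map_inv₀] at this
    exact inv_injective this

theorem orderTop_sub_le (hv₁ : Induces ι₁ v) (hv₂ : Induces ι₂ v)
    (hK : ∀ a : K, ι₁ (algebraMap K F a) = ι₂ (algebraMap K F a))
    (hres : ∀ f : F, f ∈ v.toValuationSubring →
      ∃ a : K, 0 < v.ord (f - algebraMap K F a) ∨ f = algebraMap K F a)
    {ϖ : v.toValuationSubring} (hϖ : Irreducible ϖ) (hne : ι₁ (ϖ : F) ≠ ι₂ (ϖ : F))
    (f : F) (hf : f ∈ v.toValuationSubring) :
    (ι₁ (ϖ : F) - ι₂ (ϖ : F)).orderTop ≤ (ι₁ f - ι₂ f).orderTop := by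
  have hm := hv₂.ordE_irreducible_pos hϖ
  have hne' : ι₁ (ϖ : F) - ι₂ (ϖ : F) ≠ 0 := sub_ne_zero.mpr hne
  have h := min_le_orderTop_sub hv₁ hv₂ hK hres hϖ ((ι₁ (ϖ : F) - ι₂ (ϖ : F)).order.toNat) f hf
  refine le_trans (le_min le_rfl ?_) h
  rw [← HahnSeries.order_eq_orderTop_of_ne_zero hne', WithTop.coe_le_coe]
  have h3 : ((((ι₁ (ϖ : F) - ι₂ (ϖ : F)).order.toNat : ℕ) : ℤ)) ≤
      (((ι₁ (ϖ : F) - ι₂ (ϖ : F)).order.toNat : ℕ) : ℤ) * ordE ι₂ (ϖ : F) :=
    le_mul_of_one_le_right (by positivity) hm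
  have h4 := Int.self_le_toNat (ι₁ (ϖ : F) - ι₂ (ϖ : F)).order
  omega

theorem eq_of_leadingCoeff_eq (hv₁ : Induces ι₁ v) (hv₂ : Induces ι₂ v)
    (hK : ∀ a : K, ι₁ (algebraMap K F a) = ι₂ (algebraMap K F a))
    (hres : ∀ f : F, f ∈ v.toValuationSubring →
      ∃ a : K, 0 < v.ord (f - algebraMap K F a) ∨ f = algebraMap K F a)
    {y : F} (hy : 0 < v.ord y) (hyy : ι₁ y = ι₂ y)
    (hchar : (((v.ord y).toNat : ℕ) : C) ≠ 0)
    {ϖ : v.toValuationSubring} (hϖ : Irreducible ϖ)
    (hlc : (ι₁ (ϖ : F)).leadingCoeff = (ι₂ (ϖ : F)).leadingCoeff) : ι₁ = ι₂ := by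
  refine eq_of_map_uniformizer_eq hv₁ hv₂ hK hres hϖ ?_
  by_contra hne
  have hϖ0 := coe_irreducible_ne_zero hϖ
  have hy0 : y ≠ 0 := by
    intro h
    rw [h, v.ord_zero] at hy
    exact lt_irrefl _ hy
  obtain ⟨u, hu⟩ := v.exists_unit_mul_zpow hy0 hϖ
  have hEe : v.ord y = (((v.ord y).toNat : ℕ) : ℤ) := (Int.toNat_of_nonneg hy.le).symm
  rw [hEe, zpow_natCast] at hu
  generalize (v.ord y).toNat = E at hu hchar hEe
  have hm₂ := hv₂.ordE_irreducible_pos hϖ
  have hm : (ι₁ (ϖ : F)).order = (ι₂ (ϖ : F)).order := by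
    have e1 := hv₁.ordE_eq hϖ hy0
    have e2 := hv₂.ordE_eq hϖ hy0
    have e3 : ordE ι₁ y = ordE ι₂ y := by
      unfold ordE
      rw [hyy]
    rw [e1, e2] at e3
    exact mul_left_cancel₀ hy.ne' e3
  have hP₁0 : ι₁ (ϖ : F) ≠ 0 := map_ne_zero' ι₁ hϖ0
  have hP₂0 : ι₂ (ϖ : F) ≠ 0 := map_ne_zero' ι₂ hϖ0
  have hS := orderTop_geom_sum hP₁0 hP₂0 hm hlc E hchar
  have hgeom : ι₁ (ϖ : F) ^ E - ι₂ (ϖ : F) ^ E = (ι₁ (ϖ : F) - ι₂ (ϖ : F)) *
      ∑ i ∈ Finset.range E, ι₁ (ϖ : F) ^ i * ι₂ (ϖ : F) ^ (E - 1 - i) := by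
    rw [mul_comm]
    exact ((Commute.all (ι₁ (ϖ : F)) (ι₂ (ϖ : F))).geom_sum₂_mul E).symm
  have hU0 : ((u : v.toValuationSubring) : F) ≠ 0 := by
    simp [ne_eq, ZeroMemClass.coe_eq_zero]
  have hUmem : ((u : v.toValuationSubring) : F) ∈ v.toValuationSubring :=
    (u : v.toValuationSubring).2
  have hprod : ι₁ ((u : v.toValuationSubring) : F) * ι₁ (ϖ : F) ^ E =
      ι₂ ((u : v.toValuationSubring) : F) * ι₂ (ϖ : F) ^ E := by
    rw [← map_pow, ← map_pow, ← map_mul, ← map_mul, ← hu, hyy]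
  have hzero : (ι₁ ((u : v.toValuationSubring) : F) - ι₂ ((u : v.toValuationSubring) : F)) *
      ι₁ (ϖ : F) ^ E + ι₂ ((u : v.toValuationSubring) : F) * ((ι₁ (ϖ : F) - ι₂ (ϖ : F)) *
      ∑ i ∈ Finset.range E, ι₁ (ϖ : F) ^ i * ι₂ (ϖ : F) ^ (E - 1 - i)) = 0 := by
    rw [← hgeom]
    linear_combination hprod
  have hd := orderTop_sub_le hv₁ hv₂ hK hres hϖ hne _ hUmem
  have hD : (ι₁ (ϖ : F) - ι₂ (ϖ : F)).orderTop = ((ι₁ (ϖ : F) - ι₂ (ϖ : F)).order : WithTop ℤ) :=
    (HahnSeries.order_eq_orderTop_of_ne_zero (sub_ne_zero.mpr hne)).symm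
  have hpowTop : (ι₁ (ϖ : F) ^ E).orderTop = (((E : ℤ) * (ι₂ (ϖ : F)).order : ℤ) : WithTop ℤ) := by
    rw [← HahnSeries.order_eq_orderTop_of_ne_zero (pow_ne_zero _ hP₁0), (pow_lead hP₁0 E).1, hm]
  have hA : ((((ι₁ (ϖ : F) - ι₂ (ϖ : F)).order + (E : ℤ) * (ι₂ (ϖ : F)).order : ℤ)) : WithTop ℤ) ≤
      ((ι₁ ((u : v.toValuationSubring) : F) - ι₂ ((u : v.toValuationSubring) : F)) *
      ι₁ (ϖ : F) ^ E).orderTop := by
    rw [HahnSeries.orderTop_mul, WithTop.coe_add, hpowTop]
    exact add_le_add (hD ▸ hd) le_rfl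
  have hUtop : (ι₂ ((u : v.toValuationSubring) : F)).orderTop = ((0 : ℤ) : WithTop ℤ) := by
    rw [orderTop_eq_ordE ι₂ hU0, hv₂.ordE_unit u]
  have hB : (ι₂ ((u : v.toValuationSubring) : F) * ((ι₁ (ϖ : F) - ι₂ (ϖ : F)) *
      ∑ i ∈ Finset.range E, ι₁ (ϖ : F) ^ i * ι₂ (ϖ : F) ^ (E - 1 - i))).orderTop =
      ((((ι₁ (ϖ : F) - ι₂ (ϖ : F)).order + ((E : ℤ) - 1) * (ι₂ (ϖ : F)).order : ℤ)) : WithTop ℤ) := by
    rw [HahnSeries.orderTop_mul, HahnSeries.orderTop_mul, hUtop, hD, hS, ← WithTop.coe_add,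
      ← WithTop.coe_add, zero_add]
  have hAB := eq_neg_of_add_eq_zero_left hzero
  rw [hAB, HahnSeries.orderTop_neg, hB, WithTop.coe_le_coe] at hA
  have hm₂' : 0 < (ι₂ (ϖ : F)).order := hm₂
  nlinarith

/-- The leading coefficient of the image of `y` in terms of that of a uniformizer. -/
theorem exists_leadingCoeff_eq
    (hres : ∀ f : F, f ∈ v.toValuationSubring →
      ∃ a : K, 0 < v.ord (f - algebraMap K F a) ∨ f = algebraMap K F a)
    {y : F} (hy : 0 < v.ord y) {ϖ : v.toValuationSubring} (hϖ : Irreducible ϖ) :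
    ∃ a : K, a ≠ 0 ∧ ∀ ι : F →+* LaurentSeries C, Induces ι v →
      (∀ b : K, ordE ι (algebraMap K F b) = 0) →
      (ι y).leadingCoeff = (ι (algebraMap K F a)).leadingCoeff *
        (ι (ϖ : F)).leadingCoeff ^ (v.ord y).toNat := by
  have hϖ0 := coe_irreducible_ne_zero hϖ
  have hy0 : y ≠ 0 := by
    intro h
    rw [h, v.ord_zero] at hy
    exact lt_irrefl _ hy
  obtain ⟨u, hu⟩ := v.exists_unit_mul_zpow hy0 hϖ
  have hEe : v.ord y = (((v.ord y).toNat : ℕ) : ℤ) := (Int.toNat_of_nonneg hy.le).symm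
  rw [hEe, zpow_natCast] at hu
  have hU0 : ((u : v.toValuationSubring) : F) ≠ 0 := by
    simp [ne_eq, ZeroMemClass.coe_eq_zero]
  obtain ⟨a, ha⟩ := hres _ (u : v.toValuationSubring).2
  have ha0 : a ≠ 0 := by
    rintro rfl
    rw [map_zero, sub_zero, v.ord_coe_unit u] at ha
    rcases ha with ha | ha
    · exact lt_irrefl _ ha
    · exact hU0 ha
  refine ⟨a, ha0, fun ι hv hK0 => ?_⟩
  have haF : algebraMap K F a ≠ 0 := (map_ne_zero _).mpr ha0
  have hlcU : (ι ((u : v.toValuationSubring) : F)).leadingCoeff =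
      (ι (algebraMap K F a)).leadingCoeff := by
    have hsplit : ι ((u : v.toValuationSubring) : F) = ι (algebraMap K F a) +
        ι (((u : v.toValuationSubring) : F) - algebraMap K F a) := by
      rw [← map_add]
      congr 1
      ring
    rw [hsplit]
    apply HahnSeries.leadingCoeff_add_eq_left
    rw [orderTop_eq_ordE ι haF, hK0 a]
    rcases ha with ha | ha
    · have hne : ((u : v.toValuationSubring) : F) - algebraMap K F a ≠ 0 := by
        intro h
        rw [h, v.ord_zero] at ha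
        exact lt_irrefl _ ha
      rw [orderTop_eq_ordE ι hne, WithTop.coe_lt_coe, hv.ordE_eq hϖ hne]
      exact mul_pos ha (hv.ordE_irreducible_pos hϖ)
    · rw [ha, sub_self, map_zero, HahnSeries.orderTop_zero]
      exact WithTop.coe_lt_top _
  conv_lhs => rw [hu]
  rw [map_mul, map_pow, HahnSeries.leadingCoeff_mul, (pow_lead (map_ne_zero' ι hϖ0) _).2, hlcU]

end Rigidity

/-! ### Counting the embeddings inducing a given place -/

open Classical in
theorem card_induces_le [IsAlgClosed K] {X : Type*} [Fintype X] (v : Place K F)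
    (hres : ∀ f : F, f ∈ v.toValuationSubring →
      ∃ a : K, 0 < v.ord (f - algebraMap K F a) ∨ f = algebraMap K F a)
    {y : F} (hy : 0 < v.ord y)
    (ι : X → (F →+* LaurentSeries C)) (hι : Function.Injective ι)
    (hK : ∀ k k' (a : K), ι k (algebraMap K F a) = ι k' (algebraMap K F a))
    (hyy : ∀ k k', ι k y = ι k' y)
    (e0 : ℕ) (he0 : (e0 : C) ≠ 0) (hord : ∀ k, ordE (ι k) y = (e0 : ℤ)) :
    (Finset.univ.filter fun k => Induces (ι k) v).card ≤ (v.ord y).toNat := by
  obtain ⟨ϖ, hϖ⟩ := IsDiscreteValuationRing.exists_irreducible v.toValuationSubring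
  obtain ⟨a, ha0, ha⟩ := exists_leadingCoeff_eq (C := C) hres hy hϖ
  rcases (Finset.univ.filter fun k => Induces (ι k) v).eq_empty_or_nonempty with hemp | ⟨k0, hk0⟩
  · rw [hemp]
    simp
  have hk0' : Induces (ι k0) v := (Finset.mem_filter.mp hk0).2
  have hEe : v.ord y = (((v.ord y).toNat : ℕ) : ℤ) := (Int.toNat_of_nonneg hy.le).symm
  have hy0 : y ≠ 0 := by
    intro h
    rw [h, v.ord_zero] at hy
    exact lt_irrefl _ hy
  have hdvd : (e0 : ℤ) = (((v.ord y).toNat : ℕ) : ℤ) * ordE (ι k0) (ϖ : F) := by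
    rw [← hord k0, hk0'.ordE_eq hϖ hy0, ← hEe]
  have hEC : (((v.ord y).toNat : ℕ) : C) ≠ 0 := by
    intro h
    apply he0
    have h2 := congrArg (Int.cast : ℤ → C) hdvd
    push_cast at h2
    rw [h2, h, zero_mul]
  have hEpos : 0 < (v.ord y).toNat := by omega
  have hlca : (ι k0 (algebraMap K F a)).leadingCoeff ≠ 0 :=
    HahnSeries.leadingCoeff_ne_zero.mpr (map_ne_zero' _ ((map_ne_zero _).mpr ha0))
  have hmem : ∀ k ∈ Finset.univ.filter (fun k => Induces (ι k) v),
      (ι k (ϖ : F)).leadingCoeff ∈ (Polynomial.nthRoots (v.ord y).toNat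
        ((ι k0 y).leadingCoeff / (ι k0 (algebraMap K F a)).leadingCoeff)).toFinset := by
    intro k hk
    have hk' := (Finset.mem_filter.mp hk).2
    rw [Multiset.mem_toFinset, Polynomial.mem_nthRoots hEpos, eq_div_iff hlca]
    have h3 := ha (ι k) hk' (fun b => ordE_algebraMap (ι k) b)
    rw [hyy k k0, hK k k0 a] at h3
    rw [h3]
    ring
  have hinj : Set.InjOn (fun k => (ι k (ϖ : F)).leadingCoeff)
      (Finset.univ.filter (fun k => Induces (ι k) v) : Set X) := by
    intro k hk k' hk' hkk'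
    have h1 := (Finset.mem_filter.mp (Finset.mem_coe.mp hk)).2
    have h2 := (Finset.mem_filter.mp (Finset.mem_coe.mp hk')).2
    apply hι
    exact eq_of_leadingCoeff_eq h1 h2 (hK k k') hres hy (hyy k k') hEC hϖ hkk'
  calc (Finset.univ.filter fun k => Induces (ι k) v).card
      ≤ (Polynomial.nthRoots (v.ord y).toNat
        ((ι k0 y).leadingCoeff / (ι k0 (algebraMap K F a)).leadingCoeff)).toFinset.card :=
        Finset.card_le_card_of_injOn _ hmem hinj
    _ ≤ Multiset.card (Polynomial.nthRoots (v.ord y).toNat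
        ((ι k0 y).leadingCoeff / (ι k0 (algebraMap K F a)).leadingCoeff)) :=
        Multiset.toFinset_card_le _
    _ ≤ (v.ord y).toNat := Polynomial.card_nthRoots _ _

/-- Two Laurent series whose coefficients differ by nonzero factors have the same order. -/
theorem order_eq_of_coeff {g h : LaurentSeries C} (c : ℤ → C) (hc : ∀ m, c m ≠ 0)
    (hgh : ∀ m, g.coeff m = c m * h.coeff m) : g.order = h.order := by
  rcases eq_or_ne h 0 with rfl | hh
  · have : g = 0 := by
      ext m
      rw [hgh m]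
      simp
    rw [this]
  have hg : g ≠ 0 := by
    intro hg0
    have h1 := hgh h.order
    rw [hg0] at h1
    have h2 : h.coeff h.order ≠ 0 := by
      rw [← HahnSeries.leadingCoeff_eq]
      exact HahnSeries.leadingCoeff_ne_zero.mpr hh
    exact mul_ne_zero (hc _) h2 h1.symm
  refine le_antisymm (HahnSeries.order_le_of_coeff_ne_zero ?_)
    (HahnSeries.order_le_of_coeff_ne_zero ?_)
  · rw [hgh]
    refine mul_ne_zero (hc _) ?_
    rw [← HahnSeries.leadingCoeff_eq]
    exact HahnSeries.leadingCoeff_ne_zero.mpr hh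
  · intro h0
    have h1 := hgh g.order
    rw [h0, mul_zero, ← HahnSeries.leadingCoeff_eq] at h1
    exact HahnSeries.leadingCoeff_ne_zero.mpr hg h1

open Classical in
/-- In the situation of Theorem A'', exactly `ord_v y` of the embeddings induce a given place `v`
over `y = 0`; in particular every such place is induced by some embedding. -/
theorem card_filter_induces_eq [IsAlgClosed K] (y : F)
    (hres : ∀ (v : Place K F) (f : F), f ∈ v.toValuationSubring →
      ∃ a : K, 0 < v.ord (f - algebraMap K F a) ∨ f = algebraMap K F a)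
    (hfin : {v : Place K F | 0 < v.ord y}.Finite)
    (n : ℕ) (hsum : ∑ᶠ v ∈ {v : Place K F | 0 < v.ord y}, v.ord y = (n : ℤ))
    {X : Type*} [Fintype X] (hcard : Fintype.card X = n)
    (ι : X → (F →+* LaurentSeries C)) (hι : Function.Injective ι)
    (hK : ∀ k k' (a : K), ι k (algebraMap K F a) = ι k' (algebraMap K F a))
    (hy : ∀ k k', ι k y = ι k' y)
    (e0 : ℕ) (he0 : 0 < e0) (he0C : (e0 : C) ≠ 0) (hord : ∀ k, (ι k y).order = (e0 : ℤ))
    (v : Place K F) (hv : 0 < v.ord y) :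
    (Finset.univ.filter fun k => Induces (ι k) v).card = (v.ord y).toNat := by
  have hpos : ∀ k, 0 < ordE (ι k) y := fun k => by
    show 0 < (ι k y).order
    rw [hord k]
    exact_mod_cast he0
  have hy0 : ∀ _ : X, y ≠ 0 := fun k h => by
    have := hpos k
    rw [h, ordE_zero] at this
    exact lt_irrefl _ this
  let vk : X → Place K F := fun k => placeOf (ι k) y (hpos k)
  have hvk : ∀ k, Induces (ι k) (vk k) := fun k => induces_placeOf (ι k) y (hpos k)
  have hform : ∀ k (ϖ : (vk k).toValuationSubring), Irreducible ϖ →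
      (e0 : ℤ) = (vk k).ord y * ordE (ι k) (ϖ : F) := fun k ϖ hϖ => by
    rw [← (hvk k).ordE_eq hϖ (hy0 k)]
    exact (hord k).symm
  have hvk_pos : ∀ k, 0 < (vk k).ord y := fun k => by
    obtain ⟨ϖ, hϖ⟩ := IsDiscreteValuationRing.exists_irreducible (vk k).toValuationSubring
    have hm := (hvk k).ordE_irreducible_pos hϖ
    have h1 := hform k ϖ hϖ
    have h2 : (0 : ℤ) < (vk k).ord y * ordE (ι k) (ϖ : F) := by
      rw [← h1]
      exact_mod_cast he0
    exact pos_of_mul_pos_left h2 hm.le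
  have hfilter : ∀ w : Place K F, (Finset.univ.filter fun k => Induces (ι k) w) =
      Finset.univ.filter (fun k => vk k = w) := by
    intro w
    ext k
    simp only [Finset.mem_filter, Finset.mem_univ, true_and]
    exact ⟨fun h => Induces.eq (hvk k) h, fun h => h ▸ hvk k⟩
  have hfiber_le : ∀ w : Place K F, 0 < w.ord y →
      (Finset.univ.filter (fun k => vk k = w)).card ≤ (w.ord y).toNat := by
    intro w hw
    rw [← hfilter w]
    exact card_induces_le w (hres w) hw ι hι hK hy e0 he0C (fun k => hord k)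
  have hS : ∀ w, w ∈ hfin.toFinset ↔ 0 < w.ord y := fun w => by
    rw [Set.Finite.mem_toFinset]
    rfl
  have hmaps : ((Finset.univ : Finset X) : Set X).MapsTo vk hfin.toFinset := fun k _ =>
    Finset.mem_coe.mpr ((hS _).mpr (hvk_pos k))
  have hc1 : Fintype.card X = ∑ w ∈ hfin.toFinset, (Finset.univ.filter (fun k => vk k = w)).card := by
    rw [← Finset.card_univ]
    exact Finset.card_eq_sum_card_fiberwise hmaps
  have hc2 : ∑ w ∈ hfin.toFinset, (w.ord y).toNat = n := by
    have h1 := hsum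
    rw [finsum_mem_eq_finite_toFinset_sum _ hfin] at h1
    have h2 : ∑ w ∈ hfin.toFinset, w.ord y = ∑ w ∈ hfin.toFinset, (((w.ord y).toNat : ℕ) : ℤ) :=
      Finset.sum_congr rfl (fun w hw => (Int.toNat_of_nonneg ((hS w).mp hw).le).symm)
    rw [h2, ← Nat.cast_sum] at h1
    exact_mod_cast h1
  have hfiber_eq : ∀ w ∈ hfin.toFinset,
      (Finset.univ.filter (fun k => vk k = w)).card = (w.ord y).toNat :=
    (Finset.sum_eq_sum_iff_of_le (fun w hw => hfiber_le w ((hS w).mp hw))).mp
      (by rw [← hc1, hc2, hcard])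
  rw [hfilter v]
  exact hfiber_eq v ((hS v).mpr hv)

end PlacesEmb

open PlacesEmb in
open Classical in
/-- **Theorem A''** (places from embeddings).  Let `F` be a field over an algebraically closed field
`K` and `y : F`.  Assume the residue field of every place is `K` (`hres`) and that the places over
`y = 0` are finitely many with `∑ ord_v y = n` (`hfin`, `hsum`).  Let `ι k`, `k : X`, be `n` distinct
embeddings of `F` into Laurent series which agree on `K` and on `y`, with `ι k y` of order `e0 > 0`,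
and let `π` be a permutation of `X` such that `ι (π k)` is the twist of `ι k` by a primitive `e0`-th
root of unity.  Then the places over `y = 0` correspond to the orbits of `π`, and all ramification
indices divide `e0`. -/
theorem card_places_eq_card_orbits {K F : Type*} [Field K] [Field F] [Algebra K F] [IsAlgClosed K]
    {C : Type*} [Field C] (y : F)
    (hres : ∀ (v : Place K F) (f : F), f ∈ v.toValuationSubring →
      ∃ a : K, 0 < v.ord (f - algebraMap K F a) ∨ f = algebraMap K F a)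
    (hfin : {v : Place K F | 0 < v.ord y}.Finite)
    (n : ℕ) (hsum : ∑ᶠ v ∈ {v : Place K F | 0 < v.ord y}, v.ord y = (n : ℤ))
    {X : Type*} [Fintype X] (hcard : Fintype.card X = n)
    (ι : X → (F →+* LaurentSeries C)) (hι : Function.Injective ι)
    (hK : ∀ k k' (a : K), ι k (algebraMap K F a) = ι k' (algebraMap K F a))
    (hy : ∀ k k', ι k y = ι k' y)
    (e0 : ℕ) (he0 : 0 < e0) (hord : ∀ k, (ι k y).order = (e0 : ℤ))
    (ζ : C) (hζ : IsPrimitiveRoot ζ e0)
    (π : Equiv.Perm X) (hπ : ∀ k f (m : ℤ), (ι (π k) f).coeff m = ζ ^ m * (ι k f).coeff m) :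
    Nat.card {v : Place K F // 0 < v.ord y} =
        Nat.card (MulAction.orbitRel.Quotient (Subgroup.zpowers π) X) ∧
      ∀ v : Place K F, 0 < v.ord y → v.ord y ∣ (e0 : ℤ) := by
  have hpos : ∀ k, 0 < ordE (ι k) y := fun k => by
    show 0 < (ι k y).order
    rw [hord k]
    exact_mod_cast he0
  have hy0 : ∀ _ : X, y ≠ 0 := fun k h => by
    have := hpos k
    rw [h, ordE_zero] at this
    exact lt_irrefl _ this
  -- the place of each embedding
  let vk : X → Place K F := fun k => placeOf (ι k) y (hpos k)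
  have hvk : ∀ k, Induces (ι k) (vk k) := fun k => induces_placeOf (ι k) y (hpos k)
  have hform : ∀ k (ϖ : (vk k).toValuationSubring), Irreducible ϖ →
      (e0 : ℤ) = (vk k).ord y * ordE (ι k) (ϖ : F) := fun k ϖ hϖ => by
    rw [← (hvk k).ordE_eq hϖ (hy0 k)]
    exact (hord k).symm
  have hvk_pos : ∀ k, 0 < (vk k).ord y := fun k => by
    obtain ⟨ϖ, hϖ⟩ := IsDiscreteValuationRing.exists_irreducible (vk k).toValuationSubring
    have hm := (hvk k).ordE_irreducible_pos hϖ
    have h1 := hform k ϖ hϖ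
    have h2 : (0 : ℤ) < (vk k).ord y * ordE (ι k) (ϖ : F) := by
      rw [← h1]
      exact_mod_cast he0
    exact pos_of_mul_pos_left h2 hm.le
  have he0C : (e0 : C) ≠ 0 := by
    have : NeZero e0 := ⟨he0.ne'⟩
    exact (hζ.neZero').ne
  have hζ0 : ζ ≠ 0 := hζ.ne_zero he0.ne'
  -- fibres of `vk`
  have hfiber_eq : ∀ v : Place K F, 0 < v.ord y →
      (Finset.univ.filter (fun k => vk k = v)).card = (v.ord y).toNat := by
    intro v hv
    have h := card_filter_induces_eq y hres hfin n hsum hcard ι hι hK hy e0 he0 he0C hord v hv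
    have hfilter : (Finset.univ.filter fun k => Induces (ι k) v) =
        Finset.univ.filter (fun k => vk k = v) := by
      ext k
      simp only [Finset.mem_filter, Finset.mem_univ, true_and]
      exact ⟨fun h => Induces.eq (hvk k) h, fun h => h ▸ hvk k⟩
    rw [← hfilter]
    exact h
  have hhit : ∀ v : Place K F, 0 < v.ord y → ∃ k, vk k = v := by
    intro v hv
    have h1 := hfiber_eq v hv
    have h2 : 0 < (Finset.univ.filter (fun k => vk k = v)).card := by
      rw [h1]
      omega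
    obtain ⟨k, hk⟩ := Finset.card_pos.mp h2
    exact ⟨k, (Finset.mem_filter.mp hk).2⟩
  refine ⟨?_, ?_⟩
  swap
  · intro v hv
    obtain ⟨k, rfl⟩ := hhit v hv
    obtain ⟨ϖ, hϖ⟩ := IsDiscreteValuationRing.exists_irreducible (vk k).toValuationSubring
    exact ⟨ordE (ι k) (ϖ : F), hform k ϖ hϖ⟩
  -- invariance of the place under the twist
  have hinv : ∀ k, vk (π k) = vk k := by
    intro k
    refine Induces.eq (hvk (π k)) (fun f => ?_)
    have h1 : ordE (ι (π k)) f = ordE (ι k) f :=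
      order_eq_of_coeff (fun m => ζ ^ m) (fun m => zpow_ne_zero m hζ0) (hπ k f)
    rw [h1]
    exact hvk k f
  let H : Subgroup (Equiv.Perm X) :=
    { carrier := {σ | ∀ k, vk (σ k) = vk k}
      mul_mem' := fun {a b} ha hb k => by
        rw [Equiv.Perm.mul_apply, ha, hb]
      one_mem' := fun k => rfl
      inv_mem' := fun {a} ha k => by
        have h1 := ha (a⁻¹ k)
        rw [show a (a⁻¹ k) = k from a.apply_symm_apply k] at h1
        exact h1.symm }
  have hH : Subgroup.zpowers π ≤ H := (Subgroup.zpowers_le).mpr hinv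
  have hπr : ∀ (r : ℕ) k f (m : ℤ),
      (ι ((π ^ r) k) f).coeff m = (ζ ^ m) ^ r * (ι k f).coeff m := by
    intro r
    induction r with
    | zero => intro k f m; simp
    | succ r ih =>
      intro k f m
      rw [pow_succ', Equiv.Perm.mul_apply, hπ, ih, pow_succ]
      ring
  have hper : ∀ (r : ℕ) k, (π ^ r) k = k → ((vk k).ord y).toNat ∣ r := by
    intro r k hr
    obtain ⟨ϖ, hϖ⟩ := IsDiscreteValuationRing.exists_irreducible (vk k).toValuationSubring
    have hm := (hvk k).ordE_irreducible_pos hϖ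
    have h1 := hπr r k (ϖ : F) (ordE (ι k) (ϖ : F))
    rw [hr] at h1
    have hlc : (ι k (ϖ : F)).coeff (ordE (ι k) (ϖ : F)) ≠ 0 := by
      show (ι k (ϖ : F)).coeff (ι k (ϖ : F)).order ≠ 0
      rw [← HahnSeries.leadingCoeff_eq]
      exact HahnSeries.leadingCoeff_ne_zero.mpr (map_ne_zero' _ (coe_irreducible_ne_zero hϖ))
    have h2 : (ζ ^ (ordE (ι k) (ϖ : F))) ^ r = 1 := by
      have h3 : (1 : C) * (ι k (ϖ : F)).coeff (ordE (ι k) (ϖ : F)) =
          (ζ ^ ordE (ι k) (ϖ : F)) ^ r * (ι k (ϖ : F)).coeff (ordE (ι k) (ϖ : F)) := by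
        rw [one_mul]
        exact h1
      exact (mul_right_cancel₀ hlc h3).symm
    rw [← zpow_natCast, ← zpow_mul, hζ.zpow_eq_one_iff_dvd, hform k ϖ hϖ, mul_comm] at h2
    have h3 : (vk k).ord y ∣ (r : ℤ) := (mul_dvd_mul_iff_left hm.ne').mp h2
    rw [← Int.toNat_of_nonneg (hvk_pos k).le] at h3
    exact Int.natCast_dvd_natCast.mp h3
  have horb : ∀ k k', vk k' = vk k → ∃ i : ℕ, (π ^ i) k = k' := by
    intro k k' hkk'
    have hEpos : 0 < ((vk k).ord y).toNat := by
      have := hvk_pos k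
      omega
    have hsub : (Finset.range ((vk k).ord y).toNat).image (fun i => (π ^ i) k) ⊆
        Finset.univ.filter (fun k'' => vk k'' = vk k) := by
      intro x hx
      obtain ⟨i, -, rfl⟩ := Finset.mem_image.mp hx
      rw [Finset.mem_filter]
      exact ⟨Finset.mem_univ _, hH (pow_mem (Subgroup.mem_zpowers π) i) k⟩
    have hlt : ∀ i j : ℕ, i < j → j < ((vk k).ord y).toNat → (π ^ i) k ≠ (π ^ j) k := by
      intro i j hij hj h
      have h1 : π ^ j = π ^ i * π ^ (j - i) := by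
        rw [← pow_add]
        congr 1
        omega
      rw [h1, Equiv.Perm.mul_apply] at h
      have h2 : (π ^ (j - i)) k = k := ((π ^ i).injective h).symm
      have h3 := Nat.le_of_dvd (by omega) (hper _ k h2)
      omega
    have hinj : Set.InjOn (fun i => (π ^ i) k) (Finset.range ((vk k).ord y).toNat : Set ℕ) := by
      intro i hi j hj hij
      have hi' : i < ((vk k).ord y).toNat := Finset.mem_range.mp (Finset.mem_coe.mp hi)
      have hj' : j < ((vk k).ord y).toNat := Finset.mem_range.mp (Finset.mem_coe.mp hj)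
      by_contra hne
      rcases lt_or_gt_of_ne hne with h | h
      · exact hlt i j h hj' hij
      · exact hlt j i h hi' hij.symm
    have hcardim : ((Finset.range ((vk k).ord y).toNat).image (fun i => (π ^ i) k)).card =
        ((vk k).ord y).toNat := by
      rw [Finset.card_image_of_injOn hinj, Finset.card_range]
    have heq := Finset.eq_of_subset_of_card_le hsub
      (by rw [hcardim, hfiber_eq _ (hvk_pos k)])
    have hk' : k' ∈ Finset.univ.filter (fun k'' => vk k'' = vk k) := by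
      rw [Finset.mem_filter]
      exact ⟨Finset.mem_univ _, hkk'⟩
    rw [← heq] at hk'
    obtain ⟨i, -, hi⟩ := Finset.mem_image.mp hk'
    exact ⟨i, hi⟩
  -- the bijection between orbits and places
  let Φ : MulAction.orbitRel.Quotient (Subgroup.zpowers π) X → {v : Place K F // 0 < v.ord y} :=
    Quotient.lift (fun k => ⟨vk k, hvk_pos k⟩) (by
      intro a b hab
      have hab' : a ∈ MulAction.orbit (Subgroup.zpowers π) b := hab
      obtain ⟨g, rfl⟩ := MulAction.mem_orbit_iff.mp hab'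
      apply Subtype.ext
      exact hH g.2 b)
  have hΦ : Function.Bijective Φ := by
    constructor
    · intro q q' hqq'
      induction q using Quotient.inductionOn with
      | _ k =>
        induction q' using Quotient.inductionOn with
        | _ k' =>
          have h1 : vk k = vk k' := congrArg Subtype.val hqq'
          obtain ⟨i, hi⟩ := horb k' k h1
          apply Quotient.sound
          show k ∈ MulAction.orbit (Subgroup.zpowers π) k'
          exact MulAction.mem_orbit_iff.mpr ⟨⟨π ^ i, pow_mem (Subgroup.mem_zpowers π) i⟩, hi⟩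
    · rintro ⟨v, hv⟩
      obtain ⟨k, rfl⟩ := hhit v hv
      exact ⟨Quotient.mk _ k, rfl⟩
  exact (Nat.card_congr (Equiv.ofBijective Φ hΦ)).symm

open PlacesEmb in
/-- **Comparison lemma.**  An embedding `ι` of `F` into Laurent series under which some element has
nonzero order induces a place `v` of `F`, and the order of the image is a positive multiple of
`ord_v`. -/
theorem exists_place_order_eq_mul_ord {K F : Type*} [Field K] [Field F] [Algebra K F]
    [IsAlgClosed K] {C : Type*} [Field C] (ι : F →+* LaurentSeries C) (y : F)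
    (hy : (ι y).order ≠ 0) :
    ∃ (v : Place K F) (m : ℕ), 0 < m ∧ (∀ f : F, f ≠ 0 → (ι f).order = (m : ℤ) * v.ord f) ∧
      ∀ f : F, f ∈ v.toValuationSubring ↔ 0 ≤ (ι f).order := by
  obtain ⟨y', hy'⟩ : ∃ y' : F, 0 < ordE ι y' := by
    rcases lt_or_gt_of_ne hy with h | h
    · exact ⟨y⁻¹, by rw [ordE_inv]; exact neg_pos.mpr h⟩
    · exact ⟨y, h⟩
  have hv := induces_placeOf (K := K) ι y' hy'
  obtain ⟨ϖ, hϖ⟩ := IsDiscreteValuationRing.exists_irreducible
    (placeOf (K := K) ι y' hy').toValuationSubring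
  have hm := hv.ordE_irreducible_pos hϖ
  refine ⟨placeOf ι y' hy', (ordE ι (ϖ : F)).toNat, by omega, fun f hf => ?_, fun f => hv f⟩
  rw [Int.toNat_of_nonneg hm.le, mul_comm]
  exact hv.ordE_eq hϖ hf

open PlacesEmb in
/-- The comparison lemma for the place `placeOf ι y hy` itself. -/
theorem PlacesEmb.exists_order_eq_mul_ord_placeOf {K F : Type*} [Field K] [Field F] [Algebra K F]
    [IsAlgClosed K] {C : Type*} [Field C] (ι : F →+* LaurentSeries C) (y : F)
    (hy : 0 < ordE ι y) :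
    ∃ m : ℕ, 0 < m ∧ ∀ f : F, f ≠ 0 → (ι f).order = (m : ℤ) * (placeOf (K := K) ι y hy).ord f := by
  have hv := induces_placeOf (K := K) ι y hy
  obtain ⟨ϖ, hϖ⟩ := IsDiscreteValuationRing.exists_irreducible
    (placeOf (K := K) ι y hy).toValuationSubring
  have hm := hv.ordE_irreducible_pos hϖ
  refine ⟨(ordE ι (ϖ : F)).toNat, by omega, fun f hf => ?_⟩
  rw [Int.toNat_of_nonneg hm.le, mul_comm]
  exact hv.ordE_eq hϖ hf

open PlacesEmb in
/-- A place `v` with `order ∘ ι = m · ord_v` (`m > 0`) on nonzero elements is the place induced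
by `ι`; in particular it is unique. -/
theorem PlacesEmb.induces_of_order_eq_mul_ord {K F : Type*} [Field K] [Field F] [Algebra K F]
    {C : Type*} [Field C] (ι : F →+* LaurentSeries C) (v : Place K F) (m : ℕ) (hm : 0 < m)
    (h : ∀ f : F, f ≠ 0 → (ι f).order = (m : ℤ) * v.ord f) : Induces ι v := by
  obtain ⟨ϖ, hϖ⟩ := IsDiscreteValuationRing.exists_irreducible v.toValuationSubring
  have hϖ0 := coe_irreducible_ne_zero hϖ
  have hm' : (0 : ℤ) < m := by exact_mod_cast hm
  intro f
  rcases eq_or_ne f 0 with rfl | hf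
  · simp [ordE_zero]
  show f ∈ v.toValuationSubring ↔ 0 ≤ (ι f).order
  rw [h f hf]
  obtain ⟨u, hu⟩ := v.exists_unit_mul_zpow hf hϖ
  constructor
  · intro hmem
    by_contra hneg
    have hneg' : v.ord f < 0 := by
      by_contra h0
      exact hneg (mul_nonneg hm'.le (not_lt.mp h0))
    obtain ⟨k, hk⟩ : ∃ k : ℕ, v.ord f = -((k : ℤ) + 1) := ⟨(-v.ord f - 1).toNat, by omega⟩
    have h1 : f * (ϖ : F) ^ (k + 1) = ((u : v.toValuationSubring) : F) := by
      conv_lhs => rw [hu, hk]
      rw [zpow_neg, mul_assoc, ← zpow_natCast,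
        show ((k + 1 : ℕ) : ℤ) = (k : ℤ) + 1 by push_cast; ring,
        inv_mul_cancel₀ (zpow_ne_zero _ hϖ0), mul_one]
    have h2 : (⟨f, hmem⟩ : v.toValuationSubring) * ϖ ^ (k + 1) = u := Subtype.ext h1
    have h3 : IsUnit (ϖ ^ (k + 1)) := isUnit_of_mul_isUnit_right (h2 ▸ u.isUnit)
    exact hϖ.not_isUnit ((isUnit_pow_iff (Nat.succ_ne_zero k)).mp h3)
  · intro hnn
    have h0 : 0 ≤ v.ord f := by
      by_contra h0
      have : (m : ℤ) * v.ord f < 0 := mul_neg_of_pos_of_neg hm' (not_le.mp h0)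
      omega
    rw [hu]
    refine mul_mem (u : v.toValuationSubring).2 ?_
    obtain ⟨k, hk⟩ := Int.eq_ofNat_of_zero_le h0
    rw [hk, zpow_natCast]
    exact pow_mem ϖ.2 k

open PlacesEmb in
open Classical in
/-- In the situation of Theorem A'' (only `(e0 : C) ≠ 0` is needed, no twist), every place over
`y = 0` is induced by one of the embeddings, with the comparison of orders. -/
theorem exists_embedding_of_place {K F : Type*} [Field K] [Field F] [Algebra K F] [IsAlgClosed K]
    {C : Type*} [Field C] (y : F)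
    (hres : ∀ (v : Place K F) (f : F), f ∈ v.toValuationSubring →
      ∃ a : K, 0 < v.ord (f - algebraMap K F a) ∨ f = algebraMap K F a)
    (hfin : {v : Place K F | 0 < v.ord y}.Finite)
    (n : ℕ) (hsum : ∑ᶠ v ∈ {v : Place K F | 0 < v.ord y}, v.ord y = (n : ℤ))
    {X : Type*} [Fintype X] (hcard : Fintype.card X = n)
    (ι : X → (F →+* LaurentSeries C)) (hι : Function.Injective ι)
    (hK : ∀ k k' (a : K), ι k (algebraMap K F a) = ι k' (algebraMap K F a))
    (hy : ∀ k k', ι k y = ι k' y)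
    (e0 : ℕ) (he0 : 0 < e0) (he0C : (e0 : C) ≠ 0) (hord : ∀ k, (ι k y).order = (e0 : ℤ))
    (v : Place K F) (hv : 0 < v.ord y) :
    ∃ (k : X) (m : ℕ), 0 < m ∧ (∀ f : F, f ≠ 0 → (ι k f).order = (m : ℤ) * v.ord f) ∧
      (m : ℤ) * v.ord y = (e0 : ℤ) ∧ ∀ f : F, f ∈ v.toValuationSubring ↔ 0 ≤ (ι k f).order := by
  have h := card_filter_induces_eq y hres hfin n hsum hcard ι hι hK hy e0 he0 he0C hord v hv
  have h2 : 0 < (Finset.univ.filter fun k => Induces (ι k) v).card := by
    rw [h]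
    omega
  obtain ⟨k, hk⟩ := Finset.card_pos.mp h2
  have hk' : Induces (ι k) v := (Finset.mem_filter.mp hk).2
  obtain ⟨ϖ, hϖ⟩ := IsDiscreteValuationRing.exists_irreducible v.toValuationSubring
  have hm := hk'.ordE_irreducible_pos hϖ
  have hform : ∀ f : F, f ≠ 0 → (ι k f).order = ((ordE (ι k) (ϖ : F)).toNat : ℤ) * v.ord f := by
    intro f hf
    rw [Int.toNat_of_nonneg hm.le, mul_comm]
    exact hk'.ordE_eq hϖ hf
  have hy0 : y ≠ 0 := by
    intro h0
    rw [h0, v.ord_zero] at hv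
    exact lt_irrefl _ hv
  refine ⟨k, (ordE (ι k) (ϖ : F)).toNat, by omega, hform, ?_, fun f => hk' f⟩
  rw [← hform y hy0]
  exact hord k

end Fermat.Agent.S24

end
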