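/-
S24 side A: B-FACING FINAL THEOREM A'' (places over `y = 0` from embeddings into Laurent series).
Owner: helper12.  (The other B-facing theorem, `genus_eq_of_ramification`, is helper20's.)
-/
import Mathlib
import Fermat.Prelude.Def_AlgebraicCurve_CanonicalDivisor
import Fermat.Agent.S24.OrbDefs
import Fermat.Agent.S24.FFBasic
import Fermat.Agent.S24.Exchange
import Fermat.Agent.S24.Residue
import Fermat.Agent.S24.PlacesOver
import Fermat.Agent.S24.PlacesEmb

set_option autoImplicit false

open IntermediateField AlgebraicCurve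

namespace Fermat.Agent.S24

variable {K F : Type*} [Field K] [Field F] [Algebra K F] [IsAlgClosed K] [CharZero K]

omit [CharZero K] in
/-- An element of `F` algebraic over the algebraically closed field `K` is a constant. -/
theorem SideA.exists_algebraMap_eq_of_isAlgebraic {y : F} (hy : IsAlgebraic K y) :
    ∃ c : K, algebraMap K F c = y := by
  have hint : IsIntegral K y := hy.isIntegral
  have hdeg : (minpoly K y).degree = 1 :=
    IsAlgClosed.degree_eq_one_of_irreducible K (minpoly.irreducible hint)
  exact minpoly.mem_range_of_degree_eq_one K y hdeg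

/-- THEOREM A''.  `F/K(y)` finite of degree `n`; `ι k` (`k : X`, `card X = n`) pairwise distinct
embeddings of `F` into Laurent series over a field `C`, all agreeing on `K` and on `y`, with
`ι k y` of order `e0 > 0`; `π` a permutation of `X` such that `ι (π k)` is the twist of `ι k` by a
primitive `e0`-th root of unity `ζ` (coefficientwise: `c_m ↦ ζ^m c_m`).  Then the places of `F`
over `y = 0` are in bijection with the orbits of `π` on `X`, and their ramification indices
divide `e0`. -/
theorem card_places_eq_orbCount
    {C : Type*} [Field C] (y : F)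
    {X : Type*} [Fintype X] (hX : Fintype.card X = Module.finrank K⟮y⟯ F)
    (hn : 0 < Module.finrank K⟮y⟯ F)
    (ι : X → F →+* LaurentSeries C) (hι : Function.Injective ι)
    (hK : ∀ (k l : X) (c : K), ι k (algebraMap K F c) = ι l (algebraMap K F c))
    (hιy : ∀ k l : X, ι k y = ι l y)
    (e0 : ℕ) (he0 : 0 < e0) (hord : ∀ k : X, (ι k y).order = (e0 : ℤ))
    (ζ : C) (hζ : IsPrimitiveRoot ζ e0) (π : Equiv.Perm X)
    (htw : ∀ (k : X) (f : F) (m : ℤ), (ι (π k) f).coeff m = ζ ^ m * (ι k f).coeff m) :
    Nat.card {v : Place K F // 0 < v.ord y} = orbCount π ∧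
      ∀ v : Place K F, 0 < v.ord y → v.ord y ∣ (e0 : ℤ) := by
  have hfin : FiniteDimensional K⟮y⟯ F := Module.finite_of_finrank_pos hn
  have hXpos : 0 < Fintype.card X := hX ▸ hn
  obtain ⟨k₀⟩ : Nonempty X := Fintype.card_pos_iff.mp hXpos
  have hy : Transcendental K y := by
    intro halg
    obtain ⟨c, rfl⟩ := SideA.exists_algebraMap_eq_of_isAlgebraic halg
    have h0 : (ι k₀ (algebraMap K F c)).order = 0 := PlacesEmb.ordE_algebraMap (ι k₀) c
    rw [hord k₀] at h0
    have : (e0 : ℤ) ≠ 0 := by exact_mod_cast he0.ne'
    exact this h0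
  exact card_places_eq_card_orbits y
    (fun v f hf => place_exists_residue y hfin hy v f hf)
    (finite_places_pos y hfin hy) _ (sum_ord_eq_finrank y hfin hy) hX ι hι hK hιy e0 he0 hord
    ζ hζ π htw

end Fermat.Agent.S24
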