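import Mathlib
import Fermat.Agent.S24.EmbTaylor
import Fermat.Agent.S24.SideA
import Fermat.Agent.S24.PermGenus

/-!
# S24, side B: the fibres of `x = j` over the finite points

For the function field `FK K N` of `X₀(N)` over an algebraically closed field `K` with an
embedding `φ : K →+* ℂ`, and assuming that `x = j` has degree `#(SL₂(ℤ)/Γ₀(N))`:

* `unramified_of_ne`: the places over `x = a`, `a ≠ 0, 1728`, are unramified;
* `card_places_zero`: the places over `x = 0` correspond to the orbits of `S * T` on the cosets;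
* `card_places_1728`: the places over `x = 1728` correspond to the orbits of `S` on the cosets.
-/

set_option autoImplicit false

open UpperHalfPlane ModularCurve AlgebraicCurve IntermediateField ModularForm EisensteinSeries
open scoped MatrixGroups

namespace Fermat.Agent.S24

namespace FibreFinite

theorem order_ofPowerSeries {p : PowerSeries ℂ} {n : ℕ} (h : p.order = (n : ℕ∞)) :
    (HahnSeries.ofPowerSeries ℤ ℂ p).order = (n : ℤ) := by
  obtain ⟨h1, h2⟩ := PowerSeries.order_eq_nat.mp h
  have hne : (HahnSeries.ofPowerSeries ℤ ℂ p).coeff (n : ℤ) ≠ 0 := by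
    rw [HahnSeries.ofPowerSeries_apply_coeff]
    exact h1
  have hx : HahnSeries.ofPowerSeries ℤ ℂ p ≠ 0 := by
    intro h0
    rw [h0] at hne
    exact hne rfl
  refine le_antisymm (HahnSeries.order_le_of_coeff_ne_zero hne) ?_
  by_contra hlt
  rw [not_le] at hlt
  apply hx
  rw [← HahnSeries.coeff_order_eq_zero]
  rcases lt_or_ge (HahnSeries.ofPowerSeries ℤ ℂ p).order 0 with hneg | hpos
  · exact ModularCurve.ofPowerSeries_coeff_of_neg p hneg
  · obtain ⟨k, hk⟩ := Int.eq_ofNat_of_zero_le hpos
    rw [hk, HahnSeries.ofPowerSeries_apply_coeff]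
    apply h2
    rw [hk] at hlt
    exact_mod_cast hlt

theorem adjoin_sub_algebraMap {K F : Type*} [Field K] [Field F] [Algebra K F] (x : F) (a : K) :
    K⟮x - algebraMap K F a⟯ = K⟮x⟯ := by
  apply le_antisymm
  · rw [adjoin_simple_le_iff]
    exact sub_mem (mem_adjoin_simple_self K x) (IntermediateField.algebraMap_mem _ a)
  · rw [adjoin_simple_le_iff]
    have h := add_mem (mem_adjoin_simple_self K (x - algebraMap K F a))
      (IntermediateField.algebraMap_mem K⟮x - algebraMap K F a⟯ a)
    rwa [sub_add_cancel] at h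

theorem cosetPerm_inv (N : ℕ) (g : SL(2, ℤ)) : cosetPerm N g⁻¹ = (cosetPerm N g)⁻¹ := by
  apply eq_inv_of_mul_eq_one_left
  rw [← cosetPerm_mul, inv_mul_cancel, cosetPerm_one]

/-- The `j`-function as an element of the algebra of holomorphic functions. -/
noncomputable def jHol : holAlg := ⟨jFun, mem_holAlg.mpr jFun_mdifferentiable⟩

/-- The discriminant as an element of the algebra of holomorphic functions. -/
noncomputable def discHol : holAlg :=
  ⟨ModularForm.discriminant, mem_holAlg.mpr discriminant_mdifferentiable⟩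

/-- A level one modular form as an element of the algebra of holomorphic functions. -/
noncomputable def mfHol {k : ℤ} (f : ModularForm 𝒮ℒ k) : holAlg :=
  ⟨⇑f, mem_holAlg.mpr (JAnalytic.mf_hol f)⟩

end FibreFinite

open FibreFinite

section Main

variable {K : Type*} [Field K] [Algebra ℚ K] [IsAlgClosed K]

/-- The master statement: the fibre of `x = j` over `a`, from the expansion of `j - a` at a point
`τ0` with `j(τ0) = a` and a generator `γ0` of its stabiliser. -/
theorem FibreFinite.card_places_of_point (φ : K →+* ℂ) (N : ℕ) [NeZero N]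
    (hdeg : Module.finrank K⟮xgen K N⟯ (FK K N) = Nat.card (X0 N))
    (a : K) (τ0 : ℍ) (γ0 : SL(2, ℤ)) (hγ0 : γ0 • τ0 = τ0) (e0 : ℕ) (he0 : 0 < e0)
    (hord : (taylorCay τ0 (jHol - algebraMap ℂ holAlg (φ a))).order = (e0 : ℕ∞))
    (hζ : IsPrimitiveRoot (cayTwist γ0 τ0) e0) :
    Nat.card {v : Place K (FK K N) // 0 < v.ord (xgen K N - algebraMap K (FK K N) a)}
        = orbCount (cosetPerm N γ0) ∧
      ∀ v : Place K (FK K N), 0 < v.ord (xgen K N - algebraMap K (FK K N) a) →
        v.ord (xgen K N - algebraMap K (FK K N) a) ∣ (e0 : ℤ) := by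
  have : CharZero K := algebraRat.charZero K
  let _ : Fintype (X0 N) := Fintype.ofFinite _
  have hfr : Module.finrank K⟮xgen K N - algebraMap K (FK K N) a⟯ (FK K N) = Nat.card (X0 N) := by
    rw [adjoin_sub_algebraMap]
    exact hdeg
  have hX : Fintype.card (X0 N)
      = Module.finrank K⟮xgen K N - algebraMap K (FK K N) a⟯ (FK K N) := by
    rw [hfr, Nat.card_eq_fintype_card]
  have hn : 0 < Module.finrank K⟮xgen K N - algebraMap K (FK K N) a⟯ (FK K N) := by
    rw [hfr]
    exact Nat.card_pos
  have hval : ∀ q : X0 N, embX φ N τ0 q (xgen K N - algebraMap K (FK K N) a)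
      = HahnSeries.ofPowerSeries ℤ ℂ (taylorCay τ0 (jHol - algebraMap ℂ holAlg (φ a))) := by
    intro q
    rw [map_sub, embX_xgen, embX_algebraMap, map_sub, map_sub, AlgHom.commutes]
    congr 1
    rw [← HahnSeries.ofPowerSeries_C]
    rfl
  have key := card_places_eq_orbCount (K := K) (F := FK K N)
    (xgen K N - algebraMap K (FK K N) a) hX hn (embX φ N τ0) (embX_injective φ N τ0)
    (fun k l c => by rw [embX_algebraMap, embX_algebraMap])
    (fun k l => by rw [hval, hval]) e0 he0
    (fun k => by rw [hval]; exact order_ofPowerSeries hord)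
    (cayTwist γ0 τ0) hζ (cosetPerm N γ0⁻¹) (embX_twist φ N τ0 γ0 hγ0)
  rw [cosetPerm_inv, orbCount_inv] at key
  exact key

/-- **Generic fibres**: every place over `x = a`, `a ≠ 0, 1728`, is unramified. -/
theorem unramified_of_ne (φ : K →+* ℂ) (N : ℕ) [NeZero N]
    (hdeg : Module.finrank K⟮xgen K N⟯ (FK K N) = Nat.card (X0 N))
    (a : K) (ha0 : a ≠ 0) (ha1 : a ≠ 1728) (v : Place K (FK K N))
    (hv : 0 < v.ord (xgen K N - algebraMap K (FK K N) a)) :
    v.ord (xgen K N - algebraMap K (FK K N) a) = 1 := by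
  obtain ⟨τ0, hτ0⟩ := jFun_surjective (φ a)
  have hφ0 : φ a ≠ 0 := fun h => ha0 (φ.injective (by rw [h, map_zero]))
  have hφ1 : φ a ≠ 1728 := fun h => ha1 (φ.injective (by rw [h, map_ofNat]))
  have hord : (taylorCay τ0 (jHol - algebraMap ℂ holAlg (φ a))).order = ((1 : ℕ) : ℕ∞) := by
    rw [Nat.cast_one]
    apply order_taylorCay_eq_one
    · show jFun τ0 - φ a = 0
      rw [hτ0, sub_self]
    · have h1 : (((jHol - algebraMap ℂ holAlg (φ a) : holAlg) : ℍ → ℂ) ∘ ofComplex)
          = fun w => (jFun ∘ ofComplex) w - φ a := rfl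
      rw [h1, deriv_sub_const]
      exact deriv_jFun_ne_zero (by rw [hτ0]; exact hφ0) (by rw [hτ0]; exact hφ1)
  have hζ : IsPrimitiveRoot (cayTwist 1 τ0) 1 := by
    have h1 : cayTwist 1 τ0 = 1 := by simp [cayTwist]
    rw [h1]
    exact IsPrimitiveRoot.one
  obtain ⟨_, h2⟩ := FibreFinite.card_places_of_point φ N hdeg a τ0 1 (one_smul _ _) 1 one_pos
    hord hζ
  exact Int.eq_one_of_dvd_one hv.le (by simpa using h2 v hv)

/-- **The fibre over `x = 0`**: its places correspond to the orbits of `S * T` on the cosets of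
`Γ₀(N)`. -/
theorem card_places_zero (φ : K →+* ℂ) (N : ℕ) [NeZero N]
    (hdeg : Module.finrank K⟮xgen K N⟯ (FK K N) = Nat.card (X0 N)) :
    Nat.card {v : Place K (FK K N) // 0 < v.ord (xgen K N)}
      = orbCount (cosetPerm N (ModularGroup.S * ModularGroup.T)) := by
  have hfix : (ModularGroup.S * ModularGroup.T) • rho = rho := gST_smul_rho
  have hrel : jHol * discHol = mfHol E₄ ^ 3 := by
    apply Subtype.ext
    funext z
    exact jFun_mul_discriminant z
  have h4 : (taylorCay rho (mfHol E₄)).order = 1 :=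
    order_taylorCay_eq_one rho _ E₄_rho (deriv_E₄_ne_zero E₄_rho)
  have hΔ : (taylorCay rho discHol).order = 0 :=
    order_taylorCay_eq_zero rho _ (discriminant_ne_zero rho)
  have hj : (taylorCay rho jHol).order = ((3 : ℕ) : ℕ∞) := by
    have h1 := congrArg (fun f => (taylorCay rho f).order) hrel
    simp only [map_mul, PowerSeries.order_mul, pow_succ, pow_zero, one_mul, h4, hΔ,
      add_zero] at h1
    rw [h1]
    rfl
  have hord : (taylorCay rho (jHol - algebraMap ℂ holAlg (φ 0))).order = ((3 : ℕ) : ℕ∞) := by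
    rw [map_zero, map_zero, sub_zero, hj]
  obtain ⟨h1, _⟩ := FibreFinite.card_places_of_point φ N hdeg 0 rho
    (ModularGroup.S * ModularGroup.T) hfix 3 (by norm_num) hord
    (isPrimitiveRoot_cayTwist_ST rho hfix)
  simp only [map_zero, sub_zero] at h1
  exact h1

/-- **The fibre over `x = 1728`**: its places correspond to the orbits of `S` on the cosets of
`Γ₀(N)`. -/
theorem card_places_1728 (φ : K →+* ℂ) (N : ℕ) [NeZero N]
    (hdeg : Module.finrank K⟮xgen K N⟯ (FK K N) = Nat.card (X0 N)) :
    Nat.card {v : Place K (FK K N) // 0 < v.ord (xgen K N - algebraMap K (FK K N) 1728)}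
      = orbCount (cosetPerm N ModularGroup.S) := by
  have hfix : ModularGroup.S • UpperHalfPlane.I = UpperHalfPlane.I := S_smul_I
  have hrel : (jHol - algebraMap ℂ holAlg 1728) * discHol = mfHol E₆ ^ 2 := by
    apply Subtype.ext
    funext z
    exact jFun_sub_mul_discriminant z
  have h6 : (taylorCay UpperHalfPlane.I (mfHol E₆)).order = 1 :=
    order_taylorCay_eq_one _ _ E₆_I (deriv_E₆_ne_zero E₆_I)
  have hΔ : (taylorCay UpperHalfPlane.I discHol).order = 0 :=
    order_taylorCay_eq_zero _ _ (discriminant_ne_zero _)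
  have hj : (taylorCay UpperHalfPlane.I (jHol - algebraMap ℂ holAlg 1728)).order
      = ((2 : ℕ) : ℕ∞) := by
    have h1 := congrArg (fun f => (taylorCay UpperHalfPlane.I f).order) hrel
    simp only [map_mul, PowerSeries.order_mul, pow_succ, pow_zero, one_mul, h6, hΔ,
      add_zero] at h1
    rw [h1]
    rfl
  have hord : (taylorCay UpperHalfPlane.I (jHol - algebraMap ℂ holAlg (φ 1728))).order
      = ((2 : ℕ) : ℕ∞) := by
    rw [map_ofNat, hj]
  obtain ⟨h1, _⟩ := FibreFinite.card_places_of_point φ N hdeg 1728 UpperHalfPlane.I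
    ModularGroup.S hfix 2 (by norm_num) hord (isPrimitiveRoot_cayTwist_S _ hfix)
  exact h1

end Main

end Fermat.Agent.S24
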