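import Mathlib
import Fermat.Prelude.Def_AlgebraicCurve_DivisorClassGroup

/-!
# S24 package A3: principal divisors have degree zero

For a function field `F / K` all of whose places have degree one and for which the fundamental
identity `∑_{v, ord_v y > 0} ord_v y = [F : K(y)]` holds for every transcendental `y`, every
nonzero `f : F` has a divisor, and that divisor has degree zero.
-/

noncomputable section

namespace Fermat.Agent.S24.Principal

open AlgebraicCurve IntermediateField

variable {K F : Type*} [Field K] [Field F] [Algebra K F]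

theorem adjoin_inv_eq (x : F) : K⟮x⁻¹⟯ = K⟮x⟯ := by
  apply le_antisymm
  · rw [adjoin_simple_le_iff]
    exact inv_mem (mem_adjoin_simple_self K x)
  · rw [adjoin_simple_le_iff]
    have := inv_mem (mem_adjoin_simple_self K x⁻¹)
    rwa [inv_inv] at this

/-- Elements algebraic over the constant field lie in every valuation ring. -/
theorem mem_of_isAlgebraic (v : Place K F) {g : F} (hg : IsAlgebraic K g) :
    g ∈ v.toValuationSubring := by
  have hint : IsIntegral v.toValuationSubring g := hg.isIntegral.tower_top
  obtain ⟨y, hy⟩ := IsIntegrallyClosed.isIntegral_iff.mp hint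
  rw [← hy]
  exact y.2

/-- Elements algebraic over the constant field have order zero at every place. -/
theorem ord_eq_zero_of_isAlgebraic (v : Place K F) {f : F} (hf : IsAlgebraic K f) :
    v.ord f = 0 := by
  rcases eq_or_ne f 0 with rfl | hf0
  · simp
  have h1 := mem_of_isAlgebraic v hf
  have h2 := mem_of_isAlgebraic v hf.inv
  have hu : IsUnit (⟨f, h1⟩ : v.toValuationSubring) :=
    IsUnit.of_mul_eq_one ⟨f⁻¹, h2⟩ (Subtype.ext (mul_inv_cancel₀ hf0))
  have := v.ord_coe_unit hu.unit
  rwa [IsUnit.unit_spec] at this

theorem transcendental_inv {f : F} (hf : Transcendental K f) : Transcendental K f⁻¹ := by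
  intro h
  apply hf
  have := h.inv
  rwa [inv_inv] at this

variable (hfin : ∀ y : F, Transcendental K y → {v : Place K F | 0 < v.ord y}.Finite)

include hfin

/-- The set of zeros and poles of a nonzero function is finite. -/
theorem finite_ord_ne_zero (f : F) : {v : Place K F | v.ord f ≠ 0}.Finite := by
  by_cases halg : IsAlgebraic K f
  · have : {v : Place K F | v.ord f ≠ 0} = ∅ := by
      ext v
      simp [ord_eq_zero_of_isAlgebraic v halg]
    rw [this]
    exact Set.finite_empty
  · have hZ := hfin f halg
    have hP := hfin f⁻¹ (transcendental_inv halg)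
    refine (hZ.union hP).subset ?_
    intro v hv
    simp only [Set.mem_ofPred_eq, Set.mem_union, Place.ord_inv] at hv ⊢
    omega

variable (hsum : ∀ y : F, Transcendental K y →
    ∑ᶠ v ∈ {v : Place K F | 0 < v.ord y}, v.ord y = (Module.finrank K⟮y⟯ F : ℤ))

include hsum

/-- The sum of the orders of a function over its zeros and poles vanishes. -/
theorem sum_toFinset_ord_eq_zero (f : F) :
    ∑ v ∈ (finite_ord_ne_zero hfin f).toFinset, v.ord f = 0 := by
  classical
  by_cases halg : IsAlgebraic K f
  · refine Finset.sum_eq_zero fun v _ => ord_eq_zero_of_isAlgebraic v halg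
  · have htr' : Transcendental K f⁻¹ := transcendental_inv halg
    have hZ := hfin f halg
    have hP := hfin f⁻¹ htr'
    have hunion : (finite_ord_ne_zero hfin f).toFinset = hZ.toFinset ∪ hP.toFinset := by
      ext v
      simp only [Set.Finite.mem_toFinset, Set.mem_ofPred_eq, Finset.mem_union, Place.ord_inv]
      omega
    have hdisj : Disjoint hZ.toFinset hP.toFinset := by
      rw [Finset.disjoint_left]
      intro v h1 h2
      simp only [Set.Finite.mem_toFinset, Set.mem_ofPred_eq, Place.ord_inv] at h1 h2
      omega
    have h1 := hsum f halg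
    have h2 := hsum f⁻¹ htr'
    rw [finsum_mem_eq_finite_toFinset_sum _ hZ] at h1
    rw [finsum_mem_eq_finite_toFinset_sum _ hP, adjoin_inv_eq] at h2
    have h3 : ∑ v ∈ hP.toFinset, v.ord f = -∑ v ∈ hP.toFinset, v.ord f⁻¹ := by
      rw [← Finset.sum_neg_distrib]
      exact Finset.sum_congr rfl fun v _ => by rw [Place.ord_inv, neg_neg]
    rw [hunion, Finset.sum_union hdisj, h1, h3, h2, add_neg_cancel]

/-- The orders of a function at all places sum to zero (finsum form). -/
theorem finsum_ord_eq_zero (c : F) : ∑ᶠ v : Place K F, v.ord c = 0 := by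
  have hsupp : Function.support (fun v : Place K F => v.ord c) ⊆
      ((finite_ord_ne_zero hfin c).toFinset : Set (Place K F)) := by
    intro v hv
    simpa using hv
  rw [finsum_eq_sum_of_support_subset _ hsupp]
  exact sum_toFinset_ord_eq_zero hfin hsum c

end Fermat.Agent.S24.Principal

namespace Fermat.Agent.S24

open AlgebraicCurve IntermediateField

variable {K F : Type*} [Field K] [Field F] [Algebra K F]

/-- **A3.** Principal divisors exist and have degree zero. -/
theorem hasPrincipalDivisors_of
    (hdeg : ∀ v : Place K F, v.deg = 1)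
    (hfin : ∀ y : F, Transcendental K y → {v : Place K F | 0 < v.ord y}.Finite)
    (hsum : ∀ y : F, Transcendental K y →
      ∑ᶠ v ∈ {v : Place K F | 0 < v.ord y}, v.ord y = (Module.finrank K⟮y⟯ F : ℤ)) :
    AlgebraicCurve.HasPrincipalDivisors K F := by
  classical
  refine ⟨fun f _ => ?_⟩
  let D : Divisor K F := Finsupp.onFinset (Principal.finite_ord_ne_zero hfin f).toFinset
    (fun v => v.ord f) (fun v hv => by simpa using hv)
  refine ⟨D, fun v => rfl, ?_⟩
  have h1 : Divisor.degree D = D.sum fun v n => n * (v.deg : ℤ) := by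
    simp [Divisor.degree, Finsupp.liftAddHom_apply]
  rw [h1, Finsupp.onFinset_sum _ (fun v => zero_mul _)]
  refine Eq.trans ?_ (Principal.sum_toFinset_ord_eq_zero hfin hsum f)
  exact Finset.sum_congr rfl fun v _ => by rw [hdeg v, Nat.cast_one, mul_one]

/-- **A3**, variant taking the `A1` facts with their `FiniteDimensional` arguments. -/
theorem hasPrincipalDivisors_of'
    (hdeg : ∀ v : Place K F, v.deg = 1)
    (hfd : ∀ y : F, Transcendental K y → FiniteDimensional K⟮y⟯ F)
    (hA1b : ∀ y : F, FiniteDimensional K⟮y⟯ F → Transcendental K y →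
      {v : Place K F | 0 < v.ord y}.Finite)
    (hA1c : ∀ y : F, FiniteDimensional K⟮y⟯ F → Transcendental K y →
      ∑ᶠ v ∈ {v : Place K F | 0 < v.ord y}, v.ord y = (Module.finrank K⟮y⟯ F : ℤ)) :
    AlgebraicCurve.HasPrincipalDivisors K F :=
  hasPrincipalDivisors_of hdeg (fun y hy => hA1b y (hfd y hy) hy)
    (fun y hy => hA1c y (hfd y hy) hy)

end Fermat.Agent.S24

end
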