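/-
S24 side A, final B-facing theorem A5: Riemann-Hurwitz for `x : X → P^1` ramified only over
`0`, `b`, `∞` (genus form and degree form), assembled from the side-A packages.
-/
import Mathlib
import Fermat.Prelude.Def_AlgebraicCurve_CanonicalDivisor
import Fermat.Agent.S24.FFBasic
import Fermat.Agent.S24.Exchange
import Fermat.Agent.S24.Assembly
import Fermat.Agent.S24.Differentials
import Fermat.Agent.S24.DiffSpan
import Fermat.Agent.S24.Principal
import Fermat.Agent.S24.PlacesOver
import Fermat.Agent.S24.Residue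

set_option autoImplicit false

open IntermediateField AlgebraicCurve KaehlerDifferential

namespace Fermat.Agent.S24

variable {K F : Type*} [Field K] [Field F] [Algebra K F] [IsAlgClosed K] [CharZero K]

/-- A5, degree form (lead's G2).  For `x` transcendental with `[F : K(x)] = n`, unramified
outside `0`, `b`, `∞`, the divisor of every nonzero differential has degree
`n - P0 - P1 - Pinf`. -/
theorem degree_eq_of_ramification
    (x : F) (hx : Transcendental K x) (b : K) (hb : b ≠ 0) (n P0 P1 Pinf : ℕ)
    (hn : Module.finrank K⟮x⟯ F = n) (hn0 : 0 < n)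
    (hunr : ∀ a : K, a ≠ 0 → a ≠ b → ∀ v : Place K F,
      0 < v.ord (x - algebraMap K F a) → v.ord (x - algebraMap K F a) = 1)
    (h0 : Nat.card {v : Place K F // 0 < v.ord x} = P0)
    (h1 : Nat.card {v : Place K F // 0 < v.ord (x - algebraMap K F b)} = P1)
    (hinf : Nat.card {v : Place K F // 0 < v.ord x⁻¹} = Pinf)
    (ω : Ω[F⁄K]) (hω : ω ≠ 0) (W : Divisor K F)
    (hW : ∀ v : Place K F, W v = v.ordDifferential ω) :
    Divisor.degree W = (n : ℤ) - P0 - P1 - Pinf := by
  have hFF : IsFF K F := isFF_of_finrank_pos hx (hn ▸ hn0)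
  have hfin : FiniteDimensional K⟮x⟯ F := hFF.finiteDimensional hx
  have hdeg : ∀ v : Place K F, v.deg = 1 := fun v => place_deg_eq_one x hfin hx v
  have hres : ∀ (v : Place K F) (f : F), f ∈ v.toValuationSubring →
      ∃ a : K, 0 < v.ord (f - algebraMap K F a) ∨ f = algebraMap K F a :=
    fun v f hf => place_exists_residue x hfin hx v f hf
  have hprinc : HasPrincipalDivisors K F :=
    hasPrincipalDivisors_of hdeg
      (fun y hy => finite_places_pos y (hFF.finiteDimensional hy) hy)
      (fun y hy => sum_ord_eq_finrank y (hFF.finiteDimensional hy) hy)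
  have halg : Algebra.IsAlgebraic K⟮x⟯ F := hFF.isAlgebraic hx
  have hspan : Submodule.span F {(D K F x : Ω[F⁄K])} = ⊤ := span_D_eq_top x hx
  exact degree_eq_of_ramification_aux x hx b hb n P0 P1 Pinf hn hn0 hdeg hres
    (fun y h hy => finite_places_pos y h hy) (fun y h hy => sum_ord_eq_finrank y h hy) hprinc hspan
    (fun v => nontrivial_kaehler v (hres v)) (fun v => dCoordGenerates v (hres v) x hspan)
    (fun v a h => ordDifferential_D_of_pos v (hres v) x hspan x a h)
    (fun v h => ordDifferential_D_of_neg v (hres v) x hspan x h) hunr h0 h1 hinf ω hω W hW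

/-- A5. Riemann-Hurwitz for `x : X → P^1` ramified only over `0`, `b`, `∞`. -/
theorem genus_eq_of_ramification [HasCanonicalDivisor (K := K) (F := F)]
    (x : F) (hx : Transcendental K x) (b : K) (hb : b ≠ 0) (n P0 P1 Pinf g : ℕ)
    (hn : Module.finrank K⟮x⟯ F = n) (hn0 : 0 < n)
    (hunr : ∀ a : K, a ≠ 0 → a ≠ b → ∀ v : Place K F,
      0 < v.ord (x - algebraMap K F a) → v.ord (x - algebraMap K F a) = 1)
    (h0 : Nat.card {v : Place K F // 0 < v.ord x} = P0)
    (h1 : Nat.card {v : Place K F // 0 < v.ord (x - algebraMap K F b)} = P1)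
    (hinf : Nat.card {v : Place K F // 0 < v.ord x⁻¹} = Pinf)
    (hg : (2 * g : ℤ) = n - P0 - P1 - Pinf + 2) :
    AlgebraicCurve.genus K F = g := by
  have hFF : IsFF K F := isFF_of_finrank_pos hx (hn ▸ hn0)
  have hfin : FiniteDimensional K⟮x⟯ F := hFF.finiteDimensional hx
  have hdeg : ∀ v : Place K F, v.deg = 1 := fun v => place_deg_eq_one x hfin hx v
  have hres : ∀ (v : Place K F) (f : F), f ∈ v.toValuationSubring →
      ∃ a : K, 0 < v.ord (f - algebraMap K F a) ∨ f = algebraMap K F a :=
    fun v f hf => place_exists_residue x hfin hx v f hf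
  have hprinc : HasPrincipalDivisors K F :=
    hasPrincipalDivisors_of hdeg
      (fun y hy => finite_places_pos y (hFF.finiteDimensional hy) hy)
      (fun y hy => sum_ord_eq_finrank y (hFF.finiteDimensional hy) hy)
  have halg : Algebra.IsAlgebraic K⟮x⟯ F := hFF.isAlgebraic hx
  have hspan : Submodule.span F {(D K F x : Ω[F⁄K])} = ⊤ := span_D_eq_top x hx
  exact genus_eq_of_ramification_aux x hx b hb n P0 P1 Pinf g hn hn0 hdeg hres
    (fun y h hy => finite_places_pos y h hy) (fun y h hy => sum_ord_eq_finrank y h hy) hprinc hspan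
    (fun v => nontrivial_kaehler v (hres v)) (fun v => dCoordGenerates v (hres v) x hspan)
    (fun v a h => ordDifferential_D_of_pos v (hres v) x hspan x a h)
    (fun v h => ordDifferential_D_of_neg v (hres v) x hspan x h) hunr h0 h1 hinf hg

end Fermat.Agent.S24
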