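import Mathlib
import Fermat.Agent.S24.BDefs
import Fermat.Agent.S24.Genus
import Fermat.Agent.S24.GenusX0

/-!
# S24: the final assembly, from the degree and the fibre counts

`genus (FK K N) = genusFormula N`, given: the degree of `x = j` is `#(SL₂(ℤ)/Γ₀(N))`, `x` is
unramified outside `0, 1728, ∞`, and the numbers of places over `0`, `1728`, `∞` are the numbers
of orbits of `S * T`, `S`, `T` on the cosets.
-/

set_option autoImplicit false

open IntermediateField AlgebraicCurve ModularCurve
open scoped MatrixGroups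

namespace Fermat.Agent.S24

theorem dedekindPsi_pos (N : ℕ) [NeZero N] : 0 < dedekindPsi N := by
  unfold dedekindPsi
  have h1 : (1 : ℕ) ∈ Finset.filter (fun d => Squarefree d) N.divisors := by
    simp [NeZero.ne N]
  calc 0 < N / 1 := by simp [NeZero.pos N]
    _ ≤ _ := Finset.single_le_sum (f := fun d => N / d) (fun _ _ => Nat.zero_le _) h1

theorem genus_FK_of_inputs (K : Type*) [Field K] [Algebra ℚ K] [IsAlgClosed K] (N : ℕ) [NeZero N]
    [HasCanonicalDivisor (K := K) (F := FK K N)]
    (hx : Transcendental K (xgen K N))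
    (hdeg : Module.finrank K⟮xgen K N⟯ (FK K N) = Nat.card (X0 N))
    (hunr : ∀ a : K, a ≠ 0 → a ≠ 1728 → ∀ v : Place K (FK K N),
      0 < v.ord (xgen K N - algebraMap K (FK K N) a) →
        v.ord (xgen K N - algebraMap K (FK K N) a) = 1)
    (h0 : Nat.card {v : Place K (FK K N) // 0 < v.ord (xgen K N)}
      = orbCount (cosetPerm N (ModularGroup.S * ModularGroup.T)))
    (h1 : Nat.card {v : Place K (FK K N) // 0 < v.ord (xgen K N - algebraMap K (FK K N) 1728)}
      = orbCount (cosetPerm N ModularGroup.S))
    (hinf : Nat.card {v : Place K (FK K N) // 0 < v.ord (xgen K N)⁻¹}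
      = orbCount (cosetPerm N ModularGroup.T)) :
    (AlgebraicCurve.genus K (FK K N) : ℚ) = genusFormula N := by
  haveI : CharZero K := algebraRat.charZero K
  obtain ⟨g, hg, hgf⟩ := exists_genus N
  have hcard := card_X0 N
  have hn0 : 0 < Nat.card (X0 N) := by
    rw [hcard]
    exact dedekindPsi_pos N
  have hb : (1728 : K) ≠ 0 := by
    have : ((1728 : ℕ) : K) ≠ 0 := Nat.cast_ne_zero.mpr (by norm_num)
    exact_mod_cast this
  have key := genus_eq_of_ramification (xgen K N) hx (1728 : K) hb (Nat.card (X0 N))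
    (orbCount (cosetPerm N (ModularGroup.S * ModularGroup.T)))
    (orbCount (cosetPerm N ModularGroup.S)) (orbCount (cosetPerm N ModularGroup.T)) g hdeg hn0
    hunr h0 h1 hinf (by rw [hcard]; exact hg)
  rw [key, hgf]

end Fermat.Agent.S24
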