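import Mathlib
import Fermat.Prelude.Def_ModularCurve_X0
import Fermat.Agent.S23.QLaurent
import Fermat.Agent.S24.JAnalytic

/-!
# S24, package B2b: Laurent expansions at the cusp `∞` in the parameter `exp (2 π i τ / N)`

On top of `QLaurent.lean` (weakly holomorphic `h`-periodic functions and their Laurent
`q`-expansion): the effect of `τ ↦ τ + 1` (a twist of the coefficients by an `N`-th root of
unity), a membership criterion, and orders; the case of `jFun`.
-/

set_option autoImplicit false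

open Function Filter Complex Topology
open UpperHalfPlane hiding I
open scoped Manifold MatrixGroups Real

namespace Fermat.Agent.S24

open Fermat.Agent.S23

local notation "𝕢" => Periodic.qParam

/-- The root of unity `exp (2 π i / N)`. -/
noncomputable def cuspZeta (N : ℕ) : ℂ := cexp (2 * π * I / N)

theorem isPrimitiveRoot_cuspZeta (N : ℕ) [NeZero N] : IsPrimitiveRoot (cuspZeta N) N :=
  Complex.isPrimitiveRoot_exp N (NeZero.ne N)

theorem cuspZeta_ne_zero (N : ℕ) : cuspZeta N ≠ 0 := Complex.exp_ne_zero _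

theorem natCast_pos_real (N : ℕ) [NeZero N] : (0 : ℝ) < (N : ℝ) :=
  Nat.cast_pos.mpr (NeZero.pos N)

theorem qFun_vadd_one (N : ℕ) [NeZero N] (τ : ℍ) :
    qFun (N : ℝ) ((1 : ℝ) +ᵥ τ) = cuspZeta N * qFun (N : ℝ) τ := by
  have hN : (N : ℂ) ≠ 0 := Nat.cast_ne_zero.mpr (NeZero.ne N)
  simp only [qFun, Periodic.qParam, cuspZeta, coe_vadd]
  rw [← Complex.exp_add]
  congr 1
  push_cast
  field_simp

/-- The translate `τ ↦ F (τ + 1)`. -/
def shiftOne (F : ℍ → ℂ) : ℍ → ℂ := fun τ => F ((1 : ℝ) +ᵥ τ)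

theorem shiftOne_apply (F : ℍ → ℂ) (τ : ℍ) : shiftOne F τ = F ((1 : ℝ) +ᵥ τ) := rfl

theorem shiftOne_eq_T (F : ℍ → ℂ) : shiftOne F = fun τ => F (ModularGroup.T • τ) := by
  funext τ
  rw [modular_T_smul, shiftOne]

theorem tendsto_vadd_one_atImInfty :
    Tendsto (fun τ : ℍ => (1 : ℝ) +ᵥ τ) atImInfty atImInfty := by
  rw [atImInfty, tendsto_comap_iff]
  have : (UpperHalfPlane.im ∘ fun τ : ℍ => (1 : ℝ) +ᵥ τ) = UpperHalfPlane.im := by
    funext τ
    simp [vadd_im]
  rw [this]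
  exact tendsto_comap

theorem mdiff_shiftOne {F : ℍ → ℂ} (hF : MDiff F) : MDiff (shiftOne F) := by
  rw [UpperHalfPlane.mdifferentiable_iff] at hF ⊢
  have h1 : DifferentiableOn ℂ (fun z : ℂ => (F ∘ ofComplex) (z + 1)) {z | 0 < z.im} := by
    intro z hz
    have hz' : 0 < (z + 1).im := by simpa using hz
    have := (hF (z + 1) hz').differentiableAt
      (isOpen_upperHalfPlaneSet.mem_nhds hz')
    exact (this.comp z (differentiableAt_id.add_const 1)).differentiableWithinAt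
  refine h1.congr fun z hz => ?_
  have hz' : 0 < (z + 1).im := by simpa using hz
  simp only [shiftOne, comp_apply, ofComplex_apply_of_im_pos hz, ofComplex_apply_of_im_pos hz']
  congr 1
  ext
  simp [add_comm]

theorem periodic_shiftOne {h : ℝ} {F : ℍ → ℂ} (hF : Periodic (F ∘ ofComplex) h) :
    Periodic (shiftOne F ∘ ofComplex) h := by
  apply periodic_of_forall_vadd
  intro τ
  simp only [shiftOne]
  rw [vadd_vadd, add_comm, ← vadd_vadd]
  exact forall_vadd_of_periodic hF _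

theorem bdd_shiftOne {F : ℍ → ℂ} (hF : IsBoundedAtImInfty F) :
    IsBoundedAtImInfty (shiftOne F) := by
  unfold IsBoundedAtImInfty BoundedAtFilter at hF ⊢
  exact hF.comp_tendsto tendsto_vadd_one_atImInfty

/-- The `q`-expansion (period `N`) of `τ ↦ G (τ + 1)`, for bounded `G`. -/
theorem coeff_qExpansion_shiftOne (N : ℕ) [NeZero N] {G : ℍ → ℂ} (hol : MDiff G)
    (per : Periodic (G ∘ ofComplex) (N : ℝ)) (bdd : IsBoundedAtImInfty G) (m : ℕ) :
    (qExpansion (N : ℝ) (shiftOne G)).coeff m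
      = cuspZeta N ^ m * (qExpansion (N : ℝ) G).coeff m := by
  have hh := natCast_pos_real N
  have han := analyticAt_cusp hh (mdiff_shiftOne hol) (periodic_shiftOne per) (bdd_shiftOne bdd)
  have key := qExpansion_coeff_unique' (h := (N : ℝ)) (f := shiftOne G)
    (c := fun m => cuspZeta N ^ m * (qExpansion (N : ℝ) G).coeff m) hh han (fun τ => by
      have h1 := hasSum_qExpansion hh per hol bdd ((1 : ℝ) +ᵥ τ)
      have h2 : 𝕢 (N : ℝ) (((1 : ℝ) +ᵥ τ : ℍ) : ℂ) = cuspZeta N * 𝕢 (N : ℝ) (τ : ℂ) :=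
        qFun_vadd_one N τ
      rw [h2] at h1
      have e : (fun m : ℕ => (qExpansion (N : ℝ) G).coeff m • (cuspZeta N * 𝕢 (N : ℝ) (τ : ℂ)) ^ m)
          = fun m : ℕ => (cuspZeta N ^ m * (qExpansion (N : ℝ) G).coeff m) • 𝕢 (N : ℝ) (τ : ℂ) ^ m := by
        funext m
        simp only [smul_eq_mul, mul_pow]
        ring
      rw [e] at h1
      exact h1) m
  exact key.symm

theorem shiftOne_mul_qpow (N : ℕ) [NeZero N] (F : ℍ → ℂ) (m : ℕ) :
    shiftOne F * qFun (N : ℝ) ^ m = (cuspZeta N ^ m)⁻¹ • shiftOne (F * qFun (N : ℝ) ^ m) := by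
  funext τ
  have hζ : cuspZeta N ^ m ≠ 0 := pow_ne_zero m (cuspZeta_ne_zero N)
  simp only [Pi.mul_apply, Pi.pow_apply, Pi.smul_apply, shiftOne, smul_eq_mul, qFun_vadd_one,
    mul_pow]
  field_simp

theorem isWH_shiftOne (N : ℕ) [NeZero N] {F : ℍ → ℂ} (hF : IsWH (N : ℝ) F) :
    IsWH (N : ℝ) (shiftOne F) := by
  refine ⟨mdiff_shiftOne hF.holo, periodic_shiftOne hF.per, ?_⟩
  obtain ⟨m, hm⟩ := hF.bdd
  refine ⟨m, ?_⟩
  rw [shiftOne_mul_qpow]
  exact (bdd_shiftOne hm).smul _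

theorem coeff_qLaurentAt (h : ℝ) (m : ℕ) (F : ℍ → ℂ) (k : ℤ) :
    (qLaurentAt h m F).coeff k
      = (HahnSeries.ofPowerSeries ℤ ℂ (qExpansion h (F * qFun h ^ m))).coeff (k + m) := by
  unfold qLaurentAt
  have e : k = (k + m) + (-(m : ℤ)) := by ring
  conv_lhs => rw [e]
  rw [HahnSeries.coeff_single_mul_add, one_mul]

theorem coeff_ofPowerSeries_int (p : PowerSeries ℂ) (j : ℤ) :
    (HahnSeries.ofPowerSeries ℤ ℂ p).coeff j = if 0 ≤ j then p.coeff j.toNat else 0 := by
  split_ifs with hj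
  · lift j to ℕ using hj
    rw [HahnSeries.ofPowerSeries_apply_coeff, Int.toNat_natCast]
  · exact ModularCurve.ofPowerSeries_coeff_of_neg p (not_le.mp hj)

/-- **Twist at the cusp**: replacing `τ` by `τ + 1` multiplies the `k`-th Laurent coefficient
(in the parameter `exp (2 π i τ / N)`) by `ζ ^ k`, `ζ = exp (2 π i / N)`. -/
theorem coeff_qLaurent_shiftOne (N : ℕ) [NeZero N] {F : ℍ → ℂ} (hF : IsWH (N : ℝ) F) (k : ℤ) :
    (qLaurent (N : ℝ) (shiftOne F)).coeff k = cuspZeta N ^ k * (qLaurent (N : ℝ) F).coeff k := by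
  have hh := natCast_pos_real N
  have hζ := cuspZeta_ne_zero N
  obtain ⟨m, hm⟩ := hF.bdd
  have hF' := isWH_shiftOne N hF
  have hol := mdiff_mul_qpow (h := (N : ℝ)) hF.holo m
  have per := periodic_mul_qpow hh.ne' hF.per m
  have hm' : IsBoundedAtImInfty (shiftOne F * qFun (N : ℝ) ^ m) := by
    rw [shiftOne_mul_qpow]
    exact (bdd_shiftOne hm).smul _
  have han := analyticAt_cusp hh (mdiff_shiftOne hol) (periodic_shiftOne per) (bdd_shiftOne hm)
  rw [qLaurent_eq hh hF hm, qLaurent_eq hh hF' hm', coeff_qLaurentAt, coeff_qLaurentAt,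
    shiftOne_mul_qpow, qExpansion_smul han, coeff_ofPowerSeries_int, coeff_ofPowerSeries_int]
  split_ifs with hj
  · rw [PowerSeries.coeff_smul, coeff_qExpansion_shiftOne N hol per hm, smul_eq_mul]
    have e1 : cuspZeta N ^ (k + m).toNat = cuspZeta N ^ k * cuspZeta N ^ m := by
      rw [← zpow_natCast (cuspZeta N) (k + m).toNat, Int.toNat_of_nonneg hj, zpow_add₀ hζ,
        zpow_natCast]
    rw [e1]
    have hζm : cuspZeta N ^ m ≠ 0 := pow_ne_zero m hζ
    field_simp
  · simp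

/-- A holomorphic `N`-periodic function of exponential growth is weakly holomorphic. -/
theorem isWH_of_bound (N : ℕ) [NeZero N] {F : ℍ → ℂ} (hol : MDiff F)
    (per : Periodic (F ∘ ofComplex) (N : ℝ)) (M : ℕ) (C A : ℝ)
    (hb : ∀ z : ℍ, A ≤ z.im → ‖F z‖ ≤ C * Real.exp (2 * π * M * z.im)) : IsWH (N : ℝ) F := by
  refine ⟨hol, per, M * N, ?_⟩
  rw [UpperHalfPlane.isBoundedAtImInfty_iff]
  refine ⟨C, A, fun z hz => ?_⟩
  have hN : (N : ℝ) ≠ 0 := (natCast_pos_real N).ne'
  have hq : ‖qFun (N : ℝ) z ^ (M * N)‖ = Real.exp (-(2 * π * M * z.im)) := by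
    rw [norm_pow, qFun, Periodic.norm_qParam, ← Real.exp_nat_mul]
    congr 1
    push_cast
    simp only [coe_im]
    field_simp
  simp only [Pi.mul_apply, Pi.pow_apply, norm_mul]
  rw [hq]
  have h1 := hb z hz
  have h2 : Real.exp (2 * π * M * z.im) * Real.exp (-(2 * π * M * z.im)) = 1 := by
    rw [← Real.exp_add, add_neg_cancel, Real.exp_zero]
  calc ‖F z‖ * Real.exp (-(2 * π * M * z.im))
      ≤ C * Real.exp (2 * π * M * z.im) * Real.exp (-(2 * π * M * z.im)) :=
        mul_le_mul_of_nonneg_right h1 (Real.exp_pos _).le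
    _ = C := by rw [mul_assoc, h2, mul_one]

theorem order_eq_of_coeff {x : LaurentSeries ℂ} {g : ℤ} (h1 : x.coeff g ≠ 0)
    (h2 : ∀ k < g, x.coeff k = 0) : x.order = g := by
  have hx : x ≠ 0 := by
    rintro rfl
    simp at h1
  refine le_antisymm (HahnSeries.order_le_of_coeff_ne_zero h1) ?_
  by_contra hlt
  exact hx (HahnSeries.coeff_order_eq_zero.mp (h2 _ (not_le.mp hlt)))

/-- The order of the Laurent expansion from the asymptotics at `i∞`. -/
theorem order_qLaurent_of_tendsto (N : ℕ) [NeZero N] {F : ℍ → ℂ} (hF : IsWH (N : ℝ) F) (m : ℕ)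
    {c : ℂ} (hc : c ≠ 0) (h : Tendsto (F * qFun (N : ℝ) ^ m) atImInfty (𝓝 c)) :
    (qLaurent (N : ℝ) F).order = -(m : ℤ) := by
  have hh := natCast_pos_real N
  have hb : IsBoundedAtImInfty (F * qFun (N : ℝ) ^ m) := h.isBigO_one ℝ
  have hol := mdiff_mul_qpow (h := (N : ℝ)) hF.holo m
  have per := periodic_mul_qpow hh.ne' hF.per m
  have han := analyticAt_cusp hh hol per hb
  have h0 : (qExpansion (N : ℝ) (F * qFun (N : ℝ) ^ m)).coeff 0 = c := by
    rw [qExpansion_coeff_zero hh han per]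
    exact h.limUnder_eq
  rw [qLaurent_eq hh hF hb]
  apply order_eq_of_coeff
  · rw [coeff_qLaurentAt, neg_add_cancel, coeff_ofPowerSeries_int, if_pos le_rfl]
    rw [Int.toNat_zero, h0]
    exact hc
  · intro k hk
    rw [coeff_qLaurentAt, coeff_ofPowerSeries_int, if_neg (by omega)]

theorem qFun_pow_self (N : ℕ) [NeZero N] (z : ℍ) :
    qFun (N : ℝ) z ^ N = cexp (2 * π * Complex.I * z) := by
  have hN : (N : ℂ) ≠ 0 := Nat.cast_ne_zero.mpr (NeZero.ne N)
  rw [qFun, Periodic.qParam, ← Complex.exp_nat_mul]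
  congr 1
  push_cast
  field_simp

theorem tendsto_jFun_mul_qFun_pow (N : ℕ) [NeZero N] :
    Tendsto (jFun * qFun (N : ℝ) ^ N) atImInfty (𝓝 1) := by
  refine tendsto_jFun_mul_qParam.congr fun z => ?_
  simp only [Pi.mul_apply, Pi.pow_apply, qFun_pow_self]

theorem isWH_jFun (N : ℕ) [NeZero N] : IsWH (N : ℝ) jFun := by
  refine ⟨jFun_mdifferentiable, ?_, N, (tendsto_jFun_mul_qFun_pow N).isBigO_one ℝ⟩
  have := JAnalytic.periodic_jFun.nat_mul N
  simpa using this

/-- The expansion of `j` in the parameter `exp (2 π i τ / N)` has a pole of order `N`. -/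
theorem order_qLaurent_jFun (N : ℕ) [NeZero N] : (qLaurent (N : ℝ) jFun).order = -(N : ℤ) :=
  order_qLaurent_of_tendsto N (isWH_jFun N) N one_ne_zero (tendsto_jFun_mul_qFun_pow N)

end Fermat.Agent.S24
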