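import Mathlib
import Fermat.Agent.S24.BDefs
import Fermat.Agent.S24.CuspExp
import Fermat.Agent.S24.TranslatesJ
import Fermat.Agent.S24.LsTwist
import Fermat.Agent.S24.PlacesEmb
import Fermat.Agent.S24.PermGenus
import Fermat.Agent.S24.Principal
import Fermat.Agent.S24.Residue
import Fermat.Agent.S24.PlacesOver

/-!
# S24, package B4 (cusp): the fibre of `X₀(N) → X(1)` over `j = ∞`

For every coset `k = g Γ₀(N)` the translates `z ↦ j(d · g⁻¹ z)`, `d ∣ N`, are weakly holomorphic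
and `N`-periodic, so they have Laurent expansions in `exp (2 π i z / N)`.  This gives `ψ(N)`
embeddings of the function field into `ℂ((s))`, permuted by `z ↦ z + 1` through the twist of the
coefficients by `exp (2 π i / N)`; Theorem A'' (`card_places_eq_card_orbits`) then identifies the
places over `1 / j = 0` with the orbits of `T` on the cosets.
-/

set_option autoImplicit false

open UpperHalfPlane Filter Topology
open scoped MatrixGroups Manifold

namespace Fermat.Agent.S24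

open Fermat.Agent.S23 AlgebraicCurve

theorem FibreCusp.jT_one_eq (γ : SL(2, ℤ)) : jT 1 γ = jFun := by
  funext z
  rw [jT, jd, dmul_one, jFun_smul]

/-- Precomposition with `z ↦ z + 1`. -/
theorem FibreCusp.shiftOne_jT (d : ℕ) (γ : SL(2, ℤ)) :
    shiftOne (jT d γ) = jT d (γ * ModularGroup.T) := by
  rw [shiftOne_eq_T]
  funext z
  rw [jT_mul]

theorem FibreCusp.cosetPerm_T_inv (N : ℕ) :
    cosetPerm N ModularGroup.T⁻¹ = (cosetPerm N ModularGroup.T)⁻¹ := by
  rw [eq_inv_iff_mul_eq_one, ← cosetPerm_mul, inv_mul_cancel, cosetPerm_one]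

section Core

variable (K : Type*) [Field K] [Algebra ℚ K]

/-- **The fibre over the cusp**, from the embeddings `hemb`, their uniqueness `hext` and the
side-A facts `hres`, `hfin`, `hsum` for `y = 1 / j`. -/
theorem FibreCusp.card_places_cusp_of [IsAlgClosed K] (φ : K →+* ℂ) (N : ℕ) [NeZero N]
    (hemb : ∀ g : SL(2, ℤ), ∃ ι : FK K N →+* LaurentSeries ℂ,
      (∀ a : K, ι (algebraMap K (FK K N) a) = HahnSeries.C (φ a)) ∧
      ∀ d, d ∣ N → ι (Jgen K N d) = qLaurent (N : ℝ) (jT d g))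
    (hext : ∀ ι₁ ι₂ : FK K N →+* LaurentSeries ℂ,
      (∀ a : K, ι₁ (algebraMap K (FK K N) a) = ι₂ (algebraMap K (FK K N) a)) →
      (∀ d, d ∣ N → ι₁ (Jgen K N d) = ι₂ (Jgen K N d)) → ι₁ = ι₂)
    (hres : ∀ (v : Place K (FK K N)) (f : FK K N), f ∈ v.toValuationSubring →
      ∃ a : K, 0 < v.ord (f - algebraMap K (FK K N) a) ∨ f = algebraMap K (FK K N) a)
    (hfin : {v : Place K (FK K N) | 0 < v.ord (xgen K N)⁻¹}.Finite)
    (hsum : ∑ᶠ v ∈ {v : Place K (FK K N) | 0 < v.ord (xgen K N)⁻¹}, v.ord (xgen K N)⁻¹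
      = (Nat.card (X0 N) : ℤ)) :
    Nat.card {v : Place K (FK K N) // 0 < v.ord (xgen K N)⁻¹}
        = orbCount (cosetPerm N ModularGroup.T) ∧
      ∀ v : Place K (FK K N), 0 < v.ord (xgen K N)⁻¹ → v.ord (xgen K N)⁻¹ ∣ (N : ℤ) := by
  classical
  have hh := natCast_pos_real N
  haveI : Finite (X0 N) := Subgroup.finite_quotient_of_finiteIndex
  letI : Fintype (X0 N) := Fintype.ofFinite (X0 N)
  -- the embeddings
  choose E hEK hEJ using hemb
  let ι : X0 N → (FK K N →+* LaurentSeries ℂ) := fun k => E (k.out)⁻¹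
  have hιK : ∀ (k : X0 N) (a : K), ι k (algebraMap K (FK K N) a) = HahnSeries.C (φ a) :=
    fun k a => hEK _ a
  have hιJ : ∀ (k : X0 N) (d : ℕ), d ∣ N →
      ι k (Jgen K N d) = qLaurent (N : ℝ) (jT d (k.out)⁻¹) := fun k d hd => hEJ _ d hd
  have hιx : ∀ k : X0 N, ι k (xgen K N) = qLaurent (N : ℝ) jFun := fun k => by
    rw [xgen, hιJ k 1 (one_dvd N), FibreCusp.jT_one_eq]
  -- injectivity
  have hι : Function.Injective ι := by
    intro k k' hkk
    have h1 : qLaurent (N : ℝ) (jT N (k.out)⁻¹) = qLaurent (N : ℝ) (jT N (k'.out)⁻¹) := by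
      rw [← hιJ k N dvd_rfl, ← hιJ k' N dvd_rfl, hkk]
    have h2 : (⟨jT N (k.out)⁻¹, isWH_jT (NeZero.pos N) dvd_rfl _⟩ : WH (N : ℝ) hh)
        = ⟨jT N (k'.out)⁻¹, isWH_jT (NeZero.pos N) dvd_rfl _⟩ := qL_injective (N : ℝ) hh h1
    have h3 : (k.out : X0 N) = k'.out :=
      coset_eq_of_jT_inv_eq (NeZero.pos N) (congrArg Subtype.val h2)
    rwa [QuotientGroup.out_eq', QuotientGroup.out_eq'] at h3
  -- the twist
  set ζ : ℂ := cuspZeta N with hζdef
  have hζ0 : ζ ≠ 0 := cuspZeta_ne_zero N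
  set π : Equiv.Perm (X0 N) := cosetPerm N ModularGroup.T⁻¹ with hπdef
  have htw : ∀ k : X0 N, ι (π k) = (lsTwist ζ hζ0).comp (ι k) := by
    intro k
    apply hext
    · intro a
      rw [RingHom.comp_apply, hιK, hιK, lsTwist_C]
    · intro d hd
      rw [RingHom.comp_apply, hιJ _ d hd, hιJ _ d hd]
      have hcoset : ((π k).out : X0 N) = ((ModularGroup.T⁻¹ * k.out : SL(2, ℤ)) : X0 N) := by
        rw [QuotientGroup.out_eq', hπdef, ← cosetPerm_mk, QuotientGroup.out_eq']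
      have e1 : jT d ((π k).out)⁻¹ = shiftOne (jT d (k.out)⁻¹) := by
        rw [jT_inv_eq_of_coset_eq hd hcoset, FibreCusp.shiftOne_jT, mul_inv_rev, inv_inv]
      rw [e1]
      ext m
      rw [coeff_qLaurent_shiftOne N (isWH_jT (NeZero.pos N) hd _), coeff_lsTwist]
  have hπ : ∀ (k : X0 N) (f : FK K N) (m : ℤ),
      (ι (π k) f).coeff m = ζ ^ m * (ι k f).coeff m := by
    intro k f m
    rw [htw k, RingHom.comp_apply, coeff_lsTwist]
  -- orders
  have hord : ∀ k : X0 N, (ι k (xgen K N)⁻¹).order = (N : ℤ) := by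
    intro k
    have h1 := PlacesEmb.ordE_inv (ι k) (xgen K N)
    unfold PlacesEmb.ordE at h1
    rw [h1, hιx, order_qLaurent_jFun, neg_neg]
  have hy : ∀ k k' : X0 N, ι k (xgen K N)⁻¹ = ι k' (xgen K N)⁻¹ := by
    intro k k'
    rw [map_inv₀, map_inv₀, hιx, hιx]
  have hK : ∀ (k k' : X0 N) (a : K),
      ι k (algebraMap K (FK K N) a) = ι k' (algebraMap K (FK K N) a) := by
    intro k k' a
    rw [hιK, hιK]
  have hcard : Fintype.card (X0 N) = Nat.card (X0 N) := Nat.card_eq_fintype_card.symm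
  have key := card_places_eq_card_orbits (K := K) (F := FK K N) (C := ℂ) (xgen K N)⁻¹ hres hfin
    (Nat.card (X0 N)) hsum hcard ι hι hK hy N (NeZero.pos N) hord ζ
    (isPrimitiveRoot_cuspZeta N) π hπ
  refine ⟨?_, key.2⟩
  rw [key.1, ← orbCount_inv (cosetPerm N ModularGroup.T), ← FibreCusp.cosetPerm_T_inv]
  rfl

open scoped IntermediateField in
/-- **The fibre over the cusp**, from the embeddings `hemb`, their uniqueness `hext`, the
transcendence of `j` and the degree `[F : K(j)] = ψ(N)`. -/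
theorem FibreCusp.card_places_cusp_of_emb [IsAlgClosed K] (φ : K →+* ℂ) (N : ℕ) [NeZero N]
    (hemb : ∀ g : SL(2, ℤ), ∃ ι : FK K N →+* LaurentSeries ℂ,
      (∀ a : K, ι (algebraMap K (FK K N) a) = HahnSeries.C (φ a)) ∧
      ∀ d, d ∣ N → ι (Jgen K N d) = qLaurent (N : ℝ) (jT d g))
    (hext : ∀ ι₁ ι₂ : FK K N →+* LaurentSeries ℂ,
      (∀ a : K, ι₁ (algebraMap K (FK K N) a) = ι₂ (algebraMap K (FK K N) a)) →
      (∀ d, d ∣ N → ι₁ (Jgen K N d) = ι₂ (Jgen K N d)) → ι₁ = ι₂)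
    (hx : Transcendental K (xgen K N))
    (hdeg : Module.finrank K⟮xgen K N⟯ (FK K N) = Nat.card (X0 N)) :
    Nat.card {v : Place K (FK K N) // 0 < v.ord (xgen K N)⁻¹}
        = orbCount (cosetPerm N ModularGroup.T) ∧
      ∀ v : Place K (FK K N), 0 < v.ord (xgen K N)⁻¹ → v.ord (xgen K N)⁻¹ ∣ (N : ℤ) := by
  haveI : CharZero K := charZero_of_injective_algebraMap (algebraMap ℚ K).injective
  haveI : Finite (X0 N) := Subgroup.finite_quotient_of_finiteIndex
  have hcardpos : 0 < Nat.card (X0 N) := Nat.card_pos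
  have hinv : K⟮(xgen K N)⁻¹⟯ = K⟮xgen K N⟯ := Principal.adjoin_inv_eq _
  have hdeg' : Module.finrank K⟮(xgen K N)⁻¹⟯ (FK K N) = Nat.card (X0 N) := by
    rw [hinv]
    exact hdeg
  have hfd : FiniteDimensional K⟮(xgen K N)⁻¹⟯ (FK K N) :=
    Module.finite_of_finrank_pos (by rw [hdeg']; exact hcardpos)
  have hy : Transcendental K (xgen K N)⁻¹ := Principal.transcendental_inv hx
  refine FibreCusp.card_places_cusp_of K φ N hemb hext
    (fun v f hf => place_exists_residue _ hfd hy v f hf) (finite_places_pos _ hfd hy) ?_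
  rw [sum_ord_eq_finrank _ hfd hy, hdeg']

end Core

end Fermat.Agent.S24
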