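import Mathlib
import Fermat.Agent.S24.FibreCusp
import Fermat.Agent.S24.EmbFinite

/-!
# S24, package B4 (cusp): the places of `X₀(N)` over `j = ∞`

The number of places of the function field of `X₀(N)` over `1 / j = 0` is the number of orbits
of `T` on the cosets `SL(2, ℤ) ⧸ Γ₀(N)`.
-/

set_option autoImplicit false

open UpperHalfPlane
open scoped MatrixGroups IntermediateField

namespace Fermat.Agent.S24

open Fermat.Agent.S23 AlgebraicCurve

/-- The places over the cusp `j = ∞`, together with the bound on the ramification indices. -/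
theorem FibreCusp.card_places_cusp_and_dvd (K : Type*) [Field K] [Algebra ℚ K] [IsAlgClosed K]
    (φ : K →+* ℂ) (N : ℕ) [NeZero N] (hx : Transcendental K (xgen K N))
    (hdeg : Module.finrank K⟮xgen K N⟯ (FK K N) = Nat.card (X0 N)) :
    Nat.card {v : Place K (FK K N) // 0 < v.ord (xgen K N)⁻¹}
        = orbCount (cosetPerm N ModularGroup.T) ∧
      ∀ v : Place K (FK K N), 0 < v.ord (xgen K N)⁻¹ → v.ord (xgen K N)⁻¹ ∣ (N : ℤ) :=
  FibreCusp.card_places_cusp_of_emb K φ N
    (fun g => exists_embedding φ N (WH (N : ℝ) (natCast_pos_real N))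
      (qL (N : ℝ) (natCast_pos_real N)) (qL_injective _ _) g
      (fun _ hd => isWH_jT (NeZero.pos N) hd g))
    (fun ι₁ ι₂ h1 h2 => FK_ringHom_ext ι₁ ι₂ h1 h2) hx hdeg

/-- **The fibre over the cusp**: the places of the function field of `X₀(N)` over `j = ∞`
correspond to the orbits of `T` on `SL(2, ℤ) ⧸ Γ₀(N)`. -/
theorem card_places_cusp (K : Type*) [Field K] [Algebra ℚ K] [IsAlgClosed K] (φ : K →+* ℂ)
    (N : ℕ) [NeZero N] (hx : Transcendental K (xgen K N))
    (hdeg : Module.finrank K⟮xgen K N⟯ (FK K N) = Nat.card (X0 N)) :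
    Nat.card {v : Place K (FK K N) // 0 < v.ord (xgen K N)⁻¹}
      = orbCount (cosetPerm N ModularGroup.T) :=
  (FibreCusp.card_places_cusp_and_dvd K φ N hx hdeg).1

end Fermat.Agent.S24
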